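import Fermat.Agent.Mazur.GunitKummer
import Mathlib.NumberTheory.RamificationInertia.HilbertTheory
import Mathlib.NumberTheory.Padics.PadicVal.Basic
import Mathlib.RingTheory.DedekindDomain.IntegralClosure

/-!
# Ramification of Kummer classes over `ℚ`

For a root `α` of `x ^ r = a`: inertia at `l` fixes `α` when `l` is prime to `r` and `r` divides
`v_l(a)`; conversely, if all inertia at `l` fixes `α` then `r ∣ v_l(a)` (any prime `r`, also `r = l`).
-/

set_option autoImplicit false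
set_option linter.style.haveILetI false

open scoped NumberField Pointwise

namespace FermatLib.Mazur

local notation "Qbar" => AlgebraicClosure ℚ
local notation "Γℚ" => (AlgebraicClosure ℚ ≃ₐ[ℚ] AlgebraicClosure ℚ)

theorem exists_rat_unit_decomp {l : ℕ} (hl : l.Prime) {a : ℚ} (ha : a ≠ 0) :
    ∃ u v : ℤ, ¬ (l : ℤ) ∣ u ∧ ¬ (l : ℤ) ∣ v ∧ a * v = (l : ℚ) ^ padicValRat l a * u := by
  haveI : Fact l.Prime := ⟨hl⟩
  have hl0 : (l : ℚ) ≠ 0 := Nat.cast_ne_zero.mpr hl.ne_zero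
  set m := padicValRat l a
  set q := a * (l : ℚ) ^ (-m) with hqdef
  have hq : q ≠ 0 := mul_ne_zero ha (zpow_ne_zero _ hl0)
  have hval : padicValRat l q = 0 := by
    rw [hqdef, padicValRat.mul ha (zpow_ne_zero _ hl0), padicValRat.zpow, padicValRat.self hl.one_lt]
    ring
  rw [padicValRat_def, sub_eq_zero, padicValInt, Nat.cast_inj] at hval
  have hcop := q.reduced
  have hnum0 : q.num.natAbs ≠ 0 := by simpa using hq
  have hu : ¬ l ∣ q.num.natAbs := by
    intro h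
    have h1 : ¬ l ∣ q.den := fun h' =>
      hl.ne_one (Nat.eq_one_of_dvd_coprimes hcop h h')
    have h2 := one_le_padicValNat_of_dvd hnum0 h
    rw [hval, padicValNat.eq_zero_of_not_dvd h1] at h2
    omega
  have hv : ¬ l ∣ q.den := by
    intro h
    have h2 := one_le_padicValNat_of_dvd q.den_ne_zero h
    rw [← hval, padicValNat.eq_zero_of_not_dvd hu] at h2
    omega
  refine ⟨q.num, q.den, fun h => hu (Int.natCast_dvd.mp h), fun h => hv (Int.natCast_dvd_natCast.mp h),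
    ?_⟩
  rw [Int.cast_natCast, ← Rat.mul_den_eq_num q, ← mul_assoc, hqdef]
  congr 1
  rw [mul_left_comm, ← zpow_add₀ hl0, add_neg_cancel, zpow_zero, mul_one]

theorem intCast_notMem_nonunits {A : ValuationSubring Qbar} {l : ℕ} (hl : l.Prime)
    (hA : A.LiesOverPrime l) {N : ℤ} (hN : ¬ (l : ℤ) ∣ N) : (N : Qbar) ∉ A.nonunits := by
  intro hmem
  have hN' : (N : A) ∈ IsLocalRing.maximalIdeal A := by
    rw [← A.coe_mem_nonunits_iff]; push_cast; exact hmem
  have hl' : (l : A) ∈ IsLocalRing.maximalIdeal A := by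
    rw [← A.coe_mem_nonunits_iff]; push_cast; exact hA
  obtain ⟨x, y, hxy⟩ := ((Nat.prime_iff_prime_int.mp hl).coprime_iff_not_dvd.mpr hN)
  apply (IsLocalRing.maximalIdeal.isMaximal A).ne_top
  rw [Ideal.eq_top_iff_one]
  have h := congrArg (fun z : ℤ => (z : A)) hxy
  simp only [Int.cast_add, Int.cast_mul, Int.cast_natCast, Int.cast_one] at h
  rw [← h]
  exact add_mem (Ideal.mul_mem_left _ _ hl') (Ideal.mul_mem_left _ _ hN')

section

variable {F : IntermediateField ℚ Qbar} [NumberField F] [IsGalois ℚ F]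

/-- An algebraic integer fixed by inertia at `P ∣ l` cannot have `r`-th power `l * (prime to l)`. -/
theorem false_of_inertia_fixed {l r : ℕ} (hl : l.Prime) (hr : 2 ≤ r) (P : Ideal (𝓞 F))
    [P.IsPrime] (hlP : (l : 𝓞 F) ∈ P) (g : 𝓞 F) (hg : ∀ σ ∈ P.inertia Gal(F/ℚ), σ • g = g)
    {N : ℤ} (hN : ¬ (l : ℤ) ∣ N) (hgN : g ^ r = (l : 𝓞 F) * (N : 𝓞 F)) : False := by
  let J := P.inertia Gal(F/ℚ)
  let E : IntermediateField ℚ F := FixedPoints.intermediateField J
  haveI : NumberField E := ⟨⟩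
  haveI hGal : IsGaloisGroup J E F := IsGaloisGroup.subgroup Gal(F/ℚ) ℚ F J
  haveI : IsGaloisGroup J (𝓞 E) (𝓞 F) := IsGaloisGroup.of_isFractionRing J (𝓞 E) (𝓞 F) E F
  haveI : IsGaloisGroup Gal(F/ℚ) ℤ (𝓞 F) :=
    IsGaloisGroup.of_isFractionRing Gal(F/ℚ) ℤ (𝓞 F) ℚ F
  have hl0 : (l : ℤ) ≠ 0 := Int.natCast_ne_zero.mpr hl.ne_zero
  let L : Ideal ℤ := Ideal.span {(l : ℤ)}
  have hLmax : L.IsMaximal :=
    PrincipalIdealRing.isMaximal_of_irreducible (Nat.prime_iff_prime_int.mp hl).irreducible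
  have hL0 : L ≠ ⊥ := by simp [L, hl.ne_zero]
  haveI hPL : P.LiesOver L := ⟨hLmax.eq_of_le (Ideal.comap_ne_top _ (Ideal.IsPrime.ne_top ‹_›))
    (by rw [Ideal.span_singleton_le_iff_mem, Ideal.mem_comap]; simpa using hlP)⟩
  let 𝔭 : Ideal (𝓞 E) := P.under (𝓞 E)
  haveI : 𝔭.IsPrime := Ideal.IsPrime.under (𝓞 E) P
  haveI : 𝔭.LiesOver L := Ideal.LiesOver.tower_bot P 𝔭 L
  have h𝔭0 : 𝔭 ≠ ⊥ := Ideal.ne_bot_of_liesOver_of_ne_bot hL0 𝔭
  haveI : 𝔭.IsMaximal := Ideal.IsPrime.isMaximal inferInstance h𝔭0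
  haveI : Finite (ℤ ⧸ L) := Ideal.finiteQuotientOfFreeOfNeBot _ hL0
  haveI : Finite (𝓞 E ⧸ 𝔭) := Ideal.finiteQuotientOfFreeOfNeBot _ h𝔭0
  -- `e(P|𝔭) = #J = e(P|l)`, so `e(𝔭|l) = 1`
  have htopJ : P.inertia J = ⊤ := by
    rw [eq_top_iff]
    intro σ _ x
    exact σ.2 x
  have hcard1 := Ideal.card_inertia_eq_ramificationIdxIn (G := J) 𝔭 P
  rw [htopJ, Subgroup.card_top, Ideal.ramificationIdxIn_eq_ramificationIdx 𝔭 P J] at hcard1
  have hcard2 := Ideal.card_inertia_eq_ramificationIdxIn (G := Gal(F/ℚ)) L P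
  rw [Ideal.ramificationIdxIn_eq_ramificationIdx L P Gal(F/ℚ)] at hcard2
  have htower := Ideal.ramificationIdx_tower (R := ℤ) 𝔭 P
  rw [← hcard1, ← hcard2] at htower
  have he : 𝔭.ramificationIdx ℤ = 1 := by
    have hpos : 0 < Nat.card J := Nat.card_pos
    exact (mul_eq_right₀ hpos.ne').mp htower.symm
  rw [← Ideal.ramificationIdx'_eq_ramificationIdx L 𝔭 hL0] at he
  have hmap : L.map (algebraMap ℤ (𝓞 E)) = Ideal.span {(l : 𝓞 E)} := by
    simp [L, Ideal.map_span]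
  have hl2 : (l : 𝓞 E) ∉ 𝔭 ^ 2 := by
    intro h
    refine (Ideal.ramificationIdx'_ne_one_iff (p := L) (P := 𝔭) ?_).mpr ?_ he
    · exact Ideal.map_le_of_le_comap (Ideal.over_def 𝔭 L).le
    · rw [hmap, Ideal.span_singleton_le_iff_mem]; exact h
  have hN𝔭 : (N : 𝓞 E) ∉ 𝔭 := by
    intro h
    have : N ∈ L := by
      rw [Ideal.over_def 𝔭 L, Ideal.mem_comap]; simpa using h
    exact hN (Ideal.mem_span_singleton.mp this)
  -- `g` comes from `E`
  have hgE : (g : F) ∈ E := fun σ => congrArg Subtype.val (hg σ σ.2)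
  have hint : IsIntegral ℤ (⟨(g : F), hgE⟩ : E) :=
    (isIntegral_algHom_iff ((algebraMap E F).toIntAlgHom) (algebraMap E F).injective).mp
      (NumberField.RingOfIntegers.isIntegral_coe g)
  let g' : 𝓞 E := ⟨⟨(g : F), hgE⟩, hint⟩
  have hg' : g' ^ r = (l : 𝓞 E) * (N : 𝓞 E) := by
    apply NumberField.RingOfIntegers.ext
    apply Subtype.ext
    have := congrArg (fun x : 𝓞 F => (x : F)) hgN
    push_cast at this ⊢
    exact this
  have hgmem : g' ∈ 𝔭 := Ideal.IsPrime.mem_of_pow_mem ‹_› r (hg' ▸ Ideal.mul_mem_right _ _ (by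
    have : ((l : ℤ) : 𝓞 E) ∈ 𝔭 :=
      Ideal.map_le_of_le_comap (Ideal.over_def 𝔭 L).le
        (Ideal.mem_map_of_mem (algebraMap ℤ (𝓞 E)) (Ideal.mem_span_singleton_self (l : ℤ)))
    simpa using this))
  have h2 : (l : 𝓞 E) * (N : 𝓞 E) ∈ 𝔭 ^ 2 :=
    hg' ▸ Ideal.pow_le_pow_right hr (Ideal.pow_mem_pow hgmem r)
  exact hN𝔭 (Ideal.mem_prime_of_mul_mem_pow h𝔭0 (i := 1) hl2 h2)

end

/-- **Ramification.** If inertia at every place over `l` fixes `a^(1/r)`, `r` prime, then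
`r ∣ v_l(a)` (also for `r = l`). -/
theorem dvd_padicValRat_of_forall_inertia {l r : ℕ} (hl : l.Prime) (hr : r.Prime) {a : ℚ}
    (ha : a ≠ 0) {α : Qbar} (hα : α ^ r = algebraMap ℚ Qbar a)
    (hfix : ∀ A : ValuationSubring Qbar, A.LiesOverPrime l →
      ∀ σ ∈ A.inertiaSubgroupIn ℚ, σ α = α) :
    (r : ℤ) ∣ padicValRat l a := by
  by_contra hndvd
  haveI : Fact l.Prime := ⟨hl⟩
  obtain ⟨y, x, hxy⟩ := (Nat.prime_iff_prime_int.mp hr).coprime_iff_not_dvd.mpr hndvd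
  have hl0 : (l : ℚ) ≠ 0 := Nat.cast_ne_zero.mpr hl.ne_zero
  let b : ℚ := a ^ x * ((l : ℚ) ^ y) ^ r
  have hb : b ≠ 0 := mul_ne_zero (zpow_ne_zero _ ha) (pow_ne_zero _ (zpow_ne_zero _ hl0))
  have hval : padicValRat l b = 1 := by
    rw [padicValRat.mul (zpow_ne_zero _ ha) (pow_ne_zero _ (zpow_ne_zero _ hl0)),
      padicValRat.pow, padicValRat.zpow, padicValRat.zpow, padicValRat.self hl.one_lt]
    linear_combination hxy
  obtain ⟨u, v, hu, hv, huv⟩ := exists_rat_unit_decomp hl hb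
  rw [hval, zpow_one] at huv
  set γ : Qbar := α ^ x * algebraMap ℚ Qbar ((l : ℚ) ^ y * v) with hγdef
  let N : ℤ := u * v ^ (r - 1)
  have hN : ¬ (l : ℤ) ∣ N := by
    intro h
    rcases (Nat.prime_iff_prime_int.mp hl).dvd_or_dvd h with h | h
    · exact hu h
    · exact hv ((Nat.prime_iff_prime_int.mp hl).dvd_of_dvd_pow h)
  have hγ : γ ^ r = (l : Qbar) * (N : Qbar) := by
    have h1 : (α ^ x) ^ r = algebraMap ℚ Qbar (a ^ x) := by
      rw [← zpow_natCast, ← zpow_mul, mul_comm, zpow_mul, zpow_natCast, hα, map_zpow₀]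
    rw [hγdef, mul_pow, h1, ← map_pow, ← map_mul, ← map_natCast (algebraMap ℚ Qbar),
      ← map_intCast (algebraMap ℚ Qbar) N, ← map_mul]
    congr 1
    have h2 : (v : ℚ) ^ r = v * (v : ℚ) ^ (r - 1) := by
      rw [← pow_succ', Nat.sub_add_cancel hr.one_le]
    simp only [N, mul_pow, h2]
    push_cast
    linear_combination ((v : ℚ) ^ (r - 1)) * huv
  have hγint : IsIntegral ℤ γ :=
    IsIntegral.of_pow hr.pos (by
      rw [hγ]; exact (isIntegral_algebraMap (x := (l : ℤ))).mul isIntegral_algebraMap)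
  have hγfix : ∀ A : ValuationSubring Qbar, A.LiesOverPrime l →
      ∀ σ ∈ A.inertiaSubgroupIn ℚ, σ γ = γ := fun A hA σ hσ => by
    rw [hγdef, map_mul, map_zpow₀, hfix A hA σ hσ, AlgEquiv.commutes]
  haveI := isGalois_qbar
  haveI : Algebra.IsAlgebraic ℚ Qbar := AlgebraicClosure.isAlgebraic ℚ
  let F₀ : IntermediateField ℚ Qbar := IntermediateField.adjoin ℚ {γ}
  haveI : FiniteDimensional ℚ F₀ :=
    IntermediateField.adjoin.finiteDimensional (Algebra.IsAlgebraic.isAlgebraic γ).isIntegral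
  let F : IntermediateField ℚ Qbar := IntermediateField.normalClosure ℚ F₀ Qbar
  haveI : FiniteDimensional ℚ F := normalClosure.is_finiteDimensional ℚ F₀ Qbar
  haveI : IsGalois ℚ F := IsGalois.normalClosure ℚ F₀ Qbar
  haveI : NumberField F := ⟨⟩
  have hγF : γ ∈ F :=
    IntermediateField.le_normalClosure F₀ (IntermediateField.mem_adjoin_simple_self ℚ γ)
  have hint : IsIntegral ℤ (⟨γ, hγF⟩ : F) :=
    (isIntegral_algHom_iff ((algebraMap F Qbar).toIntAlgHom) (algebraMap F Qbar).injective).mp hγint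
  let g : 𝓞 F := ⟨⟨γ, hγF⟩, hint⟩
  obtain ⟨A, hA⟩ := FermatLib.Basic.exists_liesOverPrime hl
  refine false_of_inertia_fixed hl hr.two_le (levelPrime F A) (natCast_mem_levelPrime hA) g ?_ hN ?_
  · intro τ hτ
    obtain ⟨A', hA', σ, hσ, hσF⟩ := FermatLib.EC.exists_inertia_lift F hl (levelPrime F A)
      (natCast_mem_levelPrime hA) τ (fun c c' hcc' => by
        have : c' = τ • c := NumberField.RingOfIntegers.ext hcc'
        rw [this]; exact hτ c)
    apply NumberField.RingOfIntegers.ext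
    apply Subtype.ext
    exact (hσF ⟨γ, hγF⟩).symm.trans (hγfix A' hA' σ hσ)
  · apply NumberField.RingOfIntegers.ext
    apply Subtype.ext
    push_cast
    exact hγ

end FermatLib.Mazur
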