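import Fermat.Agent.Mazur.GunitFiniteLevel
import Mathlib.RepresentationTheory.Homological.GroupCohomology.Hilbert90

/-!
# Kummer theory over `ℚ`

Continuous crossed homomorphisms `Gal(ℚ̄/ℚ) → ℚ̄ˣ` are coboundaries (Hilbert 90); those with values
in `n`-th roots of unity come from `n`-th roots of rational numbers, unique modulo `n`-th powers.
-/

set_option autoImplicit false
set_option linter.style.haveILetI false

open scoped NumberField

namespace FermatLib.Mazur

local notation "Qbar" => AlgebraicClosure ℚ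
local notation "Γℚ" => (AlgebraicClosure ℚ ≃ₐ[ℚ] AlgebraicClosure ℚ)

theorem exists_rat_of_forall_fixed {x : Qbar} (h : ∀ σ : Γℚ, σ x = x) :
    ∃ q : ℚ, algebraMap ℚ Qbar q = x := by
  haveI := isGalois_qbar
  exact (InfiniteGalois.mem_range_algebraMap_iff_fixed (k := ℚ) x).mpr h

/-- An open subgroup of the Galois group contains the fixing subgroup of a finite Galois extension. -/
theorem exists_galois_level_le (H : Subgroup Γℚ) (hH : IsOpen (H : Set Γℚ)) :
    ∃ F : IntermediateField ℚ Qbar, FiniteDimensional ℚ F ∧ IsGalois ℚ F ∧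
      F.fixingSubgroup ≤ H := by
  haveI := normal_qbar
  obtain ⟨E, hfin, hnormal, hE⟩ := (krullTopology_mem_nhds_one_iff_of_normal ℚ Qbar (H : Set Γℚ)).mp
    (hH.mem_nhds H.one_mem)
  haveI := hfin
  exact ⟨E, hfin, { to_normal := by convert hnormal using 2; exact Subsingleton.elim _ _ }, hE⟩

/-- **Hilbert 90** for continuous crossed homomorphisms `Gal(ℚ̄/ℚ) → ℚ̄ˣ`. -/
theorem exists_coboundary (c : Γℚ → Qbar) (hc0 : ∀ σ, c σ ≠ 0)
    (hc : ∀ σ τ, c (σ * τ) = c σ * σ (c τ)) (H : Subgroup Γℚ) (hH : IsOpen (H : Set Γℚ))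
    (hcH : ∀ σ ∈ H, c σ = 1) :
    ∃ α : Qbar, α ≠ 0 ∧ ∀ σ, σ α = c σ * α := by
  obtain ⟨F, _, _, hFH⟩ := exists_galois_level_le H hH
  haveI := isGalois_qbar
  haveI := normal_qbar
  let res := AlgEquiv.restrictNormalHom (F := ℚ) (K₁ := Qbar) F
  have hres : Function.Surjective res := AlgEquiv.restrictNormalHom_surjective Qbar
  haveI hnormal : F.fixingSubgroup.Normal :=
    (InfiniteGalois.normal_iff_isGalois F).mpr ‹IsGalois ℚ F›
  have hF1 : ∀ h ∈ F.fixingSubgroup, c h = 1 := fun h hh => hcH h (hFH hh)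
  have hright : ∀ σ h, h ∈ F.fixingSubgroup → c (σ * h) = c σ := fun σ h hh => by
    rw [hc, hF1 h hh, map_one, mul_one]
  have hmem : ∀ σ, c σ ∈ F := by
    intro σ
    rw [← InfiniteGalois.fixedField_fixingSubgroup F, IntermediateField.mem_fixedField_iff]
    intro h hh
    have hconj : σ⁻¹ * h * σ ∈ F.fixingSubgroup := by
      simpa using hnormal.conj_mem h hh σ⁻¹
    have e : h * σ = σ * (σ⁻¹ * h * σ) := by group
    have h1 : c (h * σ) = c σ := by rw [e]; exact hright σ _ hconj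
    rwa [hc, hF1 h hh, one_mul] at h1
  have hfac : ∀ σ τ, res σ = res τ → c σ = c τ := by
    intro σ τ h
    have h' : τ⁻¹ * σ ∈ F.fixingSubgroup := by
      rw [← restrictNormalHom_eq_one_iff]
      show res (τ⁻¹ * σ) = 1
      rw [map_mul, map_inv, h, inv_mul_cancel]
    calc c σ = c (τ * (τ⁻¹ * σ)) := by rw [mul_inv_cancel_left]
      _ = c τ := hright τ _ h'
  choose lift hlift using hres
  let f : Gal(F/ℚ) → (↥F)ˣ := fun g =>
    Units.mk0 ⟨c (lift g), hmem _⟩ fun h => hc0 _ (congrArg Subtype.val h)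
  have hf : groupCohomology.IsMulCocycle₁ f := by
    intro g h
    ext1
    apply Subtype.ext
    show c (lift (g * h)) = ((g • (⟨c (lift h), hmem _⟩ : F) : F) : Qbar) * c (lift g)
    have e : ((g • (⟨c (lift h), hmem _⟩ : F) : F) : Qbar) = lift g (c (lift h)) := by
      conv_lhs => rw [← hlift g]
      exact AlgEquiv.restrictNormal_commutes (lift g) F _
    rw [e, hfac (lift (g * h)) (lift g * lift h)
      (by show res _ = res _; rw [map_mul, hlift, hlift, hlift]), hc, mul_comm]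
  obtain ⟨β, hβ⟩ := groupCohomology.isMulCoboundary₁_of_isMulCocycle₁_of_aut_to_units f hf
  have hβ0 : ((β : F) : Qbar) ≠ 0 := fun h => β.ne_zero (Subtype.ext h)
  refine ⟨((β : F) : Qbar), hβ0, fun σ => ?_⟩
  have h1 := congrArg (fun u : (↥F)ˣ => (((u : F)) : Qbar)) (hβ (res σ))
  have e : (((res σ) • (β : F) : F) : Qbar) = σ ((β : F) : Qbar) :=
    AlgEquiv.restrictNormal_commutes σ F _
  simp only [Units.val_div_eq_div_val] at h1
  rw [show (((res σ • β : (↥F)ˣ) : F)) = res σ • (β : F) from rfl,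
    IntermediateField.coe_div, e] at h1
  rw [div_eq_iff hβ0] at h1
  rw [h1]
  congr 1
  exact hfac _ _ (hlift _)

/-- **Kummer theory**: a continuous crossed homomorphism with values in `n`-th roots of unity is
`σ ↦ σ α / α` for an `n`-th root `α` of a rational number. -/
theorem exists_kummer {n : ℕ} (hn : 0 < n) (c : Γℚ → Qbar) (hc1 : ∀ σ, c σ ^ n = 1)
    (hc : ∀ σ τ, c (σ * τ) = c σ * σ (c τ)) (H : Subgroup Γℚ) (hH : IsOpen (H : Set Γℚ))
    (hcH : ∀ σ ∈ H, c σ = 1) :
    ∃ (a : ℚ) (α : Qbar), a ≠ 0 ∧ α ^ n = algebraMap ℚ Qbar a ∧ ∀ σ, σ α = c σ * α := by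
  have hc0 : ∀ σ, c σ ≠ 0 := fun σ h => by
    have := hc1 σ; rw [h, zero_pow hn.ne'] at this; exact zero_ne_one this
  obtain ⟨α, hα, hασ⟩ := exists_coboundary c hc0 hc H hH hcH
  obtain ⟨a, ha⟩ := exists_rat_of_forall_fixed (x := α ^ n) fun σ => by
    rw [map_pow, hασ, mul_pow, hc1, one_mul]
  refine ⟨a, α, ?_, ha.symm, hασ⟩
  rintro rfl
  rw [map_zero] at ha
  exact pow_ne_zero n hα ha.symm

/-- The rational number attached to a Kummer class is unique up to `n`-th powers. -/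
theorem kummer_unique {n : ℕ} {c : Γℚ → Qbar} {a a' : ℚ} (ha : a ≠ 0) (ha' : a' ≠ 0)
    {α α' : Qbar} (hα : α ^ n = algebraMap ℚ Qbar a) (hα' : α' ^ n = algebraMap ℚ Qbar a')
    (h : ∀ σ, σ α = c σ * α) (h' : ∀ σ, σ α' = c σ * α') (hn : 0 < n) :
    ∃ q : ℚ, q ≠ 0 ∧ a' = a * q ^ n := by
  have hα0 : α ≠ 0 := by
    rintro rfl; rw [zero_pow hn.ne', eq_comm, map_eq_zero] at hα; exact ha hα
  obtain ⟨q, hq⟩ := exists_rat_of_forall_fixed (x := α' / α) fun σ => by
    have hc0 : c σ ≠ 0 := fun hc0 => by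
      have := h σ; rw [hc0, zero_mul, map_eq_zero] at this; exact hα0 this
    rw [map_div₀, h, h', mul_div_mul_left _ _ hc0]
  have hq' : algebraMap ℚ Qbar a' = algebraMap ℚ Qbar (a * q ^ n) := by
    rw [map_mul, map_pow, hq, div_pow, ← hα, ← hα', mul_div_cancel₀ _ (pow_ne_zero n hα0)]
  have hq'' := (algebraMap ℚ Qbar).injective hq'
  refine ⟨q, ?_, hq''⟩
  rintro rfl
  rw [zero_pow hn.ne', mul_zero] at hq''
  exact ha' hq''

end FermatLib.Mazur
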