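import Fermat.Prelude.Def_ExtCitation_KummerBridge
import Fermat.Agent.Basic.FrobeniusExists
import Fermat.Agent.EC.InertiaMinkowski
import Mathlib.FieldTheory.Minpoly.IsConjRoot
import Mathlib.RingTheory.Polynomial.Cyclotomic.Roots
import Mathlib.FieldTheory.KrullTopology

/-!
# Inertia in `ℚ̄` and the mod `p` cyclotomic character
-/

set_option autoImplicit false
set_option linter.style.haveILetI false

open scoped Pointwise

namespace FermatLib.Mazur

local notation "Qbar" => AlgebraicClosure ℚ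
local notation "Γℚ" => (AlgebraicClosure ℚ ≃ₐ[ℚ] AlgebraicClosure ℚ)

theorem normal_qbar : Normal ℚ Qbar :=
  haveI : Algebra.IsAlgebraic ℚ Qbar := AlgebraicClosure.isAlgebraic ℚ
  normal_iff.mpr fun x => ⟨(Algebra.IsAlgebraic.isAlgebraic x).isIntegral, IsAlgClosed.splits _⟩

theorem isGalois_qbar : IsGalois ℚ Qbar :=
  haveI := normal_qbar
  haveI : Algebra.IsAlgebraic ℚ Qbar := AlgebraicClosure.isAlgebraic ℚ
  ⟨⟩

theorem one_notMem_nonunits (A : ValuationSubring Qbar) : (1 : Qbar) ∉ A.nonunits := fun h =>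
  (A.coe_mem_nonunits_iff (a := (1 : A))).mp h |> fun h' =>
    (IsLocalRing.mem_maximalIdeal (1 : A)).mp h' isUnit_one

theorem natCast_notMem_nonunits {A : ValuationSubring Qbar} {l n : ℕ} (hA : A.LiesOverPrime l)
    (h : n.Coprime l) : (n : Qbar) ∉ A.nonunits := by
  intro hn
  have hn' : (n : A) ∈ IsLocalRing.maximalIdeal A := by
    rw [← A.coe_mem_nonunits_iff]; push_cast; exact hn
  have hl' : (l : A) ∈ IsLocalRing.maximalIdeal A := by
    rw [← A.coe_mem_nonunits_iff]; push_cast; exact hA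
  have hb : (1 : ℤ) = n * Nat.gcdA n l + l * Nat.gcdB n l := by
    rw [← Nat.gcd_eq_gcd_ab, h]; rfl
  have hb' : (1 : A) = (n : A) * (Nat.gcdA n l : A) + (l : A) * (Nat.gcdB n l : A) := by
    have := congrArg (fun z : ℤ => (z : A)) hb
    simpa using this
  exact (IsLocalRing.maximalIdeal.isMaximal A).ne_top ((Ideal.eq_top_iff_one _).mpr
    (hb' ▸ add_mem (Ideal.mul_mem_right _ _ hn') (Ideal.mul_mem_right _ _ hl')))

/-- A root of unity of order prime to the residue characteristic which is congruent to `1` is `1`. -/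
theorem eq_one_of_pow_eq_one_of_sub_one_mem {A : ValuationSubring Qbar} {l n : ℕ}
    (hA : A.LiesOverPrime l) (h : n.Coprime l) (hn : 0 < n) {η : Qbar} (hη : η ^ n = 1)
    (hη' : η - 1 ∈ A.nonunits) : η = 1 := by
  by_contra hne
  have hη_int : IsIntegral ℤ η := IsIntegral.of_pow hn (by rw [hη]; exact isIntegral_one)
  have hηA : η ∈ A := FermatLib.Basic.valuationSubring_mem_of_isIntegral A hη_int
  have hsum : (∑ i ∈ Finset.range n, η ^ i) = 0 := by
    have hm := mul_geom_sum η n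
    rw [hη, sub_self] at hm
    exact (mul_eq_zero.mp hm).resolve_left (sub_ne_zero.mpr hne)
  let e : A := ⟨η, hηA⟩
  have he : IsLocalRing.residue A e = 1 := by
    rw [← (IsLocalRing.residue A).map_one, ← sub_eq_zero, ← map_sub,
      IsLocalRing.residue_eq_zero_iff, ← A.coe_mem_nonunits_iff]
    simpa [e] using hη'
  have hsum' : (∑ i ∈ Finset.range n, e ^ i) = 0 := by
    apply Subtype.ext
    push_cast
    simpa [e] using hsum
  have := congrArg (IsLocalRing.residue A) hsum'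
  simp only [map_sum, map_pow, he, one_pow, Finset.sum_const, Finset.card_range, nsmul_one,
    map_zero] at this
  apply natCast_notMem_nonunits hA h
  have h2 : (n : A) ∈ IsLocalRing.maximalIdeal A := by
    rw [← IsLocalRing.residue_eq_zero_iff, map_natCast]; exact this
  simpa using (A.coe_mem_nonunits_iff (a := (n : A))).mpr h2

variable (p : ℕ) [Fact p.Prime]

/-- The defining property of the mod `p` cyclotomic character. -/
theorem apply_eq_pow_cycloChar (σ : Γℚ) {ζ : Qbar} (hζ : ζ ^ p = 1) :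
    σ ζ = ζ ^ ((ExtCitation.cycloChar p σ : ZMod p)).val := by
  haveI : NeZero p := ⟨(Fact.out : p.Prime).ne_zero⟩
  have hζ0 : ζ ≠ 0 := by rintro rfl; simp [(Fact.out : p.Prime).ne_zero] at hζ
  have hmem : Units.mk0 ζ hζ0 ∈ rootsOfUnity p Qbar := by
    rw [mem_rootsOfUnity]; ext; simpa using hζ
  have := modularCyclotomicCharacter.spec Qbar (ExtCitation.card_rootsOfUnity_eq_self p)
    (σ : Qbar ≃+* Qbar) hmem
  simpa [ExtCitation.cycloChar] using this

theorem cycloChar_eq_one_iff {ζ : Qbar} (hζ : IsPrimitiveRoot ζ p) (σ : Γℚ) :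
    ExtCitation.cycloChar p σ = 1 ↔ σ ζ = ζ := by
  haveI : Fact (1 < p) := ⟨(Fact.out : p.Prime).one_lt⟩
  rw [apply_eq_pow_cycloChar p σ hζ.pow_eq_one]
  constructor
  · intro h; rw [h]; simp [ZMod.val_one]
  · intro h
    nth_rewrite 2 [← pow_one ζ] at h
    have := hζ.pow_inj (ZMod.val_lt _) (Fact.out : p.Prime).one_lt h
    exact Units.ext (ZMod.val_injective p (by rw [this, Units.val_one, ZMod.val_one]))

theorem cycloChar_eq_of_apply_eq {ζ : Qbar} (hζ : IsPrimitiveRoot ζ p) (σ : Γℚ) {k : ℕ}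
    (h : σ ζ = ζ ^ k) : ((ExtCitation.cycloChar p σ : ZMod p)) = (k : ZMod p) := by
  haveI : NeZero p := ⟨(Fact.out : p.Prime).ne_zero⟩
  rw [apply_eq_pow_cycloChar p σ hζ.pow_eq_one] at h
  have h1 : (ExtCitation.cycloChar p σ : ZMod p).val ≡ k [MOD p] := by
    have h' := pow_mod_orderOf ζ (ExtCitation.cycloChar p σ : ZMod p).val
    have h'' := pow_mod_orderOf ζ k
    rw [← hζ.eq_orderOf] at h' h''
    exact hζ.pow_inj (Nat.mod_lt _ (NeZero.pos p)) (Nat.mod_lt _ (NeZero.pos p))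
      (h'.trans (h.trans h''.symm))
  rw [← (ZMod.natCast_eq_natCast_iff _ _ _).mpr h1, ZMod.natCast_val, ZMod.cast_id]

theorem exists_isPrimitiveRoot_qbar : ∃ ζ : Qbar, IsPrimitiveRoot ζ p := by
  haveI : NeZero ((p : Qbar)) := ⟨Nat.cast_ne_zero.mpr (Fact.out : p.Prime).ne_zero⟩
  exact HasEnoughRootsOfUnity.exists_primitiveRoot Qbar p

/-- The mod `p` cyclotomic character is surjective. -/
theorem cycloChar_surjective : Function.Surjective (ExtCitation.cycloChar p) := by
  intro u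
  obtain ⟨ζ, hζ⟩ := exists_isPrimitiveRoot_qbar p
  haveI : NeZero p := ⟨(Fact.out : p.Prime).ne_zero⟩
  haveI := normal_qbar
  have hk : ((u : ZMod p).val).Coprime p := ZMod.val_coe_unit_coprime u
  have hpos := (Fact.out : p.Prime).pos
  have hconj : IsConjRoot ℚ ζ (ζ ^ (u : ZMod p).val) := by
    show minpoly ℚ ζ = minpoly ℚ (ζ ^ (u : ZMod p).val)
    rw [← Polynomial.cyclotomic_eq_minpoly_rat hζ hpos,
      ← Polynomial.cyclotomic_eq_minpoly_rat (hζ.pow_of_coprime _ hk) hpos]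
  obtain ⟨σ, hσ⟩ := hconj.symm.exists_algEquiv
  exact ⟨σ, Units.ext (by rw [cycloChar_eq_of_apply_eq p hζ σ hσ, ZMod.natCast_val, ZMod.cast_id])⟩

/-- The mod `p` cyclotomic character is unramified outside `p`. -/
theorem cycloChar_eq_one_of_mem_inertia {l : ℕ} (hl : l.Prime) (hlp : l ≠ p)
    {A : ValuationSubring Qbar} (hA : A.LiesOverPrime l) {σ : Γℚ}
    (hσ : σ ∈ A.inertiaSubgroupIn ℚ) : ExtCitation.cycloChar p σ = 1 := by
  obtain ⟨ζ, hζ⟩ := exists_isPrimitiveRoot_qbar p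
  have hp := (Fact.out : p.Prime)
  have hcop : p.Coprime l := (Nat.coprime_primes hp hl).mpr (Ne.symm hlp)
  rw [cycloChar_eq_one_iff p hζ]
  have hζint : IsIntegral ℤ ζ := IsIntegral.of_pow hp.pos (by rw [hζ.pow_eq_one]; exact isIntegral_one)
  have hζA := FermatLib.Basic.valuationSubring_mem_of_isIntegral A hζint
  have hζ0 : ζ ≠ 0 := hζ.ne_zero hp.ne_zero
  have hinvA : ζ⁻¹ ∈ A := by
    have : ζ⁻¹ = ζ ^ (p - 1) := by
      rw [inv_eq_one_div, div_eq_iff hζ0, ← pow_succ, Nat.sub_add_cancel hp.one_le, hζ.pow_eq_one]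
    rw [this]; exact pow_mem hζA _
  have hη : σ ζ * ζ⁻¹ = 1 := by
    refine eq_one_of_pow_eq_one_of_sub_one_mem hA hcop hp.pos ?_ ?_
    · rw [mul_pow, ← map_pow, hζ.pow_eq_one, map_one, inv_pow, hζ.pow_eq_one, inv_one, one_mul]
    · have hd := FermatLib.EC.sub_mem_nonunits_of_mem_inertiaSubgroupIn A hσ hζA
      have hdA := A.nonunits_subset hd
      have hm : (⟨σ ζ - ζ, hdA⟩ : A) * ⟨ζ⁻¹, hinvA⟩ ∈ IsLocalRing.maximalIdeal A :=
        Ideal.mul_mem_right _ _ ((A.coe_mem_nonunits_iff (a := ⟨σ ζ - ζ, hdA⟩)).mp hd)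
      have := (A.coe_mem_nonunits_iff).mpr hm
      simpa [sub_mul, mul_inv_cancel₀ hζ0] using this
  field_simp at hη
  exact hη

/-- The mod `p` cyclotomic character has open kernel. -/
theorem isOpen_ker_cycloChar : IsOpen ((ExtCitation.cycloChar p).ker : Set Γℚ) := by
  obtain ⟨ζ, hζ⟩ := exists_isPrimitiveRoot_qbar p
  haveI : Algebra.IsAlgebraic ℚ Qbar := AlgebraicClosure.isAlgebraic ℚ
  have hopen : IsOpen (MulAction.stabilizer Γℚ ζ : Set Γℚ) :=
    stabilizer_isOpen_of_isIntegral (K := ℚ) ζ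
  convert hopen using 1
  ext σ
  exact cycloChar_eq_one_iff p hζ σ

end FermatLib.Mazur
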