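import Fermat.Agent.Mazur.LocalGalois
import Mathlib.RingTheory.IntegralDomain

/-!
# The tame quotient of inertia

On inertia at a place over `p` every map to an `r`-group, `r ≠ p`, has cyclic image, and
Frobenius raises a generator to the `p`-th power.
-/

set_option autoImplicit false
set_option linter.style.haveILetI false

noncomputable section

open scoped NumberField Pointwise

namespace FermatLib.Mazur

local notation "Qbar" => AlgebraicClosure ℚ
local notation "Γℚ" => (AlgebraicClosure ℚ ≃ₐ[ℚ] AlgebraicClosure ℚ)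

section Residue

variable {B G : Type*} [CommRing B] [IsDedekindDomain B] [Group G] [MulSemiringAction G B]
  {P : Ideal B} [P.IsPrime] {π : B}

/-- The residue of `σ π / π`. -/
def tameResidueHom (hP : P ≠ ⊥) (hπ : π ∈ P) (hπ' : π ∉ P ^ 2) : P.inertia G →* B ⧸ P :=
  have h : ∀ σ : P.inertia G, ∃ u, IsTameResidue P π (σ : G) u := fun σ =>
    exists_isTameResidue hP hπ hπ' fun _ hx => smul_mem_of_mem_inertia σ.2 hx
  { toFun := fun σ => Ideal.Quotient.mk P (h σ).choose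
    map_one' := by
      rw [← (Ideal.Quotient.mk P).map_one, Ideal.Quotient.mk_eq_mk_iff_sub_mem]
      exact (h 1).choose_spec.unique hP hπ' (by simpa using isTameResidue_one (G := G))
    map_mul' := fun σ τ => by
      rw [← map_mul, Ideal.Quotient.mk_eq_mk_iff_sub_mem]
      exact (h (σ * τ)).choose_spec.unique hP hπ'
        ((h σ).choose_spec.mul hπ σ.2 (h τ).choose_spec) }

theorem tameResidueHom_eq {hP : P ≠ ⊥} {hπ : π ∈ P} {hπ' : π ∉ P ^ 2} (σ : P.inertia G) {u : B}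
    (hu : IsTameResidue P π (σ : G) u) :
    tameResidueHom hP hπ hπ' σ = Ideal.Quotient.mk P u := by
  show Ideal.Quotient.mk P _ = _
  rw [Ideal.Quotient.mk_eq_mk_iff_sub_mem]
  exact (exists_isTameResidue hP hπ hπ' fun _ hx =>
    smul_mem_of_mem_inertia σ.2 hx).choose_spec.unique hP hπ' hu

/-- The kernel of the tame character consists of elements of `p`-power order. -/
theorem exists_pow_eq_one_of_tameResidueHom_eq_one [FaithfulSMul G B] [Finite G] {p : ℕ}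
    (hp : p.Prime) (hpP : (p : B) ∈ P) {hP : P ≠ ⊥} {hπ : π ∈ P} {hπ' : π ∉ P ^ 2}
    {σ : P.inertia G} (h : tameResidueHom hP hπ hπ' σ = 1) : ∃ a : ℕ, σ ^ p ^ a = 1 := by
  obtain ⟨a, n, hn, he⟩ := Nat.exists_eq_pow_mul_and_not_dvd (orderOf_pos σ).ne' p hp.ne_one
  refine ⟨a, ?_⟩
  set w := σ ^ p ^ a
  obtain ⟨u, hu⟩ := exists_isTameResidue (π := π) hP hπ hπ' (σ := (w : G))
    fun _ hx => smul_mem_of_mem_inertia w.2 hx
  have hw : tameResidueHom hP hπ hπ' w = 1 := by rw [map_pow, h, one_pow]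
  rw [tameResidueHom_eq w hu, ← (Ideal.Quotient.mk P).map_one,
    Ideal.Quotient.mk_eq_mk_iff_sub_mem] at hw
  have h1 : (w : G) • π - π ∈ P ^ 2 := by
    have h2 : π * (u - 1) ∈ P ^ 2 := by rw [pow_two]; exact Ideal.mul_mem_mul hπ hw
    convert add_mem hu h2 using 1
    ring
  refine Subtype.ext (eq_one_of_tame hP hπ hπ' w.2 h1 (n := n)
    (natCast_notMem_of_coprime hpP ((hp.coprime_iff_not_dvd.mpr hn).symm)) ?_)
  rw [← SubmonoidClass.coe_pow, ← pow_mul, ← he, pow_orderOf_eq_one, OneMemClass.coe_one]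

/-- Conjugating by a Frobenius raises the tame character to the `p`-th power. -/
theorem tameResidueHom_conj {p : ℕ} {hP : P ≠ ⊥} {hπ : π ∈ P} {hπ' : π ∉ P ^ 2} {φ : G}
    (hφP : ∀ x ∈ P, φ • x ∈ P) (hφ' : ∀ x ∈ P, φ⁻¹ • x ∈ P) (hφ : ∀ x, φ • x - x ^ p ∈ P)
    {σ τ : P.inertia G} (hτ : (τ : G) = φ * σ * φ⁻¹) :
    tameResidueHom hP hπ hπ' τ = tameResidueHom hP hπ hπ' σ ^ p := by
  obtain ⟨v, hv⟩ := exists_isTameResidue (π := π) hP hπ hπ' hφP
  obtain ⟨u, hu⟩ := exists_isTameResidue (π := π) hP hπ hπ' (σ := (σ : G))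
    fun _ hx => smul_mem_of_mem_inertia σ.2 hx
  obtain ⟨u', hu'⟩ := exists_isTameResidue (π := π) hP hπ hπ' (σ := (τ : G))
    fun _ hx => smul_mem_of_mem_inertia τ.2 hx
  have h1 : IsTameResidue P π (φ * σ) (v * u ^ p) := hv.mul' hπ hφP hu (hφ u)
  have h2 : IsTameResidue P π ((τ : G) * φ) (u' * v) := hu'.mul hπ τ.2 hv
  rw [hτ, inv_mul_cancel_right] at h2
  have h3 := h1.unique hP hπ' h2
  have hv0 : v ∉ P := by
    intro hmem
    have h4 : φ • π ∈ P ^ 2 := by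
      have h5 : π * v ∈ P ^ 2 := by rw [pow_two]; exact Ideal.mul_mem_mul hπ hmem
      simpa using add_mem hv h5
    exact hπ' (by simpa using smul_mem_pow_of_smul_mem hφ' 2 _ h4)
  have h6 : v * (u ^ p - u') ∈ P := by
    convert h3 using 1
    ring
  rw [tameResidueHom_eq τ hu', tameResidueHom_eq σ hu, ← map_pow,
    Ideal.Quotient.mk_eq_mk_iff_sub_mem]
  simpa using neg_mem ((Ideal.IsPrime.mem_or_mem ‹_› h6).resolve_left hv0)

end Residue

/-- Inertia is normal in the decomposition group. -/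
theorem conj_mem_inertiaSubgroupIn {A : ValuationSubring Qbar} {g σ : Γℚ}
    (hg : g ∈ A.decompositionSubgroup ℚ) (hσ : σ ∈ A.inertiaSubgroupIn ℚ) :
    g * σ * g⁻¹ ∈ A.inertiaSubgroupIn ℚ := by
  obtain ⟨τ, hτ, rfl⟩ := Subgroup.mem_map.mp hσ
  have hn : (A.inertiaSubgroup ℚ).Normal := MonoidHom.normal_ker _
  refine Subgroup.mem_map.mpr ⟨⟨g, hg⟩ * τ * ⟨g, hg⟩⁻¹, ?_, ?_⟩
  · exact Subgroup.Normal.conj_mem (n := τ) hn hτ ⟨g, hg⟩
  · simp

/-- The tame `r`-quotient of inertia at `p ≠ r` is procyclic and Frobenius raises it to the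
`p`-th power: any map to a finite `r`-group, multiplicative and locally constant on inertia. -/
theorem exists_tame_generator {r p : ℕ} (hr : r.Prime) (hp : p.Prime) (hrp : r ≠ p)
    {A : ValuationSubring Qbar} (hA : A.LiesOverPrime p) {Γ : Type*} [Group Γ] [Finite Γ]
    (ψ : A.inertiaSubgroupIn ℚ →* Γ) (hψ : ∀ σ, ∃ m : ℕ, ψ σ ^ r ^ m = 1)
    (H : Subgroup Γℚ) (hH : IsOpen (H : Set Γℚ))
    (hψH : ∀ σ : A.inertiaSubgroupIn ℚ, (σ : Γℚ) ∈ H → ψ σ = 1) :
    ∃ τ : A.inertiaSubgroupIn ℚ, (∀ σ, ψ σ ∈ Subgroup.zpowers (ψ τ)) ∧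
      ∀ F : Γℚ, A.IsFrobeniusAt F p →
        ∃ h : F * (τ : Γℚ) * F⁻¹ ∈ A.inertiaSubgroupIn ℚ, ψ ⟨_, h⟩ = ψ τ ^ p := by
  haveI := normal_qbar
  obtain ⟨E, _, _, hE⟩ := exists_galois_level_le H hH
  haveI : NumberField E := ⟨⟩
  haveI : FaithfulSMul Gal(E/ℚ) (𝓞 E) :=
    (IsGaloisGroup.of_isFractionRing Gal(E/ℚ) ℤ (𝓞 E) ℚ E).faithful
  let res := AlgEquiv.restrictNormalHom (F := ℚ) (K₁ := Qbar) E
  let P := levelPrime E A
  have hP : P ≠ ⊥ := levelPrime_ne_bot hp hA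
  have hpP : (p : 𝓞 E) ∈ P := natCast_mem_levelPrime hA
  obtain ⟨π, hπ, hπ'⟩ : ∃ π ∈ P, π ∉ P ^ 2 := by
    have h : P ^ 2 < P ^ 1 := Ideal.pow_right_strictAnti P hP (Ideal.IsPrime.ne_top inferInstance)
      one_lt_two
    rw [pow_one] at h
    obtain ⟨π, hπ, hπ'⟩ := SetLike.exists_of_lt h
    exact ⟨π, hπ, hπ'⟩
  let J := P.inertia Gal(E/ℚ)
  let ρ : A.inertiaSubgroupIn ℚ →* J :=
    (res.comp (A.inertiaSubgroupIn ℚ).subtype).codRestrict J fun σ =>
      restrictNormalHom_mem_inertia σ.2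
  have hρ : Function.Surjective ρ := fun j => by
    obtain ⟨σ, hσ, hστ⟩ := FermatLib.EC.exists_inertia_lift_at E hp A hA P
      (fun a ha => mem_levelPrime_iff.mp ha) (j : Gal(E/ℚ)) (fun c c' hcc' => by
        have : c' = (j : Gal(E/ℚ)) • c := NumberField.RingOfIntegers.ext hcc'
        rw [this]; exact j.2 c)
    exact ⟨⟨σ, hσ⟩, Subtype.ext (AlgEquiv.ext fun x => Subtype.ext
      ((AlgEquiv.restrictNormal_commutes σ E x).trans (hστ x)))⟩
  have hker : ρ.ker ≤ ψ.ker := fun σ hσ => hψH σ (hE (by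
    rw [← restrictNormalHom_eq_one_iff]
    exact congrArg Subtype.val (MonoidHom.mem_ker.mp hσ)))
  let ψ' : J →* Γ := ρ.liftOfSurjective hρ ⟨ψ, hker⟩
  have hψ' : ∀ σ, ψ' (ρ σ) = ψ σ := fun σ =>
    MonoidHom.liftOfRightInverse_comp_apply ρ _ _ ⟨ψ, hker⟩ σ
  let θ := tameResidueHom (G := Gal(E/ℚ)) hP hπ hπ'
  have hθψ : ∀ i j : J, θ i = θ j → ψ' i = ψ' j := by
    intro i j hij
    have h1 : θ (j⁻¹ * i) = 1 := by rw [map_mul, hij, ← map_mul, inv_mul_cancel, map_one]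
    obtain ⟨a, ha⟩ := exists_pow_eq_one_of_tameResidueHom_eq_one hp hpP h1
    obtain ⟨σ, hσ⟩ := hρ (j⁻¹ * i)
    obtain ⟨m, hm⟩ := hψ σ
    rw [← hψ', hσ] at hm
    have h2 : ψ' (j⁻¹ * i) ^ p ^ a = 1 := by rw [← map_pow, ha, map_one]
    have h3 : ψ' (j⁻¹ * i) = 1 := orderOf_eq_one_iff.mp (Nat.eq_one_of_dvd_coprimes
      (Nat.Coprime.pow m a ((Nat.coprime_primes hr hp).mpr hrp))
      (orderOf_dvd_of_pow_eq_one hm) (orderOf_dvd_of_pow_eq_one h2))
    rw [map_mul, map_inv, inv_mul_eq_one] at h3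
    exact h3.symm
  haveI : Finite θ.toHomUnits.range := Finite.of_surjective _ θ.toHomUnits.rangeRestrict_surjective
  haveI : IsCyclic θ.toHomUnits.range := isCyclic_of_injective_ringHom
    ((Units.coeHom _).comp θ.toHomUnits.range.subtype)
    (Units.val_injective.comp Subtype.val_injective)
  obtain ⟨⟨g, j₀, rfl⟩, hg⟩ := IsCyclic.exists_generator (α := θ.toHomUnits.range)
  obtain ⟨τ, hτ⟩ := hρ j₀
  refine ⟨τ, fun σ => ?_, fun F hF => ?_⟩
  · obtain ⟨n, hn⟩ := hg ⟨_, ρ σ, rfl⟩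
    have h1 : θ.toHomUnits (j₀ ^ n) = θ.toHomUnits (ρ σ) := by
      rw [map_zpow]
      exact congrArg Subtype.val hn
    have h2 := hθψ _ _ (congrArg Units.val h1)
    rw [hψ' σ, map_zpow, ← hτ, hψ' τ] at h2
    exact ⟨n, h2⟩
  · obtain ⟨hd, -⟩ := id hF
    have hconj := conj_mem_inertiaSubgroupIn hd τ.2
    refine ⟨hconj, ?_⟩
    have hφP : ∀ g ∈ A.decompositionSubgroup ℚ, ∀ x ∈ P, res g • x ∈ P := fun g hg x hx => by
      rw [mem_levelPrime_iff, coe_restrictNormalHom_smul]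
      exact valuation_apply_lt_one hg (mem_levelPrime_iff.mp hx)
    have h1 : θ (ρ ⟨_, hconj⟩) = θ j₀ ^ p := by
      refine tameResidueHom_conj (φ := res F) (hφP F hd) (fun x hx => ?_)
        (restrictNormalHom_smul_sub_pow_mem hF) ?_
      · rw [← map_inv]
        exact hφP F⁻¹ (inv_mem hd) x hx
      · show res (F * τ * F⁻¹) = res F * (j₀ : Gal(E/ℚ)) * (res F)⁻¹
        rw [map_mul, map_mul, map_inv, ← hτ]
        rfl
    rw [← map_pow] at h1
    have h2 := hθψ _ _ h1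
    rwa [hψ', map_pow, ← hτ, hψ'] at h2

end FermatLib.Mazur
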