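import Fermat.Agent.Mazur.FlatModel
import Fermat.Prelude.Def_HeckeGalois_EichlerShimura
import Mathlib.Data.ZMod.Basic
import Mathlib.GroupTheory.Finiteness

/-!
# The inputs of the Eisenstein descent

Everything that the descent needs to know about `J₀(p)`, as hypotheses on an abstract module.
-/

set_option autoImplicit false

noncomputable section

namespace FermatLib.Mazur

open ModularCurve

local notation "Qbar" => AlgebraicClosure ℚ
local notation "Γℚ" => (AlgebraicClosure ℚ ≃ₐ[ℚ] AlgebraicClosure ℚ)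

/-- The points of `J` killed by `n`. -/
def torsionPts (J : Type*) [AddCommGroup J] (n : ℕ) : AddSubgroup J :=
  (nsmulAddMonoidHom n).ker

theorem mem_torsionPts {J : Type*} [AddCommGroup J] {n : ℕ} {x : J} :
    x ∈ torsionPts J n ↔ n • x = 0 := Iff.rfl

instance instTorsionPtsAction {J : Type*} [AddCommGroup J] {G : Type*} [Monoid G]
    [DistribMulAction G J] (n : ℕ) : DistribMulAction G (torsionPts J n) where
  smul g x := ⟨g • (x : J), by
    have hx : n • (x : J) = 0 := x.2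
    show n • (g • (x : J)) = 0
    rw [← smul_comm g n (x : J), hx, smul_zero]⟩
  one_smul x := Subtype.ext (one_smul G (x : J))
  mul_smul g h x := Subtype.ext (mul_smul g h (x : J))
  smul_zero g := Subtype.ext (smul_zero g)
  smul_add g x y := Subtype.ext (smul_add g (x : J) (y : J))

/-- The maximal Eisenstein ideal above `r`. -/
def eisensteinMax (p r : ℕ) : Ideal HeckeAlg :=
  eigenIdeal fun ℓ => (eisensteinSystem p ℓ : ZMod r)

/-- `T_ℓ - 1 - ℓ`. -/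
def eisensteinElt (ℓ : Nat.Primes) : HeckeAlg :=
  heckeGen ℓ - MvPolynomial.C (1 + (ℓ : ℕ) : ℤ)

/-- The inputs of the Eisenstein descent at `r` for a module `J` of level `p`. -/
structure IsDescentDatum (p r : ℕ) (hr : r.Prime) (Ar Ap : ValuationSubring Qbar) (J : Type*)
    [AddCommGroup J] [DistribMulAction Γℚ J] [Module HeckeAlg J] [SMulCommClass Γℚ HeckeAlg J]
    {J' : Type*} [AddCommGroup J'] (red : J →+ J') : Prop where
  p_prime : p.Prime
  r_ne_p : r ≠ p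
  liesOver_r : Ar.LiesOverPrime r
  liesOver_p : Ap.LiesOverPrime p
  isOpen_stabilizer : ∀ x : J, IsOpen ((MulAction.stabilizer Γℚ x : Subgroup Γℚ) : Set Γℚ)
  finite_torsion : ∀ k : ℕ, Finite (torsionPts J (r ^ k))
  exists_nsmul_eq : ∀ y : J, (∀ g : Γℚ, g • y = y) → ∀ k : ℕ, ∃ z : J, r ^ k • z = y
  fg : AddGroup.FG (FixedPoints.addSubgroup Γℚ J)
  unramified : ∀ ℓ : ℕ, ℓ.Prime → ℓ ≠ r → ℓ ≠ p → ∀ A : ValuationSubring Qbar,
    A.LiesOverPrime ℓ → ∀ σ ∈ A.inertiaSubgroupIn ℚ, ∀ (k : ℕ) (z : J),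
      r ^ k • (σ • z - z) = 0 → σ • z = z
  frobenius : ∀ ℓ : ℕ, (hℓ : ℓ.Prime) → ℓ ≠ r → ℓ ≠ p → ∀ A : ValuationSubring Qbar,
    A.LiesOverPrime ℓ → ∀ σ : Γℚ, A.IsFrobeniusAt σ ℓ → ∀ (k : ℕ) (x : J), r ^ k • x = 0 →
      σ • σ • x - heckeGen ⟨ℓ, hℓ⟩ • σ • x + ℓ • x = 0
  unipotent : ∀ σ ∈ Ap.inertiaSubgroupIn ℚ, ∀ τ ∈ Ap.inertiaSubgroupIn ℚ, ∀ (k : ℕ) (x : J),
    r ^ k • x = 0 → σ • (τ • x - x) = τ • x - x
  red_hecke : ∀ (t : HeckeAlg) (x : J), red x = 0 → red (t • x) = 0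
  red_inertia : ∀ σ ∈ Ar.inertiaSubgroupIn ℚ, ∀ x : J, red (σ • x) = red x
  red_decomposition : ∀ g ∈ Ar.decompositionSubgroup ℚ, ∀ x : J, red x = 0 → red (g • x) = 0
  red_frobenius : ∀ F : Γℚ, Ar.IsFrobeniusAt F r → ∀ (k : ℕ) (x : J), r ^ k • x = 0 →
    red (F • F • x - heckeGen ⟨r, hr⟩ • F • x + r • x) = 0
  model : ∀ k : ℕ, ∃ H : Subring (torsionPts J (r ^ k) → Qbar), IsFlatModel Ar H ∧
    ∀ x : torsionPts J (r ^ k), red x = 0 → IsConnectedPoint Ar H x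
  eisenstein : ∀ ℓ : Nat.Primes, (ℓ : ℕ) ≠ p → ∃ c : ℤ, c ≠ 0 ∧ ∃ R : HeckeAlg,
    ∀ (k : ℕ) (x : J), r ^ k • x = 0 → c • x = (R * eisensteinElt ℓ) • x

end FermatLib.Mazur
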