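import Fermat.Agent.Mazur.FlatModelInduction

/-!
# Multiplicativity of connected models: the induction

Descent of a connected model to the quotient by a stable line and the resulting induction.
-/

set_option autoImplicit false
set_option linter.unusedSectionVars false
set_option linter.style.haveILetI false

noncomputable section

namespace FermatLib.Mazur.FlatConn

open FlatFourier StableLine

local notation "Qbar" => AlgebraicClosure ℚ
local notation "Γℚ" => (AlgebraicClosure ℚ ≃ₐ[ℚ] AlgebraicClosure ℚ)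

universe u

variable {A : ValuationSubring Qbar} {K : Type*} [AddCommGroup K]
  [DistribMulAction (A.inertiaSubgroupIn ℚ) K] {M : Submodule A (K → Qbar)}

theorem proj_zero_translate {S : AddSubgroup K} [Fintype S] (F : K → Qbar) (a : K) (s : S) :
    proj S 0 F (a + s) = proj S 0 F a := by
  rw [proj_translate, charFun_zero, Pi.one_apply, one_mul]

/-- Descent of the `S`-invariant functions of a model to `K ⧸ S`. -/
theorem IsConnModel.descend [Fintype K] (hM : IsConnModel A M) {S : AddSubgroup K} [Fintype S]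
    (hS : M.map (LinearMap.funLeft A Qbar S.subtype) ≤ charSpan A S)
    (hstab : ∀ (g : A.inertiaSubgroupIn ℚ), ∀ s ∈ S, g • s ∈ S)
    [DistribMulAction (A.inertiaSubgroupIn ℚ) (K ⧸ S)]
    (hact : ∀ (g : A.inertiaSubgroupIn ℚ) (a : K),
      g • QuotientAddGroup.mk' S a = QuotientAddGroup.mk' S (g • a)) :
    IsConnModel A (M.comap (LinearMap.funLeft A Qbar (QuotientAddGroup.mk' S))) := by
  classical
  set π := QuotientAddGroup.mk' S with hπ
  have hπs : Function.Surjective π := QuotientAddGroup.mk'_surjective S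
  let D : (K → Qbar) →ₗ[A] (K ⧸ S → Qbar) :=
    { toFun := fun F q => proj S 0 F q.out
      map_add' := fun F G => funext fun q => congrFun (map_add (proj S 0) F G) q.out
      map_smul' := fun a F => funext fun q => by
        show proj S 0 (a • F) q.out = (a : Qbar) * proj S 0 F q.out
        rw [proj_apply, proj_apply,
          show (fun s : S => (a • F) (q.out + s)) = (a : Qbar) • fun s : S => F (q.out + s) from rfl,
          map_smul, smul_eq_mul] }
  have hD : ∀ (F : K → Qbar) (a : K), D F (π a) = proj S 0 F a := by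
    intro F a
    have hmem : -a + (π a).out ∈ S := QuotientAddGroup.eq.mp (QuotientAddGroup.out_eq' (π a)).symm
    have := proj_zero_translate F a ⟨_, hmem⟩
    rwa [add_neg_cancel_left] at this
  have hDmem : ∀ F ∈ M, D F ∈ M.comap (LinearMap.funLeft A Qbar π) := fun F hF => by
    rw [Submodule.mem_comap,
      show LinearMap.funLeft A Qbar π (D F) = proj S 0 F from funext (hD F)]
    exact hM.proj_mem hS 0 hF
  have hfix : ∀ F : K ⧸ S → Qbar, D (LinearMap.funLeft A Qbar π F) = F := fun F => funext fun q => by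
    obtain ⟨a, rfl⟩ := hπs q
    rw [hD, proj_eq_self (fun b s => ?_)]
    · rfl
    · rw [charFun_zero, Pi.one_apply, one_mul]
      exact congrArg F ((map_add π b s).trans (add_eq_left.mpr ((QuotientAddGroup.eq_zero_iff _).mpr s.2)))
  have heq : M.comap (LinearMap.funLeft A Qbar π) = M.map D := le_antisymm
    (fun F hF => ⟨_, hF, hfix F⟩) (by rintro _ ⟨F, hF, rfl⟩; exact hDmem F hF)
  constructor
  · exact hM.one_mem
  · exact fun F hF G hG => hM.mul_mem _ hF _ hG
  · intro F hF q
    obtain ⟨a, rfl⟩ := hπs q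
    exact hM.mem _ hF a
  · intro F hF q
    obtain ⟨a, rfl⟩ := hπs q
    have := hM.connected _ hF a
    rw [LinearMap.funLeft_apply, LinearMap.funLeft_apply, map_zero] at this
    exact this
  · rw [heq]; exact hM.fg.map D
  · intro p q hpq
    obtain ⟨a, rfl⟩ := hπs p
    obtain ⟨b, rfl⟩ := hπs q
    by_contra hne
    obtain ⟨F, hF, hFa, hFz⟩ := hM.exists_bump a
    have h := hpq (D F) (hDmem F hF)
    rw [hD, hD, proj_apply, proj_apply, coeff_apply, coeff_apply] at h
    simp only [charFun_zero, Pi.one_apply, mul_one] at h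
    have hb : ∀ s : S, F (b + s) = 0 := fun s => hFz _ fun hbs => hne <| by
      rw [← hbs, map_add]
      exact (add_eq_left.mpr ((QuotientAddGroup.eq_zero_iff _).mpr s.2))
    rw [Finset.sum_eq_single (0 : S) (fun s _ hs => hFz _ fun has => hs (Subtype.ext
      (add_eq_left.mp has))) (fun hn => absurd (Finset.mem_univ _) hn),
      Finset.sum_eq_zero (fun s _ => hb s), mul_zero, AddSubgroup.coe_zero, add_zero] at h
    exact mul_ne_zero (inv_ne_zero natCard_ne_zero) hFa h
  · intro F hF
    obtain ⟨n, g, g', hg, hg', hFg⟩ := hM.comul _ hF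
    refine ⟨n, fun i => D (g i), fun i => D (g' i), fun i => hDmem _ (hg i),
      fun i => hDmem _ (hg' i), fun p q => ?_⟩
    obtain ⟨a, rfl⟩ := hπs p
    obtain ⟨b, rfl⟩ := hπs q
    have hinv : ∀ (x : K) (s : S), π (x + s) = π x := fun x s =>
      (map_add π x s).trans (add_eq_left.mpr ((QuotientAddGroup.eq_zero_iff _).mpr s.2))
    have h1 : ∀ y, F (π a + π y) = ∑ i, proj S 0 (g i) a * g' i y := fun y => by
      have hfun : (fun x => F (π x + π y)) = ∑ i, g' i y • g i := funext fun x => by
        simp only [← map_add, Finset.sum_apply, Pi.smul_apply, smul_eq_mul]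
        exact (hFg x y).trans (Finset.sum_congr rfl fun i _ => mul_comm _ _)
      have h0 := congrFun (proj_eq_self (S := S) (ψ := 0) (F := fun x => F (π x + π y))
        fun x s => by simp only [hinv, charFun_zero, Pi.one_apply, one_mul]) a
      rw [← h0, hfun, map_sum, Finset.sum_apply]
      exact Finset.sum_congr rfl fun i _ => by rw [map_smul, Pi.smul_apply, smul_eq_mul, mul_comm]
    have hfun : (fun y => F (π a + π y)) = ∑ i, proj S 0 (g i) a • g' i := funext fun y => by
      simp only [h1, Finset.sum_apply, Pi.smul_apply, smul_eq_mul]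
    have h0 := congrFun (proj_eq_self (S := S) (ψ := 0) (F := fun y => F (π a + π y))
      fun x s => by simp only [hinv, charFun_zero, Pi.one_apply, one_mul]) b
    rw [← h0, hfun, map_sum, Finset.sum_apply]
    exact Finset.sum_congr rfl fun i _ => by
      rw [map_smul, Pi.smul_apply, smul_eq_mul]
      exact (congrArg₂ (· * ·) (hD (g i) a) (hD (g' i) b)).symm
  · rw [heq]
    refine (Submodule.map_mono hM.spanned).trans ?_
    rw [Submodule.map_span]
    refine Submodule.span_mono ?_
    rintro _ ⟨F, ⟨hF, hFeq⟩, rfl⟩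
    refine ⟨⟨F, hF, rfl⟩, fun g q => ?_⟩
    obtain ⟨a, rfl⟩ := hπs q
    rw [hact, hD, hD]
    exact proj_apply_map (g : Γℚ) (DistribSMul.toAddMonoidHom K g)
      (MulAction.injective g) (fun s hs => hstab g s hs) (hFeq g)
      (fun s => by rw [charFun_zero]; exact (map_one (g : Γℚ)).symm) a

theorem valuation_sum_le {ι : Type*} (t : Finset ι) (f : ι → Qbar) (b : Qbar)
    (h : ∀ i ∈ t, A.valuation (f i) ≤ A.valuation b) :
    A.valuation (∑ i ∈ t, f i) ≤ A.valuation b := by
  classical
  induction t using Finset.induction with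
  | empty => simp
  | insert i t hi ih =>
    rw [Finset.sum_insert hi]
    exact A.valuation.map_add_le (h i (Finset.mem_insert_self _ _))
      (ih fun j hj => h j (Finset.mem_insert_of_mem hj))

/-- The key step: an isotypic unit function has integral spectrum. -/
theorem IsConnModel.mem_charSpan_of_isotypic [Fintype K] (hM : IsConnModel A M)
    {S : AddSubgroup K} [Fintype S] (hS : M.map (LinearMap.funLeft A Qbar S.subtype) ≤ charSpan A S)
    (hinvar : ∀ F ∈ M, (∀ (a : K) (s : S), F (a + s) = F a) → F ∈ charSpan A K)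
    {ψ : S →+ QbarMul} {h : K → Qbar} (hh : h ∈ M)
    (hψ : ∀ (a : K) (s : S), h (a + s) = charFun ψ s * h a) (hinv : (fun a => (h a)⁻¹) ∈ M)
    (hne : ∀ a, h a ≠ 0) : h ∈ charSpan A K := by
  classical
  obtain ⟨n, g, g', hg, hg', hFg⟩ := hM.comul _ hinv
  let P : Fin n → K → Qbar := fun i => proj S 0 (h * g i)
  let P' : Fin n → K → Qbar := fun i => proj S 0 (h * g' i)
  have hP : ∀ i φ, coeff φ (P i) ∈ A := fun i =>
    mem_charSpan_iff.mp (hinvar _ (hM.proj_mem hS 0 (hM.mul_mem _ hh _ (hg i)))
      fun a s => proj_zero_translate _ a s)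
  have hP' : ∀ i φ, coeff φ (P' i) ∈ A := fun i =>
    mem_charSpan_iff.mp (hinvar _ (hM.proj_mem hS 0 (hM.mul_mem _ hh _ (hg' i)))
      fun a s => proj_zero_translate _ a s)
  let f : K → K → Qbar := fun a b => h a * h b * (h (a + b))⁻¹
  have hf1 : ∀ (a b : K) (s : S), f (a + s) b = f a b := fun a b s => by
    simp only [f]
    rw [show a + s + b = a + b + s by abel, hψ, hψ]
    have h1 := charFun_ne_zero ψ s
    have h2 := hne (a + b)
    field_simp
  have hf2 : ∀ (a b : K) (s : S), f a (b + s) = f a b := fun a b s => by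
    simp only [f]
    rw [show a + (b + s) = a + b + s by abel, hψ, hψ]
    have h1 := charFun_ne_zero ψ s
    have h2 := hne (a + b)
    field_simp
  have hfexp : ∀ a b, f a b = ∑ i, P i a * P' i b := by
    intro a b
    have h1 : ∀ y, f a y = ∑ i, P i a * (h * g' i) y := fun y => by
      have hfun : (fun x => f x y) = ∑ i, (h * g' i) y • (h * g i) := funext fun x => by
        simp only [f, hFg, Finset.sum_apply, Pi.smul_apply, smul_eq_mul, Pi.mul_apply,
          Finset.mul_sum]
        exact Finset.sum_congr rfl fun i _ => by ring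
      have h0 := congrFun (proj_eq_self (S := S) (ψ := 0) (F := fun x => f x y)
        fun x s => by simp only [hf1, charFun_zero, Pi.one_apply, one_mul]) a
      rw [← h0, hfun, map_sum, Finset.sum_apply]
      exact Finset.sum_congr rfl fun i _ => by rw [map_smul, Pi.smul_apply, smul_eq_mul, mul_comm]
    have hfun : (fun y => f a y) = ∑ i, P i a • (h * g' i) := funext fun y => by
      simp only [h1, Finset.sum_apply, Pi.smul_apply, smul_eq_mul]
    have h0 := congrFun (proj_eq_self (S := S) (ψ := 0) (F := fun y => f a y)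
      fun x s => by simp only [hf2, charFun_zero, Pi.one_apply, one_mul]) b
    rw [← h0, hfun, map_sum, Finset.sum_apply]
    exact Finset.sum_congr rfl fun i _ => by rw [map_smul, Pi.smul_apply, smul_eq_mul]
  have hcur : ∀ a b, h a * h b = h (a + b) * ∑ i, P i a * P' i b := fun a b => by
    rw [← hfexp]
    have := hne (a + b)
    simp only [f]
    field_simp
  obtain ⟨θ₀, -, hmax⟩ := Finset.exists_max_image Finset.univ
    (fun θ : K →+ QbarMul => A.valuation (coeff θ h)) ⟨0, Finset.mem_univ _⟩
  set c₀ := coeff θ₀ h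
  have hrow : c₀ • h = ∑ i, ∑ θ, (coeff θ h * coeff (θ₀ - θ) (P i)) • (charFun θ * P' i) := by
    funext b
    have hfun : (fun a => h a * h b) =
        ∑ i, ∑ θ, (coeff θ h * (charFun θ b * P' i b)) • (charFun θ * P i) := funext fun a => by
      conv_lhs => rw [hcur, ← sum_coeff_smul_charFun h]
      simp only [Finset.sum_apply, Pi.smul_apply, smul_eq_mul, Pi.mul_apply, Finset.mul_sum,
        Finset.sum_mul, charFun_map_add]
      exact Finset.sum_congr rfl fun i _ => Finset.sum_congr rfl fun θ _ => by ring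
    have h1 := congrArg (coeff θ₀) hfun
    rw [show (fun a => h a * h b) = h b • h from funext fun a => mul_comm _ _, map_smul,
      map_sum, smul_eq_mul, mul_comm] at h1
    simp only [Pi.smul_apply, smul_eq_mul, Finset.sum_apply, Pi.mul_apply]
    rw [h1]
    refine Finset.sum_congr rfl fun i _ => ?_
    rw [map_sum]
    exact Finset.sum_congr rfl fun θ _ => by rw [map_smul, coeff_charFun_mul, smul_eq_mul]; ring
  have h2 := congrArg (coeff θ₀) hrow
  rw [map_smul, smul_eq_mul, map_sum] at h2
  have hle : A.valuation (c₀ * c₀) ≤ A.valuation c₀ := by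
    rw [h2]
    refine valuation_sum_le _ _ _ fun i _ => ?_
    rw [map_sum]
    refine valuation_sum_le _ _ _ fun θ _ => ?_
    rw [map_smul, coeff_charFun_mul, smul_eq_mul, mul_assoc, map_mul]
    exact (mul_le_of_le_one_right' ((A.valuation_le_one_iff _).mpr
      (A.mul_mem _ _ (hP i _) (hP' i _)))).trans (hmax θ (Finset.mem_univ _))
  have hc₀ : A.valuation c₀ ≤ 1 := by
    by_contra hgt
    rw [not_le] at hgt
    rw [map_mul] at hle
    exact not_lt.mpr hle (lt_mul_of_one_lt_left (zero_lt_one.trans hgt) hgt)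
  exact mem_charSpan_iff.mpr fun φ =>
    (A.valuation_le_one_iff _).mp ((hmax φ (Finset.mem_univ _)).trans hc₀)

/-- A connected model with Eisenstein constituents has integral spectrum. -/
theorem IsConnModel.le_charSpan_aux {r : ℕ} (hr : r.Prime) (hA : A.LiesOverPrime r) (n : ℕ) :
    ∀ (K : Type u) [AddCommGroup K] [DistribMulAction (A.inertiaSubgroupIn ℚ) K] [Fintype K]
      (M : Submodule A (K → Qbar)), IsConnModel A M → Nat.card K = n →
      (∃ k : ℕ, ∀ x : K, r ^ k • x = 0) →
      (∀ (g : A.inertiaSubgroupIn ℚ) (u : ℕ), IsCycloValue r (g : Γℚ) u →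
        ∃ N, ∀ x : K, (opAt g u)^[N] x = 0) →
      M ≤ charSpan A K := by
  induction n using Nat.strong_induction_on with
  | _ n ih =>
  intro K _ _ _ M hM hn hexp hnil
  classical
  rcases subsingleton_or_nontrivial K with hsub | hnt
  · refine fun F hF => mem_charSpan_iff.mpr fun φ => ?_
    rw [coeff_apply, Finset.sum_eq_single 0 (fun b _ hb => absurd (Subsingleton.elim b 0) hb)
      (fun h => absurd (Finset.mem_univ _) h), neg_zero, charFun_map_zero, mul_one,
      Nat.card_eq_one_iff_unique.mpr ⟨hsub, ⟨0⟩⟩, Nat.cast_one, inv_one, one_mul]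
    exact hM.mem F hF 0
  obtain ⟨x, hx0, hrx, hact⟩ :=
    exists_stable_line hr hexp (A.inertiaSubgroupIn ℚ).subtype hnil hnt
  let S : AddSubgroup K := AddSubgroup.zmultiples x
  have : Fintype S := Fintype.ofFinite S
  have hcard : Nat.card S = r := by
    have : Fact r.Prime := ⟨hr⟩
    rw [Nat.card_zmultiples, addOrderOf_eq_prime hrx hx0]
  have hact' : (∀ (g : A.inertiaSubgroupIn ℚ) (s : S), g • (s : K) = s) ∨
      ∀ (g : A.inertiaSubgroupIn ℚ) (u : ℕ), IsCycloValue r (g : Γℚ) u →
        ∀ s : S, g • (s : K) = u • (s : K) := by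
    rcases hact with h | h
    · refine Or.inl fun g ⟨s, hs⟩ => ?_
      obtain ⟨z, rfl⟩ := AddSubgroup.mem_zmultiples_iff.mp hs
      show g • z • x = z • x
      rw [smul_comm, h]
    · refine Or.inr fun g u hu ⟨s, hs⟩ => ?_
      obtain ⟨z, rfl⟩ := AddSubgroup.mem_zmultiples_iff.mp hs
      show g • z • x = u • z • x
      rw [smul_comm, h g u hu, smul_comm]
  have hstab : ∀ (g : A.inertiaSubgroupIn ℚ), ∀ s ∈ S, g • s ∈ S := fun g s hs => by
    rcases hact' with h | h
    · rw [h g ⟨s, hs⟩]; exact hs
    · obtain ⟨u, hu⟩ := exists_cycloValue hr (g : Γℚ)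
      rw [h g u hu ⟨s, hs⟩]
      exact S.nsmul_mem hs u
  let actS : DistribMulAction (A.inertiaSubgroupIn ℚ) S :=
    { smul := fun g s => ⟨g • (s : K), hstab g s s.2⟩
      one_smul := fun s => Subtype.ext (one_smul _ (s : K))
      mul_smul := fun g h s => Subtype.ext (mul_smul g h (s : K))
      smul_zero := fun g => Subtype.ext (smul_zero g)
      smul_add := fun g s t => Subtype.ext (smul_add g (s : K) (t : K)) }
  letI := actS
  have hMS := hM.restrict S.subtype S.subtype_injective (fun g s => rfl)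
  have hS : M.map (LinearMap.funLeft A Qbar S.subtype) ≤ charSpan A S :=
    hMS.le_charSpan_of_prime_card hr hA hcard <| hact'.imp
      (fun h g s => Subtype.ext (h g s)) (fun h g u hu s => Subtype.ext (h g u hu s))
  let π := QuotientAddGroup.mk' S
  let T : (A.inertiaSubgroupIn ℚ) → (K ⧸ S →+ K ⧸ S) := fun g =>
    QuotientAddGroup.map S S (DistribSMul.toAddMonoidHom K g) (fun s hs => hstab g s hs)
  letI : DistribMulAction (A.inertiaSubgroupIn ℚ) (K ⧸ S) :=
    { smul := fun g q => T g q
      one_smul := fun q => by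
        obtain ⟨a, rfl⟩ := QuotientAddGroup.mk'_surjective S q
        exact congrArg (QuotientAddGroup.mk' S) (one_smul (A.inertiaSubgroupIn ℚ) a)
      mul_smul := fun g h q => by
        obtain ⟨a, rfl⟩ := QuotientAddGroup.mk'_surjective S q
        exact congrArg (QuotientAddGroup.mk' S) (mul_smul g h a)
      smul_zero := fun g => map_zero (T g)
      smul_add := fun g => map_add (T g) }
  have : Fintype (K ⧸ S) := Fintype.ofFinite _
  have hactq : ∀ (g : A.inertiaSubgroupIn ℚ) (a : K),
      g • QuotientAddGroup.mk' S a = QuotientAddGroup.mk' S (g • a) := fun g a => rfl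
  have hM' := hM.descend hS hstab hactq
  have hlt : Nat.card (K ⧸ S) < n := by
    rw [← hn, AddSubgroup.card_eq_card_quotient_mul_card_addSubgroup S, hcard]
    exact lt_mul_of_one_lt_right Nat.card_pos hr.one_lt
  have hq := ih _ hlt (K ⧸ S) _ hM' rfl
    (by
      obtain ⟨k, hk⟩ := hexp
      refine ⟨k, fun q => ?_⟩
      obtain ⟨a, rfl⟩ := QuotientAddGroup.mk'_surjective S q
      rw [← map_nsmul, hk, map_zero])
    (fun g u hu => by
      obtain ⟨N, hN⟩ := hnil g u hu
      refine ⟨N, fun q => ?_⟩
      obtain ⟨a, rfl⟩ := QuotientAddGroup.mk'_surjective S q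
      rw [← ((opAt_map π (fun g a => (hactq g a).symm) g u).iterate_right N) a, hN, map_zero])
  have hinvar : ∀ F ∈ M, (∀ (a : K) (s : S), F (a + s) = F a) → F ∈ charSpan A K := by
    intro F hF hFS
    have heq : LinearMap.funLeft A Qbar π (fun q => F q.out) = F := funext fun a => by
      have hmem : -a + (π a).out ∈ S :=
        QuotientAddGroup.eq.mp (QuotientAddGroup.out_eq' (π a)).symm
      have := hFS a ⟨_, hmem⟩
      rwa [add_neg_cancel_left] at this
    have h1 := hq (show (fun q => F q.out) ∈ M.comap (LinearMap.funLeft A Qbar π) by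
      rw [Submodule.mem_comap, heq]; exact hF)
    have h2 := comp_mem_charSpan π h1
    rwa [show (fun q => F q.out) ∘ π = F from heq] at h2
  intro F hF
  rw [← sum_proj (S := S) F]
  refine Submodule.sum_mem _ fun ψ _ => ?_
  obtain ⟨F₀, hF₀, hF₀ψ⟩ := hMS.charFun_mem hS ψ
  set h := proj S ψ F₀ with hhdef
  have hh : h ∈ M := hM.proj_mem hS ψ hF₀
  have hh0 : h 0 = 1 := by
    rw [hhdef, proj_apply,
      show (fun s : S => F₀ (0 + s)) = charFun ψ from funext fun s => by
        rw [zero_add]; exact congrFun hF₀ψ s, coeff_charFun, if_pos rfl]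
  have hu : ∀ a, IsUnitAt A (h a) := fun a => isUnitAt_of_sub_one_mem (by
    have := hM.connected h hh a
    rwa [hh0] at this)
  have hinv := hM.inv_mem hh hu
  have hhc : h ∈ charSpan A K := hM.mem_charSpan_of_isotypic hS hinvar hh
    (fun a s => proj_translate ψ F₀ a s) hinv (fun a => (hu a).1)
  have hdec : proj S ψ F = h * ((fun a => (h a)⁻¹) * proj S ψ F) := funext fun a =>
    (mul_inv_cancel_left₀ (hu a).1 _).symm
  rw [hdec]
  refine mul_mem_charSpan hhc (hinvar _ (hM.mul_mem _ hinv _ (hM.proj_mem hS ψ hF)) fun a s => ?_)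
  simp only [Pi.mul_apply, hhdef, proj_translate]
  have h1 := charFun_ne_zero ψ s
  have h2 := (hu a).1
  field_simp

/-- A connected model with Eisenstein constituents has integral spectrum. -/
theorem IsConnModel.le_charSpan {K : Type u} [AddCommGroup K]
    [DistribMulAction (A.inertiaSubgroupIn ℚ) K] [Fintype K] {M : Submodule A (K → Qbar)}
    (hM : IsConnModel A M) {r : ℕ} (hr : r.Prime) (hA : A.LiesOverPrime r)
    (hexp : ∃ k : ℕ, ∀ x : K, r ^ k • x = 0)
    (hnil : ∀ (g : A.inertiaSubgroupIn ℚ) (u : ℕ), IsCycloValue r (g : Γℚ) u →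
      ∃ N, ∀ x : K, (opAt g u)^[N] x = 0) : M ≤ charSpan A K :=
  IsConnModel.le_charSpan_aux hr hA _ K M hM rfl hexp hnil

/-- All characters of a connected model with Eisenstein constituents are equivariant. -/
theorem IsConnModel.charFun_smul {K : Type u} [AddCommGroup K]
    [DistribMulAction (A.inertiaSubgroupIn ℚ) K] [Fintype K] {M : Submodule A (K → Qbar)}
    (hM : IsConnModel A M) {r : ℕ} (hr : r.Prime) (hA : A.LiesOverPrime r)
    (hexp : ∃ k : ℕ, ∀ x : K, r ^ k • x = 0)
    (hnil : ∀ (g : A.inertiaSubgroupIn ℚ) (u : ℕ), IsCycloValue r (g : Γℚ) u →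
      ∃ N, ∀ x : K, (opAt g u)^[N] x = 0)
    (φ : K →+ QbarMul) (g : A.inertiaSubgroupIn ℚ) (a : K) :
    charFun φ (g • a) = (g : Γℚ) (charFun φ a) := by
  classical
  have hle := hM.le_charSpan hr hA hexp hnil
  let φ' : K →+ QbarMul :=
    ((galMul (g : Γℚ)).comp φ).comp (DistribSMul.toAddMonoidHom K g⁻¹)
  suffices h : φ' = φ by
    conv_lhs => rw [← h]
    show (g : Γℚ) (charFun φ (g⁻¹ • g • a)) = _
    rw [inv_smul_smul]
  by_contra hne
  have hspan : charFun φ ∈ Submodule.span A
      {F : K → Qbar | F ∈ M ∧ ∀ (g : A.inertiaSubgroupIn ℚ) (a : K), F (g • a) = (g : Γℚ) (F a)} :=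
    hM.spanned (hM.charFun_mem hle φ)
  have key : ∀ G ∈ Submodule.span A
      {F : K → Qbar | F ∈ M ∧ ∀ (g : A.inertiaSubgroupIn ℚ) (a : K), F (g • a) = (g : Γℚ) (F a)},
      G ∈ M ∧ ∀ ψ, coeff ψ ((fun x => (g : Γℚ) (G (g⁻¹ • x))) - G) ∈ A.nonunits := by
    intro G hG
    induction hG using Submodule.span_induction with
    | mem F hF =>
      refine ⟨hF.1, fun ψ => ?_⟩
      have : (fun x => (g : Γℚ) (F (g⁻¹ • x))) - F = 0 := funext fun x => by
        rw [Pi.sub_apply, ← hF.2, smul_inv_smul, sub_self, Pi.zero_apply]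
      rw [this, map_zero]
      exact zero_mem_nonunits
    | zero =>
      refine ⟨M.zero_mem, fun ψ => ?_⟩
      rw [show ((fun x => (g : Γℚ) ((0 : K → Qbar) (g⁻¹ • x))) - 0) = (0 : K → Qbar) from
        funext fun x => by simp, map_zero]
      exact zero_mem_nonunits
    | add F G _ _ hF hG =>
      refine ⟨M.add_mem hF.1 hG.1, fun ψ => ?_⟩
      rw [show ((fun x => (g : Γℚ) ((F + G) (g⁻¹ • x))) - (F + G)) =
        ((fun x => (g : Γℚ) (F (g⁻¹ • x))) - F) + ((fun x => (g : Γℚ) (G (g⁻¹ • x))) - G) from
        funext fun x => by simp only [Pi.add_apply, Pi.sub_apply, map_add]; ring, map_add]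
      exact add_mem_nonunits (hF.2 ψ) (hG.2 ψ)
    | smul c F _ hF =>
      refine ⟨M.smul_mem c hF.1, fun ψ => ?_⟩
      have hc := FermatLib.EC.sub_mem_nonunits_of_mem_inertiaSubgroupIn A g.2 c.2
      have hgc : (g : Γℚ) c ∈ A := by
        simpa using A.add_mem _ _ (mem_of_mem_nonunits hc) c.2
      rw [show ((fun x => (g : Γℚ) ((c • F) (g⁻¹ • x))) - c • F) =
        (g : Γℚ) c • ((fun x => (g : Γℚ) (F (g⁻¹ • x))) - F) + ((g : Γℚ) c - c) • F from
        funext fun x => by
          simp only [Pi.add_apply, Pi.sub_apply, Pi.smul_apply, smul_eq_mul]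
          rw [← IsScalarTower.algebraMap_smul Qbar c (F (g⁻¹ • x)),
            ← IsScalarTower.algebraMap_smul Qbar c (F x), smul_eq_mul, smul_eq_mul, map_mul,
            ValuationSubring.algebraMap_apply]
          ring, map_add, map_smul, map_smul, smul_eq_mul, smul_eq_mul, mul_comm (_ - _)]
      exact add_mem_nonunits (mul_mem_nonunits hgc (hF.2 ψ))
        (mul_mem_nonunits (mem_charSpan_iff.mp (hle hF.1) ψ) hc)
  have h := (key _ hspan).2 φ
  rw [show (fun x => (g : Γℚ) (charFun φ (g⁻¹ • x))) = charFun φ' from rfl, map_sub,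
    coeff_charFun, coeff_charFun, if_neg hne, if_pos rfl, zero_sub] at h
  exact one_not_mem_nonunits (A := A) (by simpa using mul_mem_nonunits (A.neg_mem _ A.one_mem) h)

end FermatLib.Mazur.FlatConn
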