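import Fermat.Agent.Mazur.Defs
import Fermat.Agent.Mazur.FlatModelMain
import Mathlib.RingTheory.Finiteness.Defs

/-!
# Integral models of finite Galois modules: multiplicative connected part

A model of a finite Galois module at a place `A` is a ring of `A`-integral, Galois equivariant
functions on it, separating points and closed under comultiplication (for instance the image of
a finite flat Hopf algebra). When the inertia constituents are trivial or cyclotomic, the
connected points are of multiplicative type and the connected-étale extension classes are units.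
-/

set_option autoImplicit false
set_option linter.style.haveILetI false
set_option linter.unusedSectionVars false

noncomputable section

namespace FermatLib.Mazur

local notation "Qbar" => AlgebraicClosure ℚ
local notation "Γℚ" => (AlgebraicClosure ℚ ≃ₐ[ℚ] AlgebraicClosure ℚ)

/-- An integral model of the Galois module `V` at the place `A`. -/
structure IsFlatModel (A : ValuationSubring Qbar) {V : Type*} [AddCommGroup V]
    [DistribMulAction Γℚ V] (H : Subring (V → Qbar)) : Prop where
  mem : ∀ h ∈ H, ∀ a : V, h a ∈ A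
  fg : ∃ s : Finset (V → Qbar), (∀ h ∈ s, h ∈ H) ∧
    ∀ h ∈ H, h ∈ Submodule.span A (s : Set (V → Qbar))
  separating : ∀ a b : V, (∀ h ∈ H, h a = h b) → a = b
  comul : ∀ h ∈ H, ∃ (n : ℕ) (g g' : Fin n → V → Qbar), (∀ i, g i ∈ H) ∧ (∀ i, g' i ∈ H) ∧
    ∀ a b : V, h (a + b) = ∑ i, g i a * g' i b
  equivariant : ∀ h ∈ H, ∀ σ ∈ A.inertiaSubgroupIn ℚ, ∀ a : V, h (σ • a) = σ (h a)

/-- The points reducing to the origin in a model. -/
def IsConnectedPoint (A : ValuationSubring Qbar) {V : Type*} [AddCommGroup V]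
    (H : Subring (V → Qbar)) (a : V) : Prop :=
  ∀ h ∈ H, h a - h 0 ∈ A.nonunits

variable {r : ℕ} {A : ValuationSubring Qbar} {V : Type*} [AddCommGroup V] [Finite V]
  [DistribMulAction Γℚ V] {H : Subring (V → Qbar)}

open FlatFourier FlatConn

namespace IsFlatModel

theorem apply_mem_of_mem_span (hH : IsFlatModel A H) {F : V → Qbar}
    (hF : F ∈ Submodule.span A (H : Set (V → Qbar))) (a : V) : F a ∈ A := by
  induction hF using Submodule.span_induction with
  | mem h hh => exact hH.mem h hh a
  | zero => exact A.zero_mem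
  | add x y _ _ hx hy => exact A.add_mem _ _ hx hy
  | smul c x _ hx => exact A.mul_mem _ _ c.2 hx

theorem translate_mem_span (hH : IsFlatModel A H) {F : V → Qbar}
    (hF : F ∈ Submodule.span A (H : Set (V → Qbar))) (b : V) :
    (fun a => F (a + b)) ∈ Submodule.span A (H : Set (V → Qbar)) := by
  induction hF using Submodule.span_induction with
  | mem h hh =>
    obtain ⟨n, g, g', hg, hg', heq⟩ := hH.comul h hh
    have h1 : (fun a => h (a + b)) = ∑ i, (⟨g' i b, hH.mem _ (hg' i) b⟩ : A) • g i :=
      funext fun a => by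
        rw [heq, Finset.sum_apply]
        exact Finset.sum_congr rfl fun i _ => mul_comm _ _
    rw [h1]
    exact Submodule.sum_mem _ fun i _ => Submodule.smul_mem _ _ (Submodule.subset_span (hg i))
  | zero => exact zero_mem _
  | add x y _ _ hx hy => exact add_mem hx hy
  | smul c x _ hx => exact Submodule.smul_mem _ c hx

theorem isConnectedPoint_add (hH : IsFlatModel A H) {a b : V} (ha : IsConnectedPoint A H a)
    (hb : IsConnectedPoint A H b) : IsConnectedPoint A H (a + b) := by
  intro h hh
  obtain ⟨n, g, g', hg, hg', heq⟩ := hH.comul h hh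
  have h0 : h 0 = ∑ i, g i 0 * g' i 0 := by rw [← heq, add_zero]
  rw [h0, heq, ← Finset.sum_sub_distrib]
  refine sum_mem_nonunits _ fun i _ => ?_
  rw [show g i a * g' i b - g i 0 * g' i 0 =
    g' i b * (g i a - g i 0) + g i 0 * (g' i b - g' i 0) by ring]
  exact add_mem_nonunits (mul_mem_nonunits (hH.mem _ (hg' i) b) (ha _ (hg i)))
    (mul_mem_nonunits (hH.mem _ (hg i) 0) (hb _ (hg' i)))

theorem isConnectedPoint_zero : IsConnectedPoint A H (0 : V) := fun h _ => by
  rw [sub_self]; exact zero_mem_nonunits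

theorem isConnectedPoint_neg (hH : IsFlatModel A H) {a : V} (ha : IsConnectedPoint A H a) :
    IsConnectedPoint A H (-a) := by
  have h : ∀ n : ℕ, IsConnectedPoint A H (n • a) := fun n => by
    induction n with
    | zero => rw [zero_smul]; exact isConnectedPoint_zero
    | succ n ih => rw [succ_nsmul]; exact hH.isConnectedPoint_add ih ha
  have h2 : (addOrderOf a - 1) • a = -a := by
    rw [eq_neg_iff_add_eq_zero, ← succ_nsmul, Nat.sub_add_cancel (addOrderOf_pos a),
      addOrderOf_nsmul_eq_zero]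
  exact h2 ▸ h _

/-- The subgroup of connected points. -/
def connectedPoints (hH : IsFlatModel A H) : AddSubgroup V where
  carrier := {a | IsConnectedPoint A H a}
  zero_mem' := isConnectedPoint_zero
  add_mem' := hH.isConnectedPoint_add
  neg_mem' := hH.isConnectedPoint_neg

theorem smul_sub_mem_nonunits (hH : IsFlatModel A H) {h : V → Qbar} (hh : h ∈ H) {σ : Γℚ}
    (hσ : σ ∈ A.inertiaSubgroupIn ℚ) (a : V) : h (σ • a) - h a ∈ A.nonunits := by
  rw [hH.equivariant h hh σ hσ]
  exact FermatLib.EC.sub_mem_nonunits_of_mem_inertiaSubgroupIn A hσ (hH.mem h hh a)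

theorem smul_mem_connectedPoints (hH : IsFlatModel A H) {σ : Γℚ}
    (hσ : σ ∈ A.inertiaSubgroupIn ℚ) {a : V} (ha : a ∈ hH.connectedPoints) :
    σ • a ∈ hH.connectedPoints := fun h hh => by
  rw [← sub_add_sub_cancel (h (σ • a)) (h a) (h 0)]
  exact add_mem_nonunits (hH.smul_sub_mem_nonunits hh hσ a) (ha h hh)

theorem smul_sub_mem_connectedPoints (hH : IsFlatModel A H) {σ : Γℚ}
    (hσ : σ ∈ A.inertiaSubgroupIn ℚ) (v : V) : σ • v - v ∈ hH.connectedPoints := fun h hh => by
  obtain ⟨n, g, g', hg, hg', heq⟩ := hH.comul h hh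
  have h0 : h 0 = ∑ i, g i v * g' i (-v) := by rw [← heq, add_neg_cancel]
  rw [h0, sub_eq_add_neg (σ • v) v, heq, ← Finset.sum_sub_distrib]
  refine sum_mem_nonunits _ fun i _ => ?_
  rw [← sub_mul, mul_comm]
  exact mul_mem_nonunits (hH.mem _ (hg' i) _) (hH.smul_sub_mem_nonunits (hg i) hσ v)

/-- The action of inertia on the connected points. -/
@[instance_reducible]
def connectedAction (hH : IsFlatModel A H) :
    DistribMulAction (A.inertiaSubgroupIn ℚ) hH.connectedPoints where
  smul g a := ⟨(g : Γℚ) • (a : V), hH.smul_mem_connectedPoints g.2 a.2⟩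
  one_smul a := Subtype.ext (one_smul Γℚ (a : V))
  mul_smul g h a := Subtype.ext (mul_smul (g : Γℚ) (h : Γℚ) (a : V))
  smul_zero g := Subtype.ext (smul_zero (g : Γℚ))
  smul_add g a b := Subtype.ext (smul_add (g : Γℚ) (a : V) (b : V))

/-- The restriction of the span of the model to the connected points. -/
def connectedModel (hH : IsFlatModel A H) : Submodule A (hH.connectedPoints → Qbar) :=
  (Submodule.span A (H : Set (V → Qbar))).map
    (LinearMap.funLeft A Qbar hH.connectedPoints.subtype)

theorem isConnModel (hH : IsFlatModel A H) :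
    @IsConnModel A _ _ hH.connectedAction hH.connectedModel := by
  letI := hH.connectedAction
  constructor
  · exact ⟨1, Submodule.subset_span H.one_mem, rfl⟩
  · rintro _ ⟨F, hF, rfl⟩ _ ⟨G, hG, rfl⟩
    refine ⟨F * G, ?_, rfl⟩
    have : F * G ∈ Submodule.span A (H : Set (V → Qbar)) * Submodule.span A (H : Set (V → Qbar)) :=
      Submodule.mul_mem_mul hF hG
    rw [Submodule.span_mul_span] at this
    refine Submodule.span_mono ?_ this
    rintro _ ⟨x, hx, y, hy, rfl⟩
    exact H.mul_mem hx hy
  · rintro _ ⟨F, hF, rfl⟩ a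
    exact hH.apply_mem_of_mem_span hF _
  · rintro _ ⟨F, hF, rfl⟩ a
    show F a - F ((0 : hH.connectedPoints) : V) ∈ A.nonunits
    rw [AddSubgroup.coe_zero]
    induction hF using Submodule.span_induction with
    | mem h hh => exact a.2 h hh
    | zero => rw [Pi.zero_apply, Pi.zero_apply, sub_self]; exact zero_mem_nonunits
    | add x y _ _ hx hy =>
      rw [Pi.add_apply, Pi.add_apply, add_sub_add_comm]; exact add_mem_nonunits hx hy
    | smul c x _ hx =>
      rw [smul_apply_eq, smul_apply_eq, ← mul_sub]; exact mul_mem_nonunits c.2 hx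
  · obtain ⟨s, hs, hspan⟩ := hH.fg
    refine Submodule.FG.map _ ⟨s, le_antisymm (Submodule.span_mono hs) (Submodule.span_le.mpr ?_)⟩
    exact fun h hh => hspan h hh
  · exact fun a b hab => Subtype.ext (hH.separating _ _ fun h hh =>
      hab _ ⟨h, Submodule.subset_span hh, rfl⟩)
  · rintro _ ⟨F, hF, rfl⟩
    suffices h : ∃ (n : ℕ) (g g' : Fin n → V → Qbar),
        (∀ i, g i ∈ Submodule.span A (H : Set (V → Qbar))) ∧
        (∀ i, g' i ∈ Submodule.span A (H : Set (V → Qbar))) ∧
        ∀ a b, F (a + b) = ∑ i, g i a * g' i b by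
      obtain ⟨n, g, g', hg, hg', heq⟩ := h
      exact ⟨n, fun i a => g i a, fun i a => g' i a, fun i => ⟨g i, hg i, rfl⟩,
        fun i => ⟨g' i, hg' i, rfl⟩, fun a b => heq a b⟩
    induction hF using Submodule.span_induction with
    | mem h hh =>
      obtain ⟨n, g, g', hg, hg', heq⟩ := hH.comul h hh
      exact ⟨n, g, g', fun i => Submodule.subset_span (hg i),
        fun i => Submodule.subset_span (hg' i), heq⟩
    | zero => exact ⟨0, fun i => Fin.elim0 i, fun i => Fin.elim0 i, fun i => Fin.elim0 i,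
        fun i => Fin.elim0 i, fun a b => by simp⟩
    | add x y _ _ hx hy =>
      obtain ⟨n, g, g', hg, hg', heq⟩ := hx
      obtain ⟨m, f, f', hf, hf', heq'⟩ := hy
      refine ⟨n + m, Fin.append g f, Fin.append g' f', fun i => ?_, fun i => ?_, fun a b => ?_⟩
      · induction i using Fin.addCases <;> simp [hg, hf]
      · induction i using Fin.addCases <;> simp [hg', hf']
      · rw [Fin.sum_univ_add, Pi.add_apply, heq, heq']
        simp
    | smul c x _ hx =>
      obtain ⟨n, g, g', hg, hg', heq⟩ := hx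
      exact ⟨n, fun i => c • g i, g', fun i => Submodule.smul_mem _ c (hg i), hg',
        fun a b => by simp only [smul_apply_eq, heq, Finset.mul_sum, mul_assoc]⟩
  · rw [connectedModel, Submodule.map_span]
    refine Submodule.span_le.mpr ?_
    rintro _ ⟨h, hh, rfl⟩
    refine Submodule.subset_span ⟨?_, fun g a => hH.equivariant h hh g g.2 a⟩
    rw [← Submodule.map_span]
    exact ⟨h, Submodule.subset_span hh, rfl⟩

theorem connected_nilpotent (hH : IsFlatModel A H)
    (hnil : ∀ g ∈ A.inertiaSubgroupIn ℚ, ∀ u : ℕ, IsCycloValue r g u →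
      ∃ N : ℕ, ∀ x : V, (eisOp g u)^[N] x = 0) :
    letI := hH.connectedAction
    ∀ (g : A.inertiaSubgroupIn ℚ) (u : ℕ), IsCycloValue r (g : Γℚ) u →
      ∃ N, ∀ x : hH.connectedPoints, (StableLine.opAt g u)^[N] x = 0 := by
  letI := hH.connectedAction
  intro g u hu
  obtain ⟨N, hN⟩ := hnil g g.2 u hu
  refine ⟨N, fun x => Subtype.ext ?_⟩
  have h : Function.Semiconj (Subtype.val : hH.connectedPoints → V)
      (StableLine.opAt g u) (eisOp (g : Γℚ) u) := fun y => rfl
  exact (h.iterate_right N x).trans (hN x)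

theorem connected_exponent (hH : IsFlatModel A H) (hexp : ∃ k : ℕ, ∀ x : V, r ^ k • x = 0) :
    ∃ k : ℕ, ∀ x : hH.connectedPoints, r ^ k • x = 0 :=
  hexp.imp fun _ hk x => Subtype.ext (hk x)

/-- Connected points are of multiplicative type. -/
theorem connected_equivariant (hH : IsFlatModel A H) (hr : r.Prime)
    (hA : A.LiesOverPrime r) (hexp : ∃ k : ℕ, ∀ x : V, r ^ k • x = 0)
    (hnil : ∀ g ∈ A.inertiaSubgroupIn ℚ, ∀ u : ℕ, IsCycloValue r g u →
      ∃ N : ℕ, ∀ x : V, (eisOp g u)^[N] x = 0)
    (φ : V →+ QbarMul) {σ : Γℚ} (hσ : σ ∈ A.inertiaSubgroupIn ℚ) {x : V}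
    (hx : IsConnectedPoint A H x) : φ (σ • x) = galMul σ (φ x) := by
  letI := hH.connectedAction
  have : Fintype hH.connectedPoints := Fintype.ofFinite _
  have h := hH.isConnModel.charFun_smul hr hA (hH.connected_exponent hexp)
    (hH.connected_nilpotent hnil) (φ.comp hH.connectedPoints.subtype) ⟨σ, hσ⟩ ⟨x, hx⟩
  exact mulVal_injective h

/-- The connected-étale extension of a model is given by units. -/
theorem isUnitKummer_smul_sub (hH : IsFlatModel A H) (hr : r.Prime)
    (hA : A.LiesOverPrime r) (hexp : ∃ k : ℕ, ∀ x : V, r ^ k • x = 0)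
    (hnil : ∀ g ∈ A.inertiaSubgroupIn ℚ, ∀ u : ℕ, IsCycloValue r g u →
      ∃ N : ℕ, ∀ x : V, (eisOp g u)^[N] x = 0)
    (φ : V →+ QbarMul) (v : V) :
    IsUnitKummer A fun σ => mulVal (φ (σ • v - v)) := by
  classical
  set W := hH.connectedPoints
  letI := hH.connectedAction
  have : Fintype W := Fintype.ofFinite _
  set ψ : W →+ QbarMul := φ.comp W.subtype with hψdef
  have hM := hH.isConnModel
  have hexp' := hH.connected_exponent hexp
  have hnil' := hH.connected_nilpotent hnil
  have hle := hM.le_charSpan hr hA hexp' hnil'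
  obtain ⟨F, hF, hFψ⟩ := hM.charFun_mem hle ψ
  have hcoef : ∀ h ∈ H, coeff ψ (fun w : W => h w) ∈ A := fun h hh =>
    mem_charSpan_iff.mp (hle ⟨h, Submodule.subset_span hh, rfl⟩) ψ
  have hmem : ∀ h ∈ H, proj W ψ h v ∈ A := by
    intro h hh
    obtain ⟨n, g, g', hg, hg', heq⟩ := hH.comul h hh
    have h1 : (fun w : W => h (v + w)) = ∑ i, g i v • fun w : W => g' i w := funext fun w => by
      simp only [heq, Finset.sum_apply, Pi.smul_apply, smul_eq_mul]
    rw [proj_apply, h1, map_sum]
    refine A.toSubring.sum_mem fun i _ => ?_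
    rw [map_smul]
    exact A.mul_mem _ _ (hH.mem _ (hg i) v) (hcoef _ (hg' i))
  obtain ⟨h, hh, hunit⟩ : ∃ h ∈ H, proj W ψ h v ∉ A.nonunits := by
    by_contra hno
    have hall : ∀ G ∈ Submodule.span A (H : Set (V → Qbar)), proj W ψ G v ∈ A.nonunits := by
      intro G hG
      induction hG using Submodule.span_induction with
      | mem h hh => exact by_contra fun h' => hno ⟨h, hh, h'⟩
      | zero => rw [map_zero]; exact zero_mem_nonunits
      | add x y _ _ hx hy => rw [map_add]; exact add_mem_nonunits hx hy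
      | smul c x _ hx =>
        rw [← IsScalarTower.algebraMap_smul Qbar c x, map_smul, Pi.smul_apply, smul_eq_mul]
        exact mul_mem_nonunits c.2 hx
    have h1 := hall _ (hH.translate_mem_span hF (-v))
    rw [proj_apply, show (fun w : W => F (v + w + -v)) = charFun ψ from funext fun w => by
      rw [add_neg_cancel_comm]; exact congrFun hFψ w, coeff_charFun, if_pos rfl] at h1
    exact one_not_mem_nonunits h1
  refine ⟨proj W ψ h v, isUnitAt_of_not_mem_nonunits (hmem h hh) hunit, fun σ hσ => ?_⟩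
  have h1 := proj_apply_map σ (DistribSMul.toAddMonoidHom V σ) (MulAction.injective σ)
    (fun s hs => hH.smul_mem_connectedPoints hσ hs) (hH.equivariant h hh σ hσ)
    (fun s => hM.charFun_smul hr hA hexp' hnil' ψ ⟨σ, hσ⟩ s) v
  have h2 := proj_translate ψ h v ⟨σ • v - v, hH.smul_sub_mem_connectedPoints hσ v⟩
  rw [add_sub_cancel] at h2
  have h3 : proj W ψ h v ≠ 0 := fun h0 => hunit (h0 ▸ zero_mem_nonunits)
  rw [eq_div_iff h3, ← h1]
  exact h2.symm

/-- Inertia moves every nonzero connected point of odd prime order. -/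
theorem eq_zero_of_connected_of_fixed (hH : IsFlatModel A H) (hr : r.Prime)
    (hr2 : r ≠ 2) (hA : A.LiesOverPrime r) (hexp : ∃ k : ℕ, ∀ x : V, r ^ k • x = 0)
    (hnil : ∀ g ∈ A.inertiaSubgroupIn ℚ, ∀ u : ℕ, IsCycloValue r g u →
      ∃ N : ℕ, ∀ x : V, (eisOp g u)^[N] x = 0)
    {x : V} (hx : IsConnectedPoint A H x) (hrx : r • x = 0)
    (hfix : ∀ σ ∈ A.inertiaSubgroupIn ℚ, σ • x = x) : x = 0 := by
  by_contra hne
  obtain ⟨φ, hφ⟩ := CharDual.exists_apply_ne_zero hne
  obtain ⟨σ, hσ, ζ, hζ, hζσ⟩ := exists_inertia_cyclo_ne_one hr hr2 hA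
  have : Fact r.Prime := ⟨hr⟩
  have : NeZero r := ⟨hr.ne_zero⟩
  set z := mulVal (φ x) with hz
  have hzr : z ^ r = 1 := by
    have h1 : r • φ x = 0 := by rw [← map_nsmul, hrx, map_zero]
    have h2 : mulVal (r • φ x) = z ^ r := Units.val_pow_eq_pow_val _ _
    rw [← h2, h1, mulVal_zero]
  have hprim : IsPrimitiveRoot z r := IsPrimitiveRoot.iff_orderOf.mpr
    (orderOf_eq_prime hzr fun h1 => hφ (mulVal_injective (h1.trans mulVal_zero.symm)))
  obtain ⟨i, -, rfl⟩ := hprim.eq_pow_of_pow_eq_one hζ
  have hσz : σ z = z := by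
    have := congrArg mulVal (hH.connected_equivariant hr hA hexp hnil φ hσ hx)
    rw [hfix σ hσ] at this
    exact this.symm
  exact hζσ ((map_pow σ z i).trans (congrArg (· ^ i) hσz))

end IsFlatModel

end FermatLib.Mazur
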