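import Mathlib.RingTheory.IntegralClosure.IsIntegralClosure.Basic
import Mathlib.RingTheory.TensorProduct.Finite
import Fermat.Prelude.Def_GaloisRep_Flat
import Fermat.Agent.Mazur.FlatModel

/-!
# From a finite Hopf algebra to an integral model

The functions on the points of a finite Hopf algebra over `ℤ` localised at `r` form an integral
model, and the points congruent to the origin are connected.
-/

set_option autoImplicit false

noncomputable section

namespace FermatLib.Mazur

open WithConv

local notation "Qbar" => AlgebraicClosure ℚ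
local notation "Γℚ" => (AlgebraicClosure ℚ ≃ₐ[ℚ] AlgebraicClosure ℚ)
local notation "ℤloc" => GaloisRep.ratLocalizedAt

/-- `ℤ` localised at `r` is contained in every valuation ring over `r`. -/
theorem algebraMap_ratLocalizedAt_mem {r : ℕ} (hr : r.Prime) {A : ValuationSubring Qbar}
    (hA : A.LiesOverPrime r) (c : ℤloc r) : algebraMap (ℤloc r) Qbar c ∈ A := by
  show algebraMap ℚ Qbar (c : ℚ) ∈ A
  have hd : ¬ r ∣ (c : ℚ).den := fun h =>
    hr.ne_one (Nat.eq_one_of_dvd_coprimes c.2 h dvd_rfl)
  rw [← Rat.num_div_den (c : ℚ), map_div₀, map_intCast, map_natCast, div_eq_mul_inv]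
  refine A.mul_mem _ _ (intCast_mem A _) (FlatConn.isUnitAt_of_not_mem_nonunits
    (natCast_mem A _) fun hmem => ?_).2.2
  have h1 : ((c : ℚ).den : A) ∈ IsLocalRing.maximalIdeal A :=
    ValuationSubring.coe_mem_nonunits_iff.mp (by simpa using hmem)
  have h2 : (r : A) ∈ IsLocalRing.maximalIdeal A :=
    ValuationSubring.coe_mem_nonunits_iff.mp (by simpa [ValuationSubring.LiesOverPrime] using hA)
  obtain ⟨a, b, hab⟩ : ∃ a b : ℤ, a * ((c : ℚ).den : ℤ) + b * (r : ℤ) = 1 := by
    obtain ⟨a, b, h⟩ := ((hr.coprime_iff_not_dvd.mpr hd).symm).isCoprime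
    exact ⟨a, b, h⟩
  have h3 : (1 : A) ∈ IsLocalRing.maximalIdeal A := by
    have h4 : ((a : A) * ((c : ℚ).den : A) + (b : A) * (r : A)) = 1 := by
      exact_mod_cast congrArg (Int.cast : ℤ → A) hab
    rw [← h4]
    exact Ideal.add_mem _ (Ideal.mul_mem_left _ _ h1) (Ideal.mul_mem_left _ _ h2)
  exact (IsLocalRing.maximalIdeal.isMaximal A).ne_top ((Ideal.eq_top_iff_one _).mpr h3)

end FermatLib.Mazur
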