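import Fermat.Agent.Igusa.TorsionModel.FunctionHopf
import Fermat.Agent.Mazur.FlatModelHopf

/-!
# Integral models from finite algebras of equivariant functions
-/

set_option autoImplicit false

noncomputable section

open scoped TensorProduct

namespace FermatLib.Mazur

open FermatLib.Igusa.TorsionModel

local notation "Qbar" => AlgebraicClosure ℚ
local notation "Γℚ" => (AlgebraicClosure ℚ ≃ₐ[ℚ] AlgebraicClosure ℚ)

variable {r : ℕ} {M : Type} [AddCommGroup M] [Finite M] [DistribMulAction Γℚ M]

local notation "ℤloc" => GaloisRep.ratLocalizedAt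

/-- A finite algebra of equivariant functions spanning all functions and closed under addition of
the argument is an integral model. -/
theorem isFlatModel_of_functions (hr : r.Prime) {A : ValuationSubring Qbar}
    (hA : A.LiesOverPrime r) (H : Subalgebra (ℤloc r) (M → Qbar))
    (hfin : Module.Finite (ℤloc r) H)
    (heq : ∀ f ∈ H, ∀ (g : Γℚ) (z : M), f (g • z) = g (f z))
    (hspan : Submodule.span Qbar (H : Set (M → Qbar)) = ⊤)
    (hadd : ∀ f : H, ∃ x : H ⊗[ℤloc r] H, ∀ q, eval₂ H x q = (f : M → Qbar) (q.1 + q.2)) :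
    IsFlatModel A H.toSubring where
  mem f hf a := by
    let _ : Algebra (ℤloc r) A :=
      ((algebraMap (ℤloc r) Qbar).codRestrict A.toSubring
        (algebraMap_ratLocalizedAt_mem hr hA)).toAlgebra
    have : IsScalarTower (ℤloc r) A Qbar := IsScalarTower.of_algebraMap_eq fun c => rfl
    have h1 : IsIntegral (ℤloc r) (f a) :=
      (IsIntegral.of_finite (ℤloc r) (⟨f, hf⟩ : H)).map (evalPt H a)
    obtain ⟨y, hy⟩ := IsIntegrallyClosed.isIntegral_iff.mp (h1.tower_top (A := A))
    exact hy ▸ y.2
  fg := by
    classical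
    obtain ⟨s, hs⟩ := (Module.Finite.fg_top : (⊤ : Submodule (ℤloc r) H).FG)
    refine ⟨s.image Subtype.val, fun g hg => ?_, fun h hh => ?_⟩
    · obtain ⟨x, -, rfl⟩ := Finset.mem_image.mp hg
      exact x.2
    · rw [Finset.coe_image]
      have hh' : (⟨h, hh⟩ : H) ∈ Submodule.span (ℤloc r) (s : Set H) := hs ▸ Submodule.mem_top
      show ((⟨h, hh⟩ : H) : M → Qbar) ∈ _
      generalize (⟨h, hh⟩ : H) = x at hh'
      induction hh' using Submodule.span_induction with
      | mem x hx => exact Submodule.subset_span ⟨x, hx, rfl⟩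
      | zero => exact zero_mem _
      | add x y _ _ hx hy => exact add_mem hx hy
      | smul c x _ hx =>
        rw [show ((c • x : H) : M → Qbar) =
            (⟨_, algebraMap_ratLocalizedAt_mem hr hA c⟩ : A) • (x : M → Qbar) from
          funext fun a => Algebra.smul_def c ((x : M → Qbar) a)]
        exact Submodule.smul_mem _ _ hx
  separating a b hab := by
    classical
    have h : ∀ F ∈ Submodule.span Qbar (H : Set (M → Qbar)), F a = F b := by
      intro F hF
      induction hF using Submodule.span_induction with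
      | mem x hx => exact hab x hx
      | zero => rfl
      | add x y _ _ hx hy => rw [Pi.add_apply, Pi.add_apply, hx, hy]
      | smul c x _ hx => rw [Pi.smul_apply, Pi.smul_apply, hx]
    have h1 := h (Pi.single a 1) (hspan ▸ Submodule.mem_top)
    by_contra hne
    rw [Pi.single_eq_same, Pi.single_eq_of_ne (Ne.symm hne)] at h1
    exact one_ne_zero h1
  comul f hf := by
    obtain ⟨x, hx⟩ := hadd ⟨f, hf⟩
    suffices h : ∃ (n : ℕ) (g g' : Fin n → M → Qbar), (∀ i, g i ∈ H) ∧ (∀ i, g' i ∈ H) ∧
        ∀ q, eval₂ H x q = ∑ i, g i q.1 * g' i q.2 by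
      obtain ⟨n, g, g', hg, hg', h⟩ := h
      exact ⟨n, g, g', hg, hg', fun a b => (hx (a, b)).symm.trans (h (a, b))⟩
    clear hx
    induction x using TensorProduct.induction_on with
    | zero => exact ⟨0, Fin.elim0, Fin.elim0, fun i => i.elim0, fun i => i.elim0, fun q => by simp⟩
    | tmul u v =>
      exact ⟨1, fun _ => u, fun _ => v, fun _ => u.2, fun _ => v.2, fun q => by
        rw [Fin.sum_univ_one]; exact eval₂_tmul H u v q⟩
    | add x y hx hy =>
      obtain ⟨n, g, g', hg, hg', h⟩ := hx
      obtain ⟨m, f, f', hf, hf', h'⟩ := hy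
      refine ⟨n + m, Fin.append g f, Fin.append g' f', fun i => ?_, fun i => ?_, fun q => ?_⟩
      · induction i using Fin.addCases <;> simp [hg, hf]
      · induction i using Fin.addCases <;> simp [hg', hf']
      · rw [map_add, Pi.add_apply, h, h', Fin.sum_univ_add]
        simp
  equivariant f hf σ _ a := heq f hf σ a

end FermatLib.Mazur
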