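import Fermat.Agent.Mazur.GunitFiniteLevel
import Mathlib.GroupTheory.Perm.Cycle.Type

/-!
# Characters of `Gal(ℚ̄/ℚ)` unramified outside one prime `p`

A homomorphism with open kernel to a commutative group, of exponent prime to `p` and unramified
outside `p`, factors through the mod `p` cyclotomic character (tame inertia + Minkowski).
-/

set_option autoImplicit false
set_option linter.style.haveILetI false

open scoped NumberField Pointwise

namespace FermatLib.Mazur

local notation "Qbar" => AlgebraicClosure ℚ
local notation "Γℚ" => (AlgebraicClosure ℚ ≃ₐ[ℚ] AlgebraicClosure ℚ)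

/-- A homomorphism with open kernel which is unramified everywhere is trivial. -/
theorem eq_one_of_unramified_everywhere {M : Type*} [Group M] (ψ : Γℚ →* M)
    (hψ : IsOpen (ψ.ker : Set Γℚ))
    (hunr : ∀ l : ℕ, l.Prime → ∀ A : ValuationSubring Qbar, A.LiesOverPrime l →
      ∀ σ ∈ A.inertiaSubgroupIn ℚ, ψ σ = 1) : ψ = 1 := by
  obtain ⟨F, hF, -, hFK⟩ := exists_level_of_isOpen ψ.ker hψ
  exact FermatLib.EC.monoidHom_eq_one_of_forall_inertia ψ F
    (fun σ hσ => by rw [hFK] at hσ; exact hσ) hunr

end FermatLib.Mazur
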