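import Fermat.Agent.Mazur.LocalUnit
import Fermat.Agent.Mazur.GunitChar
import Fermat.Agent.Galois.TransferCyclo
import Mathlib.LinearAlgebra.LinearIndependent.Basic

/-!
# Inertia on abelian extensions, roots of unity, and Hilbert 90 on a subgroup
-/

set_option autoImplicit false
set_option linter.style.haveILetI false

noncomputable section

open scoped NumberField Pointwise

namespace FermatLib.Mazur

local notation "Qbar" => AlgebraicClosure ℚ
local notation "Γℚ" => (AlgebraicClosure ℚ ≃ₐ[ℚ] AlgebraicClosure ℚ)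

/-- In an abelian extension inertia only depends on the rational prime. -/
theorem apply_eq_one_of_inertia_of_comm {M : Type*} [CommGroup M] (ψ : Γℚ →* M)
    (hψ : IsOpen (ψ.ker : Set Γℚ)) {l : ℕ} (hl : l.Prime) {A A' : ValuationSubring Qbar}
    (hA : A.LiesOverPrime l) (hA' : A'.LiesOverPrime l)
    (h : ∀ σ ∈ A.inertiaSubgroupIn ℚ, ψ σ = 1) : ∀ σ ∈ A'.inertiaSubgroupIn ℚ, ψ σ = 1 := by
  haveI := normal_qbar
  obtain ⟨F, _, _, hF⟩ := exists_level_of_isOpen ψ.ker hψ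
  haveI : NumberField F := ⟨⟩
  let res := AlgEquiv.restrictNormalHom (F := ℚ) (K₁ := Qbar) F
  have hsurj : Function.Surjective res := AlgEquiv.restrictNormalHom_surjective Qbar
  have hfac : ∀ a b, res a = res b → ψ a = ψ b := by
    intro a b hab
    have : b⁻¹ * a ∈ ψ.ker := by
      rw [← hF, ← restrictNormalHom_eq_one_iff, map_mul, map_inv]
      exact inv_mul_eq_one.mpr hab.symm
    rw [MonoidHom.mem_ker, map_mul, map_inv, inv_mul_eq_one] at this
    exact this.symm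
  have hc : ∀ a b : Gal(F/ℚ), Commute a b := by
    intro a b
    obtain ⟨x, rfl⟩ := hsurj a
    obtain ⟨y, rfl⟩ := hsurj b
    have hxy : (y * x)⁻¹ * (x * y) ∈ F.fixingSubgroup := by
      rw [hF, MonoidHom.mem_ker, map_mul, map_inv, map_mul, map_mul, mul_comm (ψ y),
        inv_mul_cancel]
    rw [← restrictNormalHom_eq_one_iff, map_mul, map_inv, inv_mul_eq_one, map_mul, map_mul] at hxy
    exact hxy.symm
  intro σ hσ
  have h1 := inertia_levelPrime_le_of_commute hc hl hA hA' (restrictNormalHom_mem_inertia hσ)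
  obtain ⟨σ', hσ', hστ⟩ := FermatLib.EC.exists_inertia_lift_at F hl A hA (levelPrime F A)
    (fun a ha => mem_levelPrime_iff.mp ha) (res σ) (fun c c' hcc' => by
      have : c' = res σ • c := NumberField.RingOfIntegers.ext hcc'
      rw [this]; exact h1 c)
  have : res σ' = res σ := AlgEquiv.ext fun x => Subtype.ext
    ((AlgEquiv.restrictNormal_commutes σ' F x).trans (hστ x))
  rw [← hfac σ' σ this]
  exact h σ' hσ'

/-- A character unramified away from `l`, and at one place over `l`, is trivial. -/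
theorem eq_one_of_inertia_at_one_place {M : Type*} [CommGroup M] (ψ : Γℚ →* M)
    (hψ : IsOpen (ψ.ker : Set Γℚ)) {l : ℕ} (hl : l.Prime) {A : ValuationSubring Qbar}
    (hA : A.LiesOverPrime l) (h : ∀ σ ∈ A.inertiaSubgroupIn ℚ, ψ σ = 1)
    (hout : ∀ k : ℕ, k.Prime → k ≠ l → ∀ B : ValuationSubring Qbar, B.LiesOverPrime k →
      ∀ σ ∈ B.inertiaSubgroupIn ℚ, ψ σ = 1) : ψ = 1 :=
  eq_one_of_unramified_everywhere ψ hψ fun k hk B hB => by
    rcases eq_or_ne k l with rfl | hkl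
    · exact apply_eq_one_of_inertia_of_comm ψ hψ hk hA hB h
    · exact hout k hk hkl B hB

/-- A character unramified away from `l` takes all its values on inertia at a place over `l`. -/
theorem exists_inertia_apply_eq {N : Type*} [CommGroup N] (χ : Γℚ →* N)
    (hχ : IsOpen (χ.ker : Set Γℚ)) {l : ℕ} (hl : l.Prime) {A : ValuationSubring Qbar}
    (hA : A.LiesOverPrime l)
    (hout : ∀ k : ℕ, k.Prime → k ≠ l → ∀ B : ValuationSubring Qbar, B.LiesOverPrime k →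
      ∀ σ ∈ B.inertiaSubgroupIn ℚ, χ σ = 1) (g : Γℚ) :
    ∃ σ ∈ A.inertiaSubgroupIn ℚ, χ σ = χ g := by
  let J : Subgroup N := (A.inertiaSubgroupIn ℚ).map χ
  let ψ : Γℚ →* N ⧸ J := (QuotientGroup.mk' J).comp χ
  have hsub : ∀ σ, χ σ = 1 → ψ σ = 1 := fun σ h => by
    rw [MonoidHom.comp_apply, h, map_one]
  have h1 := eq_one_of_inertia_at_one_place ψ
    (Subgroup.isOpen_mono (H₁ := χ.ker) (fun σ hσ => hsub σ hσ) hχ) hl hA
    (fun σ hσ => (QuotientGroup.eq_one_iff _).mpr (Subgroup.mem_map_of_mem χ hσ))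
    (fun k hk hkl B hB σ hσ => hsub σ (hout k hk hkl B hB σ hσ))
  exact Subgroup.mem_map.mp ((QuotientGroup.eq_one_iff _).mp (DFunLike.congr_fun h1 g))

/-- For odd `r` inertia at `r` acts nontrivially on the `r`-th roots of unity. -/
theorem exists_inertia_cyclo_ne_one {r : ℕ} (hr : r.Prime) (hr2 : r ≠ 2)
    {A : ValuationSubring Qbar} (hA : A.LiesOverPrime r) :
    ∃ σ ∈ A.inertiaSubgroupIn ℚ, ∃ ζ : Qbar, ζ ^ r = 1 ∧ σ ζ ≠ ζ := by
  haveI := Fact.mk hr
  by_contra! h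
  obtain ⟨ζ, hζ⟩ := exists_isPrimitiveRoot_qbar r
  have h1 := eq_one_of_inertia_at_one_place (ExtCitation.cycloChar r) (isOpen_ker_cycloChar r) hr hA
    (fun σ hσ => (cycloChar_eq_one_iff r hζ σ).mpr (h σ hσ ζ hζ.pow_eq_one))
    (fun k hk hkr B hB σ hσ => cycloChar_eq_one_of_mem_inertia r hk hkr hB hσ)
  obtain ⟨σ, hσ⟩ := cycloChar_surjective r (-1)
  rw [h1, MonoidHom.one_apply] at hσ
  haveI : Fact (2 < r) := ⟨lt_of_le_of_ne hr.two_le (Ne.symm hr2)⟩
  exact ZMod.neg_one_ne_one (n := r) (by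
    have := congrArg Units.val hσ
    simpa using this.symm)

/-- Roots of unity of order prime to `p` are fixed by inertia at `p`. -/
theorem inertia_apply_eq_self_of_pow_eq_one {p n : ℕ} (hp : p.Prime) (hn : ¬ p ∣ n)
    {A : ValuationSubring Qbar} (hA : A.LiesOverPrime p) {σ : Γℚ}
    (hσ : σ ∈ A.inertiaSubgroupIn ℚ) {ζ : Qbar} (hζ : ζ ^ n = 1) : σ ζ = ζ :=
  FermatLib.Galois.apply_eq_self_of_mem_inertia A hp hA
    (fun h => hn (h.trans (orderOf_dvd_of_pow_eq_one hζ))) hσ (IsPrimitiveRoot.orderOf ζ)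

/-- A Frobenius element at `ℓ` raises roots of unity of order prime to `ℓ` to the `ℓ`-th power. -/
theorem isCycloValue_of_isFrobeniusAt {ℓ n : ℕ} (hℓ : ℓ.Prime) (hn : ¬ ℓ ∣ n)
    {A : ValuationSubring Qbar} (hA : A.LiesOverPrime ℓ) {σ : Γℚ} (hσ : A.IsFrobeniusAt σ ℓ) :
    IsCycloValue n σ ℓ := fun ζ hζ =>
  FermatLib.Galois.apply_eq_pow_of_isFrobeniusAt A hℓ hA
    (fun h => hn (h.trans (orderOf_dvd_of_pow_eq_one hζ))) hσ (IsPrimitiveRoot.orderOf ζ)

/-- The kernel of the cyclotomic character of a primitive root is its stabiliser. -/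
theorem mem_ker_autToPow_iff {n : ℕ} [NeZero n] {ζ : Qbar} (hζ : IsPrimitiveRoot ζ n) (σ : Γℚ) :
    σ ∈ (hζ.autToPow ℚ).ker ↔ σ ζ = ζ := by
  rw [MonoidHom.mem_ker]
  have hs := hζ.autToPow_spec ℚ σ
  generalize hζ.autToPow ℚ σ = u at hs ⊢
  rw [← hs]
  constructor
  · rintro rfl
    rcases Nat.lt_or_ge 1 n with h1 | h1
    · haveI := Fact.mk h1
      rw [Units.val_one, ZMod.val_one, pow_one]
    · have e : n = 1 := le_antisymm h1 (NeZero.pos n)
      have hz : ζ = 1 := by simpa [e] using hζ.pow_eq_one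
      rw [hz, one_pow]
  · intro h
    have hu : IsUnit ζ := hζ.isUnit (NeZero.ne n)
    obtain ⟨v, hv⟩ := hu
    have h1 : v ^ (u : ZMod n).val = v ^ 1 := Units.ext (by
      rw [Units.val_pow_eq_pow_val, Units.val_pow_eq_pow_val, hv, pow_one, h])
    rw [pow_eq_pow_iff_modEq, ← orderOf_units, hv, ← hζ.eq_orderOf] at h1
    have h3 := (ZMod.natCast_eq_natCast_iff _ _ _).mpr h1
    rw [ZMod.natCast_val, ZMod.cast_id, Nat.cast_one] at h3
    exact Units.ext h3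

/-- A Frobenius element times an inertia element is a Frobenius element. -/
theorem isFrobeniusAt_mul_of_mem_inertia {A : ValuationSubring Qbar} {q : ℕ} {F₀ σ : Γℚ}
    (hF₀ : A.IsFrobeniusAt F₀ q) (hσ : σ ∈ A.inertiaSubgroupIn ℚ) :
    A.IsFrobeniusAt (F₀ * σ) q := by
  obtain ⟨hd, hx⟩ := hF₀
  obtain ⟨τ, hτ, rfl⟩ := hσ
  rw [Subgroup.coe_subtype]
  refine ⟨mul_mem hd τ.2, fun x => ?_⟩
  have hτx : τ • x = x := DFunLike.congr_fun (MonoidHom.mem_ker.mp hτ) x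
  rw [show (⟨F₀ * (τ : Γℚ), mul_mem hd τ.2⟩ : A.decompositionSubgroup ℚ) =
    ⟨F₀, hd⟩ * τ from rfl, mul_smul, hτx, hx]

/-- There is a Frobenius element at `r` fixing the `r ^ k`-th roots of unity. -/
theorem exists_frobenius_fix_rootsOfUnity {r : ℕ} (hr : r.Prime) (k : ℕ)
    {A : ValuationSubring Qbar} (hA : A.LiesOverPrime r) :
    ∃ F : Γℚ, A.IsFrobeniusAt F r ∧ IsCycloValue (r ^ k) F 1 := by
  haveI : NeZero (r ^ k) := ⟨pow_ne_zero k hr.ne_zero⟩
  haveI : NeZero ((r ^ k : ℕ) : Qbar) := ⟨Nat.cast_ne_zero.mpr (NeZero.ne _)⟩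
  haveI : Algebra.IsAlgebraic ℚ Qbar := AlgebraicClosure.isAlgebraic ℚ
  obtain ⟨ζ, hζ⟩ := HasEnoughRootsOfUnity.exists_primitiveRoot Qbar (r ^ k)
  obtain ⟨χ, hker⟩ : ∃ χ : Γℚ →* (ZMod (r ^ k))ˣ, ∀ σ, χ σ = 1 ↔ σ ζ = ζ :=
    ⟨hζ.autToPow ℚ, fun σ => mem_ker_autToPow_iff hζ σ⟩
  obtain ⟨F₀, hF₀⟩ := FermatLib.Basic.exists_isFrobeniusAt hr A hA
  obtain ⟨σ, hσ, hχ⟩ := exists_inertia_apply_eq χ
    (Subgroup.isOpen_mono (H₁ := MulAction.stabilizer Γℚ ζ) (fun σ hσ => (hker σ).mpr hσ)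
      (stabilizer_isOpen_of_isIntegral (K := ℚ) ζ)) hr hA
    (fun l hl hlr B hB σ hσ => (hker σ).mpr
      (inertia_apply_eq_self_of_pow_eq_one hl
        (fun h => hlr ((Nat.prime_dvd_prime_iff_eq hl hr).mp (hl.dvd_of_dvd_pow h))) hB hσ
        hζ.pow_eq_one)) F₀⁻¹
  refine ⟨F₀ * σ, isFrobeniusAt_mul_of_mem_inertia hF₀ hσ, fun ξ hξ => ?_⟩
  obtain ⟨i, -, rfl⟩ := hζ.eq_pow_of_pow_eq_one hξ
  have hfix : (F₀ * σ) ζ = ζ := (hker _).mp (by
    rw [map_mul, hχ, map_inv, mul_inv_cancel])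
  exact (map_pow (F₀ * σ) ζ i).trans ((congrArg (· ^ i) hfix).trans (pow_one _).symm)

/-- Hilbert 90 for a locally constant cocycle on a subgroup of the Galois group. -/
theorem exists_eq_apply_div_of_cocycle (I : Subgroup Γℚ) (f : Γℚ → Qbar)
    (hf0 : ∀ σ ∈ I, f σ ≠ 0) (hf : ∀ σ ∈ I, ∀ τ ∈ I, f (σ * τ) = f σ * σ (f τ))
    (H : Subgroup Γℚ) (hH : IsOpen (H : Set Γℚ))
    (hfH : ∀ σ ∈ I, ∀ h ∈ H, h ∈ I → f (σ * h) = f σ) :
    ∃ β : Qbar, β ≠ 0 ∧ ∀ σ ∈ I, f σ = σ β / β := by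
  classical
  haveI := isGalois_qbar
  haveI := normal_qbar
  obtain ⟨F, _, _, hF⟩ := exists_galois_level_le H hH
  let res := AlgEquiv.restrictNormalHom (F := ℚ) (K₁ := Qbar) F
  let J : Subgroup Gal(F/ℚ) := I.map res
  choose lift hliftI hlift using fun j : J => Subgroup.mem_map.mp j.2
  have hfac : ∀ σ ∈ I, ∀ τ ∈ I, res σ = res τ → f σ = f τ := by
    intro σ hσ τ hτ hst
    have h1 : τ⁻¹ * σ ∈ F.fixingSubgroup := by
      rw [← restrictNormalHom_eq_one_iff, map_mul, map_inv]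
      exact inv_mul_eq_one.mpr hst.symm
    calc f σ = f (τ * (τ⁻¹ * σ)) := by rw [mul_inv_cancel_left]
      _ = f τ := hfH τ hτ _ (hF h1) (mul_mem (inv_mem hτ) hσ)
  -- the characters `x ↦ j x` of `F` are independent
  let χ : J → (F →* Qbar) := fun j =>
    ((algebraMap F Qbar).comp ((j : Gal(F/ℚ)) : F →+* F) : F →+* Qbar).toMonoidHom
  have hχ : Function.Injective χ := by
    intro i j hij
    apply Subtype.ext
    apply AlgEquiv.ext
    intro x
    exact (algebraMap F Qbar).injective (DFunLike.congr_fun hij x)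
  obtain ⟨z, hz⟩ : ∃ z : F, ∑ j, f (lift j) * χ j z ≠ 0 := by
    by_contra! h
    refine hf0 (lift 1) (hliftI 1) (Fintype.linearIndependent_iff.mp
      ((linearIndependent_monoidHom F Qbar).comp χ hχ) (fun j => f (lift j)) ?_ 1)
    funext x
    simpa [Finset.sum_apply] using h x
  set b := ∑ j, f (lift j) * χ j z
  refine ⟨b⁻¹, inv_ne_zero hz, fun σ hσ => ?_⟩
  let s : J := ⟨res σ, Subgroup.mem_map_of_mem _ hσ⟩
  have key : f σ * σ b = b := by
    rw [map_sum, Finset.mul_sum]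
    refine Fintype.sum_equiv (Equiv.mulLeft s) _ _ fun j => ?_
    have e1 : f (lift (s * j)) = f σ * σ (f (lift j)) := by
      rw [← hf σ hσ _ (hliftI j)]
      refine hfac _ (hliftI _) _ (mul_mem hσ (hliftI j)) ?_
      rw [hlift, map_mul, hlift]
      rfl
    have e2 : σ (χ j z) = χ (s * j) z := by
      show σ (((j : Gal(F/ℚ)) z : F) : Qbar) = (((s * j : J) : Gal(F/ℚ)) z : F)
      exact (AlgEquiv.restrictNormal_commutes σ F ((j : Gal(F/ℚ)) z)).symm
    rw [map_mul, Equiv.coe_mulLeft, e1, e2]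
    ring
  have hσb : σ b ≠ 0 := (map_ne_zero σ).mpr hz
  rw [map_inv₀, inv_div_inv, eq_div_iff hσb]
  exact key

end FermatLib.Mazur
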