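import Fermat.Agent.Mazur.LocalUnit
import Fermat.Agent.Mazur.LocalGalois
import Fermat.Agent.Mazur.LocalTame

/-!
# Local lemmas at places of `ℚ̄`

The inertia field is unramified (`LocalUnit`), Hilbert 90 on inertia and cyclotomic facts at a
place over `r` (`LocalGalois`), the tame `r`-quotient of inertia at `p ≠ r` (`LocalTame`).
-/
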