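import Fermat.Agent.Mazur.AdmissibleSimple

/-!
# The global bound for admissible modules

Constituents of admissible modules are `ℤ/r` and `μ_r`, and the group of Selmer cocycles of an
admissible module is no larger than its multiplicative part.
-/

set_option autoImplicit false
set_option linter.style.haveILetI false

noncomputable section

universe u

namespace FermatLib.Mazur

local notation "Qbar" => AlgebraicClosure ℚ
local notation "Γℚ" => (AlgebraicClosure ℚ ≃ₐ[ℚ] AlgebraicClosure ℚ)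

variable {r p : ℕ} {Ar Ap : ValuationSubring Qbar}

/-- A stable subgroup `U` of order `r` exists inside every nonzero stable subgroup `W` for a
group `G` acting with nilpotent `(g - 1)(g - χ g)`. -/
theorem exists_stable_subgroup_card_prime {r : ℕ} (hr : r.Prime) {V : Type*} [AddCommGroup V]
    [DistribMulAction Γℚ V] [Finite V] (hexp : ∃ k : ℕ, ∀ x : V, r ^ k • x = 0) (G : Subgroup Γℚ)
    (hnil : ∀ g ∈ G, ∀ u : ℕ, IsCycloValue r g u → ∃ N : ℕ, ∀ x : V, (eisOp g u)^[N] x = 0)
    (hV : Nontrivial V) :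
    ∃ U : AddSubgroup V, Nat.card U = r ∧
      ((∀ g ∈ G, ∀ x ∈ U, g • x = x) ∨
        ∀ g ∈ G, ∀ u : ℕ, IsCycloValue r g u → ∀ x ∈ U, g • x = u • x) := by
  obtain ⟨x, hx0, hrx, hx⟩ := StableLine.exists_stable_line (G := G) hr hexp G.subtype
    (fun g u hu => hnil g g.2 u hu) hV
  refine ⟨AddSubgroup.zmultiples x,
    (Nat.card_zmultiples x).trans (addOrderOf_eq_prime (hp := ⟨hr⟩) hrx hx0), ?_⟩
  rcases hx with h | h
  · refine Or.inl fun g hg y hy => ?_
    obtain ⟨n, rfl⟩ := AddSubgroup.mem_zmultiples_iff.mp hy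
    rw [smul_comm g n x]
    exact congrArg (n • ·) (h ⟨g, hg⟩)
  · refine Or.inr fun g hg u hu y hy => ?_
    obtain ⟨n, rfl⟩ := AddSubgroup.mem_zmultiples_iff.mp hy
    rw [smul_comm g n x, smul_comm u n x]
    exact congrArg (n • ·) (h ⟨g, hg⟩ u hu)

section Ops

variable {V : Type*} [AddCommGroup V] [DistribMulAction Γℚ V] {K : AddSubgroup V}

/-- The action on a stable subgroup. -/
@[instance_reducible]
def stableSubAction (U : AddSubgroup V) (hU : ∀ (g : Γℚ), ∀ x ∈ U, g • x ∈ U) :
    DistribMulAction Γℚ U where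
  smul g x := ⟨g • (x : V), hU g x x.2⟩
  one_smul x := Subtype.ext (one_smul Γℚ (x : V))
  mul_smul g g' x := Subtype.ext (mul_smul g g' (x : V))
  smul_zero g := Subtype.ext (smul_zero g)
  smul_add g x y := Subtype.ext (smul_add g (x : V) (y : V))

/-- The action on the quotient by a stable subgroup. -/
@[instance_reducible]
def stableQuotAction (U : AddSubgroup V) (hU : ∀ (g : Γℚ), ∀ x ∈ U, g • x ∈ U) :
    DistribMulAction Γℚ (V ⧸ U) where
  smul g := QuotientAddGroup.map U U (DistribSMul.toAddMonoidHom V g) (hU g)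
  one_smul x := by
    induction x using QuotientAddGroup.induction_on with | _ x => ?_
    exact congrArg (QuotientAddGroup.mk (s := U)) (one_smul Γℚ x)
  mul_smul g g' x := by
    induction x using QuotientAddGroup.induction_on with | _ x => ?_
    exact congrArg (QuotientAddGroup.mk (s := U)) (mul_smul g g' x)
  smul_zero g := map_zero (QuotientAddGroup.map U U (DistribSMul.toAddMonoidHom V g) (hU g))
  smul_add g := map_add (QuotientAddGroup.map U U (DistribSMul.toAddMonoidHom V g) (hU g))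

theorem IsUnitKummer.div {A : ValuationSubring Qbar} {f g : Γℚ → Qbar} (hf : IsUnitKummer A f)
    (hg : IsUnitKummer A g) : IsUnitKummer A fun σ => f σ / g σ := by
  obtain ⟨a, ha, haf⟩ := hf
  obtain ⟨b, hb, hbg⟩ := hg
  refine ⟨a / b, ha.div hb, fun σ hσ => ?_⟩
  show f σ / g σ = σ (a / b) / (a / b)
  rw [haf σ hσ, hbg σ hσ, map_div₀, div_div_div_eq, div_div_div_eq, mul_comm a (σ b)]

variable {W : Type*} [AddCommGroup W] [DistribMulAction Γℚ W]

theorem IsSelmerCocycle.map {c : Γℚ → V} (hc : IsSelmerCocycle r p Ar Ap K c) (f : V →+ W)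
    (hf : ∀ (g : Γℚ) (x : V), f (g • x) = g • f x) :
    IsSelmerCocycle r p Ar Ap (K.map f) fun σ => f (c σ) where
  cocycle g h := by
    show f (c (g * h)) = f (c g) + g • f (c h)
    rw [hc.cocycle, map_add, hf]
  locallyConstant := by
    obtain ⟨H, hH, hcH⟩ := hc.locallyConstant
    exact ⟨H, hH, fun σ hσ => by
      show f (c σ) = 0
      rw [hcH σ hσ, map_zero]⟩
  unramified l hl hr hp A hA σ hσ := by
    show f (c σ) = 0
    rw [hc.unramified l hl hr hp A hA σ hσ, map_zero]
  trivial_p σ hσ := by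
    show f (c σ) = 0
    rw [hc.trivial_p σ hσ, map_zero]
  mem_K σ hσ := AddSubgroup.mem_map_of_mem f (hc.mem_K σ hσ)
  peu φ := hc.peu (φ.comp f)

/-- The difference of two Selmer cocycles with values in a stable subgroup. -/
theorem IsSelmerCocycle.sub_of_injective [Finite V] {c c' : Γℚ → V}
    (hc : IsSelmerCocycle r p Ar Ap K c) (hc' : IsSelmerCocycle r p Ar Ap K c')
    (f : W →+ V) (hf : ∀ (g : Γℚ) (x : W), f (g • x) = g • f x) (hinj : Function.Injective f)
    {d : Γℚ → W} (hd : ∀ σ, f (d σ) = c σ - c' σ) :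
    IsSelmerCocycle r p Ar Ap (K.comap f) d := by
  have hext : ∀ φ : W →+ QbarMul, ∃ ψ : V →+ QbarMul, ∀ x, ψ (f x) = φ x := fun φ => by
    obtain ⟨ψ, hψ⟩ := CharDual.exists_extend f.range
      (φ.comp (AddMonoidHom.ofInjective hinj).symm.toAddMonoidHom)
    refine ⟨ψ, fun x => ?_⟩
    have := hψ ⟨f x, x, rfl⟩
    rw [AddMonoidHom.comp_apply] at this
    exact this.trans (congrArg φ ((AddMonoidHom.ofInjective hinj).symm_apply_apply x))
  refine ⟨fun g h => hinj ?_, ?_, fun l hl hr hp A hA σ hσ => hinj ?_, fun σ hσ => hinj ?_,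
    fun σ hσ => ?_, fun φ => ?_⟩
  · rw [hd, map_add, hd, hf, hd, hc.cocycle, hc'.cocycle, smul_sub]
    abel
  · obtain ⟨H, hH, hcH⟩ := hc.locallyConstant
    obtain ⟨H', hH', hcH'⟩ := hc'.locallyConstant
    exact ⟨H ⊓ H', hH.inter hH', fun σ hσ => hinj (by
      rw [hd, hcH σ hσ.1, hcH' σ hσ.2, sub_zero, map_zero])⟩
  · rw [hd, hc.unramified l hl hr hp A hA σ hσ, hc'.unramified l hl hr hp A hA σ hσ, sub_zero,
      map_zero]
  · rw [hd, hc.trivial_p σ hσ, hc'.trivial_p σ hσ, sub_zero, map_zero]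
  · show f (d σ) ∈ K
    rw [hd]
    exact sub_mem (hc.mem_K σ hσ) (hc'.mem_K σ hσ)
  · obtain ⟨ψ, hψ⟩ := hext φ
    obtain ⟨β, hβ, hβσ⟩ := (hc.peu ψ).div (hc'.peu ψ)
    refine ⟨β, hβ, fun σ hσ => ?_⟩
    show mulVal (φ (d σ)) = _
    rw [← hψ, hd, map_sub, mulVal_sub]
    exact hβσ σ hσ

/-- Dévissage along a stable subgroup. -/
theorem ncard_selmer_le_mul [Finite V] (U : AddSubgroup V)
    (hU : ∀ (g : Γℚ), ∀ x ∈ U, g • x ∈ U) :
    letI := stableSubAction U hU
    letI := stableQuotAction U hU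
    {c : Γℚ → U | IsSelmerCocycle r p Ar Ap (K.comap U.subtype) c}.Finite →
    {c : Γℚ → V ⧸ U | IsSelmerCocycle r p Ar Ap (K.map (QuotientAddGroup.mk' U)) c}.Finite →
    {c : Γℚ → V | IsSelmerCocycle r p Ar Ap K c}.Finite ∧
      {c : Γℚ → V | IsSelmerCocycle r p Ar Ap K c}.ncard ≤
        {c : Γℚ → V ⧸ U | IsSelmerCocycle r p Ar Ap (K.map (QuotientAddGroup.mk' U)) c}.ncard *
        {c : Γℚ → U | IsSelmerCocycle r p Ar Ap (K.comap U.subtype) c}.ncard := by
  classical
  letI := stableSubAction U hU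
  letI := stableQuotAction U hU
  intro hfU hfQ
  set S := {c : Γℚ → V | IsSelmerCocycle r p Ar Ap K c}
  let g : (Γℚ → V) → Γℚ → V ⧸ U := fun c σ => (c σ : V ⧸ U)
  let rep : (Γℚ → V) → Γℚ → V := fun c => Function.invFunOn g S (g c)
  let d : (Γℚ → V) → Γℚ → U := fun c σ =>
    if h : c σ - rep c σ ∈ U then ⟨c σ - rep c σ, h⟩ else 0
  have hrep : ∀ c ∈ S, rep c ∈ S ∧ g (rep c) = g c := fun c hc =>
    ⟨Function.invFunOn_mem ⟨c, hc, rfl⟩, Function.invFunOn_eq ⟨c, hc, rfl⟩⟩
  have hd : ∀ c ∈ S, ∀ σ, U.subtype (d c σ) = c σ - rep c σ := fun c hc σ => by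
    have h : c σ - rep c σ ∈ U := QuotientAddGroup.eq_iff_sub_mem.mp (congrFun (hrep c hc).2 σ).symm
    show ((d c σ : U) : V) = _
    simp only [d, dif_pos h]
  have hmaps : ∀ c ∈ S, (g c, d c) ∈
      {c : Γℚ → V ⧸ U | IsSelmerCocycle r p Ar Ap (K.map (QuotientAddGroup.mk' U)) c} ×ˢ
      {c : Γℚ → U | IsSelmerCocycle r p Ar Ap (K.comap U.subtype) c} := fun c hc =>
    ⟨IsSelmerCocycle.map hc (QuotientAddGroup.mk' U) fun _ _ => rfl,
      IsSelmerCocycle.sub_of_injective hc (hrep c hc).1 U.subtype (fun _ _ => rfl)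
        Subtype.val_injective (hd c hc)⟩
  have hinj : Set.InjOn (fun c => (g c, d c)) S := by
    intro c hc c' hc' e
    funext σ
    have h1 : rep c = rep c' := congrArg (Function.invFunOn g S) (congrArg Prod.fst e)
    have h2 := congrArg (fun z => U.subtype (z σ)) (congrArg Prod.snd e)
    simp only [hd c hc, hd c' hc', h1] at h2
    simpa using h2
  exact ⟨Set.Finite.of_injOn hmaps hinj (hfQ.prod hfU),
    (Set.ncard_le_ncard_of_injOn _ hmaps hinj (hfQ.prod hfU)).trans Set.ncard_prod.le⟩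

omit [DistribMulAction Γℚ V] in
theorem natCard_eq_comap_mul_map (U : AddSubgroup V) :
    Nat.card K = Nat.card (K.comap U.subtype) * Nat.card (K.map (QuotientAddGroup.mk' U)) := by
  let f := (QuotientAddGroup.mk' U).comp K.subtype
  have h1 : Nat.card (K.map (QuotientAddGroup.mk' U)) = f.ker.index := by
    rw [AddSubgroup.index_ker, AddMonoidHom.range_comp, AddSubgroup.range_subtype]
  have h2 : Nat.card (K.comap U.subtype) = Nat.card f.ker :=
    Nat.card_congr
      { toFun := fun x => ⟨⟨(x : U), x.2⟩, (QuotientAddGroup.eq_zero_iff _).mpr (x : U).2⟩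
        invFun := fun x => ⟨⟨((x : K) : V), (QuotientAddGroup.eq_zero_iff _).mp x.2⟩, (x : K).2⟩
        left_inv := fun x => rfl
        right_inv := fun x => rfl }
  rw [h1, h2, AddSubgroup.card_mul_index]

end Ops

theorem selmerCocycles_card_le_aux (n : ℕ) :
    ∀ (V : Type u) [AddCommGroup V] [DistribMulAction Γℚ V] (K : AddSubgroup V),
      IsAdmissible r p Ar Ap V K → Nat.card V ≤ n →
      {c : Γℚ → V | IsSelmerCocycle r p Ar Ap K c}.Finite ∧
        {c : Γℚ → V | IsSelmerCocycle r p Ar Ap K c}.ncard ≤ Nat.card K := by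
  induction n with
  | zero =>
    intro V _ _ K h hn
    have := h.finite
    exact absurd hn (by simpa using (Nat.card_pos (α := V)).ne')
  | succ n ih =>
    intro V _ _ K h hn
    have := h.finite
    rcases subsingleton_or_nontrivial V with hV | hV
    · have hS : {c : Γℚ → V | IsSelmerCocycle r p Ar Ap K c} ⊆ {0} :=
        fun c _ => Subsingleton.elim c 0
      exact ⟨(Set.finite_singleton _).subset hS,
        (Set.ncard_le_ncard hS).trans (by rw [Set.ncard_singleton]; exact Nat.card_pos)⟩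
    obtain ⟨U, hUcard, hUact⟩ := exists_stable_subgroup_card_prime h.r_prime h.exponent ⊤
      (fun g _ u hu => h.constituents g u hu) hV
    have hU : ∀ (g : Γℚ), ∀ x ∈ U, g • x ∈ U := fun g x hx => by
      rcases hUact with h1 | h1
      · rwa [h1 g (Subgroup.mem_top g) x hx]
      · obtain ⟨u, hu⟩ := StableLine.exists_cycloValue h.r_prime g
        rw [h1 g (Subgroup.mem_top g) u hu x hx]
        exact nsmul_mem hx u
    letI := stableSubAction U hU
    letI := stableQuotAction U hU
    by_cases hVr : Nat.card V = r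
    · refine selmerCocycles_card_le_of_card_prime h hVr ?_
      have hU' : ∀ x : V, x ∈ U := fun x => by
        rw [AddSubgroup.eq_top_of_card_eq U (hUcard.trans hVr.symm)]
        exact AddSubgroup.mem_top x
      exact hUact.imp (fun h1 g x => h1 g (Subgroup.mem_top g) x (hU' x))
        (fun h1 g u hu x => h1 g (Subgroup.mem_top g) u hu x (hU' x))
    · have hmul : Nat.card V = Nat.card (V ⧸ U) * Nat.card U :=
        AddSubgroup.card_eq_card_quotient_mul_card_addSubgroup U
      have hQpos : 0 < Nat.card (V ⧸ U) := Nat.card_pos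
      have hr2 := h.r_prime.two_le
      have hQ1 : Nat.card (V ⧸ U) ≠ 1 := fun e => hVr (by rw [hmul, e, one_mul, hUcard])
      obtain ⟨fU, bU⟩ := ih U (K.comap U.subtype)
        (h.of_injective U.subtype (fun _ _ => rfl) Subtype.val_injective) (by
          rw [hmul, hUcard] at hn
          have : 2 * r ≤ Nat.card (V ⧸ U) * r := Nat.mul_le_mul_right r (by omega)
          omega)
      obtain ⟨fQ, bQ⟩ := ih (V ⧸ U) (K.map (QuotientAddGroup.mk' U))
        (h.of_surjective (QuotientAddGroup.mk' U) (fun _ _ => rfl)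
          (QuotientAddGroup.mk'_surjective U)) (by
          rw [hmul, hUcard] at hn
          have : Nat.card (V ⧸ U) * 2 ≤ Nat.card (V ⧸ U) * r := Nat.mul_le_mul_left _ hr2
          omega)
      obtain ⟨fV, bV⟩ := ncard_selmer_le_mul U hU fU fQ
      refine ⟨fV, bV.trans ?_⟩
      rw [natCard_eq_comap_mul_map U, mul_comm (Nat.card (K.comap U.subtype))]
      exact Nat.mul_le_mul bQ bU

variable {V : Type*} [AddCommGroup V] [DistribMulAction Γℚ V] {K : AddSubgroup V}

/-- **Global bound**: there are at most `#K` Selmer cocycles. -/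
theorem selmerCocycles_card_le (h : IsAdmissible r p Ar Ap V K) :
    {c : Γℚ → V | IsSelmerCocycle r p Ar Ap K c}.Finite ∧
      {c : Γℚ → V | IsSelmerCocycle r p Ar Ap K c}.ncard ≤ Nat.card K :=
  selmerCocycles_card_le_aux _ V K h le_rfl

end FermatLib.Mazur
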