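import Fermat.Agent.Mazur.AdmissibleOps
import Mathlib.RingTheory.RootsOfUnity.PrimitiveRoots

/-!
# The dual of an admissible module is admissible
-/

set_option autoImplicit false

noncomputable section

namespace FermatLib.Mazur

local notation "Qbar" => AlgebraicClosure ℚ
local notation "Γℚ" => (AlgebraicClosure ℚ ≃ₐ[ℚ] AlgebraicClosure ℚ)

/-- The cyclotomic value modulo `n` of a Galois element exists. -/
theorem exists_isCycloValue {n : ℕ} (hn : n ≠ 0) (g : Γℚ) : ∃ u : ℕ, IsCycloValue n g u := by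
  have : NeZero ((n : ℕ) : Qbar) := ⟨Nat.cast_ne_zero.mpr hn⟩
  have : NeZero n := ⟨hn⟩
  obtain ⟨ζ, hζ⟩ := HasEnoughRootsOfUnity.exists_primitiveRoot Qbar n
  obtain ⟨u, -, hu⟩ := hζ.eq_pow_of_pow_eq_one (ξ := g ζ) (by rw [← map_pow, hζ.pow_eq_one, map_one])
  refine ⟨u, fun x hx => ?_⟩
  obtain ⟨j, -, rfl⟩ := hζ.eq_pow_of_pow_eq_one hx
  rw [map_pow, ← hu, ← pow_mul, ← pow_mul, mul_comm]

theorem IsCycloValue.of_dvd {n m : ℕ} {g : Γℚ} {u : ℕ} (h : IsCycloValue n g u) (hm : m ∣ n) :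
    IsCycloValue m g u := fun ζ hζ => by
  obtain ⟨c, rfl⟩ := hm
  exact h ζ (by rw [pow_mul, hζ, one_pow])

theorem IsCycloValue.modEq {n : ℕ} (hn : n ≠ 0) {g : Γℚ} {u v : ℕ} (hu : IsCycloValue n g u)
    (hv : IsCycloValue n g v) : u ≡ v [MOD n] := by
  have : NeZero ((n : ℕ) : Qbar) := ⟨Nat.cast_ne_zero.mpr hn⟩
  have : NeZero n := ⟨hn⟩
  obtain ⟨ζ, hζ⟩ := HasEnoughRootsOfUnity.exists_primitiveRoot Qbar n
  have h := (hu ζ hζ.pow_eq_one).symm.trans (hv ζ hζ.pow_eq_one)
  rwa [(hζ.isOfFinOrder hn).pow_eq_pow_iff_modEq, ← hζ.eq_orderOf] at h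

theorem mulVal_nsmul (n : ℕ) (x : QbarMul) : mulVal (n • x) = mulVal x ^ n := by
  induction n with
  | zero => simp
  | succ n ih => rw [succ_nsmul, mulVal_add, ih, pow_succ]

theorem mulVal_sub (x y : QbarMul) : mulVal (x - y) = mulVal x / mulVal y := by
  rw [eq_div_iff (mulVal_ne_zero y), ← mulVal_add, sub_add_cancel]

variable {r p : ℕ} {Ar Ap : ValuationSubring Qbar} {V : Type*} [AddCommGroup V]
  [DistribMulAction Γℚ V] {K : AddSubgroup V}

theorem mulVal_pow_exponent {k : ℕ} (hk : ∀ x : V, r ^ k • x = 0) (φ : V →+ QbarMul) (x : V) :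
    mulVal (φ x) ^ (r ^ k) = 1 := by
  rw [← mulVal_nsmul, ← map_nsmul, hk, map_zero, mulVal_zero]

theorem galMul_apply_eq {k : ℕ} (hk : ∀ x : V, r ^ k • x = 0) {g : Γℚ} {U : ℕ}
    (hU : IsCycloValue (r ^ k) g U) (φ : V →+ QbarMul) (x : V) :
    galMul g (φ x) = φ (U • x) :=
  mulVal_injective <| by
    rw [mulVal_galMul, hU _ (mulVal_pow_exponent hk φ x), map_nsmul, mulVal_nsmul]

theorem muDual_eisOp_apply {k : ℕ} (hk : ∀ x : V, r ^ k • x = 0) {g : Γℚ} {U : ℕ}
    (hU : IsCycloValue (r ^ k) g U) (u : ℕ) (φ : MuDual V) (x : V) :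
    eisOp g u φ x = φ (U • U • g⁻¹ • g⁻¹ • x - (1 + u) • U • g⁻¹ • x + u • x) := by
  have h1 : ∀ (ψ : MuDual V) (y : V), galMul g (ψ y) = ψ (U • y) := fun ψ y =>
    galMul_apply_eq hk hU ψ y
  have hadd : ∀ (ψ χ : MuDual V) (y : V), (ψ + χ) y = ψ y + χ y := fun _ _ _ => rfl
  have hsub : ∀ (ψ χ : MuDual V) (y : V), (ψ - χ) y = ψ y - χ y := fun _ _ _ => rfl
  have hsmul : ∀ (n : ℕ) (ψ : MuDual V) (y : V), (n • ψ) y = n • ψ y := fun _ _ _ => rfl
  simp only [eisOp, hadd, hsub, hsmul, MuDual.smul_apply, map_add, map_sub, map_nsmul, h1]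

/-- Transpose of an iterate of `(g - 1)(g - u)`. -/
theorem exists_iterate_muDual_eisOp_eq_zero (hr : r.Prime) {k : ℕ}
    (hk : ∀ x : V, r ^ (k + 1) • x = 0) {g : Γℚ} {u : ℕ} (hu : IsCycloValue r g u)
    (hN : ∃ N : ℕ, ∀ x : V, (eisOp g u)^[N] x = 0) :
    ∃ N : ℕ, ∀ φ : MuDual V, (eisOp g u)^[N] φ = 0 := by
  obtain ⟨U, hU⟩ := exists_isCycloValue (pow_ne_zero (k + 1) hr.ne_zero) g
  obtain ⟨s, hs⟩ : ∃ s : ℤ, (U : ℤ) = u + r * s := by
    obtain ⟨s, hs⟩ := (Nat.modEq_iff_dvd.mp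
      (hu.modEq hr.ne_zero (hU.of_dvd (dvd_pow_self r k.succ_ne_zero))))
    exact ⟨s, by omega⟩
  obtain ⟨N, hN⟩ := hN
  let ρ : Γℚ →* AddMonoid.End V := DistribMulAction.toAddMonoidEnd Γℚ V
  let G : AddMonoid.End V := ρ g
  let G' : AddMonoid.End V := ρ g⁻¹
  have hGG' : Commute G G' := by
    show ρ g * ρ g⁻¹ = ρ g⁻¹ * ρ g
    rw [← map_mul, ← map_mul, mul_inv_cancel, inv_mul_cancel]
  let E : AddMonoid.End V := G * G - (1 + (u : AddMonoid.End V)) * G + u
  let R : AddMonoid.End V := s * (2 * u + r * s) - (1 + (u : AddMonoid.End V)) * s * G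
  have hE : IsNilpotent E := by
    refine ⟨N, AddMonoidHom.ext fun x => ?_⟩
    have hpow : ∀ n : ℕ, (E ^ n) x = (eisOp g u)^[n] x := by
      intro n
      induction n with
      | zero => rfl
      | succ n ih =>
        rw [pow_succ', Function.iterate_succ_apply', ← ih]
        show g • g • (E ^ n) x -
          ((1 : AddMonoid.End V) + (u : AddMonoid.End V)) (g • (E ^ n) x) +
            (u : AddMonoid.End V) ((E ^ n) x) = _
        simp only [eisOp, AddMonoid.End.natCast_apply, add_smul, one_smul]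
        rfl
    exact (hpow N).trans (hN x)
  have hr0 : IsNilpotent ((r : AddMonoid.End V) * R) := by
    refine ⟨k + 1, ?_⟩
    have h0 : (r : AddMonoid.End V) ^ (k + 1) = 0 := AddMonoidHom.ext fun x => by
      rw [← Nat.cast_pow]
      exact hk x
    rw [(Nat.cast_commute r R).mul_pow, h0, zero_mul]
  have hGE : ∀ {a : AddMonoid.End V}, Commute a G → Commute a E := fun h =>
    ((h.mul_right h).sub_right ((((Commute.one_right _).add_right
      (Nat.commute_cast _ u)).mul_right h))).add_right (Nat.commute_cast _ u)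
  have hGR : ∀ {a : AddMonoid.End V}, Commute a G → Commute a R := fun h =>
    ((Int.commute_cast _ s).mul_right (((Nat.commute_cast _ 2).mul_right
      (Nat.commute_cast _ u)).add_right ((Nat.commute_cast _ r).mul_right
        (Int.commute_cast _ s)))).sub_right ((((Commute.one_right _).add_right
      (Nat.commute_cast _ u)).mul_right (Int.commute_cast _ s)).mul_right h)
  have hER : Commute E R := hGR (hGE (Commute.refl G)).symm
  let M : AddMonoid.End V := (u : AddMonoid.End V) * E + r * R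
  have hM : IsNilpotent M := by
    refine Commute.isNilpotent_add ?_ ((Nat.cast_commute u E).isNilpotent_mul_left hE) hr0
    exact ((Nat.cast_commute u _).mul_left ((Nat.commute_cast E r).mul_right hER))
  have hG'M : Commute (G' * G') M := by
    have h : Commute G' M := ((Nat.commute_cast G' u).mul_right (hGE hGG'.symm)).add_right
      ((Nat.commute_cast G' r).mul_right (hGR hGG'.symm))
    exact h.mul_left h
  obtain ⟨n, hn⟩ := hG'M.isNilpotent_mul_left hM
  refine ⟨n, fun φ => MuDual.ext fun x => ?_⟩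
  have hstep : ∀ (ψ : MuDual V) (y : V), eisOp g u ψ y = ψ ((G' * G' * M) y) := by
    intro ψ y
    rw [muDual_eisOp_apply hk hU u ψ y]
    refine congrArg ψ ?_
    have hU' : ∀ z : V, U • z = (u : ℤ) • z + (r : ℤ) • s • z := fun z => by
      rw [← natCast_zsmul, hs, add_smul, mul_smul]
    have hg : ∀ z : V, g⁻¹ • g • z = z := inv_smul_smul g
    show _ = g⁻¹ • g⁻¹ • M y
    have hMy : M y = (u : AddMonoid.End V) (g • g • y
        - ((1 : AddMonoid.End V) + (u : AddMonoid.End V)) (g • y) + (u : AddMonoid.End V) y)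
        + (r : AddMonoid.End V) ((s : AddMonoid.End V) (((2 : AddMonoid.End V) * u + r * s) y)
          - ((1 : AddMonoid.End V) + (u : AddMonoid.End V)) ((s : AddMonoid.End V) (g • y))) := rfl
    rw [hMy]
    have h2 : ((2 : AddMonoid.End V) * u + r * s) y = (2 : ℕ) • u • y + r • s • y := by
      rw [show (2 : AddMonoid.End V) = ((2 : ℕ) : AddMonoid.End V) from rfl]
      rfl
    have h1u : ∀ z : V,
        ((1 : AddMonoid.End V) + (u : AddMonoid.End V)) z = z + u • z := fun z => rfl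
    simp only [AddMonoid.End.natCast_apply, AddMonoid.End.intCast_apply, h1u, smul_add, smul_sub,
      h2, hU', smul_comm (g⁻¹ : Γℚ), hg, natCast_zsmul]
    generalize g⁻¹ • g⁻¹ • y = a
    generalize g⁻¹ • y = b
    module
  have hpow : ∀ (m : ℕ) (ψ : MuDual V) (y : V),
      (eisOp g u)^[m] ψ y = ψ (((G' * G' * M) ^ m) y) := by
    intro m
    induction m with
    | zero => exact fun ψ y => rfl
    | succ m ih =>
      intro ψ y
      rw [Function.iterate_succ_apply, ih, hstep, pow_succ']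
      rfl
  rw [hpow, hn, MuDual.zero_apply]
  exact map_zero φ

/-- The dual of an admissible module is admissible. -/
theorem IsAdmissible.dual (h : IsAdmissible r p Ar Ap V K) :
    IsAdmissible r p Ar Ap (MuDual V) (MuDual.annihilator V K) := by
  have := h.finite
  obtain ⟨k, hk⟩ := h.exponent
  have hk' : ∀ x : V, r ^ (k + 1) • x = 0 := fun x => by
    rw [pow_succ', mul_smul, hk, smul_zero]
  have hinv : ∀ σ : Γℚ, ∀ x : V, σ • x = x → σ⁻¹ • x = x := fun σ x hx =>
    inv_smul_eq_iff.mpr hx.symm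
  have hpq : ∀ q : ℕ, q.Prime → q ≠ r → ¬ q ∣ r ^ k := fun q hq hqr hd =>
    hqr ((Nat.prime_dvd_prime_iff_eq hq h.r_prime).mp (hq.dvd_of_dvd_pow hd))
  exact {
    r_prime := h.r_prime
    p_prime := h.p_prime
    r_ne_p := h.r_ne_p
    liesOver_r := h.liesOver_r
    liesOver_p := h.liesOver_p
    finite := inferInstance
    exponent := ⟨k, fun φ => MuDual.ext fun x => by
      show r ^ k • φ x = 0
      rw [← map_nsmul, hk, map_zero]⟩
    isOpen_stabilizer := fun φ => by
      refine Subgroup.isOpen_mono (H₁ := ⨅ x : V,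
        MulAction.stabilizer Γℚ x ⊓ MulAction.stabilizer Γℚ (mulVal (φ x))) ?_ ?_
      · intro g hg
        rw [Subgroup.mem_iInf] at hg
        refine MuDual.ext fun x => mulVal_injective ?_
        have hx : g • x = x := (hg x).1
        have hφ : g (mulVal (φ x)) = mulVal (φ x) := (hg x).2
        rw [MuDual.smul_apply, mulVal_galMul, hinv g x hx, hφ]
      · rw [Subgroup.coe_iInf]
        exact isOpen_iInter_of_finite fun x => by
          rw [Subgroup.coe_inf]
          exact (h.isOpen_stabilizer x).inter (isOpen_stabilizer_qbar _)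
    unramified := fun ℓ hℓ hr hp A hA σ hσ φ => MuDual.ext fun x => mulVal_injective <| by
      rw [MuDual.smul_apply, mulVal_galMul, hinv σ x (h.unramified ℓ hℓ hr hp A hA σ hσ x)]
      exact inertia_apply_eq_self_of_pow_eq_one hℓ (hpq ℓ hℓ hr) hA hσ
        (mulVal_pow_exponent hk φ x)
    unipotent := fun σ hσ τ hτ φ => MuDual.ext fun x => by
      have hfix : ∀ ρ ∈ Ap.inertiaSubgroupIn ℚ, ∀ y : V, galMul ρ (φ y) = φ y :=
        fun ρ hρ y => mulVal_injective <| by
          rw [mulVal_galMul]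
          exact inertia_apply_eq_self_of_pow_eq_one h.p_prime (hpq p h.p_prime h.r_ne_p.symm)
            h.liesOver_p hρ (mulVal_pow_exponent hk φ y)
      have hsub : ∀ (ψ χ : MuDual V) (y : V), (ψ - χ) y = ψ y - χ y := fun _ _ _ => rfl
      simp only [MuDual.smul_apply, hsub, hfix _ hτ, map_sub, hfix _ hσ]
      rw [← map_sub, ← map_sub]
      refine congrArg φ ?_
      have := h.unipotent τ⁻¹ (inv_mem hτ) σ⁻¹ (inv_mem hσ) x
      rw [smul_sub, ← sub_eq_zero] at this
      rw [← sub_eq_zero]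
      refine Eq.trans ?_ this
      abel
    constituents := fun g u hu =>
      exists_iterate_muDual_eisOp_eq_zero h.r_prime hk' hu (h.constituents g u hu)
    smul_sub_mem := fun σ hσ φ x hx => by
      show galMul σ (φ (σ⁻¹ • x)) - φ x = 0
      have hmem : σ⁻¹ • x ∈ K :=
        h.smul_mem σ⁻¹ (inv_mem (mem_decomposition_of_mem_inertiaIn hσ)) x hx
      have e : φ (σ • σ⁻¹ • x) = galMul σ (φ (σ⁻¹ • x)) :=
        h.equivariant (φ : V →+ QbarMul) σ hσ _ hmem
      rw [← e, smul_inv_smul, sub_self]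
    smul_mem := fun g hg φ hφ x hx => by
      show galMul g (φ (g⁻¹ • x)) = 0
      rw [hφ _ (h.smul_mem g⁻¹ (inv_mem hg) x hx), map_zero]
    equivariant := fun Φ σ hσ φ hφ => by
      obtain ⟨v, hv⟩ := MuDual.exists_eq_eval Φ
      rw [hv, hv, MuDual.smul_apply]
      refine congrArg (galMul σ) ?_
      have := hφ _ (h.smul_sub_mem σ⁻¹ (inv_mem hσ) v)
      rwa [map_sub, sub_eq_zero] at this
    peu := fun Φ φ => by
      obtain ⟨v, hv⟩ := MuDual.exists_eq_eval Φ
      obtain ⟨β, hβ, hfun⟩ := h.peu φ v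
      set ζ := mulVal (φ v) with hζ
      have hζu : IsUnitAt Ar ζ :=
        isUnitAt_of_pow_eq_one (pow_ne_zero k h.r_prime.ne_zero) (mulVal_pow_exponent hk φ v)
      refine ⟨ζ / β, ⟨div_ne_zero hζu.1 hβ.1, ?_, ?_⟩, fun σ hσ => ?_⟩
      · rw [div_eq_mul_inv]; exact mul_mem hζu.2.1 hβ.2.2
      · rw [inv_div, div_eq_mul_inv]; exact mul_mem hβ.2.1 hζu.2.2
      · show mulVal (Φ (σ • φ - φ)) = _
        rw [hv]
        show mulVal (galMul σ (φ (σ⁻¹ • v)) - φ v) = _
        have hb : mulVal (φ (σ⁻¹ • v - v)) = σ⁻¹ β / β := hfun σ⁻¹ (inv_mem hσ)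
        have h1 : mulVal (φ (σ⁻¹ • v)) = σ⁻¹ β / β * ζ := by
          rw [← hb, hζ, ← mulVal_add, ← map_add, sub_add_cancel]
        have hσσ : σ (σ⁻¹ β) = β := σ.apply_symm_apply β
        rw [mulVal_sub, mulVal_galMul, h1, map_mul, map_div₀, hσσ, map_div₀]
        have h0 : σ β ≠ 0 := (map_ne_zero σ).mpr hβ.1
        field_simp
        rw [← hζ] }

end FermatLib.Mazur
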