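import Fermat.Agent.Mazur.AdmissibleDual
import Fermat.Agent.Mazur.AdmissibleBound

/-!
# Consequences of the global bound: the balance at `p`

For an admissible module `V`, the invariants of inertia at `p`, the multiplicative part `K`
and the augmentation `M` of inertia at `p` agree up to global invariants of `V` and of its dual.
-/

set_option autoImplicit false

noncomputable section

namespace FermatLib.Mazur

local notation "Qbar" => AlgebraicClosure ℚ
local notation "Γℚ" => (AlgebraicClosure ℚ ≃ₐ[ℚ] AlgebraicClosure ℚ)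

variable (V : Type*) [AddCommGroup V] [DistribMulAction Γℚ V]

/-- The points fixed by a subgroup of the Galois group. -/
def fixedPts (S : Subgroup Γℚ) : AddSubgroup V where
  carrier := {x | ∀ g ∈ S, g • x = x}
  zero_mem' := fun g _ => smul_zero g
  add_mem' := fun {x y} hx hy g hg => by rw [smul_add, hx g hg, hy g hg]
  neg_mem' := fun {x} hx g hg => by rw [smul_neg, hx g hg]

/-- The subgroup generated by `σ x - x` for `σ` in a subgroup. -/
def augmentation (S : Subgroup Γℚ) : AddSubgroup V :=
  AddSubgroup.closure {y | ∃ g ∈ S, ∃ x : V, y = g • x - x}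

variable {V}

theorem smul_sub_mem_augmentation {S : Subgroup Γℚ} {g : Γℚ} (hg : g ∈ S) (x : V) :
    g • x - x ∈ augmentation V S :=
  AddSubgroup.subset_closure ⟨g, hg, x, rfl⟩

namespace IsAdmissible

variable {r p : ℕ} {Ar Ap : ValuationSubring Qbar} {K : AddSubgroup V}

theorem galMul_inertia_p (h : IsAdmissible r p Ar Ap V K) {σ : Γℚ}
    (hσ : σ ∈ Ap.inertiaSubgroupIn ℚ) (φ : V →+ QbarMul) (x : V) : galMul σ (φ x) = φ x := by
  obtain ⟨k, hk⟩ := h.exponent
  refine mulVal_injective ?_
  rw [mulVal_galMul]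
  exact inertia_apply_eq_self_of_pow_eq_one h.p_prime
    (fun hd => h.r_ne_p ((Nat.prime_dvd_prime_iff_eq h.p_prime h.r_prime).mp
      (h.p_prime.dvd_of_dvd_pow hd)).symm)
    h.liesOver_p hσ (mulVal_pow_exponent hk φ x)

theorem augmentation_le_fixedPts (h : IsAdmissible r p Ar Ap V K) :
    augmentation V (Ap.inertiaSubgroupIn ℚ) ≤ fixedPts V (Ap.inertiaSubgroupIn ℚ) := by
  rw [augmentation, AddSubgroup.closure_le]
  rintro _ ⟨τ, hτ, x, rfl⟩ σ hσ
  exact h.unipotent σ hσ τ hτ x

/-- Coboundaries of inertia invariants are Selmer cocycles. -/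
theorem isSelmerCocycle_coboundary (h : IsAdmissible r p Ar Ap V K) {v : V}
    (hv : v ∈ fixedPts V (Ap.inertiaSubgroupIn ℚ)) :
    IsSelmerCocycle r p Ar Ap K fun g => g • v - v where
  cocycle g g' := by
    rw [mul_smul, smul_sub]
    abel
  locallyConstant :=
    ⟨MulAction.stabilizer Γℚ v, h.isOpen_stabilizer v, fun g hg => sub_eq_zero.mpr hg⟩
  unramified ℓ hℓ hr hp A hA σ hσ := sub_eq_zero.mpr (h.unramified ℓ hℓ hr hp A hA σ hσ v)
  trivial_p σ hσ := sub_eq_zero.mpr (hv σ hσ)
  mem_K σ hσ := h.smul_sub_mem σ hσ v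
  peu φ := h.peu φ v

theorem natCard_fixed_inertia_le (h : IsAdmissible r p Ar Ap V K) :
    Nat.card (fixedPts V (Ap.inertiaSubgroupIn ℚ)) ≤ Nat.card K * Nat.card (fixedPts V ⊤) := by
  have := h.finite
  obtain ⟨hfin, hcard⟩ := selmerCocycles_card_le h
  let W := fixedPts V (Ap.inertiaSubgroupIn ℚ)
  let d : W →+ (Γℚ → V) := AddMonoidHom.mk' (fun v g => g • (v : V) - v) fun v w => by
    funext g
    simp only [AddSubgroup.coe_add, smul_add, Pi.add_apply]
    abel
  have hrange : Nat.card d.range ≤ Nat.card K := by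
    refine le_trans ?_ hcard
    rw [← Nat.card_coe_set_eq]
    refine Nat.card_mono hfin ?_
    rintro _ ⟨v, rfl⟩
    exact h.isSelmerCocycle_coboundary v.2
  have hker : Nat.card d.ker ≤ Nat.card (fixedPts V ⊤) := by
    refine Nat.card_le_card_of_injective
      (fun v => ⟨((v : W) : V), fun g _ => sub_eq_zero.mp (congrFun v.2 g)⟩) ?_
    intro v w e
    exact Subtype.ext (Subtype.ext (congrArg (fun z : fixedPts V ⊤ => (z : V)) e))
  calc Nat.card W = Nat.card d.range * Nat.card d.ker := by
        rw [← AddSubgroup.index_ker, mul_comm, AddSubgroup.card_mul_index]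
    _ ≤ Nat.card K * Nat.card (fixedPts V ⊤) := Nat.mul_le_mul hrange hker

theorem fixedPts_dual_eq (h : IsAdmissible r p Ar Ap V K) :
    fixedPts (MuDual V) (Ap.inertiaSubgroupIn ℚ) =
      MuDual.annihilator V (augmentation V (Ap.inertiaSubgroupIn ℚ)) := by
  ext φ
  constructor
  · intro hφ x hx
    rw [augmentation] at hx
    induction hx using AddSubgroup.closure_induction with
    | mem y hy =>
      obtain ⟨σ, hσ, z, rfl⟩ := hy
      have e := DFunLike.congr_fun (hφ σ⁻¹ (inv_mem hσ)) z
      rw [MuDual.smul_apply, inv_inv] at e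
      rw [map_sub, sub_eq_zero]
      exact (h.galMul_inertia_p (inv_mem hσ) (φ : V →+ QbarMul) (σ • z)).symm.trans e
    | zero => exact map_zero φ
    | add y z _ _ hy hz => rw [map_add, hy, hz, add_zero]
    | neg y _ hy => rw [map_neg, hy, neg_zero]
  · intro hφ σ hσ
    refine MuDual.ext fun x => ?_
    rw [MuDual.smul_apply]
    refine (h.galMul_inertia_p hσ (φ : V →+ QbarMul) (σ⁻¹ • x)).trans ?_
    have := hφ _ (smul_sub_mem_augmentation (inv_mem hσ) x)
    rwa [map_sub, sub_eq_zero] at this

/-- The multiplicative part is at most as large as the augmentation, up to the global invariants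
of the dual. -/
theorem natCard_K_le (h : IsAdmissible r p Ar Ap V K) :
    Nat.card K ≤ Nat.card (augmentation V (Ap.inertiaSubgroupIn ℚ)) *
      Nat.card (fixedPts (MuDual V) ⊤) := by
  have := h.finite
  have h1 := h.dual.natCard_fixed_inertia_le
  rw [h.fixedPts_dual_eq] at h1
  have hM := MuDual.natCard_annihilator_mul (augmentation V (Ap.inertiaSubgroupIn ℚ))
  have hK := MuDual.natCard_annihilator_mul K
  set a := Nat.card (MuDual.annihilator V (augmentation V (Ap.inertiaSubgroupIn ℚ)))
  set b := Nat.card (MuDual.annihilator V K)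
  set m := Nat.card (augmentation V (Ap.inertiaSubgroupIn ℚ))
  set c := Nat.card (fixedPts (MuDual V) ⊤)
  have hV : 0 < Nat.card V := Nat.card_pos
  have hb : 0 < b := by
    rcases Nat.eq_zero_or_pos b with h0 | h0
    · rw [h0, zero_mul] at hK; omega
    · exact h0
  refine Nat.le_of_mul_le_mul_left ?_ hb
  calc b * Nat.card K = a * m := by rw [hK, hM]
    _ ≤ b * c * m := Nat.mul_le_mul_right m h1
    _ = b * (m * c) := by ring

/-- The index of the augmentation in the inertia invariants at `p` is bounded. -/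
theorem natCard_fixed_le_augmentation (h : IsAdmissible r p Ar Ap V K) :
    Nat.card (fixedPts V (Ap.inertiaSubgroupIn ℚ)) ≤
      Nat.card (augmentation V (Ap.inertiaSubgroupIn ℚ)) *
        (Nat.card (fixedPts (MuDual V) ⊤) * Nat.card (fixedPts V ⊤)) := by
  refine h.natCard_fixed_inertia_le.trans ?_
  rw [← mul_assoc]
  exact Nat.mul_le_mul_right _ h.natCard_K_le

end IsAdmissible

end FermatLib.Mazur
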