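import Fermat.Agent.Mazur.CharDual
import Fermat.Agent.Mazur.LocalLemmas
import Mathlib.Algebra.Module.Equiv.Basic
import Mathlib.RingTheory.Nilpotent.Basic
import Mathlib.GroupTheory.OrderOfElement
import Mathlib.Algebra.GroupWithZero.Action.End

/-!
# Operations on admissible modules: subgroups, quotients and duals
-/

set_option autoImplicit false

noncomputable section

namespace FermatLib.Mazur

local notation "Qbar" => AlgebraicClosure ℚ
local notation "Γℚ" => (AlgebraicClosure ℚ ≃ₐ[ℚ] AlgebraicClosure ℚ)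

/-- Inertia elements lie in the decomposition group. -/
theorem mem_decomposition_of_mem_inertiaIn {A : ValuationSubring Qbar} {σ : Γℚ}
    (h : σ ∈ A.inertiaSubgroupIn ℚ) : σ ∈ A.decompositionSubgroup ℚ := by
  obtain ⟨⟨τ, hτ⟩, -, rfl⟩ := Subgroup.mem_map.mp h
  exact hτ

/-- A root of unity is a unit at every valuation ring. -/
theorem isUnitAt_of_pow_eq_one {A : ValuationSubring Qbar} {ζ : Qbar} {n : ℕ} (hn : n ≠ 0)
    (h : ζ ^ n = 1) : IsUnitAt A ζ := by
  have key : ∀ x : Qbar, x ^ n = 1 → x ∈ A := fun x hx => by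
    rcases A.mem_or_inv_mem x with hx' | hx'
    · exact hx'
    · have : x = x⁻¹ ^ (n - 1) := by
        have h0 : x ≠ 0 := fun h0 => by simp [h0, zero_pow hn] at hx
        rw [inv_pow]
        refine eq_inv_of_mul_eq_one_left ?_
        rw [← pow_succ', Nat.sub_add_cancel (Nat.one_le_iff_ne_zero.mpr hn), hx]
      rw [this]
      exact pow_mem hx' _
  exact ⟨fun h0 => by simp [h0, zero_pow hn] at h, key ζ h, key ζ⁻¹ (by rw [inv_pow, h, inv_one])⟩

/-- The stabiliser of an element of `ℚ̄` is open. -/
theorem isOpen_stabilizer_qbar (x : Qbar) :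
    IsOpen ((MulAction.stabilizer Γℚ x : Subgroup Γℚ) : Set Γℚ) := by
  have : Algebra.IsAlgebraic ℚ Qbar := AlgebraicClosure.isAlgebraic ℚ
  have hx : IsIntegral ℚ x := (Algebra.IsAlgebraic.isAlgebraic x).isIntegral
  have : FiniteDimensional ℚ (IntermediateField.adjoin ℚ {x}) :=
    IntermediateField.adjoin.finiteDimensional hx
  refine Subgroup.isOpen_mono ?_ (IntermediateField.fixingSubgroup_isOpen
    (IntermediateField.adjoin ℚ {x}))
  intro σ hσ
  exact hσ ⟨x, IntermediateField.mem_adjoin_simple_self ℚ x⟩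

variable {r p : ℕ} {Ar Ap : ValuationSubring Qbar} {V W : Type*} [AddCommGroup V]
  [DistribMulAction Γℚ V] [AddCommGroup W] [DistribMulAction Γℚ W] {K : AddSubgroup V}

theorem map_eisOp (f : V →+ W) (hf : ∀ (g : Γℚ) (x : V), f (g • x) = g • f x) (g : Γℚ) (u : ℕ)
    (N : ℕ) (x : V) : f ((eisOp g u)^[N] x) = (eisOp g u)^[N] (f x) := by
  induction N generalizing x with
  | zero => rfl
  | succ N ih =>
    rw [Function.iterate_succ_apply, Function.iterate_succ_apply, ih]
    simp only [eisOp, map_add, map_sub, map_nsmul, hf]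

namespace IsAdmissible

/-- Stable subgroups of admissible modules are admissible. -/
theorem of_injective (h : IsAdmissible r p Ar Ap V K) (f : W →+ V)
    (hf : ∀ (g : Γℚ) (x : W), f (g • x) = g • f x) (hinj : Function.Injective f) :
    IsAdmissible r p Ar Ap W (K.comap f) := by
  have := h.finite
  have hW : Finite W := Finite.of_injective f hinj
  have hext : ∀ φ : W →+ QbarMul, ∃ ψ : V →+ QbarMul, ∀ x, ψ (f x) = φ x := fun φ => by
    obtain ⟨ψ, hψ⟩ := CharDual.exists_extend f.range
      (φ.comp (AddMonoidHom.ofInjective hinj).symm.toAddMonoidHom)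
    refine ⟨ψ, fun x => ?_⟩
    have := hψ ⟨f x, x, rfl⟩
    rw [AddMonoidHom.comp_apply] at this
    refine this.trans (congrArg φ ?_)
    exact (AddMonoidHom.ofInjective hinj).symm_apply_apply x
  exact {
    r_prime := h.r_prime
    p_prime := h.p_prime
    r_ne_p := h.r_ne_p
    liesOver_r := h.liesOver_r
    liesOver_p := h.liesOver_p
    finite := hW
    exponent := by
      obtain ⟨k, hk⟩ := h.exponent
      exact ⟨k, fun x => hinj (by rw [map_nsmul, hk, map_zero])⟩
    isOpen_stabilizer := fun x => by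
      refine Subgroup.isOpen_mono ?_ (h.isOpen_stabilizer (f x))
      intro g hg
      exact hinj ((hf g x).trans hg)
    unramified := fun ℓ hℓ hr hp A hA σ hσ x =>
      hinj (by rw [hf, h.unramified ℓ hℓ hr hp A hA σ hσ])
    unipotent := fun σ hσ τ hτ x => hinj (by
      simp only [hf, map_sub]
      exact h.unipotent σ hσ τ hτ (f x))
    constituents := fun g u hu => by
      obtain ⟨N, hN⟩ := h.constituents g u hu
      exact ⟨N, fun x => hinj (by rw [map_eisOp f hf, hN, map_zero])⟩
    smul_sub_mem := fun σ hσ x => by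
      show f (σ • x - x) ∈ K
      rw [map_sub, hf]
      exact h.smul_sub_mem σ hσ _
    smul_mem := fun g hg x hx => by
      show f (g • x) ∈ K
      rw [hf]
      exact h.smul_mem g hg _ hx
    equivariant := fun φ σ hσ x hx => by
      obtain ⟨ψ, hψ⟩ := hext φ
      rw [← hψ, ← hψ, hf]
      exact h.equivariant ψ σ hσ _ hx
    peu := fun φ v => by
      obtain ⟨ψ, hψ⟩ := hext φ
      obtain ⟨β, hβ, hσ⟩ := h.peu ψ (f v)
      refine ⟨β, hβ, fun σ hmem => ?_⟩
      show mulVal (φ (σ • v - v)) = _
      rw [← hψ, map_sub f, hf]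
      exact hσ σ hmem }

/-- Quotients of admissible modules are admissible. -/
theorem of_surjective (h : IsAdmissible r p Ar Ap V K) (f : V →+ W)
    (hf : ∀ (g : Γℚ) (x : V), f (g • x) = g • f x) (hsurj : Function.Surjective f) :
    IsAdmissible r p Ar Ap W (K.map f) := by
  have := h.finite
  exact {
    r_prime := h.r_prime
    p_prime := h.p_prime
    r_ne_p := h.r_ne_p
    liesOver_r := h.liesOver_r
    liesOver_p := h.liesOver_p
    finite := Finite.of_surjective f hsurj
    exponent := by
      obtain ⟨k, hk⟩ := h.exponent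
      refine ⟨k, fun y => ?_⟩
      obtain ⟨x, rfl⟩ := hsurj y
      rw [← map_nsmul, hk, map_zero]
    isOpen_stabilizer := fun y => by
      obtain ⟨x, rfl⟩ := hsurj y
      refine Subgroup.isOpen_mono ?_ (h.isOpen_stabilizer x)
      intro g hg
      exact (hf g x).symm.trans (congrArg f hg)
    unramified := fun ℓ hℓ hr hp A hA σ hσ y => by
      obtain ⟨x, rfl⟩ := hsurj y
      rw [← hf, h.unramified ℓ hℓ hr hp A hA σ hσ]
    unipotent := fun σ hσ τ hτ y => by
      obtain ⟨x, rfl⟩ := hsurj y
      rw [← hf, ← map_sub, ← hf, h.unipotent σ hσ τ hτ x]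
    constituents := fun g u hu => by
      obtain ⟨N, hN⟩ := h.constituents g u hu
      refine ⟨N, fun y => ?_⟩
      obtain ⟨x, rfl⟩ := hsurj y
      rw [← map_eisOp f hf, hN, map_zero]
    smul_sub_mem := fun σ hσ y => by
      obtain ⟨x, rfl⟩ := hsurj y
      exact ⟨σ • x - x, h.smul_sub_mem σ hσ x, by rw [map_sub, hf]⟩
    smul_mem := fun g hg y hy => by
      obtain ⟨x, hx, rfl⟩ := hy
      exact ⟨g • x, h.smul_mem g hg x hx, hf g x⟩
    equivariant := fun φ σ hσ y hy => by
      obtain ⟨x, hx, rfl⟩ := hy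
      rw [← hf]
      exact h.equivariant (φ.comp f) σ hσ x hx
    peu := fun φ y => by
      obtain ⟨x, rfl⟩ := hsurj y
      obtain ⟨β, hβ, hσ⟩ := h.peu (φ.comp f) x
      refine ⟨β, hβ, fun σ hmem => ?_⟩
      have := hσ σ hmem
      simp only [AddMonoidHom.comp_apply, map_sub f, hf] at this
      exact this }

end IsAdmissible

end FermatLib.Mazur
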