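import Mathlib.Algebra.Algebra.Rat
import Mathlib.Algebra.Group.Hom.Defs
import Mathlib.FieldTheory.IsAlgClosed.Basic
import Mathlib.FieldTheory.KrullTopology
import Mathlib.GroupTheory.Divisible
import Mathlib.GroupTheory.Subgroup.Center
import Fermat.Prelude.Def_FLTPrelim_Ramification

/-!
# Admissible finite Galois modules for the Eisenstein descent

Definitions shared by the files of the proof of Mazur's key step.
-/

set_option autoImplicit false

noncomputable section

namespace FermatLib.Mazur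

local notation "Qbar" => AlgebraicClosure ℚ
local notation "Γℚ" => (AlgebraicClosure ℚ ≃ₐ[ℚ] AlgebraicClosure ℚ)

/-- The multiplicative group of `ℚ̄`, written additively; target of character groups. -/
abbrev QbarMul : Type := Additive (AlgebraicClosure ℚ)ˣ

/-- The Galois action on `ℚ̄ˣ`, additively. -/
def galMul (g : Γℚ) : QbarMul →+ QbarMul :=
  MonoidHom.toAdditive (Units.map (g : Qbar →* Qbar))

/-- The underlying element of `ℚ̄` of a character value. -/
def mulVal (x : QbarMul) : Qbar := ((Additive.toMul x : Qbarˣ) : Qbar)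

theorem mulVal_galMul (g : Γℚ) (x : QbarMul) : mulVal (galMul g x) = g (mulVal x) := rfl

theorem mulVal_injective : Function.Injective mulVal := fun _ _ h =>
  Additive.toMul.injective (Units.ext h)

theorem mulVal_ne_zero (x : QbarMul) : mulVal x ≠ 0 := Units.ne_zero _

@[simp] theorem mulVal_zero : mulVal 0 = 1 := rfl

@[simp] theorem mulVal_add (x y : QbarMul) : mulVal (x + y) = mulVal x * mulVal y := rfl

theorem galMul_galMul (g h : Γℚ) (x : QbarMul) : galMul g (galMul h x) = galMul (g * h) x := rfl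

theorem galMul_one (x : QbarMul) : galMul 1 x = x := mulVal_injective rfl

/-- `u` is the value of the cyclotomic character modulo `n` at `g`. -/
def IsCycloValue (n : ℕ) (g : Γℚ) (u : ℕ) : Prop :=
  ∀ ζ : Qbar, ζ ^ n = 1 → g ζ = ζ ^ u

/-- The operator `(g - 1)(g - u)`. -/
def eisOp {V : Type*} [AddCommGroup V] [DistribMulAction Γℚ V] (g : Γℚ) (u : ℕ) (x : V) : V :=
  g • g • x - (1 + u) • g • x + u • x

/-- `x` is a unit of the valuation ring `A`. -/
def IsUnitAt (A : ValuationSubring Qbar) (x : Qbar) : Prop :=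
  x ≠ 0 ∧ x ∈ A ∧ x⁻¹ ∈ A

/-- A function `I → ℚ̄ˣ` on the inertia group of `A` is the Kummer cocycle of a unit. -/
def IsUnitKummer (A : ValuationSubring Qbar) (f : Γℚ → Qbar) : Prop :=
  ∃ β : Qbar, IsUnitAt A β ∧ ∀ σ ∈ A.inertiaSubgroupIn ℚ, f σ = σ β / β

/-- Finite `r`-primary Galois modules with a distinguished "multiplicative part" `K` at the
place `Ar` over `r`, semistable at the place `Ap` over `p`, with constituents `ℤ/r` and `μ_r`. -/
structure IsAdmissible (r p : ℕ) (Ar Ap : ValuationSubring Qbar) (V : Type*) [AddCommGroup V]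
    [DistribMulAction Γℚ V] (K : AddSubgroup V) : Prop where
  r_prime : r.Prime
  p_prime : p.Prime
  r_ne_p : r ≠ p
  liesOver_r : Ar.LiesOverPrime r
  liesOver_p : Ap.LiesOverPrime p
  finite : Finite V
  exponent : ∃ k : ℕ, ∀ x : V, r ^ k • x = 0
  isOpen_stabilizer : ∀ x : V, IsOpen ((MulAction.stabilizer Γℚ x : Subgroup Γℚ) : Set Γℚ)
  unramified : ∀ ℓ : ℕ, ℓ.Prime → ℓ ≠ r → ℓ ≠ p → ∀ A : ValuationSubring Qbar,
    A.LiesOverPrime ℓ → ∀ σ ∈ A.inertiaSubgroupIn ℚ, ∀ x : V, σ • x = x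
  unipotent : ∀ σ ∈ Ap.inertiaSubgroupIn ℚ, ∀ τ ∈ Ap.inertiaSubgroupIn ℚ, ∀ x : V,
    σ • (τ • x - x) = τ • x - x
  constituents : ∀ (g : Γℚ) (u : ℕ), IsCycloValue r g u →
    ∃ N : ℕ, ∀ x : V, (eisOp g u)^[N] x = 0
  smul_sub_mem : ∀ σ ∈ Ar.inertiaSubgroupIn ℚ, ∀ x : V, σ • x - x ∈ K
  smul_mem : ∀ g ∈ Ar.decompositionSubgroup ℚ, ∀ x ∈ K, g • x ∈ K
  equivariant : ∀ (φ : V →+ QbarMul), ∀ σ ∈ Ar.inertiaSubgroupIn ℚ, ∀ x ∈ K,
    φ (σ • x) = galMul σ (φ x)
  peu : ∀ (φ : V →+ QbarMul) (v : V),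
    IsUnitKummer Ar fun σ => mulVal (φ (σ • v - v))

/-- Cocycles satisfying the local conditions of the Eisenstein descent. -/
structure IsSelmerCocycle (r p : ℕ) (Ar Ap : ValuationSubring Qbar) {V : Type*} [AddCommGroup V]
    [DistribMulAction Γℚ V] (K : AddSubgroup V) (c : Γℚ → V) : Prop where
  cocycle : ∀ g h : Γℚ, c (g * h) = c g + g • c h
  locallyConstant : ∃ H : Subgroup Γℚ, IsOpen (H : Set Γℚ) ∧ ∀ h ∈ H, c h = 0
  unramified : ∀ ℓ : ℕ, ℓ.Prime → ℓ ≠ r → ℓ ≠ p → ∀ A : ValuationSubring Qbar,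
    A.LiesOverPrime ℓ → ∀ σ ∈ A.inertiaSubgroupIn ℚ, c σ = 0
  trivial_p : ∀ σ ∈ Ap.inertiaSubgroupIn ℚ, c σ = 0
  mem_K : ∀ σ ∈ Ar.inertiaSubgroupIn ℚ, c σ ∈ K
  peu : ∀ φ : V →+ QbarMul, IsUnitKummer Ar fun σ => mulVal (φ (c σ))

/-- The group of characters of a Galois module, with the conjugation action. -/
def MuDual (V : Type*) [AddCommGroup V] : Type _ := V →+ QbarMul

namespace MuDual

variable {V : Type*} [AddCommGroup V]

instance instAddCommGroup : AddCommGroup (MuDual V) :=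
  inferInstanceAs (AddCommGroup (V →+ QbarMul))

instance instFunLike : FunLike (MuDual V) V QbarMul :=
  inferInstanceAs (FunLike (V →+ QbarMul) V QbarMul)

instance instAddMonoidHomClass : AddMonoidHomClass (MuDual V) V QbarMul :=
  inferInstanceAs (AddMonoidHomClass (V →+ QbarMul) V QbarMul)

@[ext] theorem ext {φ ψ : MuDual V} (h : ∀ x, φ x = ψ x) : φ = ψ :=
  AddMonoidHom.ext h

@[simp] theorem add_apply (φ ψ : MuDual V) (x : V) : (φ + ψ) x = φ x + ψ x := rfl

@[simp] theorem zero_apply (x : V) : (0 : MuDual V) x = 0 := rfl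

variable [DistribMulAction Γℚ V]

instance instSMul : SMul Γℚ (MuDual V) where
  smul g φ := ((galMul g).comp (φ : V →+ QbarMul)).comp (DistribSMul.toAddMonoidHom V g⁻¹)

@[simp] theorem smul_apply (g : Γℚ) (φ : MuDual V) (x : V) :
    (g • φ) x = galMul g (φ (g⁻¹ • x)) := rfl

instance instDistribMulAction : DistribMulAction Γℚ (MuDual V) where
  one_smul φ := ext fun x => by rw [smul_apply, inv_one, one_smul, galMul_one]
  mul_smul g h φ := ext fun x => by
    rw [smul_apply, smul_apply, smul_apply, galMul_galMul, mul_inv_rev, mul_smul]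
  smul_zero g := ext fun x => by rw [smul_apply, zero_apply, zero_apply, map_zero]
  smul_add g φ ψ := ext fun x => by simp only [smul_apply, add_apply, map_add]

variable (V) in
/-- The characters vanishing on `K`. -/
def annihilator (K : AddSubgroup V) : AddSubgroup (MuDual V) where
  carrier := {φ | ∀ x ∈ K, φ x = 0}
  zero_mem' := fun _ _ => rfl
  add_mem' := fun {φ ψ} hφ hψ x hx => by rw [add_apply, hφ x hx, hψ x hx, add_zero]
  neg_mem' := fun {φ} hφ x hx => by
    show -(φ x) = 0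
    rw [hφ x hx, neg_zero]

end MuDual

end FermatLib.Mazur
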