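import Mathlib.GroupTheory.PGroup
import Mathlib.Algebra.CharP.Lemmas
import Mathlib.RingTheory.IntegralDomain
import Mathlib.RingTheory.RootsOfUnity.AlgebraicallyClosed
import Mathlib.GroupTheory.SpecificGroups.Cyclic
import Mathlib.GroupTheory.Perm.Cycle.Type
import Mathlib.Algebra.Field.ZMod
import Fermat.Agent.Mazur.Defs

/-!
# Stable lines in modules with constituents `1` and the cyclotomic character

For a group `G` mapping to `Gal(ℚ̄/ℚ)` and acting on a finite `r`-group with `(g - 1)(g - χ g)`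
nilpotent, there is a stable line on which `G` acts by `1` or by `χ`.
-/

set_option autoImplicit false
set_option linter.style.haveILetI false

noncomputable section

namespace FermatLib.Mazur.StableLine

local notation "Qbar" => AlgebraicClosure ℚ
local notation "Γℚ" => (AlgebraicClosure ℚ ≃ₐ[ℚ] AlgebraicClosure ℚ)

variable {G : Type*} [Group G] {V : Type*} [AddCommGroup V] [DistribMulAction G V]

/-- The operator `(g - 1)(g - u)` for an arbitrary acting group. -/
def opAt (g : G) (u : ℕ) (x : V) : V := g • g • x - (1 + u) • g • x + u • x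

theorem opAt_one (g : G) (x : V) : opAt g 1 x = g • (g • x - x) - (g • x - x) := by
  rw [opAt, smul_sub, add_smul, one_smul]
  abel

theorem opAt_eq_smul (g : G) (u : ℕ) (x : V) :
    opAt g u x = g • (g • x - x) - u • (g • x - x) := by
  rw [opAt, smul_sub, smul_sub, add_smul, one_smul]
  abel

theorem opAt_map {W : Type*} [AddCommGroup W] [DistribMulAction G W] (f : V →+ W)
    (hf : ∀ (g : G) (x : V), f (g • x) = g • f x) (g : G) (u : ℕ) :
    Function.Semiconj f (opAt g u) (opAt g u) := fun x => by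
  simp only [opAt, map_add, map_sub, map_nsmul, hf]

/-- `g - 1` as an endomorphism. -/
def subOne (g : G) : AddMonoid.End V := DistribSMul.toAddMonoidHom V g - AddMonoidHom.id V

theorem subOne_apply (g : G) (x : V) : subOne g x = g • x - x := rfl

theorem iterate_opAt_one (g : G) (N : ℕ) (x : V) :
    (opAt g 1)^[N] x = (subOne g ^ (2 * N) : AddMonoid.End V) x := by
  induction N generalizing x with
  | zero => rfl
  | succ N ih =>
    rw [Function.iterate_succ_apply, ih, mul_add, mul_one, pow_add, sq]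
    show _ = (subOne g ^ (2 * N) : AddMonoid.End V) (subOne g (subOne g x))
    rw [opAt_one, subOne_apply, subOne_apply]

theorem nsmul_eq_of_modEq {r m n : ℕ} {x : V} (hx : r • x = 0) (h : m ≡ n [MOD r]) :
    m • x = n • x := by
  rw [← Nat.mod_add_div m r, ← Nat.mod_add_div n r, h, add_smul, add_smul, mul_comm r,
    mul_comm r, mul_smul, mul_smul, hx, smul_zero, smul_zero]

theorem pow_smul_eq_self {r : ℕ} (hr : r.Prime) {g : G} {N : ℕ}
    (hN : ∀ x : V, r • x = 0 → (opAt g 1)^[N] x = 0) {x : V} (hx : r • x = 0) :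
    g ^ r ^ (2 * N) • x = x := by
  let E : AddMonoid.End V := DistribSMul.toAddMonoidHom V g
  have hg : E = subOne g + 1 := by
    ext y
    show g • y = (g • y - y) + y
    abel
  have hgpow : ∀ n : ℕ, (E ^ n : AddMonoid.End V) x = g ^ n • x := by
    intro n
    induction n with
    | zero => rw [pow_zero, pow_zero, one_smul]; rfl
    | succ n ih =>
      rw [pow_succ', pow_succ', mul_smul, ← ih]
      rfl
  obtain ⟨c, hc⟩ := (Commute.one_right (subOne g : AddMonoid.End V)).exists_add_pow_prime_pow_eq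
    hr (2 * N)
  rw [← hg, one_pow, mul_one] at hc
  have hle : 2 * N ≤ r ^ (2 * N) := (Nat.lt_pow_self hr.one_lt).le
  have hn : (subOne g ^ r ^ (2 * N) : AddMonoid.End V) x = 0 := by
    rw [← Nat.sub_add_cancel hle, pow_add]
    show (subOne g ^ (r ^ (2 * N) - 2 * N) : AddMonoid.End V)
      ((subOne g ^ (2 * N) : AddMonoid.End V) x) = 0
    rw [← iterate_opAt_one, hN x hx, map_zero]
  have := DFunLike.congr_fun hc x
  rw [hgpow] at this
  rw [this]
  show (subOne g ^ r ^ (2 * N) : AddMonoid.End V) x + x + _ = x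
  rw [hn, zero_add, mul_assoc]
  show x + ((r : AddMonoid.End V) _) = x
  rw [AddMonoid.End.natCast_apply]
  simp only [add_eq_left]
  show r • ((subOne g * c : AddMonoid.End V) x) = 0
  rw [← map_nsmul, hx, map_zero]

/-- Cyclotomic values exist. -/
theorem exists_cycloValue {r : ℕ} (hr : r.Prime) (g : Γℚ) : ∃ u, IsCycloValue r g u := by
  have : NeZero (r : ℚ) := ⟨Nat.cast_ne_zero.mpr hr.ne_zero⟩
  have : NeZero r := ⟨hr.ne_zero⟩
  obtain ⟨ζ, hζ⟩ := HasEnoughRootsOfUnity.exists_primitiveRoot Qbar r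
  refine ⟨(hζ.autToPow ℚ g : ZMod r).val, fun z hz => ?_⟩
  obtain ⟨i, -, rfl⟩ := hζ.eq_pow_of_pow_eq_one hz
  have h1 : g ζ = ζ ^ (hζ.autToPow ℚ g : ZMod r).val := (hζ.autToPow_spec ℚ g).symm
  exact (map_pow g ζ i).trans ((congrArg (· ^ i) h1).trans (pow_right_comm ζ _ i))

variable [Finite V] {r : ℕ}

/-- Elements whose cyclotomic value is `1` fix a common nonzero element killed by `r`. -/
theorem exists_fixed_of_cyclo_one (hr : r.Prime) (hexp : ∃ k : ℕ, ∀ x : V, r ^ k • x = 0)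
    (c : G →* Γℚ) (G₁ : Subgroup G) (hG₁ : ∀ g ∈ G₁, IsCycloValue r (c g) 1)
    (hnil : ∀ (g : G) (u : ℕ), IsCycloValue r (c g) u → ∃ N, ∀ x : V, (opAt g u)^[N] x = 0)
    (hV : Nontrivial V) : ∃ x : V, x ≠ 0 ∧ r • x = 0 ∧ ∀ g ∈ G₁, g • x = x := by
  classical
  let U : AddSubgroup V := (nsmulAddMonoidHom r).ker
  have hU : ∀ x, x ∈ U ↔ r • x = 0 := fun x => Iff.rfl
  have : Fact r.Prime := ⟨hr⟩
  letI : MulAction G U :=
    { smul := fun g x => ⟨g • (x : V), by
        rw [hU, ← smul_comm g r (x : V), (hU _).mp x.2, smul_zero]⟩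
      one_smul := fun x => Subtype.ext (one_smul G (x : V))
      mul_smul := fun g h x => Subtype.ext (mul_smul g h (x : V)) }
  let P : Subgroup (Equiv.Perm U) := G₁.map (MulAction.toPermHom G U)
  have hP : IsPGroup r P := by
    rintro ⟨e, g, hg, rfl⟩
    obtain ⟨N, hN⟩ := hnil g 1 (hG₁ g hg)
    refine ⟨2 * N, Subtype.ext (Equiv.ext fun x => Subtype.ext ?_)⟩
    rw [SubgroupClass.coe_pow, ← map_pow]
    exact pow_smul_eq_self hr (fun x _ => hN x) ((hU _).mp x.2)
  obtain ⟨k, hk⟩ := hexp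
  obtain ⟨v, hv⟩ := exists_ne (0 : V)
  have hex : ∃ j, r ^ j • v = 0 := ⟨k, hk v⟩
  have hj0 : Nat.find hex ≠ 0 := fun h0 => hv (by simpa [h0] using Nat.find_spec hex)
  have hw : r ^ (Nat.find hex - 1) • v ≠ 0 := Nat.find_min hex (by omega)
  have hrw : r • r ^ (Nat.find hex - 1) • v = 0 := by
    rw [← mul_smul, ← pow_succ', Nat.sub_add_cancel (Nat.pos_of_ne_zero hj0)]
    exact Nat.find_spec hex
  have hdvd : r ∣ Nat.card U := by
    have h1 : addOrderOf (⟨_, hrw⟩ : U) = r :=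
      addOrderOf_eq_prime (Subtype.ext hrw) (fun h => hw (congrArg Subtype.val h))
    exact h1 ▸ addOrderOf_dvd_natCard _
  have h0 : (0 : U) ∈ MulAction.fixedPoints P U := by
    rintro ⟨e, g, hg, rfl⟩
    exact Subtype.ext (smul_zero g)
  obtain ⟨b, hb, hb0⟩ := hP.exists_fixed_point_of_prime_dvd_card_of_fixed_point U hdvd h0
  exact ⟨b, fun h => hb0 (Subtype.ext h.symm), (hU _).mp b.2, fun g hg =>
    congrArg Subtype.val (hb ⟨_, g, hg, rfl⟩)⟩

/-- A stable line with trivial or cyclotomic action. -/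
theorem exists_stable_line (hr : r.Prime) (hexp : ∃ k : ℕ, ∀ x : V, r ^ k • x = 0)
    (c : G →* Γℚ)
    (hnil : ∀ (g : G) (u : ℕ), IsCycloValue r (c g) u → ∃ N, ∀ x : V, (opAt g u)^[N] x = 0)
    (hV : Nontrivial V) :
    ∃ x : V, x ≠ 0 ∧ r • x = 0 ∧
      ((∀ g : G, g • x = x) ∨ ∀ (g : G) (u : ℕ), IsCycloValue r (c g) u → g • x = u • x) := by
  classical
  have : Fact r.Prime := ⟨hr⟩
  have : NeZero (r : ℚ) := ⟨Nat.cast_ne_zero.mpr hr.ne_zero⟩
  obtain ⟨ζ, hζ⟩ := HasEnoughRootsOfUnity.exists_primitiveRoot Qbar r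
  let χ : G →* (ZMod r)ˣ := (hζ.autToPow ℚ).comp c
  have hval : ∀ g, IsCycloValue r (c g) (χ g : ZMod r).val := by
    intro g z hz
    obtain ⟨i, -, rfl⟩ := hζ.eq_pow_of_pow_eq_one hz
    have h1 : (c g) ζ = ζ ^ (χ g : ZMod r).val := (hζ.autToPow_spec ℚ (c g)).symm
    exact (map_pow (c g) ζ i).trans
      ((congrArg (· ^ i) h1).trans (pow_right_comm ζ (χ g : ZMod r).val i))
  have huniq : ∀ g u, IsCycloValue r (c g) u → u ≡ (χ g : ZMod r).val [MOD r] := by
    intro g u hu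
    have h1 := (hu ζ hζ.pow_eq_one).symm.trans (hval g ζ hζ.pow_eq_one)
    have hm : ∀ n : ℕ, ζ ^ (n % r) = ζ ^ n := fun n => (pow_eq_pow_mod n hζ.pow_eq_one).symm
    rw [← hm u, ← hm (χ g : ZMod r).val] at h1
    exact hζ.pow_inj (Nat.mod_lt _ hr.pos) (Nat.mod_lt _ hr.pos) h1
  obtain ⟨x, hx0, hrx, hfix⟩ := exists_fixed_of_cyclo_one hr hexp c χ.ker (fun g hg => by
    have := hval g
    rwa [MonoidHom.mem_ker.mp hg, Units.val_one, ZMod.val_one] at this) hnil hV
  obtain ⟨⟨e, g₀, rfl⟩, hgen⟩ := IsCyclic.exists_generator (α := χ.range)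
  set u₀ := (χ g₀ : ZMod r).val
  let S : AddSubgroup V :=
    { carrier := {y | r • y = 0 ∧ ∀ g ∈ χ.ker, g • y = y}
      zero_mem' := ⟨smul_zero r, fun g _ => smul_zero g⟩
      add_mem' := fun {a b} ha hb => ⟨by rw [smul_add, ha.1, hb.1, add_zero],
        fun g hg => by rw [smul_add, ha.2 g hg, hb.2 g hg]⟩
      neg_mem' := fun {a} ha => ⟨by rw [smul_neg, ha.1, neg_zero],
        fun g hg => by rw [smul_neg, ha.2 g hg]⟩ }
  have hS : ∀ y ∈ S, g₀ • y ∈ S := by
    refine fun y hy => ⟨by rw [← smul_comm g₀ r y, hy.1, smul_zero], fun g hg => ?_⟩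
    have h' : g₀⁻¹ * g * g₀ ∈ χ.ker := by
      simpa using χ.normal_ker.conj_mem g hg g₀⁻¹
    have := congrArg (g₀ • ·) (hy.2 _ h')
    simpa only [← mul_smul, mul_assoc, mul_inv_cancel_left] using this
  have hop : ∀ y ∈ S, opAt g₀ u₀ y ∈ S := fun y hy =>
    add_mem (sub_mem (hS _ (hS _ hy)) (nsmul_mem (hS _ hy) _)) (nsmul_mem hy _)
  obtain ⟨N, hN⟩ := hnil g₀ u₀ (hval g₀)
  obtain ⟨y, hyS, hy0, hopy⟩ : ∃ y ∈ S, y ≠ 0 ∧ opAt g₀ u₀ y = 0 := by
    have key : ∀ (n : ℕ) (z : V), z ∈ S → z ≠ 0 → (opAt g₀ u₀)^[n] z = 0 →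
        ∃ y ∈ S, y ≠ 0 ∧ opAt g₀ u₀ y = 0 := by
      intro n
      induction n with
      | zero => exact fun z _ hz h => absurd h hz
      | succ n ih =>
        intro z hz hz0 h
        by_cases h1 : opAt g₀ u₀ z = 0
        · exact ⟨z, hz, hz0, h1⟩
        · exact ih _ (hop z hz) h1 (by rwa [Function.iterate_succ_apply] at h)
    exact key N x ⟨hrx, hfix⟩ hx0 (hN x)
  have hspread : ∀ (z : V) (e : ℕ), z ∈ S → g₀ • z = e • z → ∀ g : G, ∃ m : ℕ,
      g • z = e ^ m • z ∧ (χ g : ZMod r) = (χ g₀ : ZMod r) ^ m := by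
    intro z e hz he g
    obtain ⟨m, hm⟩ := ((isOfFinOrder_of_finite (⟨χ g₀, g₀, rfl⟩ : χ.range)).mem_powers_iff_mem_zpowers.mpr
      (hgen ⟨χ g, g, rfl⟩))
    have hm' : χ g = χ g₀ ^ m := (congrArg Subtype.val hm).symm
    have hpow : ∀ n : ℕ, g₀ ^ n • z = e ^ n • z := by
      intro n
      induction n with
      | zero => simp
      | succ n ih => rw [pow_succ', mul_smul, ih, smul_comm g₀ (e ^ n) z, he, ← mul_smul, pow_succ]
    refine ⟨m, ?_, by rw [hm', Units.val_pow_eq_pow_val]⟩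
    have hker : (g₀ ^ m)⁻¹ * g ∈ χ.ker := by
      rw [MonoidHom.mem_ker, map_mul, map_inv, map_pow, hm', inv_mul_cancel]
    calc g • z = g₀ ^ m • ((g₀ ^ m)⁻¹ * g) • z := by rw [← mul_smul, mul_inv_cancel_left]
      _ = e ^ m • z := by rw [hz.2 _ hker, hpow]
  by_cases h1 : g₀ • y = y
  · refine ⟨y, hy0, hyS.1, Or.inl fun g => ?_⟩
    obtain ⟨m, hm, -⟩ := hspread y 1 hyS (by rw [h1, one_smul]) g
    rw [hm, one_pow, one_smul]
  · have hy' : g₀ • y - y ∈ S := sub_mem (hS y hyS) hyS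
    have he : g₀ • (g₀ • y - y) = u₀ • (g₀ • y - y) := by
      rw [opAt_eq_smul, sub_eq_zero] at hopy
      exact hopy
    refine ⟨_, sub_ne_zero.mpr h1, hy'.1, Or.inr fun g u hu => ?_⟩
    obtain ⟨m, hm, hχ⟩ := hspread _ u₀ hy' he g
    rw [hm]
    refine nsmul_eq_of_modEq hy'.1 (Nat.ModEq.trans ?_ (huniq g u hu).symm)
    rw [← ZMod.natCast_eq_natCast_iff, Nat.cast_pow, ZMod.natCast_zmod_val, hχ,
      ZMod.natCast_zmod_val]

end FermatLib.Mazur.StableLine
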