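import Fermat.Agent.Mazur.GunitKummerRam

/-!
# Kummer classes unramified outside a finite set of primes

A class in `H¹(ℚ, μ_r)` unramified outside the finite set `S` comes from
`a = ± ∏_{l ∈ S} l ^ e_l` with `0 ≤ e_l < r`.
-/

set_option autoImplicit false
set_option linter.style.haveILetI false

namespace FermatLib.Mazur

local notation "Qbar" => AlgebraicClosure ℚ
local notation "Γℚ" => (AlgebraicClosure ℚ ≃ₐ[ℚ] AlgebraicClosure ℚ)

theorem exists_nat_root {n : ℕ} {m : ℕ} (hm : m ≠ 0)
    (h : ∀ l, l.Prime → n ∣ m.factorization l) : ∃ k : ℕ, k ^ n = m := by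
  refine ⟨∏ l ∈ m.primeFactors, l ^ (m.factorization l / n), ?_⟩
  rw [← Finset.prod_pow]
  calc ∏ l ∈ m.primeFactors, (l ^ (m.factorization l / n)) ^ n
      = ∏ l ∈ m.primeFactors, l ^ m.factorization l := by
        refine Finset.prod_congr rfl fun l hl => ?_
        rw [← pow_mul, Nat.div_mul_cancel (h l (Nat.prime_of_mem_primeFactors hl))]
    _ = m := by
        conv_rhs => rw [← Nat.prod_factorization_pow_eq_self hm]
        rw [Finsupp.prod, Nat.support_factorization]

/-- A rational number all whose valuations are divisible by `n` is `±` an `n`-th power. -/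
theorem exists_rat_root {n : ℕ} {b : ℚ} (hb : b ≠ 0)
    (h : ∀ l : ℕ, l.Prime → (n : ℤ) ∣ padicValRat l b) :
    ∃ q : ℚ, q ^ n = |b| := by
  have hnum0 : b.num.natAbs ≠ 0 := by simpa using hb
  have key : ∀ l : ℕ, l.Prime → n ∣ b.num.natAbs.factorization l ∧ n ∣ b.den.factorization l := by
    intro l hl
    have hl' := h l hl
    rw [padicValRat_def, padicValInt] at hl'
    rw [Nat.factorization_def _ hl, Nat.factorization_def _ hl]
    by_cases hd : l ∣ b.den
    · have hn0 : padicValNat l b.num.natAbs = 0 := padicValNat.eq_zero_of_not_dvd fun hn =>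
        hl.ne_one (Nat.eq_one_of_dvd_coprimes b.reduced hn hd)
      rw [hn0, Nat.cast_zero, zero_sub, dvd_neg, Int.natCast_dvd_natCast] at hl'
      exact ⟨hn0 ▸ dvd_zero n, hl'⟩
    · have hd0 := padicValNat.eq_zero_of_not_dvd hd
      rw [hd0, Nat.cast_zero, sub_zero, Int.natCast_dvd_natCast] at hl'
      exact ⟨hl', hd0 ▸ dvd_zero n⟩
  obtain ⟨k, hk⟩ := exists_nat_root hnum0 fun l hl => (key l hl).1
  obtain ⟨d, hd⟩ := exists_nat_root b.den_ne_zero fun l hl => (key l hl).2
  refine ⟨(k : ℚ) / d, ?_⟩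
  rw [div_pow, ← Nat.cast_pow, ← Nat.cast_pow, hk, hd]
  conv_rhs => rw [← Rat.num_div_den b]
  rw [abs_div, Nat.abs_cast, Nat.cast_natAbs, Int.cast_abs]

end FermatLib.Mazur
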