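import Fermat.Agent.Mazur.AdmissibleDual
import Fermat.Agent.Mazur.GunitKummerSupport
import Fermat.Agent.Mazur.FlatModelLine

/-!
# Selmer cocycles of admissible modules of prime order
-/

set_option autoImplicit false
set_option linter.style.haveILetI false

noncomputable section

namespace FermatLib.Mazur

local notation "Qbar" => AlgebraicClosure ℚ
local notation "Γℚ" => (AlgebraicClosure ℚ ≃ₐ[ℚ] AlgebraicClosure ℚ)

theorem galMul_eq_nsmul {r u : ℕ} {g : Γℚ} (hu : IsCycloValue r g u) {z : QbarMul}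
    (hz : r • z = 0) : galMul g z = u • z := by
  apply mulVal_injective
  rw [mulVal_galMul, mulVal_nsmul]
  exact hu _ (by rw [← mulVal_nsmul, hz, mulVal_zero])

/-- Representatives for `μ_r ∪ (-μ_r)` up to sign. -/
theorem exists_sign_reps {r : ℕ} (hr : r.Prime) :
    ∃ T : Finset Qbar, T.card ≤ r ∧
      ∀ η : Qbar, (η ^ r = 1 ∨ η ^ r = -1) → η ∈ T ∨ -η ∈ T := by
  classical
  rcases hr.eq_two_or_odd' with rfl | hodd
  · obtain ⟨i, hi⟩ := IsAlgClosed.exists_pow_nat_eq (-1 : Qbar) two_pos
    refine ⟨{1, i}, Finset.card_le_two, fun η hη => ?_⟩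
    rcases hη with h | h
    · rcases sq_eq_one_iff.mp h with rfl | rfl <;> simp
    · rcases sq_eq_sq_iff_eq_or_eq_neg.mp (h.trans hi.symm) with rfl | rfl <;> simp
  · refine ⟨Polynomial.nthRootsFinset r (1 : Qbar), ?_, fun η hη => ?_⟩
    · rw [Polynomial.nthRootsFinset_def]
      exact (Multiset.toFinset_card_le _).trans (Polynomial.card_nthRoots r 1)
    · simp only [Polynomial.mem_nthRootsFinset hr.pos, hodd.neg_pow]
      exact hη.imp id fun h => by rw [h, neg_neg]

variable {r p : ℕ} {Ar Ap : ValuationSubring Qbar} {V : Type*} [AddCommGroup V]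
  [DistribMulAction Γℚ V] {K : AddSubgroup V}

omit [DistribMulAction Γℚ V] in
theorem IsAdmissible.nsmul_card_eq_zero (hcard : Nat.card V = r) (x : V) : r • x = 0 :=
  hcard ▸ card_nsmul_eq_zero'

omit [DistribMulAction Γℚ V] in
/-- A nonzero character of a group of prime order. -/
theorem exists_injective_char (hr : r.Prime) [Finite V] (hcard : Nat.card V = r) :
    ∃ φ : V →+ QbarMul, Function.Injective φ := by
  have : Nontrivial V := Finite.one_lt_card_iff_nontrivial.mp (hcard ▸ hr.one_lt)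
  obtain ⟨x, hx⟩ := exists_ne (0 : V)
  obtain ⟨φ, hφ⟩ := CharDual.exists_apply_ne_zero hx
  refine ⟨φ, (AddMonoidHom.ker_eq_bot_iff φ).mp ?_⟩
  haveI : Fact (Nat.card V).Prime := ⟨hcard ▸ hr⟩
  exact (φ.ker.eq_bot_or_eq_top_of_prime_card).resolve_right fun h =>
    hφ (AddMonoidHom.mem_ker.mp (h ▸ AddSubgroup.mem_top x))

/-- Trivial action and no multiplicative part: no cocycles (Minkowski). -/
theorem selmerCocycle_eq_zero (h : IsAdmissible r p Ar Ap V K) (hK : K = ⊥)
    (htriv : ∀ (g : Γℚ) (x : V), g • x = x) {c : Γℚ → V}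
    (hc : IsSelmerCocycle r p Ar Ap K c) : c = 0 := by
  have hc1 : c 1 = 0 := by
    have := hc.cocycle 1 1
    rwa [mul_one, one_smul, left_eq_add] at this
  let ψ : Γℚ →* Multiplicative V :=
    { toFun := fun g => Multiplicative.ofAdd (c g)
      map_one' := by rw [hc1]; rfl
      map_mul' := fun g g' => by rw [hc.cocycle, htriv]; rfl }
  have hval : ∀ g, ψ g = 1 ↔ c g = 0 := fun g => ⟨fun e => Multiplicative.ofAdd.injective e,
    fun e => by show Multiplicative.ofAdd (c g) = 1; rw [e]; rfl⟩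
  obtain ⟨H, hH, hcH⟩ := hc.locallyConstant
  have hopen : IsOpen (ψ.ker : Set Γℚ) :=
    Subgroup.isOpen_mono (H₁ := H) (fun g hg => (hval g).mpr (hcH g hg)) hH
  have h1 := eq_one_of_unramified_everywhere ψ hopen fun l hl A hA σ hσ => by
    rcases eq_or_ne l r with rfl | hlr
    · exact apply_eq_one_of_inertia_of_comm ψ hopen hl h.liesOver_r hA
        (fun τ hτ => (hval τ).mpr (AddSubgroup.mem_bot.mp (hK ▸ hc.mem_K τ hτ))) σ hσ
    · rcases eq_or_ne l p with rfl | hlp
      · exact apply_eq_one_of_inertia_of_comm ψ hopen hl h.liesOver_p hA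
          (fun τ hτ => (hval τ).mpr (hc.trivial_p τ hτ)) σ hσ
      · exact (hval σ).mpr (hc.unramified l hl hlr hlp A hA σ hσ)
  funext g
  exact (hval g).mp (DFunLike.congr_fun h1 g)

/-- Kummer theory for `V ≅ μ_r`: at most `r` cocycles. -/
theorem selmerCocycles_card_le_mu (h : IsAdmissible r p Ar Ap V K) (hcard : Nat.card V = r)
    (hμ : ∀ (g : Γℚ) (u : ℕ), IsCycloValue r g u → ∀ x : V, g • x = u • x) :
    {c : Γℚ → V | IsSelmerCocycle r p Ar Ap K c}.Finite ∧
      {c : Γℚ → V | IsSelmerCocycle r p Ar Ap K c}.ncard ≤ r := by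
  classical
  have hr := h.r_prime
  have := h.finite
  obtain ⟨φ, hφ⟩ := exists_injective_char hr hcard
  have hr0 : ∀ x : V, r • φ x = 0 := fun x => by
    rw [← map_nsmul, IsAdmissible.nsmul_card_eq_zero hcard, map_zero]
  have hequiv : ∀ (g : Γℚ) (x : V), φ (g • x) = galMul g (φ x) := fun g x => by
    obtain ⟨u, hu⟩ := StableLine.exists_cycloValue hr g
    rw [hμ g u hu, map_nsmul, galMul_eq_nsmul hu (hr0 x)]
  obtain ⟨T, hT, hTmem⟩ := exists_sign_reps hr
  have key : ∀ c ∈ {c : Γℚ → V | IsSelmerCocycle r p Ar Ap K c},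
      ∃ η ∈ T, ∀ σ : Γℚ, σ η / η = mulVal (φ (c σ)) := by
    intro c hc
    set c' : Γℚ → Qbar := fun σ => mulVal (φ (c σ))
    obtain ⟨H, hH, hcH⟩ := hc.locallyConstant
    obtain ⟨a, α, ha, hα, hασ⟩ := exists_kummer hr.pos c'
      (fun σ => by rw [← mulVal_nsmul, hr0, mulVal_zero])
      (fun σ τ => by
        show mulVal (φ (c (σ * τ))) = _
        rw [hc.cocycle, map_add, mulVal_add, hequiv, mulVal_galMul])
      H hH (fun σ hσ => by show mulVal (φ (c σ)) = 1; rw [hcH σ hσ, map_zero, mulVal_zero])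
    have hα0 : α ≠ 0 := by
      rintro rfl
      rw [zero_pow hr.ne_zero, eq_comm, map_eq_zero] at hα
      exact ha hα
    have hratio : ∀ σ, σ α / α = c' σ := fun σ => by
      rw [hασ, mul_div_assoc, div_self hα0, mul_one]
    have hdvd : ∀ l : ℕ, l.Prime → (r : ℤ) ∣ padicValRat l a := by
      intro l hl
      have htriv : ∀ A : ValuationSubring Qbar, A.LiesOverPrime l →
          (∀ σ ∈ A.inertiaSubgroupIn ℚ, c σ = 0) → (r : ℤ) ∣ padicValRat l a := fun A hA h0 =>
        dvd_padicValRat_of_inertia_at hl hA ha hα hr.ne_zero IsUnitAt.one fun σ hσ => by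
          rw [hratio]
          show mulVal (φ (c σ)) = _
          rw [h0 σ hσ, map_zero, mulVal_zero, map_one, div_one]
      rcases eq_or_ne l r with rfl | hlr
      · obtain ⟨β, hβ, hβσ⟩ := hc.peu φ
        exact dvd_padicValRat_of_inertia_at hl h.liesOver_r ha hα hr.ne_zero hβ
          fun σ hσ => by rw [hratio]; exact hβσ σ hσ
      · rcases eq_or_ne l p with rfl | hlp
        · exact htriv Ap h.liesOver_p hc.trivial_p
        · obtain ⟨A, hA⟩ := FermatLib.Basic.exists_liesOverPrime hl
          exact htriv A hA (hc.unramified l hl hlr hlp A hA)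
    obtain ⟨q, hq⟩ := exists_rat_root ha hdvd
    have hq0 : q ≠ 0 := fun h0 => by
      rw [h0, zero_pow hr.ne_zero] at hq
      exact ha (abs_eq_zero.mp hq.symm)
    set η := α / algebraMap ℚ Qbar q with hηdef
    have hη : η ^ r = 1 ∨ η ^ r = -1 := by
      rw [hηdef, div_pow, hα, ← map_pow, hq, ← map_div₀]
      rcases abs_choice a with e | e <;> rw [e]
      · left; rw [div_self ha, map_one]
      · right; rw [div_neg, div_self ha, map_neg, map_one]
    have hησ : ∀ σ : Γℚ, σ η / η = c' σ := fun σ => by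
      rw [hηdef, map_div₀, AlgEquiv.commutes,
        div_div_div_cancel_right₀ ((map_ne_zero _).mpr hq0), hratio]
    rcases hTmem η hη with e | e
    · exact ⟨η, e, hησ⟩
    · exact ⟨-η, e, fun σ => by rw [map_neg, neg_div_neg_eq]; exact hησ σ⟩
  choose! f hfT hf using key
  have hinj : Set.InjOn f {c : Γℚ → V | IsSelmerCocycle r p Ar Ap K c} := by
    intro c hc d hd e
    funext σ
    exact hφ (mulVal_injective ((hf c hc σ).symm.trans (e ▸ hf d hd σ)))
  exact ⟨Set.Finite.of_injOn hfT hinj T.finite_toSet,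
    (Set.ncard_le_ncard_of_injOn f hfT hinj T.finite_toSet).trans
      (by rw [Set.ncard_coe_finset]; exact hT)⟩

/-- The global bound for modules of order `r`. -/
theorem selmerCocycles_card_le_of_card_prime (h : IsAdmissible r p Ar Ap V K)
    (hcard : Nat.card V = r)
    (hact : (∀ (g : Γℚ) (x : V), g • x = x) ∨
      ∀ (g : Γℚ) (u : ℕ), IsCycloValue r g u → ∀ x : V, g • x = u • x) :
    {c : Γℚ → V | IsSelmerCocycle r p Ar Ap K c}.Finite ∧
      {c : Γℚ → V | IsSelmerCocycle r p Ar Ap K c}.ncard ≤ Nat.card K := by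
  have hr := h.r_prime
  have := h.finite
  haveI : Fact (Nat.card V).Prime := ⟨hcard ▸ hr⟩
  obtain ⟨φ, hφ⟩ := exists_injective_char hr hcard
  have hsame : r = 2 → ∀ (g : Γℚ) (u : ℕ), IsCycloValue r g u → ∀ x : V, u • x = x := by
    rintro rfl g u hu x
    have h1 : (-1 : Qbar) ^ u = -1 := by
      rw [← hu (-1) (by norm_num), map_neg, map_one]
    have h2 : u % 2 = 1 := by
      rcases Nat.even_or_odd u with he | he
      · rw [he.neg_one_pow] at h1; norm_num at h1
      · exact Nat.odd_iff.mp he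
    rw [← Nat.mod_add_div u 2, h2, add_smul, one_smul, mul_comm, mul_smul,
      IsAdmissible.nsmul_card_eq_zero hcard, smul_zero, add_zero]
  rcases K.eq_bot_or_eq_top_of_prime_card with hK | hK
  · have htriv : ∀ (g : Γℚ) (x : V), g • x = x := by
      rcases hact with htriv | hμ
      · exact htriv
      by_cases hr2 : r = 2
      · intro g x
        obtain ⟨u, hu⟩ := StableLine.exists_cycloValue hr g
        rw [hμ g u hu, hsame hr2 g u hu]
      · exfalso
        obtain ⟨σ, hσ, ζ, hζ, hne⟩ := exists_inertia_cyclo_ne_one hr hr2 h.liesOver_r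
        obtain ⟨u, hu⟩ := StableLine.exists_cycloValue hr σ
        have hnt : Nontrivial V := Finite.one_lt_card_iff_nontrivial.mp (hcard ▸ hr.one_lt)
        obtain ⟨x, hx⟩ := exists_ne (0 : V)
        have hux : u • x = x := by
          have h1 := h.smul_sub_mem σ hσ x
          rw [hK, AddSubgroup.mem_bot, sub_eq_zero, hμ σ u hu] at h1
          exact h1
        refine hne ?_
        rw [hu ζ hζ]
        have hxo : addOrderOf x = r :=
          addOrderOf_eq_prime (hp := ⟨hr⟩) (IsAdmissible.nsmul_card_eq_zero hcard x) hx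
        have hm : u ≡ 1 [MOD r] := by
          rw [← hxo]
          exact (nsmul_eq_nsmul_iff_modEq).mp (hux.trans (one_nsmul x).symm)
        calc ζ ^ u = ζ ^ (u % r) := pow_eq_pow_mod u hζ
          _ = ζ ^ (1 % r) := by rw [hm]
          _ = ζ := by rw [← pow_eq_pow_mod 1 hζ, pow_one]
    have hS : {c : Γℚ → V | IsSelmerCocycle r p Ar Ap K c} ⊆ {0} := fun c hc =>
      selmerCocycle_eq_zero h hK htriv hc
    refine ⟨(Set.finite_singleton _).subset hS, ?_⟩
    exact (Set.ncard_le_ncard hS).trans (by rw [Set.ncard_singleton]; exact Nat.card_pos)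
  · have hμ : ∀ (g : Γℚ) (u : ℕ), IsCycloValue r g u → ∀ x : V, g • x = u • x := by
      rcases hact with htriv | hμ
      swap
      · exact hμ
      intro g u hu x
      rw [htriv]
      refine (hsame ?_ g u hu x).symm
      by_contra hr2
      obtain ⟨σ, hσ, ζ, hζ, hne⟩ := exists_inertia_cyclo_ne_one hr hr2 h.liesOver_r
      have hnt : Nontrivial V := Finite.one_lt_card_iff_nontrivial.mp (hcard ▸ hr.one_lt)
      obtain ⟨y, hy⟩ := exists_ne (0 : V)
      have hz1 : mulVal (φ y) ≠ 1 := fun e => hy (hφ (mulVal_injective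
        (by rw [e, map_zero, mulVal_zero])))
      have hzr : mulVal (φ y) ^ r = 1 := by
        rw [← mulVal_nsmul, ← map_nsmul, IsAdmissible.nsmul_card_eq_zero hcard, map_zero,
          mulVal_zero]
      have hfix : σ (mulVal (φ y)) = mulVal (φ y) := by
        rw [← mulVal_galMul, ← h.equivariant φ σ hσ y (hK ▸ AddSubgroup.mem_top y), htriv]
      have hprim : IsPrimitiveRoot (mulVal (φ y)) r := by
        haveI := Fact.mk hr
        exact orderOf_eq_prime hzr hz1 ▸ IsPrimitiveRoot.orderOf _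
      haveI : NeZero r := ⟨hr.ne_zero⟩
      obtain ⟨i, -, rfl⟩ := hprim.eq_pow_of_pow_eq_one hζ
      exact hne ((map_pow σ _ i).trans (congrArg (· ^ i) hfix))
    rw [hK, AddSubgroup.card_top, hcard]
    subst hK
    exact selmerCocycles_card_le_mu h hcard hμ

end FermatLib.Mazur
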