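import Fermat.Agent.Mazur.TameCocycle

/-!
# Admissible modules that are entirely multiplicative are small
-/

set_option autoImplicit false

noncomputable section

namespace FermatLib.Mazur

local notation "Qbar" => AlgebraicClosure ℚ
local notation "Γℚ" => (AlgebraicClosure ℚ ≃ₐ[ℚ] AlgebraicClosure ℚ)

variable {V : Type*} [AddCommGroup V] [DistribMulAction Γℚ V] {r p : ℕ}
  {Ar Ap : ValuationSubring Qbar} {K : AddSubgroup V}

/-- An admissible module with `K = V` is bounded by the global invariants of its dual. -/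
theorem IsAdmissible.natCard_le_of_eq_top (h : IsAdmissible r p Ar Ap V K) (hK : K = ⊤) :
    Nat.card V ≤ Nat.card (fixedPts (MuDual V) ⊤) ^ 2 := by
  have := h.finite
  obtain ⟨τ, hτ, hσ, -⟩ := exists_tame_cocycle_data h.r_prime h.p_prime h.r_ne_p h.liesOver_p
    h.exponent h.isOpen_stabilizer h.unipotent (fun _ => (0 : V))
    (fun g _ => by rw [smul_zero, add_zero]) ⟨⊤, isOpen_univ, fun _ _ => rfl⟩
  let I := Ap.inertiaSubgroupIn ℚ
  let d : V →+ V := DistribSMul.toAddMonoidHom V τ - AddMonoidHom.id V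
  have hker : d.ker = fixedPts V I := by
    ext x
    refine ⟨fun hx σ hs => ?_, fun hx => sub_eq_zero.mpr (hx τ hτ)⟩
    obtain ⟨n, hn⟩ := (hσ σ hs).2 x
    have hx' : τ • x - x = 0 := hx
    rwa [hx', smul_zero, sub_eq_zero] at hn
  have hrange : d.range = augmentation V I := by
    refine le_antisymm ?_ ?_
    · rintro _ ⟨x, rfl⟩
      exact smul_sub_mem_augmentation hτ x
    · rw [augmentation, AddSubgroup.closure_le]
      rintro _ ⟨σ, hs, x, rfl⟩
      obtain ⟨n, hn⟩ := (hσ σ hs).2 x
      exact ⟨n • x, by rw [map_zsmul, hn]; rfl⟩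
  set m := Nat.card (augmentation V I)
  set c := Nat.card (fixedPts (MuDual V) ⊤)
  have hV : Nat.card V = m * Nat.card (fixedPts V I) := by
    show Nat.card V = Nat.card (augmentation V I) * _
    rw [← hker, ← hrange, ← AddSubgroup.index_ker, mul_comm, AddSubgroup.card_mul_index]
  have hm : m ≤ Nat.card (fixedPts V I) :=
    AddSubgroup.card_le_of_le h.augmentation_le_fixedPts
  have hle : Nat.card V ≤ m * c := by
    have := h.natCard_K_le
    rwa [hK, AddSubgroup.card_top] at this
  have hpos : 0 < m := Nat.card_pos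
  have hmc : m ≤ c := Nat.le_of_mul_le_mul_left
    (((Nat.mul_le_mul_left m hm).trans hV.ge).trans hle) hpos
  calc Nat.card V ≤ m * c := hle
    _ ≤ c * c := Nat.mul_le_mul_right c hmc
    _ = c ^ 2 := (sq c).symm

end FermatLib.Mazur
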