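import Fermat.Agent.Mazur.Defs
import Mathlib.GroupTheory.FiniteAbelian.Duality
import Mathlib.RingTheory.RootsOfUnity.AlgebraicallyClosed
import Mathlib.GroupTheory.Index

/-!
# Characters of finite abelian groups with values in `ℚ̄ˣ`
-/

set_option autoImplicit false

noncomputable section

namespace FermatLib.Mazur

local notation "Qbar" => AlgebraicClosure ℚ

variable {V : Type*} [AddCommGroup V]

namespace CharDual

/-- Additive characters with values in `ℚ̄ˣ` as multiplicative characters. -/
def toMulHom : (V →+ QbarMul) ≃ (Multiplicative V →* Qbarˣ) :=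
  AddMonoidHom.toMultiplicativeLeft

instance hasEnoughRoots (G : Type*) [CommGroup G] [Finite G] :
    HasEnoughRootsOfUnity Qbar (Monoid.exponent G) := by
  have h : Monoid.exponent G ≠ 0 := Monoid.exponent_ne_zero_of_finite
  have : NeZero ((Monoid.exponent G : ℕ) : Qbar) := ⟨Nat.cast_ne_zero.mpr h⟩
  exact AlgebraicClosure.hasEnoughRootsOfUnity _ _

variable [Finite V]

instance finite_addMonoidHom : Finite (V →+ QbarMul) :=
  have : Finite (Multiplicative V →* Qbarˣ) := Nat.finite_of_card_ne_zero <| by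
    rw [CommGroup.card_monoidHom_of_hasEnoughRootsOfUnity]
    exact Nat.card_pos.ne'
  Finite.of_equiv _ toMulHom.symm

theorem natCard_addMonoidHom : Nat.card (V →+ QbarMul) = Nat.card V := by
  rw [Nat.card_congr toMulHom, CommGroup.card_monoidHom_of_hasEnoughRootsOfUnity]
  rfl

theorem exists_apply_ne_zero {x : V} (hx : x ≠ 0) : ∃ φ : V →+ QbarMul, φ x ≠ 0 := by
  obtain ⟨ψ, hψ⟩ := CommGroup.exists_apply_ne_one_of_hasEnoughRootsOfUnity (Multiplicative V) Qbar
    (a := Multiplicative.ofAdd x) (fun h => hx (Multiplicative.ofAdd.injective h))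
  exact ⟨toMulHom.symm ψ, fun h => hψ h⟩

theorem eq_of_forall_apply_eq {x y : V} (h : ∀ φ : V →+ QbarMul, φ x = φ y) : x = y := by
  by_contra hne
  obtain ⟨φ, hφ⟩ := exists_apply_ne_zero (sub_ne_zero.mpr hne)
  exact hφ (by rw [map_sub, h, sub_self])

theorem exists_extend (W : AddSubgroup V) (φ : W →+ QbarMul) :
    ∃ ψ : V →+ QbarMul, ∀ x : W, ψ x = φ x := by
  obtain ⟨ψ, hψ⟩ := MonoidHom.domRestrict_surjective (M := Qbar) (AddSubgroup.toSubgroup W)
    (toMulHom φ)
  exact ⟨toMulHom.symm ψ, fun x => DFunLike.congr_fun hψ ⟨Multiplicative.ofAdd (x : V), x.2⟩⟩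

/-- A character vanishing on `W` and not at a point outside `W`. -/
theorem exists_vanishing_apply_ne_zero {W : AddSubgroup V} {x : V} (hx : x ∉ W) :
    ∃ φ : V →+ QbarMul, (∀ w ∈ W, φ w = 0) ∧ φ x ≠ 0 := by
  have : Finite (V ⧸ W) := inferInstance
  obtain ⟨φ, hφ⟩ := exists_apply_ne_zero (V := V ⧸ W) (x := (x : V ⧸ W))
    (fun h => hx ((QuotientAddGroup.eq_zero_iff x).mp h))
  exact ⟨φ.comp (QuotientAddGroup.mk' W),
    fun w hw => by simp [(QuotientAddGroup.eq_zero_iff w).mpr hw], hφ⟩

end CharDual

namespace MuDual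

open CharDual

variable [Finite V]

instance instFinite : Finite (MuDual V) := inferInstanceAs (Finite (V →+ QbarMul))

theorem natCard : Nat.card (MuDual V) = Nat.card V := natCard_addMonoidHom

/-- Restriction of characters to a subgroup. -/
def restrict (W : AddSubgroup V) : MuDual V →+ (W →+ QbarMul) where
  toFun φ := (φ : V →+ QbarMul).comp W.subtype
  map_zero' := rfl
  map_add' _ _ := rfl

theorem restrict_surjective (W : AddSubgroup V) : Function.Surjective (restrict W) := fun φ => by
  obtain ⟨ψ, hψ⟩ := exists_extend W φ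
  exact ⟨ψ, AddMonoidHom.ext hψ⟩

theorem ker_restrict (W : AddSubgroup V) : (restrict W).ker = annihilator V W := by
  ext φ
  exact ⟨fun h x hx => DFunLike.congr_fun h ⟨x, hx⟩, fun h => AddMonoidHom.ext fun x => h x x.2⟩

theorem natCard_annihilator_mul (W : AddSubgroup V) :
    Nat.card (annihilator V W) * Nat.card W = Nat.card V := by
  have h : Nat.card W = (restrict W).ker.index := by
    rw [AddSubgroup.index_ker, AddMonoidHom.range_eq_top_of_surjective _ (restrict_surjective W),
      Nat.card_congr AddSubgroup.topEquiv.toEquiv, natCard_addMonoidHom]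
  rw [← ker_restrict, h, AddSubgroup.card_mul_index]
  exact natCard

/-- Every character of the dual is evaluation at a point. -/
theorem exists_eq_eval (Φ : MuDual V →+ QbarMul) : ∃ v : V, ∀ φ : MuDual V, Φ φ = φ v := by
  let ev : V →+ (MuDual V →+ QbarMul) := AddMonoidHom.mk'
    (fun v => AddMonoidHom.mk' (fun φ => φ v) fun _ _ => rfl)
    fun v w => AddMonoidHom.ext fun φ => map_add φ v w
  have hinj : Function.Injective ev := fun v w h =>
    eq_of_forall_apply_eq fun φ => DFunLike.congr_fun h (φ : MuDual V)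
  have hbij : Function.Bijective ev := (Nat.bijective_iff_injective_and_card _).mpr
    ⟨hinj, by rw [natCard_addMonoidHom, natCard]⟩
  obtain ⟨v, rfl⟩ := hbij.2 Φ
  exact ⟨v, fun _ => rfl⟩

end MuDual

end FermatLib.Mazur
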