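import Fermat.Prelude.Def_FLTPrelim_GaloisRep
import Fermat.Agent.EC.RedVarChange

/-!
# Changes of coordinates over the base field commute with the Galois action
-/

set_option autoImplicit false
set_option linter.unusedSectionVars false

noncomputable section

namespace FermatLib.Mazur

open WeierstrassCurve

variable {L : Type*} [Field L] [DecidableEq L]

/-- Equal curves have the same points. -/
def pointCast {V₁ V₂ : WeierstrassCurve L} (e : V₁ = V₂) :
    V₁.toAffine.Point ≃+ V₂.toAffine.Point := by
  subst e; exact AddEquiv.refl _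

lemma pointCast_some {V₁ V₂ : WeierstrassCurve L} (e : V₁ = V₂) {X Y : L}
    (h : V₁.toAffine.Nonsingular X Y) :
    pointCast e (.some X Y h) = .some X Y (e ▸ h) := by
  subst e; rfl

lemma vcEquiv_symm_some (V : WeierstrassCurve L) (C : VariableChange L) {x y : L}
    (h : V.toAffine.Nonsingular x y) :
    ∃ h', (EC.vcEquiv V C).symm (.some x y h)
      = .some ((x - C.r) / (C.u : L) ^ 2) ((y - C.t - C.s * (x - C.r)) / (C.u : L) ^ 3) h' :=
  ⟨_, rfl⟩

variable {K : Type*} [Field K] [Algebra K L]

/-- A coordinate change over `K` commutes with base change. -/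
lemma vc_map_smul (W : WeierstrassCurve K) (D : VariableChange K) :
    (D • W).map (algebraMap K L) = D.map (algebraMap K L) • W.map (algebraMap K L) := by
  rw [WeierstrassCurve.map_variableChange]

/-- The isomorphism `(D • W)(L) ≃ W(L)` for a change of coordinates `D` over `K`. -/
def vcEquivOver (W : WeierstrassCurve K) (D : VariableChange K) :
    ((D • W)⁄L).toAffine.Point ≃+ (W⁄L).toAffine.Point :=
  (pointCast (vc_map_smul W D)).trans
    (EC.vcEquiv (W.map (algebraMap K L)) (D.map (algebraMap K L)))

lemma vcEquivOver_some (W : WeierstrassCurve K) (D : VariableChange K) {X Y : L}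
    (h : ((D • W)⁄L).toAffine.Nonsingular X Y) :
    ∃ h', vcEquivOver W D (.some X Y h)
      = .some (EC.vcX (D.map (algebraMap K L)) X) (EC.vcY (D.map (algebraMap K L)) X Y) h' := by
  refine ⟨(EC.vc_nonsingular_iff (W.map (algebraMap K L)) _ X Y).mpr
    ((vc_map_smul (L := L) W D) ▸ h), ?_⟩
  show EC.vcEquiv _ _ (pointCast (vc_map_smul (L := L) W D) (.some X Y h)) = _
  rw [pointCast_some, EC.vcEquiv_some]
  rfl

lemma vcEquivOver_smul (W : WeierstrassCurve K) (D : VariableChange K)
    (σ : L ≃ₐ[K] L) (P : ((D • W)⁄L).toAffine.Point) :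
    vcEquivOver W D (σ • P) = σ • vcEquivOver W D P := by
  rcases P with _ | ⟨X, Y, h⟩
  · exact (map_zero (vcEquivOver W D)).trans
      ((congrArg _ (map_zero _)).trans (smul_zero σ)).symm
  · obtain ⟨h', e'⟩ := vcEquivOver_some W D h
    rw [e']
    simp only [Affine.Point.algEquiv_smul_def, Affine.Point.map_some]
    obtain ⟨h'', e''⟩ := vcEquivOver_some W D (X := σ X) (Y := σ Y) (by
      exact ((D • W).toAffine.baseChange_nonsingular σ.toAlgHom.injective X Y).mpr h)
    erw [e'', Affine.Point.some.injEq]
    simp [EC.vcX, EC.vcY, VariableChange.map, map_add, map_mul, map_pow]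

lemma vcEquivOver_symm_smul (W : WeierstrassCurve K) (D : VariableChange K)
    (σ : L ≃ₐ[K] L) (P : (W⁄L).toAffine.Point) :
    (vcEquivOver W D).symm (σ • P) = σ • (vcEquivOver W D).symm P := by
  rw [AddEquiv.symm_apply_eq, vcEquivOver_smul, AddEquiv.apply_symm_apply]

end FermatLib.Mazur
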