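import Fermat.Agent.Mazur.DescentSelmer

/-!
# The Kummer image of the rational points is bounded
-/

set_option autoImplicit false

noncomputable section

namespace FermatLib.Mazur

open ModularCurve

local notation "Qbar" => AlgebraicClosure ℚ
local notation "Γℚ" => (AlgebraicClosure ℚ ≃ₐ[ℚ] AlgebraicClosure ℚ)

/-- The range of a map from a finitely generated group into a group of exponent `n` is bounded
in terms of a set containing its `D`-th multiples. -/
theorem natCard_range_le_of_nsmul_mem {M Q : Type*} [AddCommGroup M] [AddGroup.FG M]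
    [AddCommGroup Q] (f : M →+ Q) {n D b : ℕ} (hn : n ≠ 0) (hQ : ∀ x : Q, n • x = 0) (hD : D ≠ 0)
    {T : Set Q} (hT : T.Finite) (hb : T.ncard ≤ b) (hf : ∀ y, D • f y ∈ T) :
    Finite f.range ∧
      Nat.card f.range ≤ Nat.card (M ⧸ (nsmulAddMonoidHom (α := M) D).range) * b := by
  have : AddGroup.FG f.range := AddGroup.fg_of_surjective f.rangeRestrict_surjective
  have hfin : Finite f.range := AddCommGroup.finite_of_fg_isAddTorsion _ fun x =>
    isOfFinAddOrder_iff_nsmul_eq_zero.mpr ⟨n, Nat.pos_of_ne_zero hn, Subtype.ext (hQ x)⟩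
  let DM := (nsmulAddMonoidHom (α := M) D).range
  have : AddGroup.FG (M ⧸ DM) :=
    AddGroup.fg_of_surjective (QuotientAddGroup.mk'_surjective DM)
  have : Finite (M ⧸ DM) := AddCommGroup.finite_of_fg_isAddTorsion _ fun x => by
    obtain ⟨y, rfl⟩ := QuotientAddGroup.mk'_surjective DM x
    refine isOfFinAddOrder_iff_nsmul_eq_zero.mpr ⟨D, Nat.pos_of_ne_zero hD, ?_⟩
    rw [← map_nsmul]
    exact (QuotientAddGroup.eq_zero_iff _).mpr ⟨y, rfl⟩
  refine ⟨hfin, ?_⟩
  let μ : f.range →+ f.range := nsmulAddMonoidHom D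
  have hker : Nat.card μ.ker = μ.range.index := by
    refine Nat.eq_of_mul_eq_mul_right (Nat.card_pos (α := μ.range)) ?_
    rw [AddSubgroup.index_mul_card, ← AddSubgroup.index_ker, AddSubgroup.card_mul_index]
  have hindex : μ.range.index ≤ Nat.card (M ⧸ DM) := by
    refine Nat.card_le_card_of_surjective (QuotientAddGroup.map DM μ.range f.rangeRestrict ?_) ?_
    · rintro _ ⟨y, rfl⟩
      exact ⟨f.rangeRestrict y, Subtype.ext (map_nsmul f D y).symm⟩
    · intro q
      obtain ⟨x, rfl⟩ := QuotientAddGroup.mk'_surjective _ q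
      obtain ⟨y, rfl⟩ := f.rangeRestrict_surjective x
      exact ⟨QuotientAddGroup.mk y, rfl⟩
  have hrange : Nat.card μ.range ≤ b := by
    refine le_trans ?_ hb
    rw [← Nat.card_coe_set_eq T]
    have := hT.to_subtype
    refine Nat.card_le_card_of_injective (fun x => ⟨((x : f.range) : Q), ?_⟩) fun x y e =>
      Subtype.ext (Subtype.ext (congrArg (fun z : T => (z : Q)) e))
    obtain ⟨x', hx'⟩ := x.2
    obtain ⟨y, hy⟩ := x'.2
    rw [← hx']
    show D • (x' : Q) ∈ T
    rw [← hy]
    exact hf y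
  calc Nat.card f.range = Nat.card μ.ker * μ.ker.index := (AddSubgroup.card_mul_index _).symm
    _ = μ.range.index * Nat.card μ.range := by rw [hker, AddSubgroup.index_ker]
    _ ≤ _ := Nat.mul_le_mul hindex hrange

theorem IsSelmerCocycle.add {r p : ℕ} {Ar Ap : ValuationSubring Qbar} {V : Type*}
    [AddCommGroup V] [DistribMulAction Γℚ V] {K : AddSubgroup V} {c c' : Γℚ → V}
    (hc : IsSelmerCocycle r p Ar Ap K c) (hc' : IsSelmerCocycle r p Ar Ap K c') :
    IsSelmerCocycle r p Ar Ap K (c + c') where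
  cocycle g g' := by
    simp only [Pi.add_apply, hc.cocycle, hc'.cocycle, smul_add]
    abel
  locallyConstant := by
    obtain ⟨H, hH, hcH⟩ := hc.locallyConstant
    obtain ⟨H', hH', hcH'⟩ := hc'.locallyConstant
    exact ⟨H ⊓ H', by rw [Subgroup.coe_inf]; exact hH.inter hH', fun g hg => by
      rw [Pi.add_apply, hcH g hg.1, hcH' g hg.2, add_zero]⟩
  unramified ℓ hℓ hr hp A hA σ hσ := by
    rw [Pi.add_apply, hc.unramified ℓ hℓ hr hp A hA σ hσ, hc'.unramified ℓ hℓ hr hp A hA σ hσ,
      add_zero]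
  trivial_p σ hσ := by rw [Pi.add_apply, hc.trivial_p σ hσ, hc'.trivial_p σ hσ, add_zero]
  mem_K σ hσ := add_mem (hc.mem_K σ hσ) (hc'.mem_K σ hσ)
  peu φ := ((hc.peu φ).mul (hc'.peu φ)).congr fun σ _ => by
    simp only [Pi.add_apply, map_add, mulVal_add]

/-- The coboundary of an element. -/
def coboundaryHom (V : Type*) [AddCommGroup V] [DistribMulAction Γℚ V] : V →+ (Γℚ → V) :=
  AddMonoidHom.mk' (fun v g => g • v - v) fun v w => by
    funext g
    simp only [smul_add, Pi.add_apply]
    abel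

theorem coboundaryHom_apply {V : Type*} [AddCommGroup V] [DistribMulAction Γℚ V] (v : V) (g : Γℚ) :
    coboundaryHom V v g = g • v - v := rfl

/-- The classes of Selmer cocycles are bounded by global invariants. -/
theorem IsAdmissible.natCard_selmer_classes_le {r p : ℕ} {Ar Ap : ValuationSubring Qbar}
    {V : Type*} [AddCommGroup V] [DistribMulAction Γℚ V] {K : AddSubgroup V}
    (h : IsAdmissible r p Ar Ap V K) :
    ((QuotientAddGroup.mk : (Γℚ → V) → (Γℚ → V) ⧸ (coboundaryHom V).range) ''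
        {c | IsSelmerCocycle r p Ar Ap K c}).Finite ∧
      ((QuotientAddGroup.mk : (Γℚ → V) → (Γℚ → V) ⧸ (coboundaryHom V).range) ''
        {c | IsSelmerCocycle r p Ar Ap K c}).ncard ≤
          Nat.card (fixedPts (MuDual V) ⊤) * Nat.card (fixedPts V ⊤) := by
  have := h.finite
  obtain ⟨hfin, hcard⟩ := selmerCocycles_card_le h
  set S := {c : Γℚ → V | IsSelmerCocycle r p Ar Ap K c}
  set π := (QuotientAddGroup.mk : (Γℚ → V) → (Γℚ → V) ⧸ (coboundaryHom V).range) with hπ
  refine ⟨hfin.image π, ?_⟩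
  let I := Ap.inertiaSubgroupIn ℚ
  let d : fixedPts V I →+ (Γℚ → V) := (coboundaryHom V).comp (fixedPts V I).subtype
  have hker : Nat.card d.ker ≤ Nat.card (fixedPts V ⊤) := by
    refine Nat.card_le_card_of_injective
      (fun v => ⟨((v : fixedPts V I) : V), fun g _ => sub_eq_zero.mp (congrFun v.2 g)⟩) ?_
    intro v w e
    exact Subtype.ext (Subtype.ext (congrArg (fun z : fixedPts V ⊤ => (z : V)) e))
  have := hfin.to_subtype
  have hd : ∀ x : d.range, π (x : Γℚ → V) = 0 := by
    rintro ⟨_, v, rfl⟩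
    exact (QuotientAddGroup.eq_zero_iff _).mpr ⟨(v : V), rfl⟩
  have key : (π '' S).ncard * Nat.card d.range ≤ Nat.card K := by
    refine le_trans ?_ hcard
    rw [← Nat.card_coe_set_eq, ← Nat.card_coe_set_eq, ← Nat.card_prod]
    refine Nat.card_le_card_of_injective
      (fun x : (π '' S) × d.range => (⟨Classical.choose x.1.2 + (x.2 : Γℚ → V), ?_⟩ : S)) ?_
    · obtain ⟨v, hv⟩ := x.2.2
      rw [← hv]
      exact (Classical.choose_spec x.1.2).1.add (h.isSelmerCocycle_coboundary v.2)
    · intro x y e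
      have e' : Classical.choose x.1.2 + (x.2 : Γℚ → V) = Classical.choose y.1.2 + (y.2 : Γℚ → V) :=
        congrArg (fun z : S => (z : Γℚ → V)) e
      have h1 : x.1 = y.1 := Subtype.ext <| by
        rw [← (Classical.choose_spec x.1.2).2, ← (Classical.choose_spec y.1.2).2]
        have hx := hd x.2
        have hy := hd y.2
        have e'' : π (Classical.choose x.1.2) + π (x.2 : Γℚ → V) =
            π (Classical.choose y.1.2) + π (y.2 : Γℚ → V) := congrArg π e'
        rwa [hx, hy, add_zero, add_zero] at e''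
      refine Prod.ext h1 (Subtype.ext ?_)
      rw [h1] at e'
      exact add_left_cancel e'
  have hfix : 0 < Nat.card (fixedPts V I) := Nat.card_pos
  refine Nat.le_of_mul_le_mul_right ?_ hfix
  calc (π '' S).ncard * Nat.card (fixedPts V I)
      = (π '' S).ncard * Nat.card d.range * Nat.card d.ker := by
        rw [mul_assoc, ← AddSubgroup.index_ker, mul_comm d.ker.index, AddSubgroup.card_mul_index]
    _ ≤ Nat.card (augmentation V I) * Nat.card (fixedPts (MuDual V) ⊤) *
          Nat.card (fixedPts V ⊤) := Nat.mul_le_mul (key.trans h.natCard_K_le) hker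
    _ ≤ Nat.card (fixedPts V I) * Nat.card (fixedPts (MuDual V) ⊤) *
          Nat.card (fixedPts V ⊤) :=
        Nat.mul_le_mul_right _ (Nat.mul_le_mul_right _
          (AddSubgroup.card_le_of_le h.augmentation_le_fixedPts))
    _ = _ := by ring

namespace IsDescentDatum

variable {p r : ℕ} {hr : r.Prime} {Ar Ap : ValuationSubring Qbar} {J : Type*}
  [AddCommGroup J] [DistribMulAction Γℚ J] [Module HeckeAlg J] [SMulCommClass Γℚ HeckeAlg J]
  {J' : Type*} [AddCommGroup J'] {red : J →+ J'}

/-- **Weak Mordell–Weil at the Eisenstein prime**: for every level `k`, a bounded power of `r`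
times the image of a rational point is divisible by `r ^ k` among rational points. -/
theorem exists_kummer_bound (h : IsDescentDatum p r hr Ar Ap J red) :
    ∃ C : ℕ, ∀ (k : ℕ) (E : HeckeAlg), IsEisPrimary p r J E k →
      ∀ y : J, (∀ g : Γℚ, g • y = y) →
        ∃ u : J, (∀ g : Γℚ, g • u = u) ∧ r ^ k • u = r ^ C • E • y := by
  obtain ⟨B, hB⟩ := h.exists_invariants_bound
  obtain ⟨D, hD, hsel⟩ := h.exists_selmer_multiplier
  let M := FixedPoints.addSubgroup Γℚ J
  have : AddGroup.FG M := h.fg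
  refine ⟨Nat.card (M ⧸ (nsmulAddMonoidHom (α := M) D).range) * (B * B), fun k E hE => ?_⟩
  have hadm := h.isAdmissible hE
  let W := imageTorsion J E (r ^ k)
  let Q := (Γℚ → W) ⧸ (coboundaryHom W).range
  have hW : ∀ x : W, r ^ k • x = 0 := fun x => Subtype.ext (nsmul_imageTorsion x)
  -- the cocycle of a point whose multiple is rational
  let coc : ∀ z : J, (∀ g : Γℚ, r ^ k • (g • z - z) = 0) → Γℚ → W := fun z hz g =>
    ⟨E • (g • z - z), mem_imageTorsion.mpr ⟨g • z - z, hz g, rfl⟩⟩
  have hmul : ∀ (y : M) (z : J), r ^ k • z = y → ∀ g : Γℚ, r ^ k • (g • z - z) = 0 := by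
    intro y z hz g
    rw [smul_sub, ← smul_comm g, hz, sub_eq_zero]
    exact y.2 g
  let z : M → J := fun y => Classical.choose (h.exists_nsmul_eq y y.2 k)
  have hz : ∀ y : M, r ^ k • z y = y := fun y =>
    Classical.choose_spec (h.exists_nsmul_eq y y.2 k)
  let Φ : M →+ Q := AddMonoidHom.mk'
    (fun y => QuotientAddGroup.mk' _ (coc (z y) (hmul y _ (hz y)))) fun y y' => by
      rw [← map_add, QuotientAddGroup.mk'_apply, QuotientAddGroup.mk'_apply,
        QuotientAddGroup.eq_iff_sub_mem]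
      refine ⟨⟨E • (z (y + y') - z y - z y'), mem_imageTorsion.mpr ⟨_, ?_, rfl⟩⟩, ?_⟩
      · rw [smul_sub, smul_sub, hz, hz, hz, AddSubgroup.coe_add]
        abel
      · funext g
        refine Subtype.ext ?_
        show g • E • (z (y + y') - z y - z y') - E • (z (y + y') - z y - z y') =
          E • (g • z (y + y') - z (y + y')) - (E • (g • z y - z y) + E • (g • z y' - z y'))
        simp only [smul_sub, smul_comm g E]
        abel
  let T : Set Q := (QuotientAddGroup.mk : (Γℚ → W) → Q) ''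
    {c | IsSelmerCocycle r p Ar Ap (redKer red E (r ^ k)) c}
  obtain ⟨hT, hTB⟩ := hadm.natCard_selmer_classes_le
  have hQ : ∀ q : Q, r ^ k • q = 0 := by
    intro q
    obtain ⟨c, rfl⟩ := QuotientAddGroup.mk'_surjective (coboundaryHom W).range q
    rw [← map_nsmul, show r ^ k • c = 0 from funext fun g => hW (c g), map_zero]
  have hDT : ∀ y : M, D • Φ y ∈ T := by
    intro y
    set c := coc (z y) (hmul y _ (hz y)) with hc
    obtain ⟨v, hv⟩ := hsel E k hE c
      (fun g g' => Subtype.ext (by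
        show E • ((g * g') • z y - z y) = E • (g • z y - z y) + g • E • (g' • z y - z y)
        rw [smul_comm g E, ← smul_add, mul_smul, smul_sub g]
        congr 1
        abel))
      ⟨MulAction.stabilizer Γℚ (z y), h.isOpen_stabilizer _, fun g hg => Subtype.ext (by
        show E • (g • z y - z y) = 0
        rw [show g • z y = z y from hg, sub_self, smul_zero])⟩
      (fun ℓ hℓ hℓr hℓp A hA σ hσ => Subtype.ext (by
        show E • (σ • z y - z y) = 0
        rw [h.unramified ℓ hℓ hℓr hℓp A hA σ hσ k (z y) (hmul y _ (hz y) σ), sub_self, smul_zero]))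
      (fun σ hσ => h.red_hecke E _ (by rw [map_sub, h.red_inertia σ hσ, sub_self]))
    refine ⟨_, hv, ?_⟩
    show QuotientAddGroup.mk' _ _ = D • QuotientAddGroup.mk' _ c
    rw [← map_nsmul, QuotientAddGroup.mk'_apply, QuotientAddGroup.mk'_apply,
        QuotientAddGroup.eq_iff_sub_mem]
    exact ⟨-v, funext fun g => by
      simp only [coboundaryHom_apply, Pi.sub_apply, Pi.smul_apply, smul_neg]
      abel⟩
  obtain ⟨hfin, hcard⟩ := natCard_range_le_of_nsmul_mem Φ (pow_ne_zero k hr.ne_zero) hQ hD hT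
    (hTB.trans (Nat.mul_le_mul (hB E k).2 (hB E k).1)) hDT
  set C := Nat.card (M ⧸ (nsmulAddMonoidHom (α := M) D).range) * (B * B)
  intro y hy
  let y' : M := ⟨y, hy⟩
  have hkill : Φ (r ^ C • y') = 0 := by
    rw [map_nsmul, ← addOrderOf_dvd_iff_nsmul_eq_zero]
    obtain ⟨j, -, hj⟩ := (Nat.dvd_prime_pow hr).mp (addOrderOf_dvd_iff_nsmul_eq_zero.mpr (hQ (Φ y')))
    rw [hj]
    refine pow_dvd_pow r ((Nat.lt_pow_self hr.one_lt).le.trans ?_)
    rw [← hj]
    refine le_trans ?_ hcard
    rw [show addOrderOf (Φ y') = addOrderOf (⟨Φ y', y', rfl⟩ : Φ.range) from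
      (AddSubgroup.addOrderOf_coe (⟨Φ y', y', rfl⟩ : Φ.range))]
    exact Nat.le_of_dvd Nat.card_pos (addOrderOf_dvd_natCard _)
  obtain ⟨w, hw⟩ := (QuotientAddGroup.eq_zero_iff _).mp hkill
  refine ⟨E • z (r ^ C • y') - (w : J), fun g => ?_, ?_⟩
  · have e : g • (w : J) - w = E • (g • z (r ^ C • y') - z (r ^ C • y')) :=
      congrArg Subtype.val (congrFun hw g)
    rw [smul_sub, smul_comm g E, sub_eq_sub_iff_sub_eq_sub, e, smul_sub]
  · rw [smul_sub, nsmul_imageTorsion w, sub_zero, smul_comm _ E, hz, AddSubgroup.coe_nsmul,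
      smul_comm (r ^ C) E]

end IsDescentDatum

end FermatLib.Mazur
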