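import Fermat.Agent.Mazur.DescentIdempotent
import Fermat.Agent.Mazur.DescentKummer
import Mathlib.LinearAlgebra.Matrix.Adjugate

/-!
# Eisenstein descent
-/

set_option autoImplicit false

noncomputable section

namespace FermatLib.Mazur

open ModularCurve

local notation "Qbar" => AlgebraicClosure ℚ
local notation "Γℚ" => (AlgebraicClosure ℚ ≃ₐ[ℚ] AlgebraicClosure ℚ)

theorem natCast_mem_eisensteinMax (p r : ℕ) : (r : HeckeAlg) ∈ eisensteinMax p r := by
  rw [eisensteinMax, mem_eigenIdeal_iff, map_natCast, ZMod.natCast_self]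

theorem one_notMem_eisensteinMax (p : ℕ) {r : ℕ} (hr : r.Prime) :
    (1 : HeckeAlg) ∉ eisensteinMax p r := by
  have : Fact (1 < r) := ⟨hr.one_lt⟩
  rw [eisensteinMax, mem_eigenIdeal_iff, map_one]
  exact one_ne_zero

/-- **Eisenstein descent**: some Hecke operator outside the maximal Eisenstein ideal kills
every rational point up to torsion. -/
theorem IsDescentDatum.exists_torsion_killer {p r : ℕ} {hr : r.Prime}
    {Ar Ap : ValuationSubring Qbar} {J : Type*}
    [AddCommGroup J] [DistribMulAction Γℚ J] [Module HeckeAlg J] [SMulCommClass Γℚ HeckeAlg J]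
    {J' : Type*} [AddCommGroup J'] {red : J →+ J'}
    (h : IsDescentDatum p r hr Ar Ap J red) :
    ∃ t ∉ eisensteinMax p r, ∀ y : J, (∀ g : Γℚ, g • y = y) → ∃ m : ℕ, m ≠ 0 ∧ m • t • y = 0 := by
  classical
  obtain ⟨C, hC⟩ := h.exists_kummer_bound
  have := h.finite_torsion (C + 1)
  obtain ⟨E, hE1, hE⟩ := exists_isEisPrimary p r J (C + 1)
  let M := FixedPoints.addSubgroup Γℚ J
  obtain ⟨S, hS⟩ := (AddGroup.fg_def.mp h.fg : ∃ S : Finset M, AddSubgroup.closure (S : Set M) = ⊤)
  have hmem : ∀ u : M, ∃ a : S → ℤ, ∑ j, a j • (j : M) = u := by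
    intro u
    rw [← Submodule.mem_span_range_iff_exists_fun ℤ, ← Submodule.mem_toAddSubgroup,
      Submodule.span_int_eq_addSubgroupClosure]
    have : Set.range ((↑) : S → M) = (S : Set M) := Subtype.range_coe
    rw [this, hS]
    trivial
  have hu : ∀ i : S, ∃ u : M, r ^ C • (E • ((i : M) : J) - r • (u : J)) = 0 := by
    intro i
    obtain ⟨u, hu, hru⟩ := hC (C + 1) E hE _ (i : M).2
    refine ⟨⟨u, hu⟩, ?_⟩
    rw [smul_sub, sub_eq_zero, ← hru, pow_succ, mul_smul]
  choose u hu using hu
  choose a ha using fun i => hmem (u i)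
  let A : Matrix S S HeckeAlg :=
    Matrix.diagonal (fun _ => E) - Matrix.of fun i j => (r : HeckeAlg) * (a i j : HeckeAlg)
  let tors := AddCommGroup.torsion J
  have htors : ∀ (t : HeckeAlg) (x : J), x ∈ tors → t • x ∈ tors := fun t x hx =>
    AddMonoidHom.isOfFinAddOrder (DistribSMul.toAddMonoidHom J t) hx
  have hA : ∀ i : S, ∑ j, A i j • ((j : M) : J) ∈ tors := by
    intro i
    have e : ∑ j, A i j • ((j : M) : J) = E • ((i : M) : J) - r • (u i : J) := by
      simp only [A, Matrix.sub_apply, Matrix.of_apply, sub_smul, Finset.sum_sub_distrib,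
        Matrix.diagonal_apply, ite_smul, zero_smul, Finset.sum_ite_eq, Finset.mem_univ, if_true,
        mul_smul, Nat.cast_smul_eq_nsmul, Int.cast_smul_eq_zsmul]
      rw [← ha i, AddSubmonoidClass.coe_finsetSum, Finset.smul_sum]
      simp only [AddSubgroup.coe_zsmul]
    rw [e]
    exact isOfFinAddOrder_iff_nsmul_eq_zero.mpr ⟨r ^ C, pow_pos hr.pos C, hu i⟩
  have hdet : A.det - 1 ∈ eisensteinMax p r := by
    rw [← Ideal.Quotient.eq_zero_iff_mem, map_sub, map_one, RingHom.map_det, sub_eq_zero]
    have : (Ideal.Quotient.mk (eisensteinMax p r)).mapMatrix A = 1 := by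
      refine Matrix.ext fun i j => ?_
      have hr0 := Ideal.Quotient.eq_zero_iff_mem.mpr (natCast_mem_eisensteinMax p r)
      have hE0 : Ideal.Quotient.mk (eisensteinMax p r) E = 1 := by
        rw [← sub_eq_zero, ← map_one (Ideal.Quotient.mk (eisensteinMax p r)), ← map_sub]
        exact Ideal.Quotient.eq_zero_iff_mem.mpr hE1
      simp only [RingHom.mapMatrix_apply, Matrix.map_apply, A, Matrix.sub_apply, Matrix.of_apply,
        map_sub, map_mul, hr0, zero_mul, sub_zero, Matrix.diagonal_apply, Matrix.one_apply]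
      split_ifs
      · exact hE0
      · exact map_zero _
    rw [this, Matrix.det_one]
  refine ⟨A.det, fun hmem' => one_notMem_eisensteinMax p hr ?_, fun y hy => ?_⟩
  · have := sub_mem hmem' hdet
    rwa [sub_sub_cancel] at this
  have hgen : ∀ l : S, A.det • ((l : M) : J) ∈ tors := by
    intro l
    have e : ∑ j, (A.adjugate * A) l j • ((j : M) : J) = A.det • ((l : M) : J) := by
      simp only [Matrix.adjugate_mul, Matrix.smul_apply, Matrix.one_apply, smul_eq_mul, mul_ite,
        mul_one, mul_zero, ite_smul, zero_smul, Finset.sum_ite_eq, Finset.mem_univ, if_true]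
    rw [← e]
    simp only [Matrix.mul_apply, Finset.sum_smul, mul_smul]
    rw [Finset.sum_comm]
    refine sum_mem fun i _ => ?_
    rw [← Finset.smul_sum]
    exact htors _ _ (hA i)
  obtain ⟨b, hb⟩ := hmem ⟨y, hy⟩
  have hy' : A.det • y ∈ tors := by
    have e : y = ∑ j, b j • ((j : M) : J) := by
      have := congrArg Subtype.val hb
      simp only [AddSubmonoidClass.coe_finsetSum, AddSubgroup.coe_zsmul] at this
      exact this.symm
    rw [e, Finset.smul_sum]
    refine sum_mem fun j _ => ?_
    rw [smul_comm]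
    exact zsmul_mem (hgen j) _
  exact ⟨addOrderOf (A.det • y), (addOrderOf_pos_iff.mpr hy').ne', addOrderOf_nsmul_eq_zero _⟩

end FermatLib.Mazur
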