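import Fermat.Agent.Mazur.DescentModule

/-!
# Frobenius at `r`: bounded multiples of Selmer classes are peu ramifiées
-/

set_option autoImplicit false

noncomputable section

namespace FermatLib.Mazur

open ModularCurve

local notation "Qbar" => AlgebraicClosure ℚ
local notation "Γℚ" => (AlgebraicClosure ℚ ≃ₐ[ℚ] AlgebraicClosure ℚ)

namespace IsUnitKummer

variable {A : ValuationSubring Qbar} {f g : Γℚ → Qbar}

theorem mul (hf : IsUnitKummer A f) (hg : IsUnitKummer A g) :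
    IsUnitKummer A fun σ => f σ * g σ := by
  obtain ⟨β, hβ, hf⟩ := hf
  obtain ⟨γ, hγ, hg⟩ := hg
  exact ⟨β * γ, hβ.mul hγ, fun σ hσ => by
    simp only [hf σ hσ, hg σ hσ, map_mul, div_mul_div_comm]⟩

theorem inv (hf : IsUnitKummer A f) : IsUnitKummer A fun σ => (f σ)⁻¹ := by
  obtain ⟨β, hβ, hf⟩ := hf
  exact ⟨β⁻¹, hβ.inv, fun σ hσ => by simp only [hf σ hσ, map_inv₀, inv_div_inv, inv_div]⟩

theorem congr (hf : IsUnitKummer A f) (h : ∀ σ ∈ A.inertiaSubgroupIn ℚ, g σ = f σ) :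
    IsUnitKummer A g := by
  obtain ⟨β, hβ, hf⟩ := hf
  exact ⟨β, hβ, fun σ hσ => (h σ hσ).trans (hf σ hσ)⟩

end IsUnitKummer

/-- The inertia group is normalised by the decomposition group. -/
theorem conj_mem_inertiaIn {A : ValuationSubring Qbar} {F σ : Γℚ}
    (hF : F ∈ A.decompositionSubgroup ℚ) (hσ : σ ∈ A.inertiaSubgroupIn ℚ) :
    F⁻¹ * σ * F ∈ A.inertiaSubgroupIn ℚ := by
  obtain ⟨⟨τ, hτ⟩, hmem, rfl⟩ := Subgroup.mem_map.mp hσ
  refine Subgroup.mem_map.mpr
    ⟨(⟨F, hF⟩ : A.decompositionSubgroup ℚ)⁻¹ * ⟨τ, hτ⟩ * ⟨F, hF⟩, ?_, rfl⟩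
  have : (A.inertiaSubgroup ℚ).Normal := MonoidHom.normal_ker _
  exact this.conj_mem' _ hmem ⟨F, hF⟩

theorem nsmul_eq_self_of_modEq {J : Type*} [AddCommGroup J] {n U : ℕ} (hU : U ≡ 1 [MOD n]) {x : J}
    (hx : n • x = 0) : U • x = x := by
  obtain ⟨q, hq⟩ := Nat.modEq_iff_dvd.mp hU.symm
  rw [← natCast_zsmul, show (U : ℤ) = (1 : ℕ) + q * n by rw [mul_comm q, ← hq]; ring, add_smul,
    mul_smul, natCast_zsmul, natCast_zsmul, hx, smul_zero, add_zero, one_smul]

/-- A finite group of order at most `C` is killed by `C !`. -/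
theorem factorial_nsmul_eq_zero {G : Type*} [AddCommGroup G] [Finite G] {C : ℕ}
    (hC : Nat.card G ≤ C) (x : G) : C.factorial • x = 0 := by
  rw [← addOrderOf_dvd_iff_nsmul_eq_zero]
  exact Nat.dvd_factorial (addOrderOf_pos x)
    ((Nat.le_of_dvd Nat.card_pos (addOrderOf_dvd_natCard x)).trans hC)

namespace IsDescentDatum

variable {p r : ℕ} {hr : r.Prime} {Ar Ap : ValuationSubring Qbar} {J : Type*}
  [AddCommGroup J] [DistribMulAction Γℚ J] [Module HeckeAlg J] [SMulCommClass Γℚ HeckeAlg J]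
  {J' : Type*} [AddCommGroup J'] {red : J →+ J'}

/-- The elimination element. -/
def elimination (r : ℕ) (hr : r.Prime) (t : HeckeAlg) : HeckeAlg :=
  ((r : HeckeAlg) - 1) ^ 2 - t * ((r : HeckeAlg) - 1) * (heckeGen ⟨r, hr⟩ - t) +
    (heckeGen ⟨r, hr⟩ - t) ^ 2

theorem red_elimination_smul (h : IsDescentDatum p r hr Ar Ap J red) {F : Γℚ}
    (hF : Ar.IsFrobeniusAt F r) {k : ℕ} {t : HeckeAlg}
    (hrel : ∀ y : J, r ^ k • y = 0 → F • F • y - t • F • y + y = 0) {y : J}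
    (hy : r ^ k • y = 0) : red (elimination r hr t • y) = 0 := by
  have key : ∀ z : J, r ^ k • z = 0 →
      red ((t - heckeGen ⟨r, hr⟩) • F • z + ((r : HeckeAlg) - 1) • z) = 0 := by
    intro z hz
    have e := h.red_frobenius F hF k z hz
    refine Eq.trans (congrArg red ?_) e
    rw [sub_smul, sub_smul, one_smul, Nat.cast_smul_eq_nsmul, ← sub_eq_zero, ← neg_eq_zero]
    refine Eq.trans ?_ (hrel z hz)
    abel
  have hFy : r ^ k • F • y = 0 := by rw [smul_comm _ F, hy, smul_zero]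
  set T := heckeGen ⟨r, hr⟩
  set a₁ := (t - T) • F • y + ((r : HeckeAlg) - 1) • y
  set a₂ := (t - T) • F • F • y + ((r : HeckeAlg) - 1) • F • y
  set e₁ := (T - t) • (F • F • y - t • F • y + y)
  have he : elimination r hr t • y =
      (T - t) • (e₁ + a₂ - t • a₁) + ((r : HeckeAlg) - 1) • a₁ := by
    simp only [elimination, a₁, a₂, e₁]
    generalize F • F • y = Y₂
    generalize F • y = Y₁
    module
  have he₁ : e₁ = 0 := by simp only [e₁]; rw [hrel y hy, smul_zero]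
  rw [he, map_add, h.red_hecke _ _ ?_, h.red_hecke _ a₁ (key y hy), add_zero]
  rw [he₁, zero_add, map_sub, key _ hFy, h.red_hecke _ a₁ (key y hy), sub_zero]

/-- The Frobenius-fixed part of the multiplicative part is killed by a fixed integer. -/
theorem exists_fixed_multiplier (h : IsDescentDatum p r hr Ar Ap J red) :
    ∃ D : ℕ, D ≠ 0 ∧ ∀ (t : HeckeAlg) (k : ℕ), IsEisPrimary p r J t k →
      ∀ F : Γℚ, Ar.IsFrobeniusAt F r → IsCycloValue (r ^ k) F 1 →
        ∀ x ∈ redKer red t (r ^ k), F • x = x → D • x = 0 := by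
  obtain ⟨B, hB⟩ := h.exists_invariants_bound
  obtain ⟨c, hc, R, hR⟩ := h.eisenstein ⟨r, hr⟩ h.r_ne_p
  refine ⟨(B ^ 2).factorial * c.natAbs ^ 2,
    mul_ne_zero (Nat.factorial_ne_zero _) (pow_ne_zero _ (Int.natAbs_ne_zero.mpr hc)),
    fun t k ht F hF hF1 x _ hfix => ?_⟩
  obtain ⟨t', U, hU, -, hrel₀⟩ := h.exists_quadratic k F
  have hU1 : U ≡ 1 [MOD r ^ k] := hU.modEq (pow_ne_zero k hr.ne_zero) hF1
  have hrel : ∀ y : J, r ^ k • y = 0 → F • F • y - t' • F • y + y = 0 := fun y hy => by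
    have := hrel₀ y hy
    rwa [nsmul_eq_self_of_modEq hU1 hy] at this
  set ξ := elimination r hr t'
  -- the image of `ξ` lies in the multiplicative part, so it is small
  have hadm := h.isAdmissible (ht.mul_left ξ)
  have := h.finite_imageTorsion (ξ * t) k
  have htop : redKer red (ξ * t) (r ^ k) = ⊤ := by
    refine eq_top_iff.mpr fun z _ => ?_
    obtain ⟨w, hw, hwz⟩ := mem_imageTorsion.mp z.2
    rw [mem_redKer, ← hwz, mul_smul]
    exact h.red_elimination_smul hF hrel (by rw [smul_comm _ t, hw, smul_zero])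
  have hsmall : Nat.card (imageTorsion J (ξ * t) (r ^ k)) ≤ B ^ 2 :=
    (hadm.natCard_le_of_eq_top htop).trans (Nat.pow_le_pow_left (hB _ k).2 2)
  have hx0 : r ^ k • (x : J) = 0 := nsmul_imageTorsion x
  have hξx : (B ^ 2).factorial • ξ • (x : J) = 0 := by
    obtain ⟨w, hw, hwx⟩ := mem_imageTorsion.mp x.2
    have hmem : ξ • (x : J) ∈ imageTorsion J (ξ * t) (r ^ k) :=
      ⟨w, hw, by rw [← hwx, DistribSMul.toAddMonoidHom_apply, mul_smul]⟩
    exact congrArg Subtype.val (factorial_nsmul_eq_zero hsmall ⟨_, hmem⟩)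
  have hfixJ : F • (x : J) = x := congrArg Subtype.val hfix
  have he : (t' - 2) • (x : J) = 0 := by
    have e := hrel (x : J) hx0
    rw [hfixJ, hfixJ] at e
    rw [sub_smul, ← neg_eq_zero]
    refine Eq.trans ?_ e
    rw [two_smul]
    abel
  have hη : eisensteinElt ⟨r, hr⟩ = heckeGen ⟨r, hr⟩ - 1 - (r : HeckeAlg) := by
    rw [eisensteinElt]
    push_cast
    simp [map_add]
    ring
  set η := eisensteinElt ⟨r, hr⟩
  have hξη : ξ • (x : J) = (η * η) • (x : J) := by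
    have hid : ξ - η * η = (2 * ((r : HeckeAlg) - 1) - ((r : HeckeAlg) - 1) * (heckeGen ⟨r, hr⟩ - t')
        - 2 * (heckeGen ⟨r, hr⟩ - 2) + (t' - 2)) * (t' - 2) := by
      simp only [ξ, elimination, hη]
      ring
    rw [← sub_eq_zero, ← sub_smul, hid, mul_smul, he, smul_zero]
  refine Subtype.ext ?_
  rw [AddSubgroup.coe_nsmul, AddSubgroup.coe_zero]
  have hcc : (c.natAbs ^ 2 : ℕ) • (x : J) = (R * R) • ξ • (x : J) := by
    rw [hξη, ← natCast_zsmul, Nat.cast_pow, Int.natAbs_pow_two, sq, mul_smul c c,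
      hR k (x : J) hx0, hR k _ (by rw [smul_comm _ (R * η), hx0, smul_zero])]
    simp only [← mul_smul]
    congr 1
    ring
  rw [mul_smul, hcc, smul_comm _ (R * R), hξx, smul_zero]

/-- A fixed multiple of any cocycle that is multiplicative on inertia at `r` is peu ramifié. -/
theorem exists_peu_multiplier (h : IsDescentDatum p r hr Ar Ap J red) :
    ∃ D : ℕ, D ≠ 0 ∧ ∀ (t : HeckeAlg) (k : ℕ), IsEisPrimary p r J t k →
      ∀ c : Γℚ → imageTorsion J t (r ^ k), (∀ g g' : Γℚ, c (g * g') = c g + g • c g') →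
        (∃ H : Subgroup Γℚ, IsOpen (H : Set Γℚ) ∧ ∀ g ∈ H, c g = 0) →
        (∀ σ ∈ Ar.inertiaSubgroupIn ℚ, c σ ∈ redKer red t (r ^ k)) →
        ∀ φ : imageTorsion J t (r ^ k) →+ QbarMul,
          IsUnitKummer Ar fun σ => mulVal (φ (D • c σ)) := by
  obtain ⟨D, hD, hker⟩ := h.exists_fixed_multiplier
  refine ⟨D, hD, fun t k ht c hc hlc hK φ₀ => ?_⟩
  let W := imageTorsion J t (r ^ k)
  have hadm := h.isAdmissible ht
  have := hadm.finite
  have hexp : ∀ x : W, r ^ k • x = 0 := fun x => Subtype.ext (nsmul_imageTorsion x)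
  obtain ⟨F, hF, hF1⟩ := exists_frobenius_fix_rootsOfUnity hr k h.liesOver_r
  have hFd : F ∈ Ar.decompositionSubgroup ℚ := hF.mem_decompositionSubgroup
  let S : AddSubgroup (MuDual W) :=
    { carrier := {φ | IsUnitKummer Ar fun σ => mulVal (φ (c σ))}
      zero_mem' := ⟨1, IsUnitAt.one (A := Ar), fun σ _ => by
        show mulVal (0 : QbarMul) = _
        rw [map_one, div_one, mulVal_zero]⟩
      add_mem' := fun {φ ψ} hφ hψ => (IsUnitKummer.mul hφ hψ).congr fun σ _ => by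
        rw [MuDual.add_apply, mulVal_add]
      neg_mem' := fun {φ} hφ => (IsUnitKummer.inv hφ).congr fun σ _ => by
        show mulVal (-(φ (c σ))) = (mulVal (φ (c σ)))⁻¹
        rw [← zero_sub, mulVal_sub, mulVal_zero, one_div] }
  have hmemS : ∀ φ : MuDual W, φ ∈ S ↔ IsUnitKummer Ar fun σ => mulVal (φ (c σ)) :=
    fun _ => Iff.rfl
  -- characters trivial on the multiplicative part
  have hann : MuDual.annihilator W (redKer red t (r ^ k)) ≤ S := fun φ hφ =>
    ⟨1, IsUnitAt.one (A := Ar), fun σ hσ => by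
      show mulVal (φ (c σ)) = _
      rw [map_one, div_one, hφ _ (hK σ hσ), mulVal_zero]⟩
  -- the valuation of the Kummer element is Frobenius invariant
  have hFS : ∀ φ : MuDual W, F • φ - φ ∈ S := by
    intro φ
    have hcoc : ∀ σ ∈ Ar.inertiaSubgroupIn ℚ, ∀ τ ∈ Ar.inertiaSubgroupIn ℚ,
        mulVal (φ (c (σ * τ))) = mulVal (φ (c σ)) * σ (mulVal (φ (c τ))) := by
      intro σ hσ τ hτ
      rw [hc, map_add, mulVal_add, ← mulVal_galMul]
      exact congrArg (mulVal (φ (c σ)) * mulVal ·)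
        (hadm.equivariant (φ : W →+ QbarMul) σ hσ _ (hK τ hτ))
    obtain ⟨H, hH, hcH⟩ := hlc
    obtain ⟨β, hβ0, hβ⟩ := exists_eq_apply_div_of_cocycle (Ar.inertiaSubgroupIn ℚ)
      (fun σ => mulVal (φ (c σ))) (fun σ _ => mulVal_ne_zero _) hcoc H hH
      (fun σ _ g hg _ => by simp only [hc, hcH g hg, smul_zero, add_zero])
    obtain ⟨γ, hγ, hγf⟩ := hadm.peu (φ : W →+ QbarMul) (F⁻¹ • c F)
    have hFβ : IsUnitAt Ar (F β / β) := isUnitAt_apply_div hr h.liesOver_r hFd hβ0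
    have hFγ : IsUnitAt Ar (F γ) := by
      have := (isUnitAt_apply_div hr h.liesOver_r hFd hγ.1).mul hγ
      rwa [div_mul_cancel₀ _ hγ.1] at this
    refine ⟨F β / β / F γ, hFβ.div hFγ, fun σ hσ => ?_⟩
    set σ' := F⁻¹ * σ * F with hσ'
    have hmem : σ' ∈ Ar.inertiaSubgroupIn ℚ := conj_mem_inertiaIn hFd hσ
    have hsplit : F⁻¹ • c σ = c σ' - (σ' • (F⁻¹ • c F) - F⁻¹ • c F) := by
      have e : c F + F • c σ' = c σ + σ • c F := by
        rw [← hc, ← hc, hσ', ← mul_assoc, ← mul_assoc, mul_inv_cancel, one_mul]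
      have e' := congrArg (F⁻¹ • ·) e
      simp only [smul_add, inv_smul_smul] at e'
      rw [hσ', ← mul_smul, mul_inv_cancel_right, mul_smul, ← sub_eq_zero]
      refine Eq.trans ?_ (sub_eq_zero.mpr e'.symm)
      abel
    show mulVal ((F • φ - φ) (c σ)) = _
    rw [show (F • φ - φ) (c σ) = galMul F (φ (F⁻¹ • c σ)) - φ (c σ) from rfl, mulVal_sub,
      mulVal_galMul, hsplit, map_sub φ, mulVal_sub, map_div₀]
    rw [show mulVal (φ (c σ)) = σ β / β from hβ σ hσ,
      show mulVal (φ (c σ')) = σ' β / β from hβ σ' hmem,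
      show mulVal (φ (σ' • (F⁻¹ • c F) - F⁻¹ • c F)) = σ' γ / γ from hγf σ' hmem]
    have hconj : ∀ y : Qbar, F (σ' y) = σ (F y) := fun y => F.apply_symm_apply _
    simp only [map_div₀, hconj]
    have h1 : σ (F β) ≠ 0 := by simp [hβ0]
    have h2 : σ (F γ) ≠ 0 := by simp [hγ.1]
    have h3 : σ β ≠ 0 := by simp [hβ0]
    have h4 : F β ≠ 0 := by simp [hβ0]
    have h5 : F γ ≠ 0 := by simp [hγ.1]
    field_simp
  -- duality
  have hDS : ∀ φ : MuDual W, D • φ ∈ S := by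
    intro φ
    by_contra hnot
    obtain ⟨Φ, hΦS, hΦ⟩ := CharDual.exists_vanishing_apply_ne_zero hnot
    obtain ⟨x, hx⟩ := MuDual.exists_eq_eval Φ
    have hxK : x ∈ redKer red t (r ^ k) := by
      by_contra hxK
      obtain ⟨ψ, hψK, hψx⟩ := CharDual.exists_vanishing_apply_ne_zero hxK
      exact hψx ((hx ψ).symm.trans (hΦS _ (hann hψK)))
    have hxF : F • x = x := by
      suffices hh : F⁻¹ • x = x from (inv_smul_eq_iff.mp hh).symm
      refine CharDual.eq_of_forall_apply_eq fun ψ => ?_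
      have e : galMul F (ψ (F⁻¹ • x)) - ψ x = 0 := (hx _).symm.trans (hΦS _ (hFS ψ))
      have e2 : galMul F (ψ (F⁻¹ • x)) = ψ (F⁻¹ • x) := by
        rw [galMul_apply_eq hexp hF1 ψ (F⁻¹ • x), one_smul]
      rwa [e2, sub_eq_zero] at e
    refine hΦ ((hx _).trans ?_)
    show D • φ x = 0
    rw [← map_nsmul φ, hker t k ht F hF hF1 x hxK hxF, map_zero]
  exact ((hmemS _).mp (hDS φ₀)).congr fun σ _ => by
    show mulVal (φ₀ (D • c σ)) = mulVal (D • φ₀ (c σ))
    rw [map_nsmul]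

end IsDescentDatum

end FermatLib.Mazur
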