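import Fermat.Agent.Mazur.DescentModule
import Mathlib.RingTheory.Ideal.IdempotentFG

/-!
# Eisenstein-primary operators congruent to one
-/

set_option autoImplicit false

noncomputable section

namespace FermatLib.Mazur

open ModularCurve

/-- In a finite commutative ring every ideal has a positive power generated by an idempotent. -/
theorem exists_pow_eq_span_idempotent {R : Type*} [CommRing R] [Finite R] (I : Ideal R) :
    ∃ (N : ℕ) (e : R), N ≠ 0 ∧ IsIdempotentElem e ∧ I ^ N = Ideal.span {e} := by
  have : Finite (Ideal R) := Finite.of_injective _ SetLike.coe_injective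
  obtain ⟨m, n, hmn, heq⟩ := Finite.exists_ne_map_eq_of_infinite fun n : ℕ => I ^ n
  wlog hlt : m < n generalizing m n
  · exact this n m hmn.symm heq.symm (by omega)
  have hstep : I ^ (m + 1) = I ^ m := by
    refine le_antisymm (Ideal.pow_le_pow_right m.le_succ) ?_
    rw [show I ^ m = I ^ n from heq]
    exact Ideal.pow_le_pow_right hlt
  have hstab : ∀ j, I ^ (m + j) = I ^ m := by
    intro j
    induction j with
    | zero => rfl
    | succ j ih => rw [← add_assoc, pow_succ, ih, ← pow_succ, hstep]
  have hidem : IsIdempotentElem (I ^ (m + 1)) := by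
    show I ^ (m + 1) * I ^ (m + 1) = I ^ (m + 1)
    rw [← pow_add, show m + 1 + (m + 1) = m + (m + 2) by omega, hstab, hstep]
  obtain ⟨e, he, he'⟩ := (Ideal.isIdempotentElem_iff_of_fg _ (IsNoetherian.noetherian _)).mp hidem
  exact ⟨m + 1, e, m.succ_ne_zero, he, he'⟩

/-- On a finite torsion group there is an Eisenstein-primary operator congruent to one. -/
theorem exists_isEisPrimary (p r : ℕ) (J : Type*) [AddCommGroup J] [Module HeckeAlg J] (k : ℕ)
    [Finite (torsionPts J (r ^ k))] :
    ∃ E : HeckeAlg, E - 1 ∈ eisensteinMax p r ∧ IsEisPrimary p r J E k := by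
  let φ := Module.toAddMonoidEnd HeckeAlg (torsionPts J (r ^ k))
  have : Finite (AddMonoid.End (torsionPts J (r ^ k))) :=
    Finite.of_injective _ DFunLike.coe_injective
  have : Finite (HeckeAlg ⧸ RingHom.ker φ) :=
    Finite.of_injective _ (RingHom.kerLift_injective φ)
  obtain ⟨N, e, hN, he, hspan⟩ :=
    exists_pow_eq_span_idempotent ((eisensteinMax p r).map (Ideal.Quotient.mk (RingHom.ker φ)))
  have hmem : e ∈ ((eisensteinMax p r) ^ N).map (Ideal.Quotient.mk (RingHom.ker φ)) := by
    rw [Ideal.map_pow, hspan]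
    exact Ideal.mem_span_singleton_self e
  obtain ⟨e', he', rfl⟩ :=
    (Ideal.mem_map_iff_of_surjective _ Ideal.Quotient.mk_surjective).mp hmem
  refine ⟨1 - e', ?_, fun π hπ => ⟨N, fun x hx => ?_⟩⟩
  · rw [show (1 : HeckeAlg) - e' - 1 = -e' by ring]
    exact neg_mem (Ideal.pow_le_self hN he')
  · have hker : π ^ N * (1 - e') ∈ RingHom.ker φ := by
      rw [← Ideal.Quotient.eq_zero_iff_mem, map_mul, map_sub, map_one]
      have hπ' : Ideal.Quotient.mk (RingHom.ker φ) (π ^ N) ∈
          Ideal.span {Ideal.Quotient.mk (RingHom.ker φ) e'} := by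
        rw [← hspan, map_pow]
        exact Ideal.pow_mem_pow (Ideal.mem_map_of_mem _ hπ) N
      obtain ⟨a, ha⟩ := Ideal.mem_span_singleton'.mp hπ'
      rw [← ha, mul_sub, mul_one, mul_assoc, he.eq, sub_self]
    exact congrArg Subtype.val (DFunLike.congr_fun (RingHom.mem_ker.mp hker) ⟨x, hx⟩)

end FermatLib.Mazur
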