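import Fermat.Agent.Mazur.FlatModel

/-!
# Restriction of integral models along injective equivariant maps
-/

set_option autoImplicit false

noncomputable section

namespace FermatLib.Mazur

local notation "Qbar" => AlgebraicClosure ℚ
local notation "Γℚ" => (AlgebraicClosure ℚ ≃ₐ[ℚ] AlgebraicClosure ℚ)

variable {A : ValuationSubring Qbar} {V W : Type*} [AddCommGroup V] [DistribMulAction Γℚ V]
  [AddCommGroup W] [DistribMulAction Γℚ W] {H : Subring (V → Qbar)}

/-- Composition with `f` on functions. -/
def pullFun (f : W →+ V) : (V → Qbar) →+* (W → Qbar) :=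
  RingHom.pi fun a => Pi.evalRingHom (fun _ : V => Qbar) (f a)

theorem pullFun_apply (f : W →+ V) (h : V → Qbar) (a : W) : pullFun f h a = h (f a) := rfl

/-- The restricted model. -/
theorem IsFlatModel.pull (hH : IsFlatModel A H) (f : W →+ V) (hinj : Function.Injective f)
    (hf : ∀ (g : Γℚ) (x : W), f (g • x) = g • f x) : IsFlatModel A (H.map (pullFun f)) where
  mem := by
    rintro _ ⟨h, hh, rfl⟩ a
    exact hH.mem h hh (f a)
  fg := by
    classical
    obtain ⟨s, hs, hspan⟩ := hH.fg
    refine ⟨s.image (pullFun f), fun g hg => ?_, ?_⟩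
    · obtain ⟨h, hh, rfl⟩ := Finset.mem_image.mp hg
      exact ⟨h, hs h hh, rfl⟩
    · rintro _ ⟨h, hh, rfl⟩
      rw [Finset.coe_image]
      let L : (V → Qbar) →ₗ[A] (W → Qbar) :=
        { toFun := pullFun f, map_add' := map_add _, map_smul' := fun c g => rfl }
      show L h ∈ Submodule.span A (L '' s)
      rw [Submodule.span_image]
      exact Submodule.mem_map_of_mem (hspan h hh)
  separating a b hab := hinj (hH.separating _ _ fun h hh => hab _ ⟨h, hh, rfl⟩)
  comul := by
    rintro _ ⟨h, hh, rfl⟩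
    obtain ⟨n, g, g', hg, hg', hsum⟩ := hH.comul h hh
    refine ⟨n, fun i => pullFun f (g i), fun i => pullFun f (g' i), fun i => ⟨_, hg i, rfl⟩,
      fun i => ⟨_, hg' i, rfl⟩, fun a b => ?_⟩
    rw [pullFun_apply, map_add, hsum]
    rfl
  equivariant := by
    rintro _ ⟨h, hh, rfl⟩ σ hσ a
    rw [pullFun_apply, pullFun_apply, hf]
    exact hH.equivariant h hh σ hσ (f a)

theorem IsConnectedPoint.pull (f : W →+ V) {a : W} (ha : IsConnectedPoint A H (f a)) :
    IsConnectedPoint A (H.map (pullFun f)) a := by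
  rintro _ ⟨h, hh, rfl⟩
  rw [pullFun_apply, pullFun_apply, map_zero]
  exact ha h hh

end FermatLib.Mazur
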