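import Fermat.Agent.Mazur.TorsionFrobenius
import Fermat.Agent.Mazur.AdmissibleTop
import Fermat.Agent.Mazur.FlatModelPull
import Fermat.Agent.Basic.FrobeniusExists

/-!
# The Eisenstein part of the torsion is admissible, with bounded invariants
-/

set_option autoImplicit false

noncomputable section

namespace FermatLib.Mazur

open ModularCurve

local notation "Qbar" => AlgebraicClosure ℚ
local notation "Γℚ" => (AlgebraicClosure ℚ ≃ₐ[ℚ] AlgebraicClosure ℚ)

/-- A Hecke operator whose image of `r ^ k`-torsion is killed by powers of the maximal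
Eisenstein ideal. -/
def IsEisPrimary (p r : ℕ) (J : Type*) [AddCommGroup J] [Module HeckeAlg J] (t : HeckeAlg)
    (k : ℕ) : Prop :=
  ∀ π ∈ eisensteinMax p r, ∃ N : ℕ, ∀ x : J, r ^ k • x = 0 → (π ^ N * t) • x = 0

theorem IsEisPrimary.mul_left {p r : ℕ} {J : Type*} [AddCommGroup J] [Module HeckeAlg J]
    {t : HeckeAlg} {k : ℕ} (h : IsEisPrimary p r J t k) (s : HeckeAlg) :
    IsEisPrimary p r J (s * t) k := fun π hπ => by
  obtain ⟨N, hN⟩ := h π hπ
  exact ⟨N, fun x hx => by rw [mul_left_comm, mul_smul, hN x hx, smul_zero]⟩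

namespace IsDescentDatum

variable {p r : ℕ} {hr : r.Prime} {Ar Ap : ValuationSubring Qbar} {J : Type*}
  [AddCommGroup J] [DistribMulAction Γℚ J] [Module HeckeAlg J] [SMulCommClass Γℚ HeckeAlg J]
  {J' : Type*} [AddCommGroup J'] {red : J →+ J'}

theorem nsmul_imageTorsion {t : HeckeAlg} {k : ℕ} (x : imageTorsion J t (r ^ k)) :
    r ^ k • (x : J) = 0 :=
  imageTorsion_le t _ x.2

theorem finite_imageTorsion (h : IsDescentDatum p r hr Ar Ap J red) (t : HeckeAlg) (k : ℕ) :
    Finite (imageTorsion J t (r ^ k)) := by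
  have := h.finite_torsion k
  exact Finite.of_injective _ (imageToTorsion_injective t _)

theorem nilpotent_eisOp (h : IsDescentDatum p r hr Ar Ap J red) {t : HeckeAlg} {k : ℕ}
    (ht : IsEisPrimary p r J t k) (g : Γℚ) (u : ℕ) (hu : IsCycloValue r g u) :
    ∃ N : ℕ, ∀ x : imageTorsion J t (r ^ k), (eisOp g u)^[N] x = 0 := by
  obtain ⟨q, U, hU, hq, hrel⟩ := h.exists_quadratic (k + 1) g
  let π : HeckeAlg := q - (1 + (U : HeckeAlg))
  let d : HeckeAlg := (U : HeckeAlg) - (u : HeckeAlg)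
  have hd : d ∈ eisensteinMax p r := by
    rw [eisensteinMax, mem_eigenIdeal_iff, map_sub, map_natCast, map_natCast, sub_eq_zero,
      ZMod.natCast_eq_natCast_iff]
    exact (hU.of_dvd (dvd_pow_self r k.succ_ne_zero)).modEq hr.ne_zero hu
  let W := imageTorsion J t (r ^ k)
  let φ : HeckeAlg →+* AddMonoid.End W := Module.toAddMonoidEnd HeckeAlg W
  let F : AddMonoid.End W := DistribMulAction.toAddMonoidEnd Γℚ W g
  have hnil : ∀ a ∈ eisensteinMax p r, IsNilpotent (φ a) := by
    intro a ha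
    obtain ⟨N, hN⟩ := ht a ha
    refine ⟨N, AddMonoidHom.ext fun x => Subtype.ext ?_⟩
    rw [← map_pow]
    obtain ⟨z, hz, hzx⟩ := mem_imageTorsion.mp x.2
    show a ^ N • (x : J) = 0
    rw [← hzx, ← mul_smul, hN z hz]
  have hcomm : ∀ a : HeckeAlg, Commute (φ a) F := fun a =>
    AddMonoidHom.ext fun x => (smul_comm g a x).symm
  have hM : IsNilpotent (φ (π + d) * F - φ d) := by
    have hadd : IsNilpotent (φ (π + d)) := hnil _ (Ideal.add_mem _ hq hd)
    refine Commute.isNilpotent_sub ?_ ((hcomm _).isNilpotent_mul_right hadd) (hnil d hd)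
    exact ((Commute.all (π + d) d).map φ).mul_left (hcomm d).symm
  obtain ⟨N, hN⟩ := hM
  have hpow : ∀ (m : ℕ) (x : W), (eisOp g u)^[m] x = ((φ (π + d) * F - φ d) ^ m) x := by
    intro m
    induction m with
    | zero => exact fun x => rfl
    | succ m ih =>
      intro x
      rw [Function.iterate_succ_apply', ih, pow_succ']
      show eisOp g u _ = (φ (π + d) * F - φ d) (((φ (π + d) * F - φ d) ^ m) x)
      generalize ((φ (π + d) * F - φ d) ^ m) x = y
      refine Subtype.ext ?_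
      show g • g • (y : J) - (1 + u) • g • (y : J) + u • (y : J) =
        (π + d) • g • (y : J) - d • (y : J)
      have e := hrel (y : J) (by
        rw [pow_succ', mul_smul, nsmul_imageTorsion y, smul_zero])
      rw [← sub_eq_zero]
      refine Eq.trans ?_ e
      simp only [π, d, sub_smul, add_smul, one_smul, Nat.cast_smul_eq_nsmul]
      abel
  exact ⟨N, fun x => by rw [hpow, hN]; rfl⟩

/-- The image of torsion under an Eisenstein-primary operator is admissible. -/
theorem isAdmissible (h : IsDescentDatum p r hr Ar Ap J red) {t : HeckeAlg} {k : ℕ}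
    (ht : IsEisPrimary p r J t k) :
    IsAdmissible r p Ar Ap (imageTorsion J t (r ^ k)) (redKer red t (r ^ k)) := by
  have := h.finite_imageTorsion t k
  have hexp : ∃ m : ℕ, ∀ x : imageTorsion J t (r ^ k), r ^ m • x = 0 :=
    ⟨k, fun x => Subtype.ext (nsmul_imageTorsion x)⟩
  obtain ⟨H, hH, hconn⟩ := h.model k
  have hH' := hH.pull (imageToTorsion t (r ^ k)) (imageToTorsion_injective t _)
    (fun g x => imageToTorsion_smul t (r ^ k) g x)
  have hnil : ∀ g ∈ Ar.inertiaSubgroupIn ℚ, ∀ u : ℕ, IsCycloValue r g u →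
      ∃ N : ℕ, ∀ x : imageTorsion J t (r ^ k), (eisOp g u)^[N] x = 0 :=
    fun g _ u hu => h.nilpotent_eisOp ht g u hu
  exact {
    r_prime := hr
    p_prime := h.p_prime
    r_ne_p := h.r_ne_p
    liesOver_r := h.liesOver_r
    liesOver_p := h.liesOver_p
    finite := inferInstance
    exponent := hexp
    isOpen_stabilizer := fun x =>
      Subgroup.isOpen_mono (fun g hg => Subtype.ext hg) (h.isOpen_stabilizer (x : J))
    unramified := fun ℓ hℓ hℓr hℓp A hA σ hσ x => Subtype.ext (by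
      refine h.unramified ℓ hℓ hℓr hℓp A hA σ hσ k (x : J) ?_
      rw [smul_sub, smul_comm _ σ, nsmul_imageTorsion, smul_zero, sub_zero])
    unipotent := fun σ hσ τ hτ x =>
      Subtype.ext (h.unipotent σ hσ τ hτ k (x : J) (nsmul_imageTorsion x))
    constituents := fun g u hu => h.nilpotent_eisOp ht g u hu
    smul_sub_mem := fun σ hσ x => by
      show red (σ • (x : J) - (x : J)) = 0
      rw [map_sub, h.red_inertia σ hσ, sub_self]
    smul_mem := fun g hg x hx => h.red_decomposition g hg (x : J) hx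
    equivariant := fun φ σ hσ x hx =>
      hH'.connected_equivariant hr h.liesOver_r hexp hnil φ hσ
        ((hconn (imageToTorsion t _ x) hx).pull (imageToTorsion t _))
    peu := fun φ v => hH'.isUnitKummer_smul_sub hr h.liesOver_r hexp hnil φ v }

/-- Bounded invariants: there is one bound for all Eisenstein-primary images and their duals. -/
theorem exists_invariants_bound (h : IsDescentDatum p r hr Ar Ap J red) :
    ∃ B : ℕ, ∀ (t : HeckeAlg) (k : ℕ),
      Nat.card (fixedPts (imageTorsion J t (r ^ k)) ⊤) ≤ B ∧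
      Nat.card (fixedPts (MuDual (imageTorsion J t (r ^ k))) ⊤) ≤ B := by
  obtain ⟨ℓ, hℓbig, hℓ⟩ := Nat.exists_infinite_primes (r + p + 1)
  have hℓr : ℓ ≠ r := by omega
  have hℓp : ℓ ≠ p := by omega
  obtain ⟨c, hc, R, hR⟩ := h.eisenstein ⟨ℓ, hℓ⟩ hℓp
  obtain ⟨A, hA⟩ := FermatLib.Basic.exists_liesOverPrime hℓ
  obtain ⟨σ, hσ⟩ := FermatLib.Basic.exists_isFrobeniusAt hℓ A hA
  obtain ⟨a, m, hm, hcm⟩ :=
    Nat.exists_eq_pow_mul_and_not_dvd (Int.natAbs_ne_zero.mpr hc) r hr.ne_one
  refine ⟨Nat.card (torsionPts J (r ^ a)), fun t k => ?_⟩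
  have := h.finite_imageTorsion t k
  have := h.finite_torsion a
  let W := imageTorsion J t (r ^ k)
  have helt : eisensteinElt ⟨ℓ, hℓ⟩ = heckeGen ⟨ℓ, hℓ⟩ - ((1 + ℓ : ℕ) : HeckeAlg) := by
    rw [eisensteinElt]
    push_cast
    simp [map_add]
  -- `c` kills the two groups of invariants
  have hfix : ∀ x ∈ fixedPts W ⊤, c • x = 0 := by
    intro x hx
    refine Subtype.ext ?_
    have hσx : σ • (x : J) = x := congrArg Subtype.val (hx σ trivial)
    have hq := h.frobenius ℓ hℓ hℓr hℓp A hA σ hσ k (x : J) (nsmul_imageTorsion x)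
    rw [hσx, hσx] at hq
    show c • (x : J) = 0
    rw [hR k (x : J) (nsmul_imageTorsion x), mul_smul, helt, sub_smul, Nat.cast_smul_eq_nsmul]
    have : heckeGen ⟨ℓ, hℓ⟩ • (x : J) - (1 + ℓ) • (x : J) = 0 := by
      rw [← neg_eq_zero]
      refine Eq.trans ?_ hq
      rw [add_smul, one_smul]
      abel
    rw [this, smul_zero]
  have hker : ∀ φ ∈ fixedPts (MuDual W) ⊤, ∀ y : W, φ (c • y) = 0 := by
    intro φ hφ y
    have hcyc : IsCycloValue (r ^ k) σ ℓ := isCycloValue_of_isFrobeniusAt hℓ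
      (fun hd => hℓr ((Nat.prime_dvd_prime_iff_eq hℓ hr).mp (hℓ.dvd_of_dvd_pow hd))) hA hσ
    have hexp : ∀ x : W, r ^ k • x = 0 := fun x => Subtype.ext (nsmul_imageTorsion x)
    have hσφ : ∀ z : W, φ (σ • z) = ℓ • φ z := fun z => by
      have e := DFunLike.congr_fun (hφ σ trivial) (σ • z)
      rw [MuDual.smul_apply, inv_smul_smul] at e
      rw [← e, ← map_nsmul (φ : W →+ QbarMul)]
      exact galMul_apply_eq hexp hcyc (φ : W →+ QbarMul) z
    have hη : ∀ z : W, φ ((heckeGen ⟨ℓ, hℓ⟩ - ((1 + ℓ : ℕ) : HeckeAlg)) • σ • z) = 0 := fun z => by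
      have hq : σ • σ • z - heckeGen ⟨ℓ, hℓ⟩ • σ • z + ℓ • z = 0 :=
        Subtype.ext (h.frobenius ℓ hℓ hℓr hℓp A hA σ hσ k (z : J) (nsmul_imageTorsion z))
      have e : φ (σ • σ • z - heckeGen ⟨ℓ, hℓ⟩ • σ • z + ℓ • z) = 0 := by rw [hq, map_zero]
      rw [map_add, map_sub, map_nsmul, ← hσφ z, hσφ (σ • z)] at e
      rw [sub_smul, map_sub, Nat.cast_smul_eq_nsmul, map_nsmul, add_smul, one_smul, ← neg_eq_zero]
      refine Eq.trans ?_ e
      abel
    have hcy : c • y = (heckeGen ⟨ℓ, hℓ⟩ - ((1 + ℓ : ℕ) : HeckeAlg)) • σ • (σ⁻¹ • R • y) := by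
      refine Subtype.ext ?_
      rw [smul_inv_smul, ← helt]
      show c • (y : J) = eisensteinElt ⟨ℓ, hℓ⟩ • R • (y : J)
      rw [hR k (y : J) (nsmul_imageTorsion y), mul_comm, mul_smul]
    rw [hcy, hη]
  let Wc : AddSubgroup W := (zsmulAddGroupHom c).ker
  have hWc : Nat.card Wc ≤ Nat.card (torsionPts J (r ^ a)) := by
    refine Nat.card_le_card_of_injective
      (fun x => ⟨((x : W) : J), ?_⟩) fun x y e => Subtype.ext (Subtype.ext (congrArg (fun
        z : torsionPts J (r ^ a) => (z : J)) e))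
    rw [mem_torsionPts]
    have hxc : c • ((x : W) : J) = 0 := congrArg Subtype.val x.2
    have hxk : r ^ k • ((x : W) : J) = 0 := nsmul_imageTorsion _
    have h1 : c.natAbs • ((x : W) : J) = 0 := by
      rcases Int.natAbs_eq c with e | e <;> rw [e] at hxc
      · rwa [natCast_zsmul] at hxc
      · rwa [neg_smul, neg_eq_zero, natCast_zsmul] at hxc
    rw [← addOrderOf_dvd_iff_nsmul_eq_zero] at hxk h1 ⊢
    rw [hcm, mul_comm] at h1
    exact Nat.Coprime.dvd_of_dvd_mul_left (Nat.Coprime.coprime_dvd_left hxk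
      ((Nat.Prime.coprime_iff_not_dvd hr).mpr hm |>.pow_left k)) h1
  refine ⟨(AddSubgroup.card_le_of_le fun x hx => hfix x hx).trans hWc, ?_⟩
  refine le_trans (AddSubgroup.card_le_of_le (K := MuDual.annihilator W (zsmulAddGroupHom c).range)
    ?_) ?_
  · intro φ hφ x hx
    obtain ⟨y, rfl⟩ := hx
    exact hker φ hφ y
  · refine le_trans (le_of_eq ?_) hWc
    have e := MuDual.natCard_annihilator_mul (V := W) (zsmulAddGroupHom c).range
    have e2 : Nat.card W = Nat.card Wc * Nat.card (zsmulAddGroupHom (α := W) c).range := by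
      rw [← AddSubgroup.index_ker, AddSubgroup.card_mul_index]
    exact Nat.eq_of_mul_eq_mul_right Nat.card_pos (e.trans e2)

end IsDescentDatum

end FermatLib.Mazur
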