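import Mathlib.NumberTheory.ModularForms.Bounds
import Mathlib.NumberTheory.ModularForms.Petersson
import Fermat.Prelude.Def_ModularForm_HeckeOperatorForms
import Fermat.Agent.Galois.AttachKummer
import Fermat.Agent.Modular.CorrFacts
import Fermat.Agent.Modular.HeckeDualityForms

/-!
# `T ℓ - (1 + ℓ)` divides a nonzero integer on torsion

The function `|f| im` of a weight two cusp form attains its maximum; if `T ℓ f = (ℓ + 1) f` it
would attain it again at `ℓ z`, which forces `f = 0` as `ℓ ^ n z` tends to the cusp at infinity.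
So `T ℓ - (1 + ℓ)` is not a zero divisor in the Hecke algebra, a finite `ℤ`-algebra, and divides
a nonzero integer there, hence on the torsion of `J₀(N)`.
-/

set_option autoImplicit false

noncomputable section

open UpperHalfPlane CongruenceSubgroup ModularCurve Filter AlgebraicCurve
open scoped Modular MatrixGroups Pointwise

namespace FermatLib.Mazur

section Analysis

variable {N : ℕ} [NeZero N]

/-- `|f| im` of a cusp form. -/
def cuspNorm (f : CuspForm (Gamma0 N) 2) (z : ℍ) : ℝ := ‖f z‖ * z.im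

theorem cuspNorm_sq (f : CuspForm (Gamma0 N) 2) (z : ℍ) :
    cuspNorm f z ^ 2 = ‖petersson 2 f f z‖ := by
  rw [petersson, norm_mul, norm_mul, Complex.norm_conj, cuspNorm, zpow_ofNat, norm_pow,
    Complex.norm_real, Real.norm_eq_abs, abs_of_pos z.im_pos]
  ring

theorem cuspNorm_nonneg (f : CuspForm (Gamma0 N) 2) (z : ℍ) : 0 ≤ cuspNorm f z :=
  mul_nonneg (norm_nonneg _) z.im_pos.le

theorem cuspNorm_smul (f : CuspForm (Gamma0 N) 2) {γ : SL(2, ℤ)} (hγ : γ ∈ Gamma0 N) (z : ℍ) :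
    cuspNorm f (γ • z) = cuspNorm f z := by
  refine (sq_eq_sq₀ (cuspNorm_nonneg f _) (cuspNorm_nonneg f _)).mp ?_
  rw [cuspNorm_sq, cuspNorm_sq]
  exact SlashInvariantFormClass.norm_petersson_smul (Γ := ((Gamma0 N : Subgroup SL(2, ℤ)) : Subgroup (GL (Fin 2) ℝ)))
    (Subgroup.mem_map.mpr ⟨γ, hγ, rfl⟩)

theorem tendsto_cuspNorm (f : CuspForm (Gamma0 N) 2) (g : SL(2, ℤ)) :
    Tendsto (fun z => cuspNorm f (g • z)) atImInfty (nhds 0) := by
  have : ((ConjAct.toConjAct ((g : GL (Fin 2) ℝ)⁻¹)) •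
      ((Gamma0 N : Subgroup SL(2, ℤ)) : Subgroup (GL (Fin 2) ℝ))).IsArithmetic := by
    simpa [(show Rat.castHom ℝ = algebraMap ℚ ℝ by rfl), map_inv, Matrix.SpecialLinearGroup.map_mapGL]
      using! Subgroup.IsArithmetic.conj ((Gamma0 N : Subgroup SL(2, ℤ)) : Subgroup (GL (Fin 2) ℝ))
        (Matrix.SpecialLinearGroup.mapGL ℚ g)⁻¹
  have h0 : IsZeroAtImInfty fun z => petersson 2 f f (g • z) := by
    simp_rw [← UpperHalfPlane.petersson_slash_SL]
    exact (CuspFormClass.zero_at_infty <| CuspForm.translate f g).petersson_isZeroAtImInfty_left 2 _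
      (ModularForm.translate f g)
  have h2 := ((tendsto_zero_iff_norm_tendsto_zero.mp h0).sqrt)
  simp only [Real.sqrt_zero] at h2
  refine h2.congr fun z => ?_
  rw [← cuspNorm_sq, Real.sqrt_sq (cuspNorm_nonneg f _)]

theorem continuous_cuspNorm (f : CuspForm (Gamma0 N) 2) : Continuous (cuspNorm f) := by
  refine Continuous.congr (f := fun z => Real.sqrt ‖petersson 2 f f z‖) ?_ fun z => ?_
  · fun_prop
  · rw [← cuspNorm_sq, Real.sqrt_sq (cuspNorm_nonneg f _)]

/-- `|f| im` attains its maximum. -/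
theorem exists_forall_cuspNorm_le (f : CuspForm (Gamma0 N) 2) {z₁ : ℍ}
    (hz₁ : 0 < cuspNorm f z₁) : ∃ z₀, ∀ z, cuspNorm f z ≤ cuspNorm f z₀ := by
  classical
  have : (Gamma0 N).FiniteIndex := inferInstance
  have : Fintype (SL(2, ℤ) ⧸ Gamma0 N) := Subgroup.fintypeQuotientOfFiniteIndex
  let rep : SL(2, ℤ) ⧸ Gamma0 N → SL(2, ℤ) := fun q => q.out⁻¹
  have hev : ∀ᶠ z in atImInfty, ∀ q, cuspNorm f (rep q • z) < cuspNorm f z₁ :=
    eventually_all.mpr fun q => (tendsto_cuspNorm f (rep q)).eventually_lt_const hz₁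
  obtain ⟨y, hy⟩ := (atImInfty_mem _).mp hev
  have hred : ∀ z, ∃ (q : SL(2, ℤ) ⧸ Gamma0 N) (w : ℍ), w ∈ ModularGroup.fd ∧
      cuspNorm f z = cuspNorm f (rep q • w) := by
    intro z
    obtain ⟨g, hg⟩ := ModularGroup.exists_smul_mem_fd z
    refine ⟨(g : SL(2, ℤ) ⧸ Gamma0 N), g • z, hg, ?_⟩
    have hmem : (Quotient.out (g : SL(2, ℤ) ⧸ Gamma0 N))⁻¹ * g ∈ Gamma0 N :=
      QuotientGroup.eq.mp (Quotient.out_eq' _)
    rw [← mul_smul]
    exact (cuspNorm_smul f hmem z).symm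
  let K := ModularGroup.truncatedFundamentalDomain y
  have hK : IsCompact K := ModularGroup.isCompact_truncatedFundamentalDomain y
  obtain ⟨q₁, w₁, hw₁, he₁⟩ := hred z₁
  have hw₁K : w₁ ∈ K := ⟨hw₁, by
    by_contra hlt
    exact lt_irrefl _ (he₁.trans_lt (hy w₁ (le_of_lt (not_le.mp hlt)) q₁))⟩
  choose m hm hmax using fun q => hK.exists_isMaxOn ⟨w₁, hw₁K⟩
    ((continuous_cuspNorm f).comp (show Continuous fun w : ℍ => rep q • w by
      simp only [ModularGroup.sl_moeb]; fun_prop)).continuousOn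
  have : Nonempty (SL(2, ℤ) ⧸ Gamma0 N) := ⟨q₁⟩
  obtain ⟨q₀, hq₀⟩ := Finite.exists_max fun q => cuspNorm f (rep q • m q)
  refine ⟨rep q₀ • m q₀, fun z => ?_⟩
  obtain ⟨q, w, hw, he⟩ := hred z
  have hbound : ∀ q w, w ∈ K → cuspNorm f (rep q • w) ≤ cuspNorm f (rep q₀ • m q₀) :=
    fun q w hwK => (hmax q hwK).trans (hq₀ q)
  rcases le_or_gt w.im y with hle | hlt
  · exact he.trans_le (hbound q w ⟨hw, hle⟩)
  · exact (he.trans_lt (hy w hlt.le q)).le.trans (he₁.trans_le (hbound q₁ w₁ hw₁K))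

/-- A weight two cusp form with `T ℓ f = (1 + ℓ) f` vanishes. -/
theorem eq_zero_of_heckeT_eq {ℓ : ℕ} (hℓ : ℓ.Prime) (f : CuspForm (Gamma0 N) 2)
    (h : ∀ z : ℍ, ModularForm.heckeT 2 ℓ f z = (1 + ℓ : ℂ) * f z) : f = 0 := by
  by_contra hne
  obtain ⟨z₁, hz₁⟩ : ∃ z, f z ≠ 0 := by
    by_contra! hall
    exact hne (DFunLike.ext _ _ hall)
  have hpos : 0 < cuspNorm f z₁ := mul_pos (norm_pos_iff.mpr hz₁) z₁.im_pos
  obtain ⟨z₀, hmax⟩ := exists_forall_cuspNorm_le f hpos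
  have hl0 := hℓ.ne_zero
  have hlR : (0 : ℝ) < ℓ := Nat.cast_pos.mpr hℓ.pos
  let D := ModularForm.heckeDiagMatrix ℓ
  have imD : ∀ z : ℍ, (D • z).im = ℓ * z.im := fun z => by
    rw [← UpperHalfPlane.coe_im, ModularForm.coe_heckeDiagMatrix_smul hl0,
      ← Complex.ofReal_natCast, Complex.im_ofReal_mul, UpperHalfPlane.coe_im]
  have step : ∀ z, cuspNorm f z = cuspNorm f z₀ → cuspNorm f (D • z) = cuspNorm f z₀ := by
    intro z hz
    refine le_antisymm (hmax _) ?_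
    have imM : ∀ j, (ModularForm.heckeMatrix ℓ j • z).im = z.im / ℓ := fun j => by
      rw [← UpperHalfPlane.coe_im, ModularForm.coe_heckeMatrix_smul hl0,
        Complex.div_natCast_im, Complex.add_im, Complex.natCast_im, add_zero, UpperHalfPlane.coe_im]
    have key : (1 + (ℓ : ℝ)) * cuspNorm f z ≤
        (∑ j ∈ Finset.range ℓ, cuspNorm f (ModularForm.heckeMatrix ℓ j • z)) +
          cuspNorm f (D • z) := by
      have h1 := congrArg (fun c : ℂ => ‖c‖ * z.im) (h z)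
      simp only [ModularForm.heckeT_eq_heckeU_add, Pi.add_apply, ModularForm.heckeU_apply 2 hl0,
        ModularForm.slash_heckeDiagMatrix_apply 2 hl0, norm_mul,
        show ‖(1 + (ℓ : ℂ))‖ = 1 + (ℓ : ℝ) by
          rw [← Nat.cast_one, ← Nat.cast_add, Complex.norm_natCast]; push_cast; ring] at h1
      have e1 : (1 + (ℓ : ℝ)) * cuspNorm f z = (1 + (ℓ : ℝ)) * ‖f z‖ * z.im := by
        rw [cuspNorm]; ring
      rw [e1, ← h1]
      calc ‖(ℓ : ℂ)⁻¹ * ∑ j ∈ Finset.range ℓ, f (ModularForm.heckeMatrix ℓ j • z) +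
            (ℓ : ℂ) ^ (2 - 1 : ℤ) * f (D • z)‖ * z.im
          ≤ (‖(ℓ : ℂ)⁻¹ * ∑ j ∈ Finset.range ℓ, f (ModularForm.heckeMatrix ℓ j • z)‖ +
              ‖(ℓ : ℂ) ^ (2 - 1 : ℤ) * f (D • z)‖) * z.im :=
            mul_le_mul_of_nonneg_right (norm_add_le _ _) z.im_pos.le
        _ ≤ ((ℓ : ℝ)⁻¹ * ∑ j ∈ Finset.range ℓ, ‖f (ModularForm.heckeMatrix ℓ j • z)‖ +
              (ℓ : ℝ) * ‖f (D • z)‖) * z.im := by
            refine mul_le_mul_of_nonneg_right (add_le_add ?_ (le_of_eq ?_)) z.im_pos.le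
            · rw [norm_mul, norm_inv, Complex.norm_natCast]
              exact mul_le_mul_of_nonneg_left (norm_sum_le _ _) (by positivity)
            · rw [norm_mul, show (2 - 1 : ℤ) = 1 by norm_num, zpow_one, Complex.norm_natCast]
        _ = _ := by
            simp only [cuspNorm, imM, imD, add_mul, Finset.mul_sum, Finset.sum_mul]
            refine congrArg₂ (· + ·) (Finset.sum_congr rfl fun j _ => by ring) (by ring)
    have hsum : (∑ j ∈ Finset.range ℓ, cuspNorm f (ModularForm.heckeMatrix ℓ j • z)) ≤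
        ℓ * cuspNorm f z₀ := by
      refine (Finset.sum_le_sum fun j _ => hmax _).trans (le_of_eq ?_)
      rw [Finset.sum_const, Finset.card_range, nsmul_eq_mul]
    rw [hz] at key
    linarith
  obtain ⟨y, hy⟩ := (atImInfty_mem _).mp
    ((tendsto_cuspNorm f 1).eventually_lt_const (hpos.trans_le (hmax z₁)))
  have hit : ∀ n : ℕ, ∃ z, cuspNorm f z = cuspNorm f z₀ ∧ z.im = (ℓ : ℝ) ^ n * z₀.im := by
    intro n
    induction n with
    | zero => exact ⟨z₀, rfl, by simp⟩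
    | succ n ih =>
      obtain ⟨z, hz, him⟩ := ih
      exact ⟨D • z, step z hz, by rw [imD, him, pow_succ]; ring⟩
  obtain ⟨n, hn⟩ := pow_unbounded_of_one_lt (y / z₀.im)
    (show (1 : ℝ) < ℓ by exact_mod_cast hℓ.one_lt)
  obtain ⟨z, hz, him⟩ := hit n
  have h2 := hy z (by rw [him]; exact ((div_lt_iff₀ z₀.im_pos).mp hn).le)
  simp only [Set.mem_ofPred_eq, one_smul, hz] at h2
  exact lt_irrefl _ h2

theorem heckeTLin_sub_injective {ℓ : ℕ} (hℓ : ℓ.Prime) (hℓN : ¬ ℓ ∣ N)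
    (f : CuspForm (Gamma0 N) 2) (h : CuspForm.heckeTLin 2 hℓ hℓN f = (1 + ℓ : ℂ) • f) : f = 0 :=
  eq_zero_of_heckeT_eq hℓ f fun z => by
    rw [← CuspForm.heckeTLin_apply_apply 2 hℓ hℓN, h]
    rfl

end Analysis

section Algebra

/-- A left regular element integral over `ℤ` divides a nonzero integer. -/
theorem exists_aeval_mul_eq_intCast {R : Type*} [CommRing R] (x : R) (hx : IsIntegral ℤ x)
    (hreg : ∀ y : R, x * y = 0 → y = 0) :
    ∃ c : ℤ, c ≠ 0 ∧ ∃ Q : Polynomial ℤ, Polynomial.aeval x Q * x = c := by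
  rcases subsingleton_or_nontrivial R with hR | hR
  · exact ⟨1, one_ne_zero, 0, Subsingleton.elim _ _⟩
  set P := minpoly ℤ x
  have hP : Polynomial.aeval x P = 0 := minpoly.aeval ℤ x
  have hsplit := P.X_mul_divX_add
  refine ⟨-P.coeff 0, neg_ne_zero.mpr fun h0 => ?_, P.divX, ?_⟩
  · rw [h0, map_zero, add_zero] at hsplit
    have hmon : (Polynomial.X * P.divX).Monic := hsplit.symm ▸ minpoly.monic hx
    have hQ : P.divX.Monic := Polynomial.Monic.of_mul_monic_left Polynomial.monic_X hmon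
    have hQ0 : Polynomial.aeval x P.divX = 0 := hreg _ (by
      rw [← hsplit, map_mul, Polynomial.aeval_X] at hP; exact hP)
    have hle : P.natDegree ≤ P.divX.natDegree :=
      Polynomial.natDegree_le_natDegree (minpoly.min ℤ x hQ hQ0)
    have heq : P.natDegree = 1 + P.divX.natDegree := by
      conv_lhs => rw [← hsplit]
      rw [Polynomial.monic_X.natDegree_mul hQ, Polynomial.natDegree_X]
    omega
  · rw [← hsplit, map_add, map_mul, Polynomial.aeval_X, Polynomial.aeval_C] at hP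
    rw [mul_comm, Int.cast_neg, eq_neg_iff_add_eq_zero]
    simpa using hP

variable (N : ℕ) [NeZero N]

theorem exists_intCast_sub_mem_ker_heckeEvalForms {ℓ : Nat.Primes} (hℓN : ¬ (ℓ : ℕ) ∣ N) :
    ∃ c : ℤ, c ≠ 0 ∧ ∃ R : HeckeAlg, CuspForm.heckeEvalForms N 2
      (R * (heckeGen ℓ - MvPolynomial.C (1 + (ℓ : ℕ) : ℤ))) = (c : CuspForm.heckeAlgebra N 2 ∅) := by
  set e : HeckeAlg := heckeGen ℓ - MvPolynomial.C (1 + (ℓ : ℕ) : ℤ) with he
  set x := CuspForm.heckeEvalForms N 2 e with hxdef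
  have hfin : Module.Finite ℤ (CuspForm.heckeAlgebra N 2 ∅) :=
    FermatLib.Modular.moduleFinite_heckeAlgebra_two N
  have hcoe : ∀ f, (x : Module.End ℂ (CuspForm (Gamma0 N) 2)) f =
      CuspForm.heckeTLin 2 ℓ.2 hℓN f - (1 + (ℓ : ℕ) : ℂ) • f := by
    intro f
    rw [hxdef, he, map_sub, CuspForm.heckeEvalForms_heckeGen_of_not_dvd hℓN,
      CuspForm.heckeEvalForms_C]
    simp only [AddSubgroupClass.coe_sub, LinearMap.sub_apply, CuspForm.heckeAlgebra.coe_T]
    congr 1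
    simp [add_smul, Nat.cast_smul_eq_nsmul, Module.End.natCast_apply]
  have hreg : ∀ y : CuspForm.heckeAlgebra N 2 ∅, x * y = 0 → y = 0 := fun y hy =>
    Subtype.ext (LinearMap.ext fun f => heckeTLin_sub_injective ℓ.2 hℓN _ (sub_eq_zero.mp (by
      rw [← hcoe]
      exact LinearMap.congr_fun (congrArg Subtype.val hy) f)))
  obtain ⟨c, hc, Q, hQ⟩ := exists_aeval_mul_eq_intCast x
    (Algebra.IsIntegral.of_finite ℤ _ |>.isIntegral x) hreg
  refine ⟨c, hc, Polynomial.aeval e Q, ?_⟩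
  rw [map_mul, ← hQ]
  congr 1
  exact (Polynomial.aeval_algHom_apply (CuspForm.heckeEvalForms N 2).toIntAlgHom e Q).symm

/-- `T ℓ - (1 + ℓ)` divides a nonzero integer on the `p`-power torsion of `J₀(N)`. -/
theorem exists_eisenstein_divides {p : ℕ}
    (hK : FermatLib.Galois.Attach.KummerHeckeEquiv N p) {ℓ : Nat.Primes}
    (hℓN : ¬ (ℓ : ℕ) ∣ N) :
    letI := heckeModuleBar N
    ∃ c : ℤ, c ≠ 0 ∧ ∃ R : HeckeAlg, ∀ (k : ℕ) (x : JZero N), p ^ k • x = 0 →
      c • x = (R * (heckeGen ℓ - MvPolynomial.C (1 + (ℓ : ℕ) : ℤ))) • x := by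
  letI := heckeModuleBar N
  obtain ⟨c, hc, R, hR⟩ := exists_intCast_sub_mem_ker_heckeEvalForms N hℓN
  refine ⟨c, hc, R, fun k x hx => ?_⟩
  set P : HeckeAlg := R * (heckeGen ℓ - MvPolynomial.C (1 + (ℓ : ℕ) : ℤ)) - MvPolynomial.C c
  have hP : CuspForm.heckeEvalForms N 2 P = 0 := by
    rw [map_sub, hR, CuspForm.heckeEvalForms_C, eq_intCast, sub_self]
  have hcomm := FermatLib.Modular.heckeOperatorsCommuteBar N
  obtain ⟨ψ, hψ⟩ := FermatLib.Galois.Attach.exists_kummer_zmod hK k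
  let a : Pic0.torsion (AlgebraicClosure ℚ) (modularFunctionFieldBar N) (p ^ k) :=
    ⟨x, (FermatLib.Galois.Attach.mem_torsion_iff_pow k x).mpr hx⟩
  have hy : p ^ k • heckeEvalBar hcomm P x = 0 := by rw [← map_nsmul, hx, map_zero]
  let b : Pic0.torsion (AlgebraicClosure ℚ) (modularFunctionFieldBar N) (p ^ k) :=
    ⟨heckeEvalBar hcomm P x, (FermatLib.Galois.Attach.mem_torsion_iff_pow k _).mpr hy⟩
  have htop : P ∈ FermatLib.Galois.awayHeckeAlg (∅ : Set ℕ) := by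
    rw [FermatLib.Galois.awayHeckeAlg]
    have hu : ∀ q : Nat.Primes → Prop, (∀ ℓ, q ℓ) → {ℓ : Nat.Primes | q ℓ} = Set.univ :=
      fun q hq => Set.eq_univ_of_forall hq
    simp only [Set.mem_empty_iff_false, not_false_eq_true, hu _ (fun _ => trivial), Set.image_univ,
      adjoin_range_heckeGen, Algebra.mem_top]
  have h1 := FermatLib.Galois.Attach.kummer_heckeEvalBar hcomm ψ (fun ℓ _ => hψ ℓ) htop a b rfl
  rw [FermatLib.Modular.heckeHomEval_eq_zero hP (ψ a).2] at h1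
  have hb : b = 0 := ψ.injective ((Subtype.ext h1).trans (map_zero ψ).symm)
  have h2 : P • x = 0 := by
    rw [heckeModuleBar_smul_def hcomm]
    exact congrArg Subtype.val hb
  rw [sub_smul, heckeModuleBar_C_smul, sub_eq_zero] at h2
  exact h2.symm

end Algebra

end FermatLib.Mazur
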