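import Fermat.Agent.Mazur.DescentDatum
import Fermat.Agent.Mazur.EisensteinFree
import Fermat.Agent.Modular.KummerHecke
import Fermat.Agent.AV.MW.Torsion
import Fermat.Agent.AV.MW.MordellWeil
import Fermat.Agent.Igusa.EichlerShimuraModL
import Fermat.Agent.Igusa.ReductionHecke
import Fermat.Agent.Igusa.ReductionInputs
import Fermat.Agent.Igusa.TorsionInjective
import Fermat.Agent.Igusa.MonoInertia
import Fermat.Agent.Igusa.TorsionModel.JZeroModel
import Fermat.Agent.Igusa.TorsionModel.X0SpecData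
import Fermat.Agent.Modular.CorrFacts
import Fermat.Prelude.Def_ModularCurve_ReductionModL

/-!
# `J₀(p)` carries a descent datum
-/

set_option autoImplicit false
set_option linter.style.haveILetI false

noncomputable section

namespace FermatLib.Mazur

open ModularCurve AlgebraicCurve

local notation "Qbar" => AlgebraicClosure ℚ
local notation "Γℚ" => (AlgebraicClosure ℚ ≃ₐ[ℚ] AlgebraicClosure ℚ)

/-- Reduction modulo `ℓ ∤ N` is injective on torsion of order prime to `ℓ`. -/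
theorem eq_zero_of_reduction_eq_zero {N ℓ : ℕ} [NeZero N] (hℓ : ℓ.Prime) (hℓN : ¬ ℓ ∣ N)
    {A : ValuationSubring Qbar} (hA : A.LiesOverPrime ℓ) {m : ℕ} (hm : ¬ ℓ ∣ m) {z : JZero N}
    (hmz : m • z = 0) (hz : reductionModL A N z = 0) : z = 0 := by
  haveI : Fact ℓ.Prime := ⟨hℓ⟩
  obtain ⟨Pinf, Qinf, n₀, hS⟩ := Igusa.exists_smoothLattice N hℓN A hA
  exact Igusa.eq_zero_of_reductionModL_eq_zero_of_smoothLattice hℓ hA
    (Igusa.reductionInputsModL N hℓN A hA) hS hm z hmz hz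

/-- Unipotence of inertia at `p` on the torsion of `J₀(p)`. -/
theorem smul_smul_sub_eq_of_inertia {p : ℕ} (hp : p.Prime) {N : ℕ} [NeZero N] (hN : N = p * 1)
    {A : ValuationSubring Qbar} (hA : A.LiesOverPrime p) {σ τ : Γℚ}
    (hσ : σ ∈ A.inertiaSubgroupIn ℚ) (hτ : τ ∈ A.inertiaSubgroupIn ℚ) {d : ℕ} (hd : 1 ≤ d)
    (hdp : ¬ p ∣ d) (x : JZero N) (hx : d • x = 0) : σ • (τ • x - x) = τ • x - x := by
  haveI : Fact p.Prime := ⟨hp⟩
  subst hN
  exact Igusa.Mono.inertia_smul_smul_sub_eq (fun h => hp.not_dvd_one h) A hA hτ hσ hd hdp x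
    (by rwa [natCast_zsmul])

/-- The kernel of reduction at `r` is stable under the Hecke algebra of level `p`. -/
theorem red_hecke_smul {p r : ℕ} [NeZero p] (hp : p.Prime) (hr : r.Prime) (hrp : r ≠ p)
    {A : ValuationSubring Qbar} (hA : A.LiesOverPrime r) (t : HeckeAlg) (x : JZero p)
    (hx : reductionModL A p x = 0) :
    letI := heckeModuleBar p
    reductionModL A p (t • x) = 0 :=
  haveI : Fact r.Prime := ⟨hr⟩
  Igusa.reductionModL_smul_eq_zero
    (fun h => hrp ((Nat.prime_dvd_prime_iff_eq hr hp).mp h)) hA hx t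

/-- The inputs of the Eisenstein descent hold for `J₀(p)`. -/
theorem isDescentDatum_jZero {p r : ℕ} [NeZero p] (hp : p.Prime) (hp5 : 5 ≤ p) (hr : r.Prime)
    (hrp : r ≠ p) {Ar Ap : ValuationSubring Qbar} (hAr : Ar.LiesOverPrime r)
    (hAp : Ap.LiesOverPrime p) :
    letI := heckeModuleBar p
    haveI := FermatLib.Modular.smulCommClass_heckeModuleBar p
    IsDescentDatum p r hr Ar Ap (JZero p) (reductionModL Ar p) := by
  letI := heckeModuleBar p
  haveI := FermatLib.Modular.smulCommClass_heckeModuleBar p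
  have hnd : ∀ {ℓ : ℕ}, ℓ.Prime → ℓ ≠ p → ¬ ℓ ∣ p := fun hℓ hne h =>
    hne ((Nat.prime_dvd_prime_iff_eq hℓ hp).mp h)
  have hrN : ¬ r ∣ p := hnd hr hrp
  have hred : ∀ {ℓ : ℕ}, ℓ.Prime → ℓ ≠ p → ∀ A : ValuationSubring Qbar, A.LiesOverPrime ℓ →
      ReductionInputsModL A p := fun {ℓ} hℓ hne A hA =>
    haveI : Fact ℓ.Prime := ⟨hℓ⟩
    Igusa.reductionInputsModL p (hnd hℓ hne) A hA
  have hkill : ∀ {ℓ : ℕ}, ℓ.Prime → ℓ ≠ r → ℓ ≠ p → ∀ A : ValuationSubring Qbar,
      A.LiesOverPrime ℓ → ∀ (k : ℕ) (z : JZero p), r ^ k • z = 0 →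
        reductionModL A p z = 0 → z = 0 := fun {ℓ} hℓ hℓr hℓp A hA k z hz h0 =>
    eq_zero_of_reduction_eq_zero hℓ (hnd hℓ hℓp) hA
      (fun h => hℓr ((Nat.prime_dvd_prime_iff_eq hℓ hr).mp (hℓ.dvd_of_dvd_pow h))) hz h0
  have hGal : ∀ (g : Γℚ) (n : ℕ) (y : JZero p), n • g • y = g • n • y := fun g n y =>
    (map_nsmul (DistribSMul.toAddMonoidHom (JZero p) g) n y).symm
  have hHecke : ∀ (t : HeckeAlg) (n : ℕ) (y : JZero p), n • t • y = t • n • y := fun t n y =>
    (map_nsmul (DistribSMul.toAddMonoidHom (JZero p) t) n y).symm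
  have hg0 : ∀ g : Γℚ, g • (0 : JZero p) = 0 := fun g =>
    map_zero (DistribSMul.toAddMonoidHom (JZero p) g)
  refine
    { p_prime := hp
      r_ne_p := hrp
      liesOver_r := hAr
      liesOver_p := hAp
      isOpen_stabilizer := AV.MW.isOpen_stabilizer p
      finite_torsion := fun k => ?_
      exists_nsmul_eq := fun y _ k => AV.MW.exists_nsmul_eq_JZero p (pow_ne_zero k hr.ne_zero) y
      fg := AV.MW.fg_fixedPoints_JZero p
      unramified := fun ℓ hℓ hℓr hℓp A hA σ hσ k z hz => ?_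
      frobenius := fun ℓ hℓ hℓr hℓp A hA σ hσ k x hx => ?_
      unipotent := fun σ hσ τ hτ k x hx => ?_
      red_hecke := fun t x hx => red_hecke_smul hp hr hrp hAr t x hx
      red_inertia := fun σ hσ x => Igusa.red_inertia_smul (hred hr hrp Ar hAr) σ hσ x
      red_decomposition := fun g hg x hx =>
        Igusa.red_decomposition_smul_eq_zero (hred hr hrp Ar hAr) g hg hx
      red_frobenius := fun F hF k x _ =>
        Igusa.red_eichlerShimura (hred hr hrp Ar hAr) hr hrN hAr F hF x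
      model := fun k => ?_
      eisenstein := fun ℓ hℓp => ?_ }
  · exact (AV.MW.finite_nsmul_eq_zero p (pow_ne_zero k hr.ne_zero)).to_subtype
  · refine sub_eq_zero.mp (hkill hℓ hℓr hℓp A hA k _ hz ?_)
    rw [map_sub, Igusa.red_inertia_smul (hred hℓ hℓp A hA) σ hσ, sub_self]
  · refine hkill hℓ hℓr hℓp A hA k _ ?_
      (Igusa.red_eichlerShimura (hred hℓ hℓp A hA) hℓ (hnd hℓ hℓp) hA σ hσ x)
    rw [nsmul_add, nsmul_sub, hGal, hGal, hHecke, hGal, smul_comm (r ^ k) ℓ x, hx, hg0, hg0,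
      smul_zero, sub_self, smul_zero, add_zero]
  · exact smul_smul_sub_eq_of_inertia hp (mul_one p).symm hAp hσ hτ
      (Nat.one_le_pow _ _ hr.pos)
      (fun h => hrp ((Nat.prime_dvd_prime_iff_eq hp hr).mp (hp.dvd_of_dvd_pow h)).symm) x hx
  · haveI : NeZero (r ^ k) := ⟨pow_ne_zero k hr.ne_zero⟩
    haveI : Fact r.Prime := ⟨hr⟩
    obtain ⟨S, hact, hSr⟩ :=
      Igusa.TorsionModel.exists_x0SpecData hr hAr hrN (hred hr hrp Ar hAr)
    exact Igusa.TorsionModel.exists_isFlatModel_jZero hrN (hred hr hrp Ar hAr) S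
      (fun σ => by rw [hact]) hSr (r ^ k)
  · exact exists_eisenstein_divides p (FermatLib.Modular.kummerHeckeEquiv p r hr)
      (hnd ℓ.2 hℓp)

end FermatLib.Mazur
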