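import Fermat.Agent.Mazur.DescentFrobenius

/-!
# A bounded multiple of a class of a rational point is a Selmer class
-/

set_option autoImplicit false

noncomputable section

namespace FermatLib.Mazur

open ModularCurve

local notation "Qbar" => AlgebraicClosure ℚ
local notation "Γℚ" => (AlgebraicClosure ℚ ≃ₐ[ℚ] AlgebraicClosure ℚ)

/-- The augmentation is stable under the decomposition group. -/
theorem smul_mem_augmentation_inertia {V : Type*} [AddCommGroup V] [DistribMulAction Γℚ V]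
    {A : ValuationSubring Qbar} {F : Γℚ} (hF : F ∈ A.decompositionSubgroup ℚ) {x : V}
    (hx : x ∈ augmentation V (A.inertiaSubgroupIn ℚ)) :
    F • x ∈ augmentation V (A.inertiaSubgroupIn ℚ) := by
  rw [augmentation] at hx
  induction hx using AddSubgroup.closure_induction with
  | mem y hy =>
    obtain ⟨σ, hσ, z, rfl⟩ := hy
    have hm := conj_mem_inertiaIn (inv_mem hF) hσ
    rw [inv_inv] at hm
    have e : F • (σ • z - z) = (F * σ * F⁻¹) • F • z - F • z := by
      rw [smul_sub, mul_smul, mul_smul, inv_smul_smul]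
    rw [e]
    exact smul_sub_mem_augmentation hm _
  | zero => rw [smul_zero]; exact zero_mem _
  | add y z _ _ hy hz => rw [smul_add]; exact add_mem hy hz
  | neg y _ hy => rw [smul_neg]; exact neg_mem hy

namespace IsDescentDatum

variable {p r : ℕ} {hr : r.Prime} {Ar Ap : ValuationSubring Qbar} {J : Type*}
  [AddCommGroup J] [DistribMulAction Γℚ J] [Module HeckeAlg J] [SMulCommClass Γℚ HeckeAlg J]
  {J' : Type*} [AddCommGroup J'] {red : J →+ J'}

/-- A fixed multiple of a cocycle is a coboundary on inertia at `p`. -/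
theorem exists_inertia_p_multiplier (h : IsDescentDatum p r hr Ar Ap J red) :
    ∃ D : ℕ, D ≠ 0 ∧ ∀ (t : HeckeAlg) (k : ℕ), IsEisPrimary p r J t k →
      ∀ c : Γℚ → imageTorsion J t (r ^ k), (∀ g g' : Γℚ, c (g * g') = c g + g • c g') →
        (∃ H : Subgroup Γℚ, IsOpen (H : Set Γℚ) ∧ ∀ g ∈ H, c g = 0) →
        ∃ v : imageTorsion J t (r ^ k), ∀ σ ∈ Ap.inertiaSubgroupIn ℚ, D • c σ = σ • v - v := by
  obtain ⟨B, hB⟩ := h.exists_invariants_bound
  have hp2 : 2 ≤ p := h.p_prime.two_le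
  refine ⟨(B * B).factorial * ((p * (p - 1)) * (p ^ 2 - 1)), ?_, fun t k ht c hc hlc => ?_⟩
  · refine mul_ne_zero (Nat.factorial_ne_zero _) (mul_ne_zero (mul_ne_zero (by omega) (by omega)) ?_)
    have : 4 ≤ p ^ 2 := by nlinarith
    omega
  have hadm := h.isAdmissible ht
  have := hadm.finite
  obtain ⟨τ, hτ, hσ, hFτ⟩ := exists_tame_cocycle_data hr h.p_prime h.r_ne_p h.liesOver_p
    hadm.exponent hadm.isOpen_stabilizer hadm.unipotent c hc hlc
  obtain ⟨F, hF⟩ := FermatLib.Basic.exists_isFrobeniusAt h.p_prime Ap h.liesOver_p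
  have hFd : F ∈ Ap.decompositionSubgroup ℚ := hF.mem_decompositionSubgroup
  obtain ⟨hmemI, hconjx, y₀, hconjc⟩ := hFτ F hF
  let W := imageTorsion J t (r ^ k)
  let M := augmentation W (Ap.inertiaSubgroupIn ℚ)
  have hexp : ∀ x : W, r ^ k • x = 0 := fun x => Subtype.ext (nsmul_imageTorsion x)
  have hpr : ¬ p ∣ r ^ k := fun hd =>
    h.r_ne_p ((Nat.prime_dvd_prime_iff_eq h.p_prime hr).mp (h.p_prime.dvd_of_dvd_pow hd)).symm
  -- the quadratic relation of `F`
  obtain ⟨t', U, hU, -, hrel₀⟩ := h.exists_quadratic k F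
  have hrel : ∀ x : W, F • F • x - t' • F • x + p • x = 0 := by
    intro x
    obtain ⟨q, hq⟩ := Nat.modEq_iff_dvd.mp (hU.modEq (pow_ne_zero k hr.ne_zero)
      (isCycloValue_of_isFrobeniusAt h.p_prime hpr h.liesOver_p hF))
    have hUx : U • x = p • x := by
      rw [← natCast_zsmul x p, show (p : ℤ) = (U : ℤ) + q * (r ^ k : ℕ) by rw [mul_comm q, ← hq]; ring,
        add_smul, mul_smul, natCast_zsmul, natCast_zsmul, hexp, smul_zero, add_zero]
    rw [← hUx]
    exact Subtype.ext (hrel₀ (x : J) (nsmul_imageTorsion x))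
  let N : W →+ W := DistribSMul.toAddMonoidHom W τ - AddMonoidHom.id W
  have hFN : ∀ x : W, F • N x = p • N (F • x) := by
    intro x
    show F • (τ • x - x) = p • (τ • F • x - F • x)
    rw [← hconjx (F • x), smul_sub, mul_smul, mul_smul, inv_smul_smul]
  have hNT : ∀ x : W, N (t' • x) = t' • N x := fun x => by
    show τ • t' • x - t' • x = t' • (τ • x - x)
    rw [smul_comm τ t', smul_sub]
  -- `p (p - 1) (F² - 1)` lands in the invariants
  have hfix1 : ∀ x : W, N ((p * (p - 1)) • (F • F • x - x)) = 0 := by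
    intro x
    have e1 := congrArg N (hrel x)
    simp only [map_add, map_sub, map_nsmul, map_zero, hNT] at e1
    have e2 := hrel (N x)
    rw [hFN x, smul_comm F p, hFN (F • x), smul_comm t' p] at e2
    rw [map_nsmul, map_sub, mul_smul, ← natCast_zsmul _ (p - 1), Nat.cast_sub (by omega : 1 ≤ p),
      sub_smul, natCast_zsmul, Nat.cast_one, one_smul, smul_sub p]
    generalize N (F • F • x) = a at e1 e2
    generalize t' • N (F • x) = b at e1 e2
    generalize N x = c at e1 e2
    have e3 := congrArg (p • ·) e1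
    simp only [smul_add, smul_sub, smul_zero] at e3
    rw [← sub_zero (0 : W)]
    nth_rewrite 1 [← e2]
    rw [← e3]
    simp only [smul_sub]
    abel
  have hker : ∀ x : W, N x = 0 → x ∈ fixedPts W (Ap.inertiaSubgroupIn ℚ) := by
    intro x hx σ hs
    obtain ⟨n, hn⟩ := (hσ σ hs).2 x
    have hx' : τ • x - x = 0 := hx
    rwa [hx', smul_zero, sub_eq_zero] at hn
  set a := c τ with ha
  have hFa : F • a - p • a ∈ M := by
    have e : c (F * τ * F⁻¹) + (F * τ * F⁻¹) • c F = c F + F • a := by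
      rw [← hc, ← hc, inv_mul_cancel_right]
    have : F • a - p • a = (τ • y₀ - y₀) + ((F * τ * F⁻¹) • c F - c F) := by
      rw [hconjc] at e
      rw [eq_sub_of_add_eq' e.symm]
      abel
    rw [this]
    exact add_mem (smul_sub_mem_augmentation hτ _) (smul_sub_mem_augmentation hmemI _)
  have hFFa : F • F • a - (p * p) • a ∈ M := by
    have : F • F • a - (p * p) • a = F • (F • a - p • a) + p • (F • a - p • a) := by
      rw [smul_sub, smul_sub, mul_smul, smul_comm F p]
      abel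
    rw [this]
    exact add_mem (smul_mem_augmentation_inertia hFd hFa) (nsmul_mem hFa p)
  have hfixa : ((p * (p - 1)) * (p ^ 2 - 1)) • a ∈ fixedPts W (Ap.inertiaSubgroupIn ℚ) := by
    have e : ((p * (p - 1)) * (p ^ 2 - 1)) • a =
        (p * (p - 1)) • (F • F • a - a) - (p * (p - 1)) • (F • F • a - (p * p) • a) := by
      rw [← smul_sub, mul_smul]
      refine congrArg _ ?_
      rw [← natCast_zsmul a (p ^ 2 - 1), Nat.cast_sub (Nat.one_le_pow _ _ (by omega)), sub_smul,
        natCast_zsmul, Nat.cast_one, one_smul, sq]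
      abel
    rw [e]
    exact sub_mem (hker _ (hfix1 a)) (hadm.augmentation_le_fixedPts (nsmul_mem hFFa _))
  -- the invariants modulo the augmentation are bounded
  have hle : M ≤ fixedPts W (Ap.inertiaSubgroupIn ℚ) := hadm.augmentation_le_fixedPts
  let M' := M.addSubgroupOf (fixedPts W (Ap.inertiaSubgroupIn ℚ))
  have hidx : Nat.card (fixedPts W (Ap.inertiaSubgroupIn ℚ) ⧸ M') ≤ B * B := by
    have hcard := AddSubgroup.card_eq_card_quotient_mul_card_addSubgroup M'
    have hM' : Nat.card M' = Nat.card M := Nat.card_congr (AddSubgroup.addSubgroupOfEquivOfLe hle).toEquiv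
    have hb := hadm.natCard_fixed_le_augmentation
    rw [hcard, hM', mul_comm] at hb
    exact (Nat.le_of_mul_le_mul_left hb Nat.card_pos).trans
      (Nat.mul_le_mul (hB t k).2 (hB t k).1)
  have hMa : ((B * B).factorial * ((p * (p - 1)) * (p ^ 2 - 1))) • a ∈ M := by
    rw [mul_smul]
    have := factorial_nsmul_eq_zero hidx (QuotientAddGroup.mk (⟨_, hfixa⟩ :
      fixedPts W (Ap.inertiaSubgroupIn ℚ)))
    rw [← QuotientAddGroup.mk_nsmul, QuotientAddGroup.eq_zero_iff] at this
    exact this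
  have hrange : M ≤ N.range := by
    show augmentation _ _ ≤ _
    rw [augmentation, AddSubgroup.closure_le]
    rintro _ ⟨σ, hs, z, rfl⟩
    obtain ⟨n, hn⟩ := (hσ σ hs).2 z
    exact ⟨n • z, by rw [map_zsmul, hn]; rfl⟩
  obtain ⟨v, hv⟩ := hrange hMa
  exact ⟨v, fun σ hs => (hσ σ hs).1 _ v hv.symm⟩

/-- A fixed multiple of a cocycle unramified outside `r p` and multiplicative at `r` is
cohomologous to a Selmer cocycle. -/
theorem exists_selmer_multiplier (h : IsDescentDatum p r hr Ar Ap J red) :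
    ∃ D : ℕ, D ≠ 0 ∧ ∀ (t : HeckeAlg) (k : ℕ), IsEisPrimary p r J t k →
      ∀ c : Γℚ → imageTorsion J t (r ^ k), (∀ g g' : Γℚ, c (g * g') = c g + g • c g') →
        (∃ H : Subgroup Γℚ, IsOpen (H : Set Γℚ) ∧ ∀ g ∈ H, c g = 0) →
        (∀ ℓ : ℕ, ℓ.Prime → ℓ ≠ r → ℓ ≠ p → ∀ A : ValuationSubring Qbar, A.LiesOverPrime ℓ →
          ∀ σ ∈ A.inertiaSubgroupIn ℚ, c σ = 0) →
        (∀ σ ∈ Ar.inertiaSubgroupIn ℚ, c σ ∈ redKer red t (r ^ k)) →
        ∃ v : imageTorsion J t (r ^ k), IsSelmerCocycle r p Ar Ap (redKer red t (r ^ k))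
          fun g => D • c g - (g • v - v) := by
  obtain ⟨D₁, hD₁, hr'⟩ := h.exists_peu_multiplier
  obtain ⟨D₂, hD₂, hp'⟩ := h.exists_inertia_p_multiplier
  refine ⟨D₁ * D₂, mul_ne_zero hD₁ hD₂, fun t k ht c hc hlc hun hK => ?_⟩
  have hadm := h.isAdmissible ht
  obtain ⟨v, hv⟩ := hp' t k ht c hc hlc
  refine ⟨D₁ • v, ?_⟩
  have hDc : ∀ g g' : Γℚ, D₂ • c (g * g') = D₂ • c g + g • D₂ • c g' := fun g g' => by
    rw [hc, smul_add, smul_comm g D₂]
  obtain ⟨H, hH, hcH⟩ := hlc
  have hpeu := hr' t k ht (fun g => D₂ • c g) hDc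
    ⟨H, hH, fun g hg => by rw [hcH g hg, smul_zero]⟩ fun σ hs => nsmul_mem (hK σ hs) _
  exact {
    cocycle := fun g g' => by
      simp only [hc, smul_add, smul_sub, smul_comm g (D₁ * D₂), mul_smul g g']
      abel
    locallyConstant := ⟨H ⊓ MulAction.stabilizer Γℚ (D₁ • v), by
      rw [Subgroup.coe_inf]
      exact hH.inter (hadm.isOpen_stabilizer _), fun g hg => by
      have hg2 : g • (D₁ • v) = D₁ • v := hg.2
      rw [hcH g hg.1, smul_zero, hg2, sub_self, sub_self]⟩
    unramified := fun ℓ hℓ hℓr hℓp A hA σ hσ => by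
      rw [hun ℓ hℓ hℓr hℓp A hA σ hσ, smul_zero, hadm.unramified ℓ hℓ hℓr hℓp A hA σ hσ, sub_self,
        sub_self]
    trivial_p := fun σ hσ => by
      rw [mul_smul, hv σ hσ, smul_sub, smul_comm σ D₁, sub_self]
    mem_K := fun σ hσ => sub_mem (nsmul_mem (hK σ hσ) _) (hadm.smul_sub_mem σ hσ _)
    peu := fun φ => ((hpeu φ).mul (hadm.peu φ (D₁ • v)).inv).congr fun σ _ => by
      simp only [← div_eq_mul_inv, ← mulVal_sub, ← map_sub, mul_smul] }

end IsDescentDatum

end FermatLib.Mazur
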