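import Fermat.Agent.Mazur.EisUpperLevelThree

/-!
# Trace identities and congruence obstructions in weight two and prime level

For a weight `2` form `g` on `Γ₀(p)` with integral expansion `A`:
* `eq_coeff_sq_mul`: `a(n p²) = a(n)`;
* `sq_identity`, `eis6_identity`: the traces to level one of `g²` and of `g · E₆(p τ)`;
* `false_of_congr_const`: `g` is not congruent to a nonzero constant modulo `c l`, where `l` is a
  prime, `c` is the `l`-part of `12` and `c l ∣ p + 1`.
-/

set_option autoImplicit false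

noncomputable section

open UpperHalfPlane Function CongruenceSubgroup Matrix.SpecialLinearGroup
open scoped Manifold MatrixGroups ModularForm ArithmeticFunction.sigma

namespace FermatLib.Mazur.EisUpper

variable {p : ℕ} [Fact p.Prime]

theorem gamma0_one_coe : ((Gamma0 1 : Subgroup SL(2, ℤ)) : Subgroup (GL (Fin 2) ℝ)) = 𝒮ℒ := by
  have h : Gamma0 1 = ⊤ :=
    eq_top_iff.mpr fun γ _ ↦ Gamma0_mem.mpr (Subsingleton.elim _ _)
  rw [h, MonoidHom.range_eq_map]

/-- The sum of a family permuted by the full modular group, as a level one form. -/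
def levelOneSum {k : ℤ} {F : Option (ZMod p) → ℍ → ℂ} (hF : ConjFam p 1 k F) :
    ModularForm 𝒮ℒ k :=
  ModularForm.mcast rfl hF.sumForm gamma0_one_coe.symm

theorem coe_levelOneSum {k : ℤ} {F : Option (ZMod p) → ℍ → ℂ} (hF : ConjFam p 1 k F) :
    ⇑(levelOneSum hF) = ∑ i, F i := rfl

theorem levelOne_identity {k : ℤ} (hk : k < 12) {F : Option (ZMod p) → ℍ → ℂ}
    (hF : ConjFam p 1 k F) {P Q : PowerSeries ℤ} (hP : HasIntQExp (F none) P)
    (hQ : HasIntQExp (ConjFam.hat F) Q) (e : ModularForm 𝒮ℒ k) {E : PowerSeries ℤ}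
    (he : HasIntQExp ⇑e E) (he0 : PowerSeries.coeff 0 E = 1) :
    PowerSeries.coeff 1 P + p * PowerSeries.coeff p Q =
      (PowerSeries.coeff 0 P + p * PowerSeries.coeff 0 Q) * PowerSeries.coeff 1 E := by
  have h := hF.hasIntQExp_sum hP hQ
  have h1 := coeff_one_levelOne hk (levelOneSum hF) e (by rw [he.coeff_eq, he0, Int.cast_one])
  rw [coe_levelOneSum, h.coeff_eq, h.coeff_eq, he.coeff_eq, map_add, map_add,
    PowerSeries.coeff_C_mul, PowerSeries.coeff_C_mul, coeff_uSeries, coeff_uSeries, one_mul,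
    zero_mul] at h1
  exact_mod_cast h1

theorem weight_two_relation (g : ModularForm (Gamma0 p) 2) (n : ℕ) :
    (qExpansion 1 ⇑g).coeff n + p * (qExpansion 1 (ConjFam.hat (conj g))).coeff (n * p) = 0 := by
  have hF := conjFam_conj g
  have h : qExpansion 1 (∑ i, conj g i) = 0 := by
    rw [← coe_levelOneSum hF, levelOne_weight_two_eq_zero (levelOneSum hF)]
    exact qExpansion_zero 1
  rw [hF.qExpansion_sum, conj_none] at h
  simpa [coeff_uSeries] using congrArg (PowerSeries.coeff n) h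

theorem hasIntQExp_hat_smul (g : ModularForm (Gamma0 p) 2) {A : PowerSeries ℤ}
    (hA : HasIntQExp ⇑g A) :
    HasIntQExp ((p : ℂ) • ConjFam.hat (conj g)) (-uSeries p A) := by
  have hn := (conjFam_conj g).qNice_hat
  refine HasIntQExp.of_qExpansion (hn.smul _) fun n ↦ ?_
  have h := weight_two_relation (hatForm g) n
  rw [coe_hatForm, hat_conj_hatForm, hA.nice.qExpansion_smul, PowerSeries.coeff_smul,
    hA.coeff_eq] at h
  rw [hn.qExpansion_smul, PowerSeries.coeff_smul, map_neg, coeff_uSeries, Int.cast_neg,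
    smul_eq_mul]
  have hp : (p : ℂ) ≠ 0 := Nat.cast_ne_zero.mpr (NeZero.ne p)
  rw [smul_eq_mul, show (-2 : ℤ) = -((2 : ℕ) : ℤ) from rfl, zpow_neg, zpow_natCast, neg_sq] at h
  field_simp at h
  linear_combination h

theorem eq_coeff_sq_mul (g : ModularForm (Gamma0 p) 2) {A : PowerSeries ℤ}
    (hA : HasIntQExp ⇑g A) (n : ℕ) :
    PowerSeries.coeff (n * p * p) A = PowerSeries.coeff n A := by
  have h := weight_two_relation g n
  have h' := (hasIntQExp_hat_smul g hA).coeff_eq (n * p)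
  rw [(conjFam_conj g).qNice_hat.qExpansion_smul, PowerSeries.coeff_smul, smul_eq_mul, map_neg,
    coeff_uSeries, Int.cast_neg] at h'
  rw [h', hA.coeff_eq] at h
  exact_mod_cast (add_neg_eq_zero.mp h).symm

theorem coeff_mul_split {R : Type*} [CommRing R] {n : ℕ} (hn : 1 ≤ n) (P Q : PowerSeries R) :
    PowerSeries.coeff n (P * Q) = PowerSeries.coeff 0 P * PowerSeries.coeff n Q
      + PowerSeries.coeff n P * PowerSeries.coeff 0 Q
      + ∑ i ∈ Finset.Ico 1 n, PowerSeries.coeff i P * PowerSeries.coeff (n - i) Q := by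
  rw [PowerSeries.coeff_mul,
    Finset.Nat.sum_antidiagonal_eq_sum_range_succ
      (fun i j ↦ PowerSeries.coeff i P * PowerSeries.coeff j Q),
    Finset.range_eq_Ico, Finset.sum_Ico_succ_top (Nat.zero_le n),
    Finset.sum_eq_sum_Ico_succ_bot (Nat.lt_of_lt_of_le Nat.zero_lt_one hn), Nat.sub_zero,
    Nat.sub_self]
  ring

theorem coeff_zero_mul {R : Type*} [CommRing R] (P Q : PowerSeries R) :
    PowerSeries.coeff 0 (P * Q) = PowerSeries.coeff 0 P * PowerSeries.coeff 0 Q := by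
  simp

theorem coeff_one_mul {R : Type*} [CommRing R] (P Q : PowerSeries R) :
    PowerSeries.coeff 1 (P * Q) =
      PowerSeries.coeff 0 P * PowerSeries.coeff 1 Q + PowerSeries.coeff 1 P * PowerSeries.coeff 0 Q := by
  simp [coeff_mul_split le_rfl P Q]

variable (g : ModularForm (Gamma0 p) 2) {A : PowerSeries ℤ}

theorem sq_identity (hA : HasIntQExp ⇑g A) {M : ℤ}
    (hM : ∀ n, 1 ≤ n → M ∣ PowerSeries.coeff n A) :
    ∃ s : ℤ, 2 * PowerSeries.coeff 0 A * PowerSeries.coeff 1 A * (p + 1) + M * M * s =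
      240 * PowerSeries.coeff 0 A ^ 2 * (p + 1) := by
  have hp1 : 1 ≤ p := NeZero.pos p
  have hF := (conjFam_conj g).smul (p : ℂ)
  have h2 := hF.pow 2
  have hP : HasIntQExp (((fun i ↦ (p : ℂ) • conj g i) ^ 2) none)
      ((PowerSeries.C (p : ℤ) * A) ^ 2) := by
    refine ((hA.intSmul (p : ℤ)).pow 2).congr ?_
    rw [Pi.pow_apply, conj_none, Int.cast_natCast]
  have hQ : HasIntQExp (ConjFam.hat ((fun i ↦ (p : ℂ) • conj g i) ^ 2))
      ((-uSeries p A) ^ 2) := ((hasIntQExp_hat_smul g hA).pow 2).congr rfl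
  have h := levelOne_identity (by norm_num) h2 hP hQ ModularForm.E₄ hasIntQExp_E4
    (by simp [eis4Series, constantCoeff_sigmaSeries])
  rw [coeff_eis4Series one_ne_zero, neg_sq, sq, sq,
    coeff_mul_split hp1 (uSeries p A) (uSeries p A),
    coeff_one_mul (PowerSeries.C (p : ℤ) * A), coeff_zero_mul (PowerSeries.C (p : ℤ) * A),
    coeff_zero_mul (uSeries p A)] at h
  simp only [PowerSeries.coeff_C_mul, coeff_uSeries, zero_mul,
    ArithmeticFunction.sigma_one, Nat.cast_one, mul_one] at h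
  have hs : M * M ∣ ∑ i ∈ Finset.Ico 1 p,
      PowerSeries.coeff (i * p) A * PowerSeries.coeff ((p - i) * p) A := by
    refine Finset.dvd_sum fun i hi ↦ ?_
    rw [Finset.mem_Ico] at hi
    exact mul_dvd_mul (hM _ (Nat.one_le_iff_ne_zero.mpr (Nat.mul_ne_zero (by omega) (by omega))))
      (hM _ (Nat.one_le_iff_ne_zero.mpr (Nat.mul_ne_zero (by omega) (by omega))))
  obtain ⟨s, hs⟩ := hs
  refine ⟨s, mul_left_cancel₀ (Nat.cast_ne_zero.mpr (NeZero.ne p) : (p : ℤ) ≠ 0) ?_⟩
  rw [show p * p = 1 * p * p by rw [one_mul], eq_coeff_sq_mul g hA, hs] at h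
  linear_combination h

theorem eis6_identity (hA : HasIntQExp ⇑g A) {M : ℤ}
    (hM : ∀ n, 1 ≤ n → M ∣ PowerSeries.coeff n A) :
    ∃ s : ℤ, ((p : ℤ) ^ 6 - 1) * PowerSeries.coeff 1 A + 504 * M * s =
      PowerSeries.coeff 0 A * (480 * ((p : ℤ) ^ 6 - 1) - 504 * ((p : ℤ) ^ 5 + 1)) := by
  have hp : p.Prime := Fact.out
  have hp1 : 1 ≤ p := hp.one_lt.le
  set K := hatForm (resForm p ModularForm.E₆) with hK
  have hF := ((conjFam_conj g).smul (p : ℂ)).mul ((conjFam_conj K).smul ((p : ℂ) ^ 6))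
  have hP : HasIntQExp (((fun i ↦ (p : ℂ) • conj g i) * fun i ↦ (p : ℂ) ^ 6 • conj K i) none)
      (PowerSeries.C (p : ℤ) * A *
        (PowerSeries.C ((p : ℤ) ^ 6) * PowerSeries.expand p (NeZero.ne p) eis6Series)) := by
    refine ((hA.intSmul (p : ℤ)).mul
      ((hasIntQExp_E6.expand (NeZero.ne p)).intSmul ((p : ℤ) ^ 6))).congr ?_
    rw [Pi.mul_apply, conj_none, conj_none, hK, coe_hatForm_resForm]
    push_cast
    rfl
  have hQ : HasIntQExp (ConjFam.hat ((fun i ↦ (p : ℂ) • conj g i) *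
      fun i ↦ (p : ℂ) ^ 6 • conj K i)) (-uSeries p A * eis6Series) := by
    refine ((hasIntQExp_hat_smul g hA).mul hasIntQExp_E6).congr ?_
    funext τ
    show ((p : ℂ) * conj g (some 0) (scalePt p τ)) *
      ((p : ℂ) ^ 6 * ConjFam.hat (conj K) τ) = _
    rw [hK, hat_conj_hatForm, coe_resForm, Pi.mul_apply, Pi.smul_apply, Pi.smul_apply,
      smul_eq_mul, smul_eq_mul, show (-6 : ℤ) = -((6 : ℕ) : ℤ) from rfl, zpow_neg, zpow_natCast]
    have : (p : ℂ) ≠ 0 := Nat.cast_ne_zero.mpr (NeZero.ne p)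
    simp only [ConjFam.hat]
    field_simp
  have h := levelOne_identity (by norm_num) hF hP hQ
    (ModularForm.mcast (by norm_num) (ModularForm.E₄.mul ModularForm.E₄))
    (E := eis4Series * eis4Series)
    ((hasIntQExp_E4.mul hasIntQExp_E4).congr (by rw [ModularForm.coe_mcast, ModularForm.coe_mul]))
    (by simp [eis4Series, constantCoeff_sigmaSeries])
  have h40 : PowerSeries.coeff 0 eis4Series = 1 := by
    simp [eis4Series, constantCoeff_sigmaSeries]
  have hex0 : PowerSeries.coeff 0 (PowerSeries.expand p (NeZero.ne p) eis6Series) = 1 := by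
    rw [PowerSeries.coeff_expand p (NeZero.ne p), if_pos (dvd_zero p), Nat.zero_div,
      coeff_zero_eis6Series]
  have hex1 : PowerSeries.coeff 1 (PowerSeries.expand p (NeZero.ne p) eis6Series) = 0 :=
    PowerSeries.coeff_expand_of_not_dvd p _ _ (fun hd ↦ hp.ne_one (Nat.dvd_one.mp hd))
  have hσ : (σ 5 p : ℤ) = (p : ℤ) ^ 5 + 1 := by
    rw [show (σ 5 p) = σ 5 (p ^ 1) by rw [pow_one],
      ArithmeticFunction.sigma_apply_prime_pow hp]
    simp [Finset.sum_range_succ, add_comm]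
  have hE8 : PowerSeries.coeff 1 (eis4Series * eis4Series) = 480 := by
    rw [coeff_one_mul, h40, coeff_eis4Series one_ne_zero, ArithmeticFunction.sigma_one]
    norm_num
  rw [coeff_mul_split hp1 (-uSeries p A) eis6Series,
    coeff_one_mul (PowerSeries.C (p : ℤ) * A), coeff_zero_mul (PowerSeries.C (p : ℤ) * A),
    coeff_zero_mul (-uSeries p A), hE8] at h
  simp only [PowerSeries.coeff_C_mul, coeff_uSeries, zero_mul, map_neg,
    mul_one, hex0, hex1, mul_zero, coeff_zero_eis6Series,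
    coeff_eis6Series (NeZero.ne p), hσ, zero_add] at h
  have hs : 504 * M ∣ ∑ i ∈ Finset.Ico 1 p,
      -PowerSeries.coeff (i * p) A * PowerSeries.coeff (p - i) eis6Series := by
    refine Finset.dvd_sum fun i hi ↦ ?_
    rw [Finset.mem_Ico] at hi
    rw [coeff_eis6Series (by omega), mul_comm (504 : ℤ) M]
    exact mul_dvd_mul
      (dvd_neg.mpr (hM _ (Nat.one_le_iff_ne_zero.mpr (Nat.mul_ne_zero (by omega) (by omega)))))
      (Dvd.intro (-(σ 5 (p - i) : ℤ)) (by ring))
  obtain ⟨s, hs⟩ := hs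
  refine ⟨s, mul_left_cancel₀ (Nat.cast_ne_zero.mpr (NeZero.ne p) : (p : ℤ) ≠ 0) ?_⟩
  rw [show p * p = 1 * p * p by rw [one_mul], eq_coeff_sq_mul g hA, hs] at h
  linear_combination h

/-- No form is congruent to a nonzero constant modulo `c l` when `c l ∣ p + 1`. -/
theorem false_of_congr_const (hA : HasIntQExp ⇑g A) (a : ModularForm (Gamma0 3) 2)
    (ha : HasIntQExp ⇑a aThree) {l c e : ℕ} (hl : l.Prime) (hce : c * e = 12) (hle : ¬ l ∣ e)
    (hdiv : c * l ∣ p + 1) (hu : ¬ (l : ℤ) ∣ PowerSeries.coeff 0 A)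
    (hM : ∀ n, 1 ≤ n → ((c * l : ℕ) : ℤ) ∣ PowerSeries.coeff n A) : False := by
  have : Fact l.Prime := ⟨hl⟩
  have hc : c ≠ 0 := by rintro rfl; simp at hce
  have hlp : ¬ l ∣ p := by
    intro h
    have h1 : l ∣ p + 1 := (Dvd.intro_left c rfl).trans hdiv
    exact hl.one_lt.ne' (Nat.dvd_one.mp ((Nat.dvd_add_right h).mp h1))
  set u := PowerSeries.coeff 0 A with hu0
  obtain ⟨z, hz⟩ : ((c * l : ℕ) : ℤ) ∣ (p : ℤ) + 1 := by
    exact_mod_cast Int.natCast_dvd_natCast.mpr hdiv
  -- the two expansions of `(p g_i - p u a)/c`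
  obtain ⟨A', hA'⟩ : ∃ A', A = PowerSeries.C u + PowerSeries.C ((c * l : ℕ) : ℤ) * A' := by
    refine ⟨PowerSeries.mk fun n ↦
      if n = 0 then 0 else PowerSeries.coeff n A / ((c * l : ℕ) : ℤ), ?_⟩
    ext n
    rcases eq_or_ne n 0 with rfl | hn
    · simp [hu0]
    · rw [map_add, PowerSeries.coeff_C, if_neg hn, PowerSeries.coeff_C_mul, PowerSeries.coeff_mk,
        if_neg hn, zero_add, Int.mul_ediv_cancel' (hM n (Nat.one_le_iff_ne_zero.mpr hn))]
  set W1 : PowerSeries ℤ := PowerSeries.C ((p : ℤ) * l) * A' -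
    PowerSeries.C ((p : ℤ) * u * e) * sThree with hW1
  set W2 : PowerSeries ℤ := -PowerSeries.C (u * l * z) - PowerSeries.C (l : ℤ) * uSeries p A' -
    PowerSeries.C ((p : ℤ) * u * e) * PowerSeries.expand p (NeZero.ne p) sThree with hW2
  have h12 : (12 : ℤ) = (c : ℤ) * e := by exact_mod_cast hce.symm
  have e1 : PowerSeries.C (p : ℤ) * A - PowerSeries.C ((p : ℤ) * u) * aThree =
      PowerSeries.C (c : ℤ) * W1 := by
    rw [hA', hW1, aThree, h12]
    simp only [Nat.cast_mul, map_mul]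
    ring
  have e2 : -uSeries p A -
      PowerSeries.C ((p : ℤ) * u) * PowerSeries.expand p (NeZero.ne p) aThree =
      PowerSeries.C (c : ℤ) * W2 := by
    have hU : uSeries p A =
        PowerSeries.C u + PowerSeries.C ((c * l : ℕ) : ℤ) * uSeries p A' := by
      ext n
      rw [coeff_uSeries, hA', map_add, map_add, PowerSeries.coeff_C_mul, PowerSeries.coeff_C_mul,
        coeff_uSeries, PowerSeries.coeff_C, PowerSeries.coeff_C]
      simp [NeZero.ne p]
    have hpz : PowerSeries.C (p : ℤ) + 1 =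
        PowerSeries.C (c : ℤ) * PowerSeries.C (l : ℤ) * PowerSeries.C z := by
      rw [← map_one (PowerSeries.C (R := ℤ)), ← map_add, hz, Nat.cast_mul, map_mul, map_mul]
    rw [hU, hW2, aThree, h12, map_add, map_one, map_mul (PowerSeries.expand p (NeZero.ne p)),
      PowerSeries.expand_C]
    simp only [Nat.cast_mul, map_mul]
    linear_combination (-PowerSeries.C u) * hpz
  -- the family
  have hW : ConjFam p 3 2 (fun i ↦ ((c : ℂ))⁻¹ •
      ((p : ℂ) • conj g i - (((p : ℤ) * u : ℤ) : ℂ) • ⇑a)) :=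
    (((conjFam_conj g).smul (p : ℂ)).mono_one 3 |>.sub
      ((conjFam_const a).smul (((p : ℤ) * u : ℤ) : ℂ))).smul ((c : ℂ))⁻¹
  set W := fun i : Option (ZMod p) ↦ ((c : ℂ))⁻¹ •
      ((p : ℂ) • conj g i - (((p : ℤ) * u : ℤ) : ℂ) • ⇑a) with hWdef
  have hcancel : ∀ {f : ℍ → ℂ} {P : PowerSeries ℤ},
      HasIntQExp f (PowerSeries.C (c : ℤ) * P) → HasIntQExp ((c : ℂ)⁻¹ • f) P := by
    intro f P hf
    refine HasIntQExp.of_qExpansion (hf.nice.smul _) fun n ↦ ?_
    rw [hf.nice.qExpansion_smul, PowerSeries.coeff_smul, hf.coeff_eq, PowerSeries.coeff_C_mul,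
      smul_eq_mul, Int.cast_mul, Int.cast_natCast, inv_mul_cancel_left₀ (Nat.cast_ne_zero.mpr hc)]
  have hW1' : HasIntQExp (W none) W1 := by
    have h := (hA.intSmul (p : ℤ)).sub (ha.intSmul ((p : ℤ) * u))
    rw [e1] at h
    refine (hcancel h).congr ?_
    simp [hWdef, conj_none]
  have hW2' : HasIntQExp (ConjFam.hat W) W2 := by
    have h := (hasIntQExp_hat_smul g hA).sub ((ha.expand (NeZero.ne p)).intSmul ((p : ℤ) * u))
    rw [e2] at h
    exact (hcancel h).congr rfl
  set k := 12 * p with hk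
  have hF := (hW.pow k).mul ((conjFam_conj (quotForm p)).mono_one 3)
  have hB := hF.hasIntQExp_sum
    (((hW1'.pow k).mul (hasIntQExp_quotForm p)).congr (by
      rw [Pi.mul_apply, Pi.pow_apply, conj_none]))
    (((hW2'.pow k).mul (hasIntQExp_hat_quotForm p)).congr rfl)
  -- reduction modulo `l`
  set φ := PowerSeries.map (Int.castRingHom (ZMod l)) with hφ
  set ε : ZMod l := -((p : ZMod l) * (u : ZMod l) * (e : ZMod l)) with hε
  have hεne : ε ≠ 0 := by
    rw [hε, neg_ne_zero]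
    refine mul_ne_zero (mul_ne_zero ?_ ?_) ?_
    · rwa [Ne, ZMod.natCast_eq_zero_iff]
    · rwa [Ne, ZMod.intCast_zmod_eq_zero_iff_dvd]
    · rwa [Ne, ZMod.natCast_eq_zero_iff]
  have hl0 : (l : PowerSeries (ZMod l)) = 0 := by
    rw [← map_natCast (PowerSeries.C (R := ZMod l)), ZMod.natCast_self, map_zero]
  have hφ1 : φ W1 = PowerSeries.C ε * φ sThree := by
    simp [hW1, hφ, hε, hl0]
  have hφ2 : φ W2 = PowerSeries.C ε * φ (PowerSeries.expand p (NeZero.ne p) sThree) := by
    simp [hW2, hφ, hε, hl0]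
  obtain ⟨S', hS'⟩ : PowerSeries.X ∣ sThree :=
    PowerSeries.X_dvd_iff.mpr constantCoeff_sThree
  have hS'0 : PowerSeries.constantCoeff S' = 1 := by
    have := coeff_one_sThree
    rw [hS', PowerSeries.coeff_succ_X_mul] at this
    simpa using this
  obtain ⟨R, hR⟩ : PowerSeries.X ∣ quotHatSer p :=
    PowerSeries.X_dvd_iff.mpr (constantCoeff_quotHatSer p)
  have key : ∀ n ≤ k, PowerSeries.coeff n
      (φ (W1 ^ k * quotSer p + PowerSeries.C (p : ℤ) * uSeries p (W2 ^ k * quotHatSer p))) =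
      if n = k then ε ^ k else 0 := by
    intro n hn
    have hnp : n * p < p * k + 1 := by
      have := Nat.mul_le_mul_right p hn
      rw [mul_comm p k]
      omega
    have h2 : PowerSeries.coeff (n * p) (φ (W2 ^ k * quotHatSer p)) = 0 := by
      have hdv : PowerSeries.X ^ (p * k + 1) ∣ φ (W2 ^ k * quotHatSer p) := by
        refine ⟨(PowerSeries.C ε * φ (PowerSeries.expand p (NeZero.ne p) S')) ^ k * φ R, ?_⟩
        rw [map_mul, map_pow, hφ2, hS', hR, map_mul (PowerSeries.expand p (NeZero.ne p)),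
          PowerSeries.expand_X, map_mul, map_mul, map_pow, hφ, PowerSeries.map_X]
        rw [pow_succ, pow_mul]
        simp only [mul_pow]
        ring
      exact PowerSeries.X_pow_dvd_iff.mp hdv (n * p) hnp
    have h1 : φ (W1 ^ k * quotSer p) =
        PowerSeries.C (ε ^ k) * (PowerSeries.X ^ k * (φ S' ^ k * φ (quotSer p))) := by
      rw [map_mul, map_pow, hφ1, hS', map_mul, hφ, PowerSeries.map_X, map_pow]
      simp only [mul_pow]
      ring
    rw [map_add, map_mul φ (PowerSeries.C (p : ℤ)), h1, map_add, PowerSeries.coeff_C_mul,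
      hφ, PowerSeries.map_C, map_uSeries, PowerSeries.coeff_C_mul, coeff_uSeries, ← hφ, h2,
      mul_zero, add_zero, PowerSeries.coeff_X_pow_mul']
    split_ifs with h3 h4 h5
    · subst h4
      rw [Nat.sub_self, PowerSeries.coeff_zero_eq_constantCoeff, map_mul, map_pow]
      simp only [hφ, ← PowerSeries.coeff_zero_eq_constantCoeff, PowerSeries.coeff_map]
      simp [hS'0, constantCoeff_quotSer]
    · omega
    · omega
    · rw [mul_zero]
  have hwt : (k : ℤ) * 2 + ((p : ℤ) * 12 - 12) = ((2 * (k + 6 * (p - 1)) : ℕ) : ℤ) := by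
    have := NeZero.pos p
    omega
  have hdvd := levelThree_sturm_mod a ha (ModularForm.mcast hwt hF.sumForm)
    (hB.congr (by rw [ModularForm.coe_mcast, ConjFam.coe_sumForm])) (l : ℤ) (fun n hn ↦ ?_) k
  · rw [← ZMod.intCast_zmod_eq_zero_iff_dvd] at hdvd
    have := key k le_rfl
    rw [if_pos rfl, PowerSeries.coeff_map] at this
    exact pow_ne_zero k hεne (this ▸ hdvd)
  · have hnk : n < k := by omega
    rw [← ZMod.intCast_zmod_eq_zero_iff_dvd]
    have := key n hnk.le
    rw [if_neg hnk.ne, PowerSeries.coeff_map] at this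
    exact this

end FermatLib.Mazur.EisUpper

end
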