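import Fermat.Prelude.Def_ModularCurve_ModularUnit
import Fermat.Agent.Mazur.EisUpperKey

/-!
# The Eisenstein numerator from a congruence between the Eisenstein series and a cusp form
-/

set_option autoImplicit false

noncomputable section

open UpperHalfPlane Function CongruenceSubgroup Matrix.SpecialLinearGroup ModularCurve
open scoped Manifold MatrixGroups ModularForm

namespace FermatLib.Mazur.EisUpper

theorem dvd_of_zmod {n : ℕ} {x : ℤ} (h : (x : ZMod n) = 0) : (n : ℤ) ∣ x :=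
  (ZMod.intCast_zmod_eq_zero_iff_dvd x n).mp h

theorem zmod_of_mod {p n r : ℕ} (h : p % n = r) : (p : ZMod n) = r := by
  rw [← ZMod.natCast_mod p n, h]

/-- The largest power of `q` dividing `p - 1`. -/
theorem exists_exact_pow {q p : ℕ} (hq : q.Prime) (hp : 2 ≤ p) :
    ∃ (j : ℕ) (u' : ℤ), ((p : ℤ) - 1) = (q : ℤ) ^ j * u' ∧ ¬ (q : ℤ) ∣ u' ∧
      ∀ i, q ^ i ∣ p - 1 ↔ i ≤ j := by
  have hne : p - 1 ≠ 0 := by omega
  obtain ⟨j, n', hn', e⟩ := Nat.exists_eq_pow_mul_and_not_dvd hne q hq.ne_one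
  refine ⟨j, n', ?_, fun h ↦ hn' (Int.natCast_dvd_natCast.mp h), fun i ↦ ⟨fun h ↦ ?_, fun h ↦ ?_⟩⟩
  · rw [show ((p : ℤ) - 1) = ((p - 1 : ℕ) : ℤ) by omega, e]
    push_cast
    rfl
  · by_contra hij
    have h' : q ^ (j + 1) ∣ q ^ j * n' :=
      e ▸ (pow_dvd_pow q (Nat.lt_iff_add_one_le.mp (not_le.mp hij))).trans h
    rw [pow_succ] at h'
    exact hn' (Nat.dvd_of_mul_dvd_mul_left (pow_pos hq.pos _) h')
  · exact e ▸ (pow_dvd_pow q h).mul_right _

variable {p : ℕ} [Fact p.Prime] (g : ModularForm (Gamma0 p) 2) {A : PowerSeries ℤ}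
  {m : ℕ} (hA : HasIntQExp ⇑g A) (h0 : PowerSeries.coeff 0 A = (p : ℤ) - 1)
  (hM : ∀ n, 1 ≤ n → (24 * (m : ℤ)) ∣ PowerSeries.coeff n A)
  (a : ModularForm (Gamma0 3) 2) (ha : HasIntQExp ⇑a aThree)

include hA h0 hM in
theorem dvd_sub_one_of_five {k : ℕ} (hm : 5 ^ k ∣ m) (hneg : ¬ 5 ∣ p + 1) : 5 ^ k ∣ p - 1 := by
  by_contra hk
  obtain ⟨j, u', hu, hu', hj⟩ := exists_exact_pow Nat.prime_five (Fact.out : p.Prime).two_le
  have hjk : j + 1 ≤ k := by rw [hj] at hk; omega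
  obtain ⟨s, hs⟩ := eis6_identity g hA hM
  rw [h0, hu] at hs
  have hm' : (5 : ℤ) ^ (j + 1) ∣ (m : ℤ) :=
    (pow_dvd_pow _ hjk).trans (by exact_mod_cast Int.natCast_dvd_natCast.mpr hm)
  have hl : (5 : ℤ) ^ (j + 1) ∣
      ((p : ℤ) ^ 6 - 1) * PowerSeries.coeff 1 A + 504 * (24 * (m : ℤ)) * s :=
    dvd_add (((hm'.mul_left 24).trans (hM 1 le_rfl)).mul_left _)
      (((hm'.mul_left 24).mul_left 504).mul_right s)
  rw [hs, pow_succ, mul_assoc] at hl
  have h5 := (Int.prime_iff_natAbs_prime.mpr (by norm_num : Nat.Prime ((5 : ℤ).natAbs))).dvd_mul.mp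
    ((mul_dvd_mul_iff_left (pow_ne_zero j (by norm_num : (5 : ℤ) ≠ 0))).mp hl)
  refine h5.elim (by exact_mod_cast hu') fun h ↦ hneg ?_
  rw [show (5 : ℤ) = ((5 : ℕ) : ℤ) from rfl, ← ZMod.intCast_zmod_eq_zero_iff_dvd] at h
  push_cast at h
  rw [← ZMod.natCast_eq_zero_iff]
  push_cast
  revert h
  generalize (p : ZMod 5) = x
  revert x
  decide

include hA h0 hM in
theorem dvd_sub_one_of_large {q k : ℕ} (hq : q.Prime) (hq7 : 7 ≤ q) (hm : q ^ k ∣ m)
    (hneg : ¬ q ∣ p + 1) : q ^ k ∣ p - 1 := by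
  by_contra hk
  obtain ⟨j, u', hu, hu', hj⟩ := exists_exact_pow hq (Fact.out : p.Prime).two_le
  have hjk : j + 1 ≤ k := by rw [hj] at hk; omega
  obtain ⟨s, hs⟩ := sq_identity g hA hM
  rw [h0, hu] at hs
  have hm' : (q : ℤ) ^ (j + 1) ∣ 24 * (m : ℤ) :=
    ((pow_dvd_pow _ hjk).trans (by exact_mod_cast Int.natCast_dvd_natCast.mpr hm)).mul_left 24
  have hl : (q : ℤ) ^ j * (q : ℤ) ^ (j + 1) ∣
      2 * ((q : ℤ) ^ j * u') * PowerSeries.coeff 1 A * (p + 1)
        + 24 * (m : ℤ) * (24 * (m : ℤ)) * s :=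
    dvd_add ((mul_dvd_mul ((dvd_mul_right ((q : ℤ) ^ j) u').mul_left 2)
      (hm'.trans (hM 1 le_rfl))).mul_right _)
      ((mul_dvd_mul ((pow_dvd_pow _ (Nat.le_succ j)).trans hm') hm').mul_right _)
  rw [hs] at hl
  have hl' : (q : ℤ) ^ j * (q : ℤ) ^ j * q ∣
      (q : ℤ) ^ j * (q : ℤ) ^ j * (240 * (u' * u') * (p + 1)) := by
    convert hl using 1 <;> ring
  have hqp : _root_.Prime (q : ℤ) := Nat.prime_iff_prime_int.mp hq
  rcases hqp.dvd_mul.mp ((mul_dvd_mul_iff_left (mul_ne_zero (pow_ne_zero j hqp.ne_zero)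
    (pow_ne_zero j hqp.ne_zero))).mp hl') with h | h
  · rcases hqp.dvd_mul.mp h with h | h
    · have h' : q ∣ 2 ^ 4 * (3 * 5) := Int.natCast_dvd_natCast.mp (by simpa using h)
      rcases hq.dvd_mul.mp h' with h | h
      · have := Nat.le_of_dvd two_pos (hq.dvd_of_dvd_pow h); omega
      · rcases hq.dvd_mul.mp h with h | h
        · have := Nat.le_of_dvd three_pos h; omega
        · have := Nat.le_of_dvd (by norm_num) h; omega
    · exact hu' ((or_self_iff).mp (hqp.dvd_mul.mp h))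
  · exact hneg (Int.natCast_dvd_natCast.mp (by exact_mod_cast h))

include hA h0 hM ha in
theorem not_dvd_of_dvd_succ {q : ℕ} (hq : q.Prime) (hq5 : 5 ≤ q) (hdiv : q ∣ p + 1) : ¬ q ∣ m := by
  intro hm
  refine false_of_congr_const g hA a ha (c := 1) (e := 12) hq rfl ?_ (by simpa using hdiv) ?_ ?_
  · intro h
    rcases hq.dvd_mul.mp (show q ∣ 2 ^ 2 * 3 from h) with h | h
    · have := Nat.le_of_dvd two_pos (hq.dvd_of_dvd_pow h); omega
    · have := Nat.le_of_dvd three_pos h; omega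
  · rw [h0]
    intro h
    have h2 : (q : ℤ) ∣ ((p : ℤ) + 1) - ((p : ℤ) - 1) :=
      dvd_sub (by exact_mod_cast Int.natCast_dvd_natCast.mpr hdiv) h
    have h2' : q ∣ 2 := Int.natCast_dvd_natCast.mp (by simpa using h2)
    have := Nat.le_of_dvd two_pos h2'
    omega
  · intro n hn
    rw [one_mul]
    exact ((Int.natCast_dvd_natCast.mpr hm).mul_left 24).trans (hM n hn)

include hA h0 hM in
theorem three_pow_dvd_of_one {k : ℕ} (hm : 3 ^ k ∣ m) (hp : p % 3 = 1) : 3 ^ (k + 1) ∣ p - 1 := by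
  by_contra hk
  obtain ⟨j, u', hu, hu', hj⟩ := exists_exact_pow Nat.prime_three (Fact.out : p.Prime).two_le
  have hjk : j ≤ k := by rw [hj] at hk; omega
  obtain ⟨s, hs⟩ := eis6_identity g hA hM
  rw [h0, hu] at hs
  have hM3 : (3 : ℤ) ^ (j + 1) ∣ 24 * (m : ℤ) := by
    rw [pow_succ']
    exact mul_dvd_mul (by norm_num)
      ((pow_dvd_pow _ hjk).trans (by exact_mod_cast Int.natCast_dvd_natCast.mpr hm))
  have hp3 : (p : ZMod 3) = 1 := by simpa using zmod_of_mod hp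
  have h9 : (9 : ℤ) ∣ (p : ℤ) ^ 6 - 1 := by
    refine dvd_of_zmod (n := 9) ?_
    push_cast
    rw [← ZMod.natCast_mod p 9]
    obtain h | h | h : p % 9 = 1 ∨ p % 9 = 4 ∨ p % 9 = 7 := by omega
    all_goals rw [h]; decide
  have hl : 9 * (3 : ℤ) ^ (j + 1) ∣
      ((p : ℤ) ^ 6 - 1) * PowerSeries.coeff 1 A + 504 * (24 * (m : ℤ)) * s :=
    dvd_add (mul_dvd_mul h9 (hM3.trans (hM 1 le_rfl)))
      ((mul_dvd_mul (by norm_num) hM3).mul_right s)
  rw [hs] at hl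
  have hl' : (3 : ℤ) ^ j * 27 ∣
      (3 : ℤ) ^ j * (u' * (480 * ((p : ℤ) ^ 6 - 1) - 504 * ((p : ℤ) ^ 5 + 1))) := by
    convert hl using 1 <;> push_cast <;> ring
  have h27 := (mul_dvd_mul_iff_left (pow_ne_zero j (by norm_num : (3 : ℤ) ≠ 0))).mp hl'
  obtain ⟨t, ht⟩ := h9
  rw [ht, show u' * (480 * (9 * t) - 504 * ((p : ℤ) ^ 5 + 1)) =
      9 * (u' * (480 * t - 56 * ((p : ℤ) ^ 5 + 1))) by ring,
    show (27 : ℤ) = 9 * 3 from rfl, mul_dvd_mul_iff_left (by norm_num : (9 : ℤ) ≠ 0)] at h27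
  rcases (Int.prime_iff_natAbs_prime.mpr (by norm_num : Nat.Prime ((3 : ℤ).natAbs))).dvd_mul.mp h27
    with h | h
  · exact hu' (by exact_mod_cast h)
  · rw [show (3 : ℤ) = ((3 : ℕ) : ℤ) from rfl, ← ZMod.intCast_zmod_eq_zero_iff_dvd] at h
    push_cast at h
    rw [hp3] at h
    generalize (t : ZMod 3) = x at h
    revert x
    decide

include hA h0 hM ha in
theorem not_three_dvd_of_two (hp : p % 3 = 2) : ¬ 3 ∣ m := by
  intro hm
  have hm' : (9 : ℤ) ∣ 24 * (m : ℤ) := by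
    rw [show (9 : ℤ) = 3 * 3 from rfl]
    exact mul_dvd_mul (by norm_num) (by exact_mod_cast Int.natCast_dvd_natCast.mpr hm)
  have hu : ¬ (3 : ℤ) ∣ (p : ℤ) - 1 := by omega
  by_cases h8 : p % 9 = 8
  · refine false_of_congr_const g hA a ha (c := 3) (e := 4) Nat.prime_three rfl (by norm_num)
      (by omega) (by rw [h0]; exact_mod_cast hu) fun n hn ↦ ?_
    exact hm'.trans (hM n hn)
  · obtain ⟨s, hs⟩ := sq_identity g hA hM
    have h3 : (3 : ℤ) ∣ (p : ℤ) + 1 := by omega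
    have hl : (27 : ℤ) ∣ 2 * PowerSeries.coeff 0 A * PowerSeries.coeff 1 A * (p + 1)
        + 24 * (m : ℤ) * (24 * (m : ℤ)) * s := by
      refine dvd_add ?_ (Dvd.dvd.mul_right ((show (27 : ℤ) ∣ 9 * 9 by norm_num).trans
        (mul_dvd_mul hm' hm')) s)
      rw [show (27 : ℤ) = 9 * 3 from rfl]
      exact mul_dvd_mul ((hm'.trans (hM 1 le_rfl)).mul_left _) h3
    rw [hs, h0, show 240 * ((p : ℤ) - 1) ^ 2 * ((p : ℤ) + 1) =
      3 * (80 * ((p : ℤ) - 1) ^ 2 * ((p : ℤ) + 1)) by ring, show (27 : ℤ) = 3 * 9 from rfl,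
      mul_dvd_mul_iff_left (by norm_num : (3 : ℤ) ≠ 0)] at hl
    rw [show (9 : ℤ) = ((9 : ℕ) : ℤ) from rfl, ← ZMod.intCast_zmod_eq_zero_iff_dvd] at hl
    push_cast at hl
    rw [← ZMod.natCast_mod p 9] at hl
    obtain h | h : p % 9 = 2 ∨ p % 9 = 5 := by omega
    all_goals rw [h] at hl; revert hl; decide

include hA h0 hM in
theorem two_pow_dvd_of_one {k : ℕ} (hm : 2 ^ k ∣ m) (hp : p % 4 = 1) : 2 ^ (k + 2) ∣ p - 1 := by
  by_contra hk
  obtain ⟨j, u', hu, hu', hj⟩ := exists_exact_pow Nat.prime_two (Fact.out : p.Prime).two_le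
  have hjk : j ≤ k + 1 := by rw [hj] at hk; omega
  obtain ⟨s, hs⟩ := eis6_identity g hA hM
  rw [h0, hu] at hs
  have hM2 : (2 : ℤ) ^ (j + 2) ∣ 24 * (m : ℤ) := by
    refine (pow_dvd_pow _ (show j + 2 ≤ 3 + k by omega)).trans ?_
    rw [pow_add]
    exact mul_dvd_mul (by norm_num) (by exact_mod_cast Int.natCast_dvd_natCast.mpr hm)
  have h8 : (8 : ℤ) ∣ (p : ℤ) ^ 6 - 1 := by
    refine dvd_of_zmod (n := 8) ?_
    push_cast
    rw [← ZMod.natCast_mod p 8]
    obtain h | h : p % 8 = 1 ∨ p % 8 = 5 := by omega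
    all_goals rw [h]; decide
  have hl : 8 * (2 : ℤ) ^ (j + 2) ∣
      ((p : ℤ) ^ 6 - 1) * PowerSeries.coeff 1 A + 504 * (24 * (m : ℤ)) * s :=
    dvd_add (mul_dvd_mul h8 (hM2.trans (hM 1 le_rfl)))
      ((mul_dvd_mul (by norm_num) hM2).mul_right s)
  rw [hs] at hl
  have hl' : (2 : ℤ) ^ j * 32 ∣
      (2 : ℤ) ^ j * (u' * (480 * ((p : ℤ) ^ 6 - 1) - 504 * ((p : ℤ) ^ 5 + 1))) := by
    convert hl using 1 <;> push_cast <;> ring
  have h32 := (mul_dvd_mul_iff_left (pow_ne_zero j (by norm_num : (2 : ℤ) ≠ 0))).mp hl'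
  obtain ⟨t, ht⟩ := h8
  rw [ht, show u' * (480 * (8 * t) - 504 * ((p : ℤ) ^ 5 + 1)) =
      8 * (u' * (480 * t - 63 * ((p : ℤ) ^ 5 + 1))) by ring,
    show (32 : ℤ) = 8 * 4 from rfl, mul_dvd_mul_iff_left (by norm_num : (8 : ℤ) ≠ 0),
    show (4 : ℤ) = ((4 : ℕ) : ℤ) from rfl, ← ZMod.intCast_zmod_eq_zero_iff_dvd] at h32
  push_cast at h32
  rw [zmod_of_mod hp] at h32
  obtain ⟨v, hv⟩ : Odd u' := Int.not_even_iff_odd.mp fun he ↦ hu' (by exact_mod_cast he.two_dvd)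
  rw [hv] at h32
  push_cast at h32
  generalize (t : ZMod 4) = x at h32
  generalize (v : ZMod 4) = y at h32
  revert x y
  decide

include hA h0 hM ha in
theorem not_two_dvd_of_three (hp : p % 4 = 3) : ¬ 2 ∣ m := by
  intro hm
  have hM2 : (16 : ℤ) ∣ 24 * (m : ℤ) := by
    rw [show (16 : ℤ) = 8 * 2 from rfl]
    exact mul_dvd_mul (by norm_num) (by exact_mod_cast Int.natCast_dvd_natCast.mpr hm)
  obtain ⟨v, hv⟩ : Odd (((p : ℤ) - 1) / 2) := by
    rw [Int.odd_iff]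
    omega
  have hv' : (p : ℤ) - 1 = 2 * (2 * v + 1) := by omega
  by_cases h7 : p % 8 = 7
  · have hdiv : ∀ n, (2 : ℤ) ∣ PowerSeries.coeff n A := fun n ↦ by
      rcases eq_or_ne n 0 with rfl | hn
      · exact h0 ▸ ⟨_, hv'⟩
      · exact ((show (2 : ℤ) ∣ 16 by norm_num).trans hM2).trans
          (hM n (Nat.one_le_iff_ne_zero.mpr hn))
    have hA2 : HasIntQExp ⇑((2 : ℂ)⁻¹ • g) (PowerSeries.mk fun n ↦ PowerSeries.coeff n A / 2) := by
      refine HasIntQExp.of_qExpansion (by rw [FunLike.coe_smul]; exact hA.nice.smul _) fun n ↦ ?_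
      obtain ⟨b, hb⟩ := hdiv n
      rw [FunLike.coe_smul, hA.nice.qExpansion_smul, PowerSeries.coeff_smul, hA.coeff_eq,
        PowerSeries.coeff_mk, hb, Int.mul_ediv_cancel_left _ two_ne_zero, smul_eq_mul]
      push_cast
      ring
    refine false_of_congr_const ((2 : ℂ)⁻¹ • g) hA2 a ha (c := 4) (e := 3) Nat.prime_two rfl
      (by norm_num) (by omega) ?_ fun n hn ↦ ?_
    · rw [PowerSeries.coeff_mk, h0]
      omega
    · rw [PowerSeries.coeff_mk]
      have := hM2.trans (hM n hn)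
      omega
  · obtain ⟨s, hs⟩ := eis6_identity g hA hM
    rw [h0, hv'] at hs
    have h8 : (8 : ℤ) ∣ (p : ℤ) ^ 6 - 1 := by
      refine dvd_of_zmod (n := 8) ?_
      push_cast
      rw [← ZMod.natCast_mod p 8, show p % 8 = 3 by omega]
      decide
    have hl : 8 * (16 : ℤ) ∣
        ((p : ℤ) ^ 6 - 1) * PowerSeries.coeff 1 A + 504 * (24 * (m : ℤ)) * s :=
      dvd_add (mul_dvd_mul h8 (hM2.trans (hM 1 le_rfl)))
        ((mul_dvd_mul (by norm_num) hM2).mul_right s)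
    obtain ⟨t, ht⟩ := h8
    rw [hs, ht, show 2 * (2 * v + 1) * (480 * (8 * t) - 504 * ((p : ℤ) ^ 5 + 1)) =
        16 * ((2 * v + 1) * (480 * t - 63 * ((p : ℤ) ^ 5 + 1))) by ring,
      show (8 : ℤ) * 16 = 16 * 8 from rfl, mul_dvd_mul_iff_left (by norm_num : (16 : ℤ) ≠ 0),
      show (8 : ℤ) = ((8 : ℕ) : ℤ) from rfl, ← ZMod.intCast_zmod_eq_zero_iff_dvd] at hl
    push_cast at hl
    rw [zmod_of_mod (show p % 8 = 3 by omega)] at hl
    generalize (t : ZMod 8) = x at hl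
    generalize (v : ZMod 8) = y at hl
    revert x y
    decide

include hA h0 hM ha in
/-- If the Eisenstein series is congruent to a cusp form modulo `m`, then `m` divides the
Eisenstein numerator. -/
theorem dvd_eisensteinNumerator (hp5 : 5 ≤ p) : m ∣ eisensteinNumerator p := by
  have hp : p.Prime := Fact.out
  rw [eisensteinNumerator]
  set G := Nat.gcd (p - 1) 12 with hG
  have hG0 : 0 < G := Nat.gcd_pos_of_pos_right _ (by norm_num)
  have hG12 : G ∣ 12 := Nat.gcd_dvd_right _ _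
  rw [Nat.dvd_iff_prime_pow_dvd_dvd]
  intro q k hq hm
  rcases Nat.eq_zero_or_pos k with rfl | hk
  · simp
  have hqm : q ∣ m := (dvd_pow_self q hk.ne').trans hm
  rw [Nat.dvd_div_iff_mul_dvd (Nat.gcd_dvd_left _ _)]
  by_cases hq5 : 5 ≤ q
  · have hcop : Nat.Coprime G (q ^ k) := by
      refine Nat.Coprime.pow_right _ ((hq.coprime_iff_not_dvd.mpr fun h ↦ ?_).symm)
      rcases hq.dvd_mul.mp (show q ∣ 2 ^ 2 * 3 from h.trans hG12) with h | h
      · have := Nat.le_of_dvd two_pos (hq.dvd_of_dvd_pow h); omega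
      · have := Nat.le_of_dvd three_pos h; omega
    refine hcop.mul_dvd_of_dvd_of_dvd (Nat.gcd_dvd_left _ _) ?_
    have hneg : ¬ q ∣ p + 1 := fun h ↦ not_dvd_of_dvd_succ g hA h0 hM a ha hq hq5 h hqm
    by_cases h5 : q = 5
    · subst h5
      exact dvd_sub_one_of_five g hA h0 hM hm hneg
    · have : q ≠ 6 := by rintro rfl; norm_num at hq
      exact dvd_sub_one_of_large g hA h0 hM hq (by omega) hm hneg
  · obtain rfl | rfl : q = 2 ∨ q = 3 := by
      have := hq.two_le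
      rcases (by omega : q = 2 ∨ q = 3 ∨ q = 4) with h | h | h
      · exact Or.inl h
      · exact Or.inr h
      · subst h; norm_num at hq
    · have hodd : p % 2 = 1 := Nat.odd_iff.mp (hp.odd_of_ne_two (by omega))
      have h1 : p % 4 = 1 := by
        by_contra h
        exact not_two_dvd_of_three g hA h0 hM a ha (by omega) hqm
      obtain ⟨G', hG', hGe⟩ : ∃ G', (G' = 1 ∨ G' = 3) ∧ G = 4 * G' := by
        have h4 : 4 ∣ G := Nat.dvd_gcd (by omega) (by norm_num)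
        obtain ⟨G', hG'⟩ := h4
        refine ⟨G', ?_, hG'⟩
        rw [hG'] at hG12
        have h3 : G' ∣ 3 := Nat.dvd_of_mul_dvd_mul_left four_pos hG12
        exact (Nat.dvd_prime Nat.prime_three).mp h3
      rw [← hG, hGe, show 4 * G' * 2 ^ k = G' * 2 ^ (k + 2) by ring]
      refine Nat.Coprime.mul_dvd_of_dvd_of_dvd ?_
        ((Dvd.intro_left _ hGe.symm).trans (Nat.gcd_dvd_left _ _))
        (two_pow_dvd_of_one g hA h0 hM hm h1)
      refine Nat.Coprime.pow_right _ ?_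
      rcases hG' with rfl | rfl <;> decide
    · have hne : p % 3 ≠ 0 := fun h ↦ by
        have := (Nat.prime_dvd_prime_iff_eq Nat.prime_three hp).mp (Nat.dvd_of_mod_eq_zero h)
        omega
      have h1 : p % 3 = 1 := by
        by_contra h
        exact not_three_dvd_of_two g hA h0 hM a ha (by omega) hqm
      obtain ⟨G', hG', hGe⟩ : ∃ G', G' ∣ 4 ∧ G = 3 * G' := by
        have h3 : 3 ∣ G := Nat.dvd_gcd (by omega) (by norm_num)
        obtain ⟨G', hG'⟩ := h3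
        refine ⟨G', ?_, hG'⟩
        rw [hG'] at hG12
        exact Nat.dvd_of_mul_dvd_mul_left three_pos hG12
      rw [← hG, hGe, show 3 * G' * 3 ^ k = G' * 3 ^ (k + 1) by ring]
      refine Nat.Coprime.mul_dvd_of_dvd_of_dvd ?_
        ((Dvd.intro_left _ hGe.symm).trans (Nat.gcd_dvd_left _ _))
        (three_pow_dvd_of_one g hA h0 hM hm h1)
      exact Nat.Coprime.pow_right _ ((show Nat.Coprime 4 3 by decide).coprime_dvd_left hG')

end FermatLib.Mazur.EisUpper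

end
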