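import Mathlib.NumberTheory.ModularForms.QExpansion
import Mathlib.RingTheory.PowerSeries.Expand
import Fermat.Prelude.Def_ModularForm_HeckeOperator
import Fermat.Prelude.Thm_UpperHalfPlane_qCoeff_heckeU
import Fermat.Prelude.Thm_ModularForm_periodic_heckeU_comp_ofComplex
import Fermat.Prelude.Thm_ModularForm_mdifferentiable_heckeU
import Fermat.Prelude.Thm_ModularForm_isBoundedAtImInfty_heckeU

/-!
# `q`-expansions with integer coefficients of periodic functions

Used in the upper bound of the Eisenstein index: a small calculus of functions on the upper half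
plane which are `1`-periodic, holomorphic and bounded at infinity, together with their expansions.
-/

set_option autoImplicit false

noncomputable section

open UpperHalfPlane Function
open scoped Manifold MatrixGroups ModularForm

namespace FermatLib.Mazur.EisUpper

/-- `1`-periodic, holomorphic, bounded at infinity. -/
structure QNice (f : ℍ → ℂ) : Prop where
  periodic : Function.Periodic (f ∘ UpperHalfPlane.ofComplex) 1
  holo : MDiff f
  bdd : IsBoundedAtImInfty f

theorem QNice.analyticAt {f : ℍ → ℂ} (hf : QNice f) :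
    AnalyticAt ℂ (cuspFunction 1 f) 0 :=
  analyticAt_cuspFunction_zero one_pos (by simpa using hf.periodic) hf.holo hf.bdd

theorem QNice.hasSum {f : ℍ → ℂ} (hf : QNice f) (τ : ℍ) :
    HasSum (fun m : ℕ ↦ (qExpansion 1 f).coeff m • Function.Periodic.qParam 1 (τ : ℂ) ^ m) (f τ) :=
  hasSum_qExpansion one_pos (by simpa using hf.periodic) hf.holo hf.bdd τ

theorem QNice.const (c : ℂ) : QNice (fun _ ↦ c) :=
  ⟨fun _ ↦ rfl, mdifferentiable_const, Filter.const_boundedAtFilter _ c⟩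

theorem QNice.add {f g : ℍ → ℂ} (hf : QNice f) (hg : QNice g) : QNice (f + g) :=
  ⟨fun z ↦ congrArg₂ (· + ·) (hf.periodic z) (hg.periodic z), hf.holo.add hg.holo,
    hf.bdd.add hg.bdd⟩

theorem QNice.mul {f g : ℍ → ℂ} (hf : QNice f) (hg : QNice g) : QNice (f * g) :=
  ⟨fun z ↦ congrArg₂ (· * ·) (hf.periodic z) (hg.periodic z), hf.holo.mul hg.holo,
    hf.bdd.mul hg.bdd⟩

theorem QNice.neg {f : ℍ → ℂ} (hf : QNice f) : QNice (-f) :=
  ⟨fun z ↦ congrArg Neg.neg (hf.periodic z), hf.holo.neg, hf.bdd.neg⟩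

theorem QNice.sub {f g : ℍ → ℂ} (hf : QNice f) (hg : QNice g) : QNice (f - g) := by
  rw [sub_eq_add_neg]
  exact hf.add hg.neg

theorem QNice.smul {f : ℍ → ℂ} (hf : QNice f) (c : ℂ) : QNice (c • f) :=
  (QNice.const c).mul hf

theorem QNice.one : QNice (1 : ℍ → ℂ) := QNice.const 1

theorem QNice.pow {f : ℍ → ℂ} (hf : QNice f) : ∀ n : ℕ, QNice (f ^ n)
  | 0 => by rw [pow_zero]; exact QNice.one
  | n + 1 => by rw [pow_succ]; exact (hf.pow n).mul hf

theorem QNice.qExpansion_mul {f g : ℍ → ℂ} (hf : QNice f) (hg : QNice g) :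
    qExpansion 1 (f * g) = qExpansion 1 f * qExpansion 1 g :=
  UpperHalfPlane.qExpansion_mul hf.analyticAt hg.analyticAt

theorem QNice.qExpansion_add {f g : ℍ → ℂ} (hf : QNice f) (hg : QNice g) :
    qExpansion 1 (f + g) = qExpansion 1 f + qExpansion 1 g :=
  UpperHalfPlane.qExpansion_add hf.analyticAt hg.analyticAt

theorem QNice.qExpansion_sub {f g : ℍ → ℂ} (hf : QNice f) (hg : QNice g) :
    qExpansion 1 (f - g) = qExpansion 1 f - qExpansion 1 g :=
  UpperHalfPlane.qExpansion_sub hf.analyticAt hg.analyticAt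

theorem QNice.qExpansion_smul {f : ℍ → ℂ} (hf : QNice f) (c : ℂ) :
    qExpansion 1 (c • f) = c • qExpansion 1 f :=
  UpperHalfPlane.qExpansion_smul hf.analyticAt c

/-- The point `p τ`. -/
def scalePt (p : ℕ) (τ : ℍ) : ℍ := ModularForm.heckeDiagMatrix p • τ

theorem coe_scalePt {p : ℕ} (hp : p ≠ 0) (τ : ℍ) : (scalePt p τ : ℂ) = p * (τ : ℂ) :=
  ModularForm.coe_heckeDiagMatrix_smul hp τ

theorem comp_scalePt_eq_slash {p : ℕ} (hp : p ≠ 0) (f : ℍ → ℂ) :
    (fun τ ↦ f (scalePt p τ)) = f ∣[(1 : ℤ)] ModularForm.heckeDiagMatrix p := by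
  funext τ
  rw [ModularForm.slash_heckeDiagMatrix_apply 1 hp, sub_self, zpow_zero, one_mul]
  rfl

theorem isBoundedAtImInfty_comp_scalePt {p : ℕ} (hp : p ≠ 0) {f : ℍ → ℂ}
    (hf : IsBoundedAtImInfty f) : IsBoundedAtImInfty (fun τ ↦ f (scalePt p τ)) := by
  rw [comp_scalePt_eq_slash hp]
  exact UpperHalfPlane.IsBoundedAtImInfty.slash 1 (by simp [hp]) hf

theorem QNice.comp_scalePt {p : ℕ} (hp : p ≠ 0) {f : ℍ → ℂ} (hf : QNice f) :
    QNice (fun τ ↦ f (scalePt p τ)) := by
  refine ⟨fun z ↦ ?_, ?_, isBoundedAtImInfty_comp_scalePt hp hf.bdd⟩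
  · by_cases hz : 0 < z.im
    · have h1 : 0 < (z + 1).im := by simpa using hz
      simp only [comp_apply, ofComplex_apply_of_im_pos h1, ofComplex_apply_of_im_pos hz]
      have key : ∀ τ : ℍ, f τ = (f ∘ UpperHalfPlane.ofComplex) (τ : ℂ) :=
        fun τ ↦ by simp
      rw [key (scalePt p ⟨_, h1⟩), key (scalePt p ⟨_, hz⟩), coe_scalePt hp, coe_scalePt hp]
      simpa [mul_add] using (hf.periodic.nat_mul p) ((p : ℂ) * z)
    · have h1 : (z + 1).im ≤ 0 := by simpa using hz
      simp only [comp_apply, ofComplex_apply_of_im_nonpos h1,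
        ofComplex_apply_of_im_nonpos (not_lt.mp hz)]
  · rw [comp_scalePt_eq_slash hp]
    exact hf.holo.slash 1 _

theorem qExpansion_comp_scalePt {p : ℕ} (hp : p ≠ 0) {f : ℍ → ℂ} (hf : QNice f) :
    qExpansion 1 (fun τ ↦ f (scalePt p τ)) = PowerSeries.expand p hp (qExpansion 1 f) := by
  classical
  ext m
  refine (UpperHalfPlane.qExpansion_coeff_unique
    (ContinuousMap.mk _ (hf.comp_scalePt hp).holo.continuous) one_pos (hf.comp_scalePt hp).analyticAt
    (c := fun m ↦ (PowerSeries.expand p hp (qExpansion 1 f)).coeff m) (fun τ ↦ ?_) m).symm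
  have hinj : Function.Injective (fun n : ℕ ↦ p * n) := fun a b h ↦ Nat.eq_of_mul_eq_mul_left
    (Nat.pos_of_ne_zero hp) h
  refine (hinj.hasSum_iff (fun n hn ↦ ?_)).mp ?_
  · have : ¬ p ∣ n := fun ⟨c, hc⟩ ↦ hn ⟨c, hc.symm⟩
    simp [PowerSeries.coeff_expand_of_not_dvd p hp (qExpansion 1 f) this]
  · have hq : Function.Periodic.qParam 1 (scalePt p τ : ℂ) =
        Function.Periodic.qParam 1 (τ : ℂ) ^ p := by
      simp only [Function.Periodic.qParam, coe_scalePt hp, ← Complex.exp_nat_mul]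
      congr 1
      push_cast
      ring
    have h := hf.hasSum (scalePt p τ)
    rw [hq] at h
    refine h.congr_fun fun n ↦ ?_
    simp [PowerSeries.coeff_expand_mul p hp, pow_mul]

/-- Extraction of the coefficients with index divisible by `p`. -/
def uSeries {R : Type*} [CommRing R] (p : ℕ) (P : PowerSeries R) : PowerSeries R :=
  PowerSeries.mk fun n ↦ PowerSeries.coeff (n * p) P

theorem coeff_uSeries {R : Type*} [CommRing R] (p n : ℕ) (P : PowerSeries R) :
    PowerSeries.coeff n (uSeries p P) = PowerSeries.coeff (n * p) P :=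
  PowerSeries.coeff_mk _ _

theorem map_uSeries {R S : Type*} [CommRing R] [CommRing S] (φ : R →+* S) (p : ℕ)
    (P : PowerSeries R) : PowerSeries.map φ (uSeries p P) = uSeries p (PowerSeries.map φ P) := by
  ext n
  simp [coeff_uSeries]

theorem QNice.heckeU {f : ℍ → ℂ} (hf : QNice f) (p : ℕ) : QNice (ModularForm.heckeU 0 p f) :=
  ⟨ModularForm.periodic_heckeU_comp_ofComplex hf.periodic 0 p,
    ModularForm.mdifferentiable_heckeU hf.holo 0 p,
    ModularForm.isBoundedAtImInfty_heckeU hf.bdd 0 p⟩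

theorem qExpansion_heckeU {p : ℕ} (hp : p ≠ 0) {f : ℍ → ℂ} (hf : QNice f) :
    qExpansion 1 (ModularForm.heckeU 0 p f) = uSeries p (qExpansion 1 f) := by
  ext n
  rw [coeff_uSeries]
  exact UpperHalfPlane.qCoeff_heckeU hf.periodic hf.holo hf.bdd 0 hp n

/-- `f` is nice, with the `q`-expansion `P`, which has integer coefficients. -/
structure HasIntQExp (f : ℍ → ℂ) (P : PowerSeries ℤ) : Prop where
  nice : QNice f
  eq : qExpansion 1 f = PowerSeries.map (Int.castRingHom ℂ) P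

namespace HasIntQExp

variable {f g : ℍ → ℂ} {P Q : PowerSeries ℤ}

theorem coeff_eq (hf : HasIntQExp f P) (n : ℕ) :
    (qExpansion 1 f).coeff n = ((PowerSeries.coeff n P : ℤ) : ℂ) := by
  rw [hf.eq, PowerSeries.coeff_map]
  rfl

theorem add (hf : HasIntQExp f P) (hg : HasIntQExp g Q) : HasIntQExp (f + g) (P + Q) :=
  ⟨hf.nice.add hg.nice, by rw [hf.nice.qExpansion_add hg.nice, hf.eq, hg.eq, map_add]⟩

theorem sub (hf : HasIntQExp f P) (hg : HasIntQExp g Q) : HasIntQExp (f - g) (P - Q) :=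
  ⟨hf.nice.sub hg.nice, by rw [hf.nice.qExpansion_sub hg.nice, hf.eq, hg.eq, map_sub]⟩

theorem mul (hf : HasIntQExp f P) (hg : HasIntQExp g Q) : HasIntQExp (f * g) (P * Q) :=
  ⟨hf.nice.mul hg.nice, by rw [hf.nice.qExpansion_mul hg.nice, hf.eq, hg.eq, map_mul]⟩

theorem one : HasIntQExp (1 : ℍ → ℂ) 1 :=
  ⟨QNice.one, by rw [qExpansion_one, map_one]⟩

theorem pow (hf : HasIntQExp f P) : ∀ n : ℕ, HasIntQExp (f ^ n) (P ^ n)
  | 0 => by rw [pow_zero, pow_zero]; exact one
  | n + 1 => by rw [pow_succ, pow_succ]; exact (hf.pow n).mul hf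

theorem intSmul (hf : HasIntQExp f P) (a : ℤ) :
    HasIntQExp ((a : ℂ) • f) (PowerSeries.C a * P) :=
  ⟨hf.nice.smul _, by
    rw [hf.nice.qExpansion_smul, hf.eq, map_mul, PowerSeries.map_C,
      PowerSeries.smul_eq_C_mul]
    rfl⟩

theorem expand {p : ℕ} (hp : p ≠ 0) (hf : HasIntQExp f P) :
    HasIntQExp (fun τ ↦ f (scalePt p τ)) (PowerSeries.expand p hp P) :=
  ⟨hf.nice.comp_scalePt hp, by
    rw [qExpansion_comp_scalePt hp hf.nice, hf.eq, PowerSeries.map_expand]⟩

theorem congr (hf : HasIntQExp f P) (h : g = f) : HasIntQExp g P := h ▸ hf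

theorem eq_of (hf : HasIntQExp f P) (hg : HasIntQExp f Q) : P = Q :=
  PowerSeries.map_injective _ Int.cast_injective (hf.eq.symm.trans hg.eq)

theorem of_qExpansion (hn : QNice f)
    (h : ∀ n, (qExpansion 1 f).coeff n = ((PowerSeries.coeff n P : ℤ) : ℂ)) : HasIntQExp f P :=
  ⟨hn, PowerSeries.ext fun n ↦ by rw [h n, PowerSeries.coeff_map]; rfl⟩

/-- `∑_{j < p} f((τ + j)/p)`. -/
theorem shiftSum {p : ℕ} (hp : p ≠ 0) (hf : HasIntQExp f P) :
    HasIntQExp (fun τ ↦ ∑ j ∈ Finset.range p, f (ModularForm.heckeMatrix p j • τ))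
      (PowerSeries.C (p : ℤ) * uSeries p P) := by
  have h : HasIntQExp (ModularForm.heckeU 0 p f) (uSeries p P) :=
    ⟨hf.nice.heckeU p, by rw [qExpansion_heckeU hp hf.nice, hf.eq, map_uSeries]⟩
  refine (h.intSmul (p : ℤ)).congr ?_
  funext τ
  simp only [Pi.smul_apply, smul_eq_mul, ModularForm.heckeU_apply 0 hp, Int.cast_natCast]
  rw [← mul_assoc, mul_inv_cancel₀ (Nat.cast_ne_zero.mpr hp), one_mul]

end HasIntQExp

end FermatLib.Mazur.EisUpper

end
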