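import Mathlib.NumberTheory.ModularForms.Basic
import Mathlib.NumberTheory.ModularForms.CongruenceSubgroups
import Mathlib.NumberTheory.Modular
import Fermat.Agent.Mazur.EisUpperQExp

/-!
# Families of conjugates along `Γ₀(p) \ SL(2, ℤ)` and their sums

`ConjFam p r k F`: the weight `k` functions `F i`, indexed by the cosets, are permuted by `Γ₀(r)`.
Then `∑ i, F i` is a modular form on `Γ₀(r)`, and its `q`-expansion is read off from the one of
`F none` and the one of `τ ↦ F (some 0) (p τ)`.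
-/

set_option autoImplicit false

noncomputable section

open UpperHalfPlane Function CongruenceSubgroup Matrix.SpecialLinearGroup
open scoped Manifold MatrixGroups ModularForm

namespace FermatLib.Mazur.EisUpper

variable {p : ℕ} [Fact p.Prime]

/-- Coset representatives: `1` and `S T^j`. -/
def rep (p : ℕ) : Option (ZMod p) → SL(2, ℤ)
  | none => 1
  | some j => ModularGroup.S * ModularGroup.T ^ (j.val : ℤ)

/-- The coset of an element, read off from its bottom row. -/
def cls (p : ℕ) [Fact p.Prime] (A : SL(2, ℤ)) : Option (ZMod p) :=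
  if ((A 1 0 : ℤ) : ZMod p) = 0 then none else some ((A 1 1 : ℤ) / (A 1 0 : ℤ) : ZMod p)

theorem rep_some_coe (j : ZMod p) :
    (rep p (some j)).1 = !![0, -1; 1, (j.val : ℤ)] := by
  simp [rep, ModularGroup.coe_S, ModularGroup.coe_T_zpow]

theorem cls_rep (i : Option (ZMod p)) : cls p (rep p i) = i := by
  rcases i with _ | j
  · simp [cls, rep]
  · simp [cls, rep_some_coe]

theorem cls_gamma0_mul {G : SL(2, ℤ)} (hG : G ∈ Gamma0 p) (A : SL(2, ℤ)) :
    cls p (G * A) = cls p A := by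
  have hG0 : ((G 1 0 : ℤ) : ZMod p) = 0 := Gamma0_mem.mp hG
  have hd : ((G 1 1 : ℤ) : ZMod p) ≠ 0 := by
    intro h
    have hdet : (G 0 0 * G 1 1 - G 0 1 * G 1 0 : ℤ) = 1 := by
      rw [← Matrix.det_fin_two]; exact G.2
    have := congrArg (Int.cast : ℤ → ZMod p) hdet
    push_cast at this
    rw [hG0, h] at this
    simp at this
  have h10 : (((G * A) 1 0 : ℤ) : ZMod p) = (G 1 1 : ℤ) * (A 1 0 : ℤ) := by
    simp [Matrix.mul_apply, Fin.sum_univ_two, hG0]
  have h11 : (((G * A) 1 1 : ℤ) : ZMod p) = (G 1 1 : ℤ) * (A 1 1 : ℤ) := by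
    simp [Matrix.mul_apply, Fin.sum_univ_two, hG0]
  rw [cls, cls, h10, h11]
  by_cases hA : ((A 1 0 : ℤ) : ZMod p) = 0
  · simp [hA]
  · rw [if_neg (mul_ne_zero hd hA), if_neg hA, mul_div_mul_left _ _ hd]

theorem mul_rep_inv_mem (A : SL(2, ℤ)) : A * (rep p (cls p A))⁻¹ ∈ Gamma0 p := by
  rw [cls]
  split_ifs with h
  · simpa [rep, Gamma0_mem] using h
  · rw [Gamma0_mem]
    have : (A * (rep p (some ((A 1 1 : ℤ) / (A 1 0 : ℤ) : ZMod p)))⁻¹) 1 0 =
        A 1 0 * (((A 1 1 : ℤ) / (A 1 0 : ℤ) : ZMod p).val : ℤ) - A 1 1 := by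
      simp [Matrix.SpecialLinearGroup.coe_inv, rep_some_coe, Matrix.adjugate_fin_two,
        Matrix.mul_apply, Fin.sum_univ_two]
      ring
    rw [this]
    push_cast
    rw [ZMod.natCast_zmod_val, mul_div_cancel₀ _ h, sub_self]

theorem exists_eq_mul_rep (A : SL(2, ℤ)) : ∃ G ∈ Gamma0 p, A = G * rep p (cls p A) :=
  ⟨_, mul_rep_inv_mem A, by rw [inv_mul_cancel_right]⟩

/-- The right action on the index set. -/
def act (γ : SL(2, ℤ)) (i : Option (ZMod p)) : Option (ZMod p) := cls p (rep p i * γ)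

theorem act_bijective (γ : SL(2, ℤ)) : Function.Bijective (act (p := p) γ) := by
  refine Finite.injective_iff_bijective.mp fun i i' h ↦ ?_
  obtain ⟨G, hG, e⟩ := exists_eq_mul_rep (p := p) (rep p i * γ)
  obtain ⟨G', hG', e'⟩ := exists_eq_mul_rep (p := p) (rep p i' * γ)
  have h2 : rep p i = G * G'⁻¹ * rep p i' := by
    have h' : rep p (cls p (rep p i * γ)) = rep p (cls p (rep p i' * γ)) := congrArg (rep p) h
    rw [h'] at e
    have hr : rep p (cls p (rep p i' * γ)) = G'⁻¹ * (rep p i' * γ) := by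
      rw [eq_inv_mul_iff_mul_eq]; exact e'.symm
    rw [hr] at e
    exact mul_right_cancel (b := γ) (by simpa only [mul_assoc] using e)
  calc i = cls p (rep p i) := (cls_rep i).symm
    _ = cls p (G * G'⁻¹ * rep p i') := by rw [← h2]
    _ = i' := by rw [cls_gamma0_mul (mul_mem hG (inv_mem hG')), cls_rep]

theorem act_T_none (n : ℤ) : act (p := p) (ModularGroup.T ^ n) none = none := by
  simp [act, rep, cls, ModularGroup.coe_T_zpow]

theorem act_T_some (n : ℤ) (j : ZMod p) :
    act (p := p) (ModularGroup.T ^ n) (some j) = some (j + n) := by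
  simp [act, cls, rep_some_coe, ModularGroup.coe_T_zpow, Matrix.mul_apply, Fin.sum_univ_two,
    add_comm]

theorem T_zpow_mem_Gamma0 (r : ℕ) (n : ℤ) : ModularGroup.T ^ n ∈ Gamma0 r := by
  simp [Gamma0_mem, ModularGroup.coe_T_zpow]

/-- A family of weight `k` functions indexed by the cosets, permuted by `Γ₀(r)`. -/
structure ConjFam (p : ℕ) [Fact p.Prime] (r : ℕ) (k : ℤ) (F : Option (ZMod p) → ℍ → ℂ) : Prop where
  perm : ∀ γ ∈ Gamma0 r, ∀ i, F i ∣[k] γ = F (act γ i)
  holo : ∀ i, MDiff (F i)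
  bdd : ∀ i (A : SL(2, ℤ)), IsBoundedAtImInfty (F i ∣[k] A)

namespace ConjFam

variable {r : ℕ} {k k' : ℤ} {F F' : Option (ZMod p) → ℍ → ℂ}

theorem add (hF : ConjFam p r k F) (hF' : ConjFam p r k F') : ConjFam p r k (F + F') where
  perm γ hγ i := by
    rw [Pi.add_apply, SlashAction.add_slash, hF.perm γ hγ i, hF'.perm γ hγ i]; rfl
  holo i := (hF.holo i).add (hF'.holo i)
  bdd i A := by
    rw [Pi.add_apply, SlashAction.add_slash]; exact (hF.bdd i A).add (hF'.bdd i A)

theorem smul (hF : ConjFam p r k F) (c : ℂ) : ConjFam p r k (fun i ↦ c • F i) where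
  perm γ hγ i := by
    show (c • F i) ∣[k] γ = c • F (act γ i)
    rw [ModularForm.SL_smul_slash, hF.perm γ hγ i]
  holo i := mdifferentiable_const.mul (hF.holo i)
  bdd i A := by
    rw [ModularForm.SL_smul_slash]; exact (Filter.const_boundedAtFilter _ c).mul (hF.bdd i A)

theorem sub (hF : ConjFam p r k F) (hF' : ConjFam p r k F') : ConjFam p r k (F - F') := by
  have h : F - F' = F + fun i ↦ (-1 : ℂ) • F' i := by
    funext i τ; simp [sub_eq_add_neg]
  rw [h]
  exact hF.add (hF'.smul (-1))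

theorem mul (hF : ConjFam p r k F) (hF' : ConjFam p r k' F') :
    ConjFam p r (k + k') (F * F') where
  perm γ hγ i := by
    rw [Pi.mul_apply, ModularForm.mul_slash_SL2, hF.perm γ hγ i, hF'.perm γ hγ i]; rfl
  holo i := (hF.holo i).mul (hF'.holo i)
  bdd i A := by
    rw [Pi.mul_apply, ModularForm.mul_slash_SL2]; exact (hF.bdd i A).mul (hF'.bdd i A)

theorem one : ConjFam p r 0 (1 : Option (ZMod p) → ℍ → ℂ) where
  perm γ _ _ := ModularForm.is_invariant_one γ
  holo _ := mdifferentiable_const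
  bdd i A := by
    rw [Pi.one_apply, ModularForm.is_invariant_one]; exact Filter.const_boundedAtFilter _ 1

theorem pow (hF : ConjFam p r k F) : ∀ n : ℕ, ConjFam p r (n * k) (F ^ n)
  | 0 => by
    rw [Nat.cast_zero, zero_mul, pow_zero]
    exact one
  | n + 1 => by
    rw [Nat.cast_succ, add_mul, one_mul, pow_succ]
    exact (hF.pow n).mul hF

theorem mono (hF : ConjFam p r k F) {r' : ℕ} (h : Gamma0 r' ≤ Gamma0 r) : ConjFam p r' k F :=
  ⟨fun γ hγ ↦ hF.perm γ (h hγ), hF.holo, hF.bdd⟩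

theorem mono_one (hF : ConjFam p 1 k F) (r' : ℕ) : ConjFam p r' k F :=
  ⟨fun γ _ ↦ hF.perm γ (Gamma0_mem.mpr (Subsingleton.elim _ _)), hF.holo, hF.bdd⟩

theorem periodic_none (hF : ConjFam p r k F) :
    Function.Periodic (F none ∘ UpperHalfPlane.ofComplex) 1 := by
  intro z
  by_cases hz : 0 < z.im
  · have h1 : 0 < (z + 1).im := by simpa using hz
    simp only [comp_apply, ofComplex_apply_of_im_pos h1, ofComplex_apply_of_im_pos hz]
    have h := congrFun (hF.perm _ (T_zpow_mem_Gamma0 r 1) none) ⟨z, hz⟩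
    rw [act_T_none] at h
    rw [← h, ModularForm.SL_slash_apply, UpperHalfPlane.modular_T_zpow_smul]
    have hden : UpperHalfPlane.denom ((ModularGroup.T ^ (1 : ℤ) : SL(2, ℤ)) : GL (Fin 2) ℝ)
        (z : ℂ) = 1 := by
      simp [UpperHalfPlane.denom, ModularGroup.coe_T]
    rw [hden, one_zpow, mul_one]
    congr 1
    ext
    simp [add_comm]
  · have h1 : (z + 1).im ≤ 0 := by simpa using hz
    simp only [comp_apply, ofComplex_apply_of_im_nonpos h1,
      ofComplex_apply_of_im_nonpos (not_lt.mp hz)]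

theorem apply_vadd_int (hF : ConjFam p r k F) (j : ZMod p) (n : ℤ) (τ : ℍ) :
    F (some (j + n)) τ = F (some j) ((n : ℝ) +ᵥ τ) := by
  have h := congrFun (hF.perm _ (T_zpow_mem_Gamma0 r n) (some j)) τ
  rw [act_T_some] at h
  rw [← h, ModularForm.SL_slash_apply, UpperHalfPlane.modular_T_zpow_smul]
  have hden : UpperHalfPlane.denom ((ModularGroup.T ^ n : SL(2, ℤ)) : GL (Fin 2) ℝ)
      (τ : ℂ) = 1 := by
    simp [UpperHalfPlane.denom, ModularGroup.coe_T_zpow, -map_zpow]
  rw [hden, one_zpow, mul_one]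

/-- The expansion variable at the cusp `0`. -/
def hat (F : Option (ZMod p) → ℍ → ℂ) : ℍ → ℂ := fun τ ↦ F (some 0) (scalePt p τ)

theorem periodic_hat (hF : ConjFam p r k F) :
    Function.Periodic (hat F ∘ UpperHalfPlane.ofComplex) 1 := by
  have hp : p ≠ 0 := NeZero.ne p
  intro z
  by_cases hz : 0 < z.im
  · have h1 : 0 < (z + 1).im := by simpa using hz
    simp only [comp_apply, ofComplex_apply_of_im_pos h1, ofComplex_apply_of_im_pos hz, hat]
    have h := hF.apply_vadd_int 0 (p : ℤ) (scalePt p ⟨z, hz⟩)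
    rw [Int.cast_natCast (p : ℕ), ZMod.natCast_self, add_zero] at h
    rw [h]
    congr 1
    ext
    simp [coe_scalePt hp]
    ring
  · have h1 : (z + 1).im ≤ 0 := by simpa using hz
    simp only [comp_apply, ofComplex_apply_of_im_nonpos h1,
      ofComplex_apply_of_im_nonpos (not_lt.mp hz)]

theorem qNice_none (hF : ConjFam p r k F) : QNice (F none) :=
  ⟨hF.periodic_none, hF.holo none, by simpa using hF.bdd none 1⟩

theorem qNice_hat (hF : ConjFam p r k F) : QNice (hat F) :=
  ⟨hF.periodic_hat, by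
    show MDiff (fun τ ↦ F (some 0) (scalePt p τ))
    rw [comp_scalePt_eq_slash (NeZero.ne p)]
    exact (hF.holo _).slash 1 _,
    isBoundedAtImInfty_comp_scalePt (NeZero.ne p) (by simpa using hF.bdd (some 0) 1)⟩

/-- The sum of the family, as a modular form on `Γ₀(r)`. -/
def sumForm [NeZero r] (hF : ConjFam p r k F) : ModularForm (Gamma0 r) k where
  toFun := ∑ i, F i
  slash_action_eq' := by
    rintro _ ⟨γ, hγ, rfl⟩
    rw [SlashAction.sum_slash]
    refine (Finset.sum_congr rfl fun i _ ↦ ?_).trans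
      ((act_bijective (p := p) γ).sum_comp (fun i ↦ F i))
    exact hF.perm γ hγ i
  holo' := by
    show MDiff (∑ i, F i)
    exact MDifferentiable.sum fun i _ ↦ hF.holo i
  bdd_at_cusps' {c} hc := by
    rw [Subgroup.IsArithmetic.isCusp_iff_isCusp_SL2Z] at hc
    rw [OnePoint.isBoundedAt_iff_forall_SL2Z hc]
    intro A _
    rw [SlashAction.sum_slash]
    exact (boundedAtImInftySubalgebra ℂ).sum_mem fun i _ ↦ hF.bdd i A

theorem coe_sumForm [NeZero r] (hF : ConjFam p r k F) : ⇑hF.sumForm = ∑ i, F i := rfl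

theorem sum_eq (hF : ConjFam p r k F) : (∑ i, F i) = F none +
    fun τ ↦ ∑ j ∈ Finset.range p, hat F (ModularForm.heckeMatrix p j • τ) := by
  have hp : p ≠ 0 := NeZero.ne p
  funext τ
  rw [Fintype.sum_option, Pi.add_apply, Finset.sum_apply, Pi.add_apply]
  congr 1
  refine Finset.sum_bij (fun (j : ZMod p) _ ↦ j.val) (fun j _ ↦ Finset.mem_range.mpr j.val_lt)
    (fun a _ b _ h ↦ ZMod.val_injective p h) (fun n hn ↦ ⟨(n : ZMod p), Finset.mem_univ _,
      ZMod.val_natCast_of_lt (Finset.mem_range.mp hn)⟩) fun j _ ↦ ?_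
  have h := hF.apply_vadd_int 0 (j.val : ℤ) τ
  rw [Int.cast_natCast (j.val), ZMod.natCast_zmod_val, zero_add] at h
  rw [h, hat]
  congr 1
  ext
  rw [coe_scalePt hp, ModularForm.coe_heckeMatrix_smul hp, coe_vadd]
  field_simp
  push_cast
  ring

theorem hasIntQExp_sum (hF : ConjFam p r k F) {P Q : PowerSeries ℤ}
    (hP : HasIntQExp (F none) P) (hQ : HasIntQExp (hat F) Q) :
    HasIntQExp (∑ i, F i) (P + PowerSeries.C (p : ℤ) * uSeries p Q) :=
  (hP.add (hQ.shiftSum (NeZero.ne p))).congr hF.sum_eq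

theorem qExpansion_sum (hF : ConjFam p r k F) :
    qExpansion 1 (∑ i, F i) =
      qExpansion 1 (F none) + (p : ℂ) • uSeries p (qExpansion 1 (hat F)) := by
  have hp : p ≠ 0 := NeZero.ne p
  have e : (∑ i, F i) = F none + (p : ℂ) • ModularForm.heckeU 0 p (hat F) := by
    rw [hF.sum_eq]
    funext τ
    simp only [Pi.add_apply, Pi.smul_apply, smul_eq_mul, ModularForm.heckeU_apply 0 hp]
    rw [← mul_assoc, mul_inv_cancel₀ (Nat.cast_ne_zero.mpr hp), one_mul]
  have hu := hF.qNice_hat.heckeU p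
  rw [e, hF.qNice_none.qExpansion_add (hu.smul _), hu.qExpansion_smul,
    qExpansion_heckeU hp hF.qNice_hat]

end ConjFam

/-- A form on `Γ₀(r)` as a constant family. -/
theorem conjFam_const {r : ℕ} [NeZero r] {k : ℤ} (E : ModularForm (Gamma0 r) k) :
    ConjFam p r k (fun _ ↦ ⇑E) where
  perm γ hγ _ := SlashInvariantFormClass.slash_action_eq E _ ⟨γ, hγ, rfl⟩
  holo _ := E.holo'
  bdd _ A := ModularFormClass.bdd_at_infty_slash E A

/-- The conjugates of a form on `Γ₀(p)`. -/
def conj {k : ℤ} (f : ModularForm (Gamma0 p) k) : Option (ZMod p) → ℍ → ℂ :=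
  fun i ↦ ⇑f ∣[k] rep p i

theorem conjFam_conj {k : ℤ} (f : ModularForm (Gamma0 p) k) : ConjFam p 1 k (conj f) where
  perm γ _ i := by
    obtain ⟨G, hG, e⟩ := exists_eq_mul_rep (p := p) (rep p i * γ)
    show (⇑f ∣[k] rep p i) ∣[k] γ = ⇑f ∣[k] rep p (act γ i)
    rw [← SlashAction.slash_mul, e, SlashAction.slash_mul]
    congr 1
    exact SlashInvariantFormClass.slash_action_eq f _ ⟨G, hG, rfl⟩
  holo i := f.holo'.slash k _
  bdd i A := by
    show IsBoundedAtImInfty ((⇑f ∣[k] rep p i) ∣[k] A)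
    rw [← SlashAction.slash_mul]
    exact ModularFormClass.bdd_at_infty_slash f _

theorem conj_none {k : ℤ} (f : ModularForm (Gamma0 p) k) : conj f none = ⇑f := by
  simp [conj, rep]

theorem conj_some_zero {k : ℤ} (f : ModularForm (Gamma0 p) k) :
    conj f (some 0) = ⇑f ∣[k] ModularGroup.S := by
  simp [conj, rep]

end FermatLib.Mazur.EisUpper

end
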