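import Mathlib.NumberTheory.ModularForms.Discriminant
import Mathlib.NumberTheory.ModularForms.LevelOne.Basic
import Fermat.Agent.Mazur.EisUpperConj

/-!
# Forms on `Γ₀(p)` from their behaviour at the two cusps

`hatForm f` is `τ ↦ (f | S)(p τ)` (a multiple of the Atkin–Lehner transform of `f`); applied to
a level one form `f` it is `τ ↦ f (p τ)`.  `quotForm p` is `Δ(τ)^p / Δ(p τ)`.
-/

set_option autoImplicit false

noncomputable section

open UpperHalfPlane Function CongruenceSubgroup Matrix.SpecialLinearGroup Filter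
open scoped Manifold MatrixGroups ModularForm

namespace FermatLib.Mazur.EisUpper

theorem pow_slash_SL2 (k : ℤ) (f : ℍ → ℂ) (A : SL(2, ℤ)) :
    ∀ n : ℕ, (f ^ n) ∣[(n : ℤ) * k] A = (f ∣[k] A) ^ n
  | 0 => by simp only [pow_zero, Nat.cast_zero, zero_mul, ModularForm.is_invariant_one]
  | n + 1 => by
    rw [Nat.cast_succ, add_mul, one_mul, pow_succ, pow_succ, ModularForm.mul_slash_SL2,
      pow_slash_SL2 k f A n]

variable {p : ℕ} [Fact p.Prime]

/-- A function invariant under `Γ₀(p)` and bounded at the cusps `∞` and `0` is bounded at all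
cusps. -/
theorem isBoundedAtImInfty_slash_of_two {k : ℤ} {f : ℍ → ℂ}
    (hinv : ∀ γ ∈ Gamma0 p, f ∣[k] γ = f) (h0 : IsBoundedAtImInfty f)
    (h1 : IsBoundedAtImInfty (f ∣[k] ModularGroup.S)) (A : SL(2, ℤ)) :
    IsBoundedAtImInfty (f ∣[k] A) := by
  obtain ⟨G, hG, e⟩ := exists_eq_mul_rep (p := p) A
  rw [e, SlashAction.slash_mul, hinv G hG]
  rcases cls p A with _ | j
  · simpa [rep] using h0
  · show IsBoundedAtImInfty (f ∣[k] (ModularGroup.S * ModularGroup.T ^ (j.val : ℤ)))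
    rw [SlashAction.slash_mul, ModularForm.SL_slash (f := f ∣[k] ModularGroup.S)]
    refine h1.slash k ?_
    simp [ModularGroup.coe_T_zpow, -map_zpow]

/-- A modular form on `Γ₀(p)` from a function with the two bounds. -/
def formOfTwo {k : ℤ} (f : ℍ → ℂ) (hinv : ∀ γ ∈ Gamma0 p, f ∣[k] γ = f) (hol : MDiff f)
    (h0 : IsBoundedAtImInfty f) (h1 : IsBoundedAtImInfty (f ∣[k] ModularGroup.S)) :
    ModularForm (Gamma0 p) k where
  toFun := f
  slash_action_eq' := by
    rintro _ ⟨γ, hγ, rfl⟩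
    exact hinv γ hγ
  holo' := hol
  bdd_at_cusps' {c} hc := by
    rw [Subgroup.IsArithmetic.isCusp_iff_isCusp_SL2Z] at hc
    rw [OnePoint.isBoundedAt_iff_forall_SL2Z hc]
    intro A _
    exact isBoundedAtImInfty_slash_of_two hinv h0 h1 A

/-! ### The transform `τ ↦ (f | S)(p τ)` -/

theorem slash_S_apply (k : ℤ) (f : ℍ → ℂ) (τ : ℍ) :
    (f ∣[k] ModularGroup.S) τ = f (ModularGroup.S • τ) * (τ : ℂ) ^ (-k) := by
  rw [ModularForm.SL_slash_apply]
  simp [UpperHalfPlane.denom, ModularGroup.coe_S]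

theorem hatFun_slash_S (k : ℤ) (f : ℍ → ℂ) (τ : ℍ) :
    ((fun z ↦ (f ∣[k] ModularGroup.S) (scalePt p z)) ∣[k] ModularGroup.S) τ =
      (-(p : ℂ)) ^ (-k) * f (ModularForm.heckeMatrix p 0 • τ) := by
  have hp : p ≠ 0 := NeZero.ne p
  have hτ : (τ : ℂ) ≠ 0 := τ.ne_zero
  have e : ModularGroup.S • scalePt p (ModularGroup.S • τ) = ModularForm.heckeMatrix p 0 • τ := by
    ext
    rw [UpperHalfPlane.modular_S_smul, coe_mk, coe_scalePt hp, UpperHalfPlane.modular_S_smul,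
      coe_mk, ModularForm.coe_heckeMatrix_smul hp]
    have : (p : ℂ) ≠ 0 := Nat.cast_ne_zero.mpr hp
    field_simp
    simp
  rw [slash_S_apply, slash_S_apply, e, coe_scalePt hp, UpperHalfPlane.modular_S_smul, coe_mk,
    mul_assoc, mul_comm _ (f _)]
  congr 1
  rw [← mul_zpow]
  congr 1
  field_simp

theorem scalePt_smul (γ : SL(2, ℤ)) (hγ : γ ∈ Gamma0 p) (τ : ℍ) :
    ∃ γ' : SL(2, ℤ), scalePt p (γ • τ) = γ' • scalePt p τ ∧
      UpperHalfPlane.denom (γ' : GL (Fin 2) ℝ) (scalePt p τ : ℂ) =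
        UpperHalfPlane.denom (γ : GL (Fin 2) ℝ) (τ : ℂ) ∧
      ModularGroup.S * γ' * ModularGroup.S⁻¹ ∈ Gamma0 p := by
  have hp : p ≠ 0 := NeZero.ne p
  obtain ⟨c, hc⟩ := (ZMod.intCast_zmod_eq_zero_iff_dvd _ p).mp (Gamma0_mem.mp hγ)
  have hdet : γ 0 0 * γ 1 1 - γ 0 1 * γ 1 0 = 1 := by rw [← Matrix.det_fin_two]; exact γ.2
  obtain ⟨γ', h00, h01, h10, h11⟩ : ∃ γ' : SL(2, ℤ), γ' 0 0 = γ 0 0 ∧
      γ' 0 1 = (p : ℤ) * γ 0 1 ∧ γ' 1 0 = c ∧ γ' 1 1 = γ 1 1 := by
    refine ⟨⟨!![γ 0 0, (p : ℤ) * γ 0 1; c, γ 1 1], ?_⟩, rfl, rfl, rfl, rfl⟩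
    rw [Matrix.det_fin_two_of]
    rw [hc] at hdet
    linear_combination hdet
  refine ⟨γ', ?_, ?_, ?_⟩
  · ext
    have hpc : (p : ℂ) ≠ 0 := Nat.cast_ne_zero.mpr hp
    simp only [coe_scalePt hp, UpperHalfPlane.coe_specialLinearGroup_apply, h00, h01, h10, h11, hc]
    simp
    ring
  · rw [coe_scalePt hp]
    simp [UpperHalfPlane.denom, h10, h11, hc]
    ring
  · rw [Gamma0_mem]
    simp [Matrix.SpecialLinearGroup.coe_inv, ModularGroup.coe_S, Matrix.adjugate_fin_two,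
      Matrix.mul_apply, Fin.sum_univ_two, Matrix.vecMul, dotProduct, h01]

theorem hatFun_invariant {k : ℤ} (f : ModularForm (Gamma0 p) k) (γ : SL(2, ℤ))
    (hγ : γ ∈ Gamma0 p) :
    (fun z ↦ (⇑f ∣[k] ModularGroup.S) (scalePt p z)) ∣[k] γ =
      fun z ↦ (⇑f ∣[k] ModularGroup.S) (scalePt p z) := by
  funext τ
  obtain ⟨γ', e, hden, hmem⟩ := scalePt_smul γ hγ τ
  have hinv : (⇑f ∣[k] ModularGroup.S) ∣[k] γ' = ⇑f ∣[k] ModularGroup.S := by
    rw [← SlashAction.slash_mul,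
      show ModularGroup.S * γ' = (ModularGroup.S * γ' * ModularGroup.S⁻¹) * ModularGroup.S by
        rw [inv_mul_cancel_right],
      SlashAction.slash_mul]
    congr 1
    exact SlashInvariantFormClass.slash_action_eq f _ ⟨_, hmem, rfl⟩
  conv_rhs => rw [← hinv]
  rw [ModularForm.SL_slash_apply, ModularForm.SL_slash_apply (f := ⇑f ∣[k] ModularGroup.S), e,
    hden]

theorem hat_conj {k : ℤ} (f : ModularForm (Gamma0 p) k) :
    ConjFam.hat (conj f) = fun z ↦ (⇑f ∣[k] ModularGroup.S) (scalePt p z) := by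
  funext z
  simp [ConjFam.hat, conj_some_zero]

theorem isBoundedAtImInfty_comp_div {f : ℍ → ℂ} (hf : IsBoundedAtImInfty f) :
    IsBoundedAtImInfty (fun τ ↦ f (ModularForm.heckeMatrix p 0 • τ)) := by
  have hp : p ≠ 0 := NeZero.ne p
  have e : (fun τ ↦ f (ModularForm.heckeMatrix p 0 • τ)) =
      (fun _ ↦ (p : ℂ)) * (f ∣[(0 : ℤ)] ModularForm.heckeMatrix p 0) := by
    funext τ
    rw [Pi.mul_apply, ModularForm.slash_heckeMatrix_apply 0 hp, ← mul_assoc,
      mul_inv_cancel₀ (Nat.cast_ne_zero.mpr hp), one_mul]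
  rw [e]
  exact (Filter.const_boundedAtFilter _ _).mul (hf.slash 0 (by simp [hp]))

/-- `τ ↦ (f | S)(p τ)` as a form on `Γ₀(p)`. -/
def hatForm {k : ℤ} (f : ModularForm (Gamma0 p) k) : ModularForm (Gamma0 p) k :=
  formOfTwo (fun z ↦ (⇑f ∣[k] ModularGroup.S) (scalePt p z)) (hatFun_invariant f)
    (by rw [← hat_conj]; exact (conjFam_conj f).qNice_hat.holo)
    (isBoundedAtImInfty_comp_scalePt (NeZero.ne p) (ModularFormClass.bdd_at_infty_slash f _))
    (by
      rw [show (fun z ↦ (⇑f ∣[k] ModularGroup.S) (scalePt p z)) ∣[k] ModularGroup.S =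
          fun τ ↦ (-(p : ℂ)) ^ (-k) * f (ModularForm.heckeMatrix p 0 • τ) from
        funext (hatFun_slash_S k f)]
      exact (Filter.const_boundedAtFilter _ _).mul
        (isBoundedAtImInfty_comp_div (conj_none f ▸ (conjFam_conj f).qNice_none).bdd))

theorem coe_hatForm {k : ℤ} (f : ModularForm (Gamma0 p) k) :
    ⇑(hatForm f) = ConjFam.hat (conj f) := by
  rw [hat_conj]; rfl

theorem heckeMatrix_smul_scalePt (τ : ℍ) :
    ModularForm.heckeMatrix p 0 • scalePt p τ = τ := by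
  ext
  rw [ModularForm.coe_heckeMatrix_smul (NeZero.ne p), coe_scalePt (NeZero.ne p)]
  have : (p : ℂ) ≠ 0 := Nat.cast_ne_zero.mpr (NeZero.ne p)
  field_simp
  simp

theorem hat_conj_hatForm {k : ℤ} (f : ModularForm (Gamma0 p) k) :
    ConjFam.hat (conj (hatForm f)) = (-(p : ℂ)) ^ (-k) • ⇑f := by
  rw [hat_conj]
  funext τ
  rw [show ⇑(hatForm f) = fun z ↦ (⇑f ∣[k] ModularGroup.S) (scalePt p z) from rfl,
    hatFun_slash_S, heckeMatrix_smul_scalePt]
  rfl

/-! ### Level one forms on `Γ₀(p)` -/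

/-- A level one form on `Γ₀(p)`. -/
def resForm (p : ℕ) [Fact p.Prime] {k : ℤ} (f : ModularForm 𝒮ℒ k) : ModularForm (Gamma0 p) k :=
  formOfTwo ⇑f (fun γ _ ↦ SlashInvariantFormClass.slash_action_eq f _ ⟨γ, rfl⟩) f.holo'
    (by simpa using ModularFormClass.bdd_at_infty_slash f (1 : SL(2, ℤ)))
    (ModularFormClass.bdd_at_infty_slash f _)

theorem coe_resForm {k : ℤ} (f : ModularForm 𝒮ℒ k) : ⇑(resForm p f) = ⇑f := rfl

theorem conj_resForm {k : ℤ} (f : ModularForm 𝒮ℒ k) (i : Option (ZMod p)) :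
    conj (resForm p f) i = ⇑f :=
  SlashInvariantFormClass.slash_action_eq f _ ⟨rep p i, rfl⟩

theorem coe_hatForm_resForm {k : ℤ} (f : ModularForm 𝒮ℒ k) :
    ⇑(hatForm (resForm p f)) = fun τ ↦ f (scalePt p τ) := by
  rw [coe_hatForm]
  funext τ
  rw [ConjFam.hat, conj_resForm]

/-! ### `Δ(τ)^p / Δ(p τ)` -/

/-- `Δ` as a level one modular form. -/
def deltaForm : ModularForm 𝒮ℒ 12 where
  toFun := ModularForm.discriminant
  slash_action_eq' := CuspForm.discriminant.slash_action_eq'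
  holo' := CuspForm.discriminant.holo'
  bdd_at_cusps' hc g hg := (CuspForm.discriminant.zero_at_cusps' hc g hg).isBoundedAtImInfty

theorem coe_deltaForm : ⇑deltaForm = ModularForm.discriminant := rfl

theorem deltaForm_isBigO :
    ⇑deltaForm =O[atImInfty] fun τ : ℍ ↦ Real.exp (-2 * Real.pi * τ.im) := by
  have h := CuspFormClass.exp_decay_atImInfty (h := 1) CuspForm.discriminant one_pos
    one_mem_strictPeriods_SL
  simpa [coe_deltaForm, mul_assoc] using h

theorem deltaForm_pow_div_isBounded {g : GL (Fin 2) ℝ} (hg : g 1 0 = 0) {s : ℝ} {n : ℕ}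
    (him : ∀ τ : ℍ, (g • τ).im = s * τ.im) (hs : s ≤ n) :
    IsBoundedAtImInfty (fun τ : ℍ ↦ deltaForm τ ^ n / deltaForm (g • τ)) := by
  have h1 : (fun τ : ℍ ↦ deltaForm τ ^ n) =O[atImInfty]
      fun τ : ℍ ↦ Real.exp (-2 * Real.pi * (n * τ.im)) := by
    refine (deltaForm_isBigO.pow n).congr_right fun τ ↦ ?_
    rw [← Real.exp_nat_mul]
    congr 1
    ring
  have h2 : (fun τ : ℍ ↦ Real.exp (-2 * Real.pi * (n * τ.im))) =O[atImInfty]
      fun τ : ℍ ↦ Real.exp (-2 * Real.pi * (s * τ.im)) := by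
    refine Asymptotics.IsBigO.of_bound 1 (Filter.Eventually.of_forall fun τ ↦ ?_)
    rw [Real.norm_of_nonneg (Real.exp_pos _).le, Real.norm_of_nonneg (Real.exp_pos _).le, one_mul,
      Real.exp_le_exp]
    have := mul_le_mul_of_nonneg_right hs τ.im_pos.le
    nlinarith [Real.pi_pos]
  have h3 : (fun τ : ℍ ↦ Real.exp (-2 * Real.pi * (s * τ.im))) =O[atImInfty]
      fun τ : ℍ ↦ deltaForm (g • τ) := by
    refine (ModularForm.exp_isBigO_discriminant.comp_tendsto (tendsto_smul_atImInfty hg)).congr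
      (fun τ ↦ ?_) fun τ ↦ rfl
    simp only [comp_apply, him]
  obtain ⟨C, hC⟩ := ((h1.trans h2).trans h3).bound
  refine Asymptotics.IsBigO.of_bound C (hC.mono fun τ hτ ↦ ?_)
  simp only [Pi.one_apply, norm_one, mul_one, norm_div]
  have hne : (0 : ℝ) < ‖deltaForm (g • τ)‖ := norm_pos_iff.mpr (ModularForm.discriminant_ne_zero _)
  exact (div_le_iff₀ hne).mpr hτ

theorem deltaForm_pow_slash (A : SL(2, ℤ)) (n : ℕ) :
    (⇑deltaForm ^ n) ∣[(n : ℤ) * 12] A = ⇑deltaForm ^ n := by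
  rw [pow_slash_SL2]
  congr 1
  exact SlashInvariantFormClass.slash_action_eq deltaForm _ ⟨A, rfl⟩

/-- `Δ(τ)^p / Δ(p τ)`. -/
def quotForm (p : ℕ) [Fact p.Prime] : ModularForm (Gamma0 p) ((p : ℤ) * 12 - 12) :=
  formOfTwo (⇑deltaForm ^ p / ⇑(hatForm (resForm p deltaForm)))
    (fun γ hγ ↦ by
      rw [ModularForm.div_slash_SL2, deltaForm_pow_slash]
      congr 1
      exact SlashInvariantFormClass.slash_action_eq (hatForm (resForm p deltaForm)) _ ⟨γ, hγ, rfl⟩)
    ((show MDiff (⇑deltaForm ^ p) by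
        rw [← coe_resForm (p := p) deltaForm, ← ModularForm.coe_pow]
        exact ((resForm p deltaForm).pow p).holo').div
      (hatForm (resForm p deltaForm)).holo' (fun τ ↦ by
        show ⇑(hatForm (resForm p deltaForm)) τ ≠ 0
        rw [coe_hatForm_resForm]
        exact ModularForm.discriminant_ne_zero _))
    (by
      rw [show ⇑deltaForm ^ p / ⇑(hatForm (resForm p deltaForm)) =
          fun τ ↦ deltaForm τ ^ p / deltaForm (ModularForm.heckeDiagMatrix p • τ) by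
        rw [coe_hatForm_resForm]; rfl]
      refine deltaForm_pow_div_isBounded (s := p) (by simp [NeZero.ne p]) (fun τ ↦ ?_) le_rfl
      rw [← UpperHalfPlane.coe_im, ModularForm.coe_heckeDiagMatrix_smul (NeZero.ne p)]
      simp)
    (by
      rw [ModularForm.div_slash_SL2, deltaForm_pow_slash,
        show ⇑(hatForm (resForm p deltaForm)) =
          fun z ↦ (⇑deltaForm ∣[(12 : ℤ)] ModularGroup.S) (scalePt p z) from rfl,
        show (fun z ↦ (⇑deltaForm ∣[(12 : ℤ)] ModularGroup.S) (scalePt p z)) ∣[(12 : ℤ)]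
            ModularGroup.S =
          fun τ ↦ (-(p : ℂ)) ^ (-12 : ℤ) * deltaForm (ModularForm.heckeMatrix p 0 • τ) from
          funext (hatFun_slash_S 12 deltaForm)]
      have h : IsBoundedAtImInfty
          (fun τ ↦ deltaForm τ ^ p / deltaForm (ModularForm.heckeMatrix p 0 • τ)) := by
        refine deltaForm_pow_div_isBounded (s := (p : ℝ)⁻¹) (by simp [NeZero.ne p]) (fun τ ↦ ?_) ?_
        · rw [← UpperHalfPlane.coe_im, ModularForm.coe_heckeMatrix_smul (NeZero.ne p)]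
          simp [div_eq_inv_mul]
          left
          field_simp
        · have h1 : (1 : ℝ) ≤ p := by exact_mod_cast (NeZero.pos p)
          exact (inv_le_one_of_one_le₀ h1).trans h1
      refine Asymptotics.IsBigO.congr_left
        ((Filter.const_boundedAtFilter _ (((-(p : ℂ)) ^ (-12 : ℤ))⁻¹)).mul h) (fun τ ↦ ?_)
      simp only [Pi.mul_apply, Pi.div_apply, Pi.pow_apply, Function.const_apply]
      ring)

end FermatLib.Mazur.EisUpper

end
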