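import Fermat.Prelude.Def_CuspForm_HeckeLocal
import Fermat.Prelude.Def_CuspForm_HeckeEvalForms
import Fermat.Prelude.Thm_ModularFormClass_qCoeff_heckeT
import Fermat.Prelude.Thm_ModularFormClass_qCoeff_heckeU
import Fermat.Prelude.Thm_CongruenceSubgroup_one_mem_strictPeriods_Gamma0
import Mathlib.NumberTheory.ArithmeticFunction.Misc

/-!
# Integral cusp forms as the dual of the Hecke algebra

The pairing `(t, f) ↦ a₁(t f)` identifies `intLattice p 2` with the `ℤ`-dual of
`heckeLatticeAlgebra p ∅`; so an Eisenstein congruence of the Hecke algebra is a congruence of a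
cusp form with the Eisenstein series.
-/

set_option autoImplicit false

noncomputable section

open ModularCurve CuspForm
open scoped ArithmeticFunction.sigma

namespace FermatLib.Mazur.EisUpper

variable (p : ℕ) [Fact p.Prime]

/-- `∑ d` over the divisors `d` of `n` prime to `p`. -/
def primeToSigma (n : ℕ) : ℤ :=
  (σ 1 n : ℤ) - if p ∣ n then (p : ℤ) * σ 1 (n / p) else 0

theorem sigma_one_prime_mul {l : ℕ} (hl : l.Prime) {k : ℕ} (hk : k ≠ 0) :
    (σ 1 (l * k) : ℤ) + (if l ∣ k then (l : ℤ) * σ 1 (k / l) else 0) = (1 + l) * σ 1 k := by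
  obtain ⟨a, k', hk', rfl⟩ := Nat.exists_eq_pow_mul_and_not_dvd hk l hl.ne_one
  have hcop : ∀ b, Nat.Coprime (l ^ b) k' := fun b ↦
    Nat.Coprime.pow_left _ (hl.coprime_iff_not_dvd.mpr hk')
  have hmul : ∀ b, (σ 1 (l ^ b * k') : ℤ) = (σ 1 (l ^ b) : ℤ) * σ 1 k' := fun b ↦ by
    rw [ArithmeticFunction.isMultiplicative_sigma.map_mul_of_coprime (hcop b), Nat.cast_mul]
  have hpow : ∀ b, (σ 1 (l ^ (b + 1)) : ℤ) = 1 + l * σ 1 (l ^ b) := fun b ↦ by
    rw [ArithmeticFunction.sigma_apply_prime_pow hl, ArithmeticFunction.sigma_apply_prime_pow hl,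
      Finset.sum_range_succ']
    push_cast
    rw [Finset.mul_sum]
    simp only [mul_one, pow_zero, add_comm (∑ i ∈ _, _)]
    exact congrArg _ (Finset.sum_congr rfl fun i _ ↦ by ring)
  rw [← mul_assoc, ← pow_succ', hmul]
  rcases a with _ | a
  · rw [if_neg (by simpa using hk'), hpow, hmul]
    simp
  · rw [if_pos (Dvd.dvd.mul_right (dvd_pow_self l a.succ_ne_zero) k'),
      show l ^ (a + 1) * k' / l = l ^ a * k' by
        rw [pow_succ', mul_assoc, Nat.mul_div_cancel_left _ hl.pos],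
      hmul, hmul]
    linear_combination (hpow (a + 1) - hpow a) * (σ 1 k' : ℤ)

theorem primeToSigma_one : primeToSigma p 1 = 1 := by
  simp [primeToSigma, (Fact.out : p.Prime).ne_one]

theorem primeToSigma_self_mul {k : ℕ} (hk : k ≠ 0) :
    primeToSigma p (p * k) = primeToSigma p k := by
  have h := sigma_one_prime_mul (Fact.out : p.Prime) hk
  rw [primeToSigma, primeToSigma, if_pos (dvd_mul_right p k),
    Nat.mul_div_cancel_left _ (NeZero.pos p)]
  linear_combination h

theorem primeToSigma_prime_mul {l : ℕ} (hl : l.Prime) (hlp : l ≠ p) {k : ℕ} (hk : k ≠ 0) :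
    primeToSigma p (l * k) + (if l ∣ k then (l : ℤ) * primeToSigma p (k / l) else 0) =
      (1 + l) * primeToSigma p k := by
  have hp : p.Prime := Fact.out
  have hc : Nat.Coprime p l := (Nat.coprime_primes hp hl).mpr (Ne.symm hlp)
  have h1 := sigma_one_prime_mul hl hk
  have e1 : p ∣ l * k ↔ p ∣ k := ⟨hc.dvd_of_dvd_mul_left, fun h ↦ h.mul_left _⟩
  simp only [primeToSigma, e1]
  by_cases hpk : p ∣ k
  · obtain ⟨k', rfl⟩ := hpk
    have hk' : k' ≠ 0 := right_ne_zero_of_mul hk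
    have h2 := sigma_one_prime_mul hl hk'
    have e2 : l ∣ p * k' ↔ l ∣ k' :=
      ⟨hc.symm.dvd_of_dvd_mul_left, fun h ↦ h.mul_left _⟩
    simp only [e2, dvd_mul_right, if_true, Nat.mul_div_cancel_left _ (NeZero.pos p)] at h1 ⊢
    rw [show l * (p * k') / p = l * k' by
      rw [mul_left_comm, Nat.mul_div_cancel_left _ (NeZero.pos p)]]
    by_cases hlk : l ∣ k'
    · obtain ⟨k'', rfl⟩ := hlk
      simp only [dvd_mul_right, if_true, Nat.mul_div_cancel_left _ hl.pos,
        mul_left_comm p l, Nat.mul_div_cancel_left _ (NeZero.pos p)] at h1 h2 ⊢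
      linear_combination h1 - (p : ℤ) * h2
    · simp only [hlk, if_false] at h1 h2 ⊢
      linear_combination h1 - (p : ℤ) * h2
  · simp only [hpk, if_false]
    by_cases hlk : l ∣ k
    · have : ¬ p ∣ k / l := fun h ↦ hpk (h.trans (Nat.div_dvd_of_dvd hlk))
      simp only [hlk, this, if_true, if_false] at h1 ⊢
      linear_combination h1
    · simp only [hlk, if_false] at h1 ⊢
      linear_combination h1

/-! ### Coefficients of integral forms -/

theorem exists_intCoeff (f : ↥(intLattice p 2)) (n : ℕ) :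
    ∃ z : ℤ, ModularFormClass.qCoeff ⇑(f : CuspForm (CongruenceSubgroup.Gamma0 p) 2) n = (z : ℂ) := by
  obtain ⟨f, hf⟩ := f
  induction hf using Submodule.span_induction with
  | mem x hx => exact hx n
  | zero => exact ⟨0, by simp [ModularFormClass.qCoeff, UpperHalfPlane.qExpansion_zero]⟩
  | add x y _ _ hx hy =>
    obtain ⟨a, ha⟩ := hx
    obtain ⟨b, hb⟩ := hy
    refine ⟨a + b, ?_⟩
    simp only [ModularFormClass.qCoeff, FunLike.coe_add] at ha hb ⊢
    rw [ModularForm.qExpansion_add one_pos (CongruenceSubgroup.one_mem_strictPeriods_Gamma0 p),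
      map_add, ha, hb, Int.cast_add]
  | smul c x _ hx =>
    obtain ⟨a, ha⟩ := hx
    refine ⟨c * a, ?_⟩
    have h1 : ⇑(c • x) = (c : ℂ) • ⇑x := by
      ext z
      simp
    simp only [ModularFormClass.qCoeff, h1] at ha ⊢
    rw [ModularForm.qExpansion_smul one_pos (CongruenceSubgroup.one_mem_strictPeriods_Gamma0 p)]
    simp [ha]

/-- The coefficients of an integral cusp form. -/
def intCoeff (f : ↥(intLattice p 2)) (n : ℕ) : ℤ := (exists_intCoeff p f n).choose

theorem cast_intCoeff (f : ↥(intLattice p 2)) (n : ℕ) :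
    (intCoeff p f n : ℂ) =
      ModularFormClass.qCoeff ⇑(f : CuspForm (CongruenceSubgroup.Gamma0 p) 2) n :=
  (exists_intCoeff p f n).choose_spec.symm

theorem intCoeff_zero (f : ↥(intLattice p 2)) : intCoeff p f 0 = 0 := by
  have h : (intCoeff p f 0 : ℂ) = 0 := by
    rw [cast_intCoeff]
    exact CuspFormClass.qExpansion_coeff_zero _ one_pos
      (CongruenceSubgroup.one_mem_strictPeriods_Gamma0 p)
  exact_mod_cast h

theorem intCoeff_add (f g : ↥(intLattice p 2)) (n : ℕ) :
    intCoeff p (f + g) n = intCoeff p f n + intCoeff p g n := by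
  apply Int.cast_injective (α := ℂ)
  rw [Int.cast_add, cast_intCoeff, cast_intCoeff, cast_intCoeff, Submodule.coe_add,
    ModularFormClass.qCoeff, FunLike.coe_add,
    ModularForm.qExpansion_add one_pos (CongruenceSubgroup.one_mem_strictPeriods_Gamma0 p), map_add]
  rfl

theorem eq_zero_of_intCoeff (f : ↥(intLattice p 2)) (h : ∀ n, intCoeff p f n = 0) : f = 0 := by
  refine Subtype.ext ?_
  have hc := CongruenceSubgroup.one_mem_strictPeriods_Gamma0 p
  refine DFunLike.coe_injective ((UpperHalfPlane.qExpansion_eq_zero_iff one_pos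
    (SlashInvariantFormClass.periodic_comp_ofComplex _ hc)
    (CuspFormClass.holo _) ?_).mp (PowerSeries.ext fun n ↦ ?_))
  · have : Fact (IsCusp OnePoint.infty ((CongruenceSubgroup.Gamma0 p).map
        (Matrix.SpecialLinearGroup.mapGL ℝ))) := ⟨Subgroup.isCusp_of_mem_strictPeriods one_pos hc⟩
    exact ModularFormClass.bdd_at_infty (f : CuspForm (CongruenceSubgroup.Gamma0 p) 2)
  · show ModularFormClass.qCoeff ⇑(f : CuspForm (CongruenceSubgroup.Gamma0 p) 2) n = _
    rw [← cast_intCoeff, h n, Int.cast_zero, map_zero]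

/-- The images of the Hecke generators. -/
def latticeGen (l : Nat.Primes) : ↥(heckeLatticeAlgebra p ∅) :=
  latticeRestrictHom p ∅ (heckeFormsGen p 2 l)

/-- The generator `T` or `U` of the Hecke algebra acting on coefficients. -/
theorem intCoeff_latticeGen (l : Nat.Primes) (f : ↥(intLattice p 2)) (n : ℕ) :
    intCoeff p ((latticeGen p l : Module.End ℤ ↥(intLattice p 2)) f) n =
      intCoeff p f (n * l) +
        if ¬ (l : ℕ) ∣ p ∧ (l : ℕ) ∣ n then (l : ℤ) * intCoeff p f (n / l) else 0 := by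
  have hs := CongruenceSubgroup.one_mem_strictPeriods_Gamma0 p
  apply Int.cast_injective (α := ℂ)
  rw [cast_intCoeff]
  show ModularFormClass.qCoeff
    ⇑((heckeFormsGen p 2 l : Module.End ℂ (CuspForm (CongruenceSubgroup.Gamma0 p) 2)) f) n = _
  by_cases hl : (l : ℕ) ∣ p
  · rw [heckeFormsGen_of_dvd hl, heckeAlgebra.coe_U, CuspForm.coe_heckeULin_apply,
      ModularFormClass.qCoeff_heckeU _ hs l.2.ne_zero, ModularForm.coeffHeckeU_apply,
      if_neg (fun h ↦ h.1 hl), add_zero, cast_intCoeff]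
  · rw [heckeFormsGen_of_not_dvd hl, heckeAlgebra.coe_T, CuspForm.coe_heckeTLin_apply,
      ModularFormClass.qCoeff_heckeT _ hs l.2.ne_zero, ModularForm.coeffHeckeT_apply]
    by_cases hn : (l : ℕ) ∣ n
    · rw [if_pos hn, if_pos ⟨hl, hn⟩]
      push_cast
      rw [cast_intCoeff, cast_intCoeff]
      norm_num
    · rw [if_neg hn, if_neg (fun h ↦ hn h.2), add_zero, add_zero, cast_intCoeff]

/-- Induction over `n` through the Hecke generators. -/
theorem intCoeff_prime_mul (l : Nat.Primes) (t : ↥(heckeLatticeAlgebra p ∅))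
    (f : ↥(intLattice p 2)) (k : ℕ) :
    intCoeff p ((t : Module.End ℤ ↥(intLattice p 2)) f) (l * k) =
      intCoeff p (((latticeGen p l * t : ↥(heckeLatticeAlgebra p ∅)) :
        Module.End ℤ ↥(intLattice p 2)) f) k -
        if ¬ (l : ℕ) ∣ p ∧ (l : ℕ) ∣ k then
          (l : ℤ) * intCoeff p ((t : Module.End ℤ ↥(intLattice p 2)) f) (k / l) else 0 := by
  rw [show ((latticeGen p l * t : ↥(heckeLatticeAlgebra p ∅)) :
      Module.End ℤ ↥(intLattice p 2)) f =
      (latticeGen p l : Module.End ℤ ↥(intLattice p 2))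
        ((t : Module.End ℤ ↥(intLattice p 2)) f) from rfl,
    intCoeff_latticeGen, mul_comm (l : ℕ) k, add_sub_cancel_right]

theorem intCoeff_eq_zero_of_one (f : ↥(intLattice p 2))
    (h : ∀ t : ↥(heckeLatticeAlgebra p ∅),
      intCoeff p ((t : Module.End ℤ ↥(intLattice p 2)) f) 1 = 0) :
    ∀ (n : ℕ) (t : ↥(heckeLatticeAlgebra p ∅)),
      intCoeff p ((t : Module.End ℤ ↥(intLattice p 2)) f) n = 0 := by
  intro n
  induction n using Nat.strong_induction_on with
  | _ n ih =>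
    intro t
    rcases eq_or_ne n 0 with rfl | h0
    · exact intCoeff_zero p _
    rcases eq_or_ne n 1 with rfl | h1
    · exact h t
    obtain ⟨l, hl, k, rfl⟩ := Nat.exists_prime_and_dvd h1
    have hk : k < l * k := lt_mul_of_one_lt_left (Nat.pos_of_ne_zero (right_ne_zero_of_mul h0))
      hl.one_lt
    refine (intCoeff_prime_mul p ⟨l, hl⟩ t f k).trans ?_
    rw [ih k hk, ih (k / l) ((Nat.div_le_self _ _).trans_lt hk)]
    simp

/-- `t ↦ a₁(t f)`. -/
def pairingAux (f : ↥(intLattice p 2)) : ↥(heckeLatticeAlgebra p ∅) →+ ℤ :=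
  AddMonoidHom.mk' (fun t ↦ intCoeff p ((t : Module.End ℤ ↥(intLattice p 2)) f) 1) fun s t ↦ by
    simp only [Subalgebra.coe_add, LinearMap.add_apply, intCoeff_add]

theorem pairingAux_add (f g : ↥(intLattice p 2)) :
    (pairingAux p (f + g)).toIntLinearMap =
      (pairingAux p f).toIntLinearMap + (pairingAux p g).toIntLinearMap := by
  refine LinearMap.ext fun t ↦ ?_
  show intCoeff p ((t : Module.End ℤ ↥(intLattice p 2)) (f + g)) 1 = _
  rw [map_add, intCoeff_add]
  rfl

/-- `f ↦ (t ↦ a₁(t f))`. -/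
def pairing : ↥(intLattice p 2) →ₗ[ℤ] ↥(heckeLatticeAlgebra p ∅) →ₗ[ℤ] ℤ :=
  (AddMonoidHom.mk' (fun f ↦ (pairingAux p f).toIntLinearMap) (pairingAux_add p)).toIntLinearMap

theorem pairing_apply (f : ↥(intLattice p 2)) (t : ↥(heckeLatticeAlgebra p ∅)) :
    pairing p f t = intCoeff p ((t : Module.End ℤ ↥(intLattice p 2)) f) 1 := rfl

theorem pairing_injective : Function.Injective (pairing p) := by
  rw [injective_iff_map_eq_zero]
  intro f hf
  refine eq_zero_of_intCoeff p f fun n ↦ ?_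
  simpa using intCoeff_eq_zero_of_one p f (fun t ↦ by rw [← pairing_apply, hf]; rfl) n 1

theorem pairing_flip_injective : Function.Injective (pairing p).flip := by
  rw [injective_iff_map_eq_zero]
  intro s hs
  refine Subtype.ext (LinearMap.ext fun f ↦ eq_zero_of_intCoeff p _ fun n ↦ ?_)
  simpa using intCoeff_eq_zero_of_one p ((s : Module.End ℤ ↥(intLattice p 2)) f) (fun t ↦ by
    rw [show (t : Module.End ℤ ↥(intLattice p 2)) ((s : Module.End ℤ ↥(intLattice p 2)) f) =
        (s : Module.End ℤ ↥(intLattice p 2)) ((t : Module.End ℤ ↥(intLattice p 2)) f) from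
      congrArg (fun x : ↥(heckeLatticeAlgebra p ∅) ↦ (x : Module.End ℤ ↥(intLattice p 2)) f)
        (mul_comm t s), ← pairing_apply, ← LinearMap.flip_apply, hs]
    rfl) n 1

theorem intCoeff_ediv {k : ℤ} (hk : k ≠ 0) (f : ↥(intLattice p 2))
    (h : ∀ n, k ∣ intCoeff p f n) : ∃ f' : ↥(intLattice p 2), f = k • f' := by
  have hs := CongruenceSubgroup.one_mem_strictPeriods_Gamma0 p
  have hkc : (k : ℂ) ≠ 0 := Int.cast_ne_zero.mpr hk
  have hmem : (k : ℂ)⁻¹ • (f : CuspForm (CongruenceSubgroup.Gamma0 p) 2) ∈ intLattice p 2 := by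
    refine Submodule.subset_span fun n ↦ ?_
    obtain ⟨b, hb⟩ := h n
    refine ⟨b, ?_⟩
    rw [ModularFormClass.qCoeff, FunLike.coe_smul,
      ModularForm.qExpansion_smul one_pos hs, PowerSeries.coeff_smul,
      show (UpperHalfPlane.qExpansion 1 ⇑(f : CuspForm (CongruenceSubgroup.Gamma0 p) 2)).coeff n =
        ModularFormClass.qCoeff ⇑(f : CuspForm (CongruenceSubgroup.Gamma0 p) 2) n from rfl,
      ← cast_intCoeff, hb, smul_eq_mul, Int.cast_mul, inv_mul_cancel_left₀ hkc]
  refine ⟨⟨_, hmem⟩, Subtype.ext (DFunLike.coe_injective (funext fun z ↦ ?_))⟩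
  simp [hkc]

theorem exists_smul_mem_of_finrank {M : Type*} [AddCommGroup M] [Module.Finite ℤ M]
    (N : Submodule ℤ M) (h : Module.finrank ℤ M ≤ Module.finrank ℤ ↥N) (x : M) :
    ∃ k : ℤ, k ≠ 0 ∧ k • x ∈ N := by
  have hq := Submodule.finrank_quotient_add_finrank N
  have h0 : Module.finrank ℤ (M ⧸ N) = 0 := by omega
  obtain ⟨k, hk, hkx⟩ := Module.finrank_eq_zero_iff.mp h0 (Submodule.Quotient.mk x)
  exact ⟨k, hk, (Submodule.Quotient.mk_eq_zero _).mp hkx⟩

private theorem exists_smul_mem_range_of_injective {A B : Type*} [AddCommGroup A] [AddCommGroup B]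
    [Module.Finite ℤ A] [Module.Free ℤ A] [Module.Finite ℤ B] [Module.Free ℤ B]
    (q : A →ₗ[ℤ] B →ₗ[ℤ] ℤ) (hq : Function.Injective q) (hf : Function.Injective q.flip)
    (φ : B →ₗ[ℤ] ℤ) : ∃ k : ℤ, k ≠ 0 ∧ k • φ ∈ LinearMap.range q := by
  refine exists_smul_mem_of_finrank (LinearMap.range q) ?_ φ
  have h := LinearMap.finrank_le_finrank_of_injective hf
  rw [Module.finrank_linearMap_self] at h
  rw [Module.finrank_linearMap_self, LinearMap.finrank_range_of_inj hq]
  exact h

theorem exists_smul_mem_range (φ : ↥(heckeLatticeAlgebra p ∅) →ₗ[ℤ] ℤ) :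
    ∃ k : ℤ, k ≠ 0 ∧ k • φ ∈ LinearMap.range (pairing p) := by
  have := intLattice.moduleFinite p
  have := intLattice.moduleFree p
  exact exists_smul_mem_range_of_injective (pairing p) (pairing_injective p)
    (pairing_flip_injective p) φ

/-- A divisibility propagates along the recursion of the coefficients. -/
theorem dvd_of_coeff_rec {R : Type*} [Mul R] (N : ℕ) (g : Nat.Primes → R) (c : R → ℕ → ℤ) (k : ℤ)
    (h0 : ∀ t, c t 0 = 0) (h1 : ∀ t, k ∣ c t 1)
    (hrec : ∀ (l : Nat.Primes) t j, c t (l * j) = c (g l * t) j -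
      if ¬ (l : ℕ) ∣ N ∧ (l : ℕ) ∣ j then (l : ℤ) * c t (j / l) else 0) :
    ∀ n t, k ∣ c t n := by
  intro n
  induction n using Nat.strong_induction_on with
  | _ n ih =>
    intro t
    rcases eq_or_ne n 0 with rfl | hn0
    · rw [h0]; exact dvd_zero _
    rcases eq_or_ne n 1 with rfl | hn1
    · exact h1 t
    obtain ⟨l, hl, j, rfl⟩ := Nat.exists_prime_and_dvd hn1
    have hj : j < l * j := lt_mul_of_one_lt_left (Nat.pos_of_ne_zero (right_ne_zero_of_mul hn0))
      hl.one_lt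
    rw [show c t (l * j) = _ from hrec ⟨l, hl⟩ t j]
    refine dvd_sub (ih j hj _) ?_
    split_ifs
    · exact (ih (j / l) ((Nat.div_le_self _ _).trans_lt hj) t).mul_left _
    · exact dvd_zero _

/-- The coefficient function of `t ↦ t f`. -/
abbrev actCoeff (f : ↥(intLattice p 2)) (t : ↥(heckeLatticeAlgebra p ∅)) (n : ℕ) : ℤ :=
  intCoeff p ((t : Module.End ℤ ↥(intLattice p 2)) f) n

theorem dvd_intCoeff_of_pairing {k : ℤ} (f : ↥(intLattice p 2))
    (h : ∀ t, k ∣ pairing p f t) (n : ℕ) : k ∣ intCoeff p f n := by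
  have h' := dvd_of_coeff_rec p (latticeGen p) (actCoeff p f) k (fun t ↦ intCoeff_zero p _)
    (fun t ↦ h t) (fun l t j ↦ intCoeff_prime_mul p l t f j) n 1
  exact h'

theorem pairing_zsmul (k : ℤ) (f : ↥(intLattice p 2)) (t : ↥(heckeLatticeAlgebra p ∅)) :
    pairing p (k • f) t = k * pairing p f t := by
  exact (LinearMap.congr_fun (map_zsmul (pairing p) k f) t).trans (smul_eq_mul _ _)

theorem exists_zsmul_pairing {k : ℤ} (hk : k ≠ 0) (f : ↥(intLattice p 2))
    (φ : ↥(heckeLatticeAlgebra p ∅) →ₗ[ℤ] ℤ) (hf : ∀ t, pairing p f t = k * φ t) :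
    ∃ f', ∀ t, pairing p f' t = φ t := by
  obtain ⟨f', hf'⟩ := intCoeff_ediv p hk f
    (dvd_intCoeff_of_pairing p f fun t ↦ ⟨φ t, hf t⟩)
  refine ⟨f', fun t ↦ mul_left_cancel₀ hk ?_⟩
  exact ((pairing_zsmul p k f' t).symm.trans
    (congrArg (fun x ↦ pairing p x t) hf'.symm)).trans (hf t)

/-- Every linear functional on the Hecke algebra is `t ↦ a₁(t f)` for an integral form `f`. -/
theorem pairing_surjective (φ : ↥(heckeLatticeAlgebra p ∅) →ₗ[ℤ] ℤ) :
    ∃ f, ∀ t, pairing p f t = φ t := by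
  obtain ⟨k, hk, f, hf⟩ := exists_smul_mem_range p φ
  exact exists_zsmul_pairing p hk f φ fun t ↦ by
    rw [hf, LinearMap.smul_apply, smul_eq_mul]

/-- The image of the Eisenstein ideal in the Hecke algebra. -/
abbrev eisIdealLattice : Ideal ↥(heckeLatticeAlgebra p ∅) :=
  Ideal.map ((latticeRestrictHom p ∅).toRingHom.comp (heckeEvalForms p 2)) (eisensteinIdeal p)

/-- The Hecke polynomials mapped to the lattice Hecke algebra. -/
def evalLattice : HeckeAlg →+* ↥(heckeLatticeAlgebra p ∅) :=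
  (latticeRestrictHom p ∅).toRingHom.comp (heckeEvalForms p 2)

theorem evalLattice_sub_mem (P : HeckeAlg) :
    evalLattice p P - ((MvPolynomial.aeval (eisensteinSystem p) P : ℤ) :
      ↥(heckeLatticeAlgebra p ∅)) ∈ eisIdealLattice p := by
  have h : P - MvPolynomial.C (MvPolynomial.aeval (eisensteinSystem p) P : ℤ) ∈
      eisensteinIdeal p := by
    rw [eisensteinIdeal, mem_eigenIdeal_iff, map_sub, MvPolynomial.aeval_C]
    simp
  have h' := Ideal.mem_map_of_mem (evalLattice p) h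
  rwa [map_sub, eq_intCast (MvPolynomial.C : ℤ →+* HeckeAlg), map_intCast] at h'

theorem heckeEvalForms_surjective : Function.Surjective (heckeEvalForms p 2) := by
  intro s
  obtain ⟨s, hs⟩ := s
  induction hs using Algebra.adjoin_induction with
  | mem x hx =>
    rcases hx with ⟨l, hl, hlp, -, rfl⟩ | ⟨q, hqp, hq, -, rfl⟩
    · exact ⟨heckeGen ⟨l, hl⟩, (heckeEvalForms_heckeGen p 2 ⟨l, hl⟩).trans
        (heckeFormsGen_of_not_dvd (ℓ := (⟨l, hl⟩ : Nat.Primes)) hlp)⟩
    · exact ⟨heckeGen ⟨q, hq⟩, (heckeEvalForms_heckeGen p 2 ⟨q, hq⟩).trans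
        (heckeFormsGen_of_dvd (q := (⟨q, hq⟩ : Nat.Primes)) hqp)⟩
  | algebraMap r => exact ⟨MvPolynomial.C r, heckeEvalForms_C p 2 r⟩
  | add x y _ _ hx hy =>
    obtain ⟨a, ha⟩ := hx
    obtain ⟨b, hb⟩ := hy
    exact ⟨a + b, by rw [map_add, ha, hb]; rfl⟩
  | mul x y _ _ hx hy =>
    obtain ⟨a, ha⟩ := hx
    obtain ⟨b, hb⟩ := hy
    exact ⟨a * b, by rw [map_mul, ha, hb]; rfl⟩

theorem evalLattice_surjective : Function.Surjective (evalLattice p) :=
  (latticeRestrictHom_surjective p ∅).comp (heckeEvalForms_surjective p)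

theorem evalLattice_heckeGen (l : Nat.Primes) : evalLattice p (heckeGen l) = latticeGen p l :=
  congrArg (latticeRestrictHom p ∅) (heckeEvalForms_heckeGen p 2 l)

theorem latticeGen_sub_mem (l : Nat.Primes) :
    latticeGen p l - ((eisensteinSystem p l : ℤ) : ↥(heckeLatticeAlgebra p ∅)) ∈
      eisIdealLattice p := by
  have h := evalLattice_sub_mem p (heckeGen l)
  rwa [aeval_heckeGen, evalLattice_heckeGen] at h

theorem exists_intLift {R : Type*} [CommRing R] [Module.Free ℤ R] (I : Ideal R)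
    (hI : ∀ t : R, ∃ z : ℤ, t - (z : R) ∈ I) :
    ∃ φ : R →ₗ[ℤ] ℤ, ∀ t, t - ((φ t : ℤ) : R) ∈ I := by
  have hs : Function.Surjective (Int.castRingHom (R ⧸ I)) := fun x ↦ by
    obtain ⟨t, rfl⟩ := Ideal.Quotient.mk_surjective x
    obtain ⟨z, hz⟩ := hI t
    exact ⟨z, (map_intCast (Ideal.Quotient.mk I) z).symm.trans (Ideal.Quotient.eq.mpr hz).symm⟩
  obtain ⟨φ, hφ⟩ := Module.projective_lifting_property
    (Int.castRingHom (R ⧸ I)).toAddMonoidHom.toIntLinearMap
    (Ideal.Quotient.mk I).toAddMonoidHom.toIntLinearMap hs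
  exact ⟨φ, fun t ↦ Ideal.Quotient.eq.mp
    ((LinearMap.congr_fun hφ t).symm.trans (map_intCast (Ideal.Quotient.mk I) (φ t)).symm)⟩

theorem exists_nat_generator {R : Type*} [CommRing R] (I : Ideal R) :
    ∃ m : ℕ, ∀ z : ℤ, (m : ℤ) ∣ z ↔ (z : R) ∈ I := by
  refine ⟨(Submodule.IsPrincipal.generator (I.comap (Int.castRingHom R))).natAbs, fun z ↦ ?_⟩
  rw [Int.natAbs_dvd, ← Submodule.IsPrincipal.mem_iff_generator_dvd, Ideal.mem_comap]
  rfl

/-- A congruence propagates along the recursion of the coefficients. -/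
theorem mem_of_coeff_rec {R : Type*} [CommRing R] (I : Ideal R) (g : Nat.Primes → R)
    (e : Nat.Primes → ℤ) (he : ∀ l, g l - (e l : R) ∈ I)
    (hep : ∀ l : Nat.Primes, (l : ℕ) ∣ p → e l = 1)
    (hel : ∀ l : Nat.Primes, ¬ (l : ℕ) ∣ p → e l = 1 + (l : ℤ))
    (c : R → ℕ → ℤ) (h1 : ∀ t, t - (c t 1 : R) ∈ I)
    (hrec : ∀ (l : Nat.Primes) t j, c t (l * j) = c (g l * t) j -
      if ¬ (l : ℕ) ∣ p ∧ (l : ℕ) ∣ j then (l : ℤ) * c t (j / l) else 0) :
    ∀ n, 1 ≤ n → ∀ t, t * (primeToSigma p n : R) - (c t n : R) ∈ I := by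
  intro n
  induction n using Nat.strong_induction_on with
  | _ n ih =>
    intro hn t
    rcases eq_or_ne n 1 with rfl | hn1
    · rw [primeToSigma_one, Int.cast_one, mul_one]; exact h1 t
    obtain ⟨L, k, rfl⟩ : ∃ (L : Nat.Primes) (k : ℕ), n = L * k :=
      (Nat.exists_prime_and_dvd hn1).elim fun l h ↦ ⟨⟨l, h.1⟩, h.2⟩
    have hk0 : k ≠ 0 := by rintro rfl; simp at hn
    have hk : k < L * k := lt_mul_of_one_lt_left (Nat.pos_of_ne_zero hk0) L.2.one_lt
    have hA := ih k hk (by omega) (g L * t)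
    have hB := I.mul_mem_right (t * (primeToSigma p k : R)) (he L)
    rw [hrec L t k]
    by_cases hlp : (L : ℕ) ∣ p
    · rw [if_neg (fun h ↦ h.1 hlp), sub_zero, (Nat.prime_dvd_prime_iff_eq L.2 Fact.out).mp hlp,
        primeToSigma_self_mul p hk0]
      rw [hep L hlp] at hB
      convert I.sub_mem hA hB using 1
      push_cast
      ring
    · have hs := congrArg (Int.cast : ℤ → R)
        (primeToSigma_prime_mul p L.2 (fun h ↦ hlp (h ▸ dvd_rfl)) hk0)
      rw [hel L hlp] at hB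
      by_cases hlk : (L : ℕ) ∣ k
      · rw [if_pos hlk] at hs
        rw [if_pos ⟨hlp, hlk⟩]
        have hC := I.mul_mem_left ((L : ℕ) : R) (ih (k / L) ((Nat.div_le_self _ _).trans_lt hk)
          (Nat.div_pos (Nat.le_of_dvd (Nat.pos_of_ne_zero hk0) hlk) L.2.pos) t)
        convert I.sub_mem (I.sub_mem hA hB) hC using 1
        push_cast at hs ⊢
        linear_combination t * hs
      · rw [if_neg hlk] at hs
        rw [if_neg (fun h ↦ hlk h.2), sub_zero]
        convert I.sub_mem hA hB using 1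
        push_cast at hs ⊢
        linear_combination t * hs

theorem exists_functional :
    ∃ φ : ↥(heckeLatticeAlgebra p ∅) →ₗ[ℤ] ℤ,
      ∀ t, t - ((φ t : ℤ) : ↥(heckeLatticeAlgebra p ∅)) ∈ eisIdealLattice p := by
  refine exists_intLift (eisIdealLattice p) fun t ↦ ?_
  obtain ⟨P, rfl⟩ := evalLattice_surjective p t
  exact ⟨_, evalLattice_sub_mem p P⟩

/-- An Eisenstein congruence of the Hecke algebra is given by an integral cusp form. -/
theorem exists_congruent_cuspForm :
    ∃ (m : ℕ) (f : ↥(intLattice p 2)),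
      (∀ z : ℤ, (m : ℤ) ∣ z → (z : ↥(heckeLatticeAlgebra p ∅)) ∈ eisIdealLattice p) ∧
        ∀ n, 1 ≤ n → (m : ℤ) ∣ primeToSigma p n - intCoeff p f n := by
  obtain ⟨φ, hφ⟩ := exists_functional p
  obtain ⟨f, hf⟩ := pairing_surjective p φ
  obtain ⟨m, hm⟩ := exists_nat_generator (eisIdealLattice p)
  refine ⟨m, f, fun z hz ↦ (hm z).mp hz, fun n hn ↦ (hm _).mpr ?_⟩
  have h1 : ∀ t : ↥(heckeLatticeAlgebra p ∅),
      t - ((actCoeff p f t 1 : ℤ) : ↥(heckeLatticeAlgebra p ∅)) ∈ eisIdealLattice p := fun t ↦ by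
    rw [show actCoeff p f t 1 = pairing p f t from rfl, hf t]; exact hφ t
  have h := mem_of_coeff_rec p (eisIdealLattice p) (latticeGen p) (eisensteinSystem p)
    (latticeGen_sub_mem p) (fun l h ↦ eisensteinSystem_of_dvd h)
    (fun l h ↦ eisensteinSystem_of_not_dvd h) (actCoeff p f) h1
    (fun l t j ↦ intCoeff_prime_mul p l t f j) n hn 1
  rw [one_mul, ← Int.cast_sub] at h
  exact h

end FermatLib.Mazur.EisUpper

end
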