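import Mathlib.NumberTheory.ModularForms.LevelOne.GradedRing
import Mathlib.Data.ZMod.Basic
import Fermat.Agent.Mazur.EisUpperForms

/-!
# Integral expansions used in the upper bound of the Eisenstein index
-/

set_option autoImplicit false

noncomputable section

open UpperHalfPlane Function CongruenceSubgroup Matrix.SpecialLinearGroup
open scoped Manifold MatrixGroups ModularForm ArithmeticFunction.sigma

namespace FermatLib.Mazur.EisUpper

/-- `∑ σ_k(n) qⁿ`. -/
def sigmaSeries (k : ℕ) : PowerSeries ℤ := PowerSeries.mk fun n ↦ (σ k n : ℤ)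

theorem coeff_sigmaSeries (k n : ℕ) : PowerSeries.coeff n (sigmaSeries k) = (σ k n : ℤ) :=
  PowerSeries.coeff_mk _ _

theorem constantCoeff_sigmaSeries (k : ℕ) : PowerSeries.constantCoeff (sigmaSeries k) = 0 := by
  rw [← PowerSeries.coeff_zero_eq_constantCoeff, coeff_sigmaSeries]
  simp

theorem twelve_dvd_sigma_sub (n : ℕ) : (12 : ℤ) ∣ (σ 5 n : ℤ) - σ 3 n := by
  rw [ArithmeticFunction.sigma_apply, ArithmeticFunction.sigma_apply, Nat.cast_sum, Nat.cast_sum,
    ← Finset.sum_sub_distrib]
  refine Finset.dvd_sum fun d _ ↦ ?_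
  refine (ZMod.intCast_zmod_eq_zero_iff_dvd _ 12).mp ?_
  push_cast
  generalize (d : ZMod 12) = x
  revert x
  decide

/-- `∑ (σ_5(n) - σ_3(n))/12 qⁿ`. -/
def twelfthSeries : PowerSeries ℤ := PowerSeries.mk fun n ↦ ((σ 5 n : ℤ) - σ 3 n) / 12

theorem sigmaSeries_five :
    sigmaSeries 5 = sigmaSeries 3 + PowerSeries.C 12 * twelfthSeries := by
  ext n
  rw [map_add, PowerSeries.coeff_C_mul, coeff_sigmaSeries, coeff_sigmaSeries, twelfthSeries,
    PowerSeries.coeff_mk, Int.mul_ediv_cancel' (twelve_dvd_sigma_sub n)]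
  ring

/-- The expansion of `E₄`. -/
def eis4Series : PowerSeries ℤ := 1 + PowerSeries.C 240 * sigmaSeries 3

/-- The expansion of `E₆`. -/
def eis6Series : PowerSeries ℤ := 1 - PowerSeries.C 504 * sigmaSeries 5

theorem coeff_eis6Series {n : ℕ} (hn : n ≠ 0) :
    PowerSeries.coeff n eis6Series = -504 * (σ 5 n : ℤ) := by
  rw [eis6Series, map_sub, PowerSeries.coeff_C_mul, coeff_sigmaSeries, PowerSeries.coeff_one,
    if_neg hn]
  ring

theorem coeff_eis4Series {n : ℕ} (hn : n ≠ 0) :
    PowerSeries.coeff n eis4Series = 240 * (σ 3 n : ℤ) := by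
  rw [eis4Series, map_add, PowerSeries.coeff_C_mul, coeff_sigmaSeries, PowerSeries.coeff_one,
    if_neg hn]
  ring

theorem coeff_zero_eis6Series : PowerSeries.coeff 0 eis6Series = 1 := by
  simp [eis6Series, constantCoeff_sigmaSeries]

theorem qNice_levelOne {k : ℤ} (f : ModularForm 𝒮ℒ k) : QNice ⇑f :=
  ⟨by simpa using SlashInvariantFormClass.periodic_comp_ofComplex f one_mem_strictPeriods_SL,
    f.holo', by simpa using ModularFormClass.bdd_at_infty_slash f (1 : SL(2, ℤ))⟩

theorem hasIntQExp_E4 : HasIntQExp ⇑ModularForm.E₄ eis4Series := by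
  refine HasIntQExp.of_qExpansion (qNice_levelOne _) fun n ↦ ?_
  rw [EisensteinSeries.E_qExpansion_coeff (by norm_num) ⟨2, rfl⟩]
  rcases eq_or_ne n 0 with rfl | hn
  · simp [eis4Series, constantCoeff_sigmaSeries]
  · rw [coeff_eis4Series hn]
    simp [hn, show bernoulli 4 = -1 / 30 by decide +kernel]
    norm_num

theorem hasIntQExp_E6 : HasIntQExp ⇑ModularForm.E₆ eis6Series := by
  refine HasIntQExp.of_qExpansion (qNice_levelOne _) fun n ↦ ?_
  rw [EisensteinSeries.E_qExpansion_coeff (by norm_num) ⟨3, rfl⟩]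
  rcases eq_or_ne n 0 with rfl | hn
  · simp [eis6Series, constantCoeff_sigmaSeries]
  · rw [coeff_eis6Series hn]
    simp [hn, show bernoulli 6 = 1 / 42 by decide +kernel]
    norm_num

/-- The expansion of `Δ`. -/
def deltaSer : PowerSeries ℤ :=
  sigmaSeries 3 + PowerSeries.C 7 * twelfthSeries + PowerSeries.C 100 * sigmaSeries 3 ^ 2
    + PowerSeries.C 8000 * sigmaSeries 3 ^ 3 - PowerSeries.C 147 * sigmaSeries 5 ^ 2

theorem eis_cube_sub_sq :
    eis4Series ^ 3 - eis6Series ^ 2 = PowerSeries.C 1728 * deltaSer := by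
  rw [eis4Series, eis6Series, deltaSer, sigmaSeries_five]
  simp only [map_ofNat]
  ring

theorem hasIntQExp_delta : HasIntQExp ⇑deltaForm deltaSer := by
  have h := (hasIntQExp_E4.pow 3).sub (hasIntQExp_E6.pow 2)
  rw [eis_cube_sub_sq] at h
  refine HasIntQExp.of_qExpansion (qNice_levelOne _) fun n ↦ ?_
  have e : (1728 : ℂ) • ⇑deltaForm =
      ⇑ModularForm.E₄ ^ 3 - ⇑ModularForm.E₆ ^ 2 := by
    funext z
    simp only [Pi.smul_apply, smul_eq_mul, Pi.sub_apply, Pi.pow_apply, coe_deltaForm,
      ModularForm.discriminant_eq_E₄_cube_sub_E₆_sq]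
    ring
  have h' := (h.congr e).coeff_eq n
  rw [(qNice_levelOne deltaForm).qExpansion_smul, PowerSeries.coeff_C_mul, PowerSeries.coeff_smul,
    smul_eq_mul, Int.cast_mul] at h'
  exact mul_left_cancel₀ (by norm_num) h'

theorem coeff_zero_deltaSer : PowerSeries.coeff 0 deltaSer = 0 := by
  simp [deltaSer, constantCoeff_sigmaSeries, twelfthSeries]

theorem coeff_one_deltaSer : PowerSeries.coeff 1 deltaSer = 1 := by
  simp [deltaSer, pow_succ, PowerSeries.coeff_mul, Finset.Nat.antidiagonal_succ,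
    coeff_sigmaSeries, twelfthSeries]

/-- `Δ = q · P`. -/
def deltaUnit : PowerSeries ℤ := PowerSeries.mk fun n ↦ PowerSeries.coeff (n + 1) deltaSer

theorem deltaSer_eq : deltaSer = PowerSeries.X * deltaUnit := by
  ext n
  rcases n with _ | n
  · rw [coeff_zero_deltaSer]
    simp
  · simp [deltaUnit, PowerSeries.coeff_succ_X_mul]

theorem constantCoeff_deltaUnit : PowerSeries.constantCoeff deltaUnit = 1 := by
  rw [← PowerSeries.coeff_zero_eq_constantCoeff, deltaUnit, PowerSeries.coeff_mk,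
    coeff_one_deltaSer]

theorem deltaSer_ne_zero : deltaSer ≠ 0 := fun h ↦ by simpa [h] using coeff_one_deltaSer

/-- The inverse of a series with constant term `1`. -/
def invOne (P : PowerSeries ℤ) : PowerSeries ℤ := PowerSeries.invOfUnit P 1

theorem mul_invOne {P : PowerSeries ℤ} (h : PowerSeries.constantCoeff P = 1) :
    P * invOne P = 1 :=
  PowerSeries.mul_invOfUnit P 1 (by rw [h]; rfl)

theorem constantCoeff_invOne {P : PowerSeries ℤ} (h : PowerSeries.constantCoeff P = 1) :
    PowerSeries.constantCoeff (invOne P) = 1 := by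
  have := congrArg (PowerSeries.constantCoeff (R := ℤ)) (mul_invOne h)
  rwa [map_mul, h, one_mul, map_one] at this

theorem hasIntQExp_of_mul {f g : ℍ → ℂ} {P Q R : PowerSeries ℤ} (hf : QNice f)
    (hg : HasIntQExp g Q) (hfg : HasIntQExp (f * g) R) (hQ : Q ≠ 0) (h : P * Q = R) :
    HasIntQExp f P := by
  refine ⟨hf, mul_right_cancel₀ (b := PowerSeries.map (Int.castRingHom ℂ) Q) ?_ ?_⟩
  · exact fun h0 ↦ hQ (PowerSeries.map_injective _ Int.cast_injective (h0.trans (map_zero _).symm))
  · have e := hf.qExpansion_mul hg.nice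
    rw [hg.eq, hfg.eq, ← h, map_mul] at e
    exact e.symm

variable (p : ℕ) [Fact p.Prime]

/-- The expansion of `Δ(τ)^p / Δ(p τ)`. -/
def quotSer : PowerSeries ℤ :=
  deltaUnit ^ p * invOne (PowerSeries.expand p (NeZero.ne p) deltaUnit)

/-- The expansion of `Δ(τ)^p / Δ(p τ)` at the cusp `0`. -/
def quotHatSer : PowerSeries ℤ :=
  PowerSeries.C ((p : ℤ) ^ 12) * PowerSeries.X ^ (p * p - 1)
    * PowerSeries.expand p (NeZero.ne p) deltaUnit ^ p * invOne deltaUnit

theorem constantCoeff_expand_deltaUnit :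
    PowerSeries.constantCoeff (PowerSeries.expand p (NeZero.ne p) deltaUnit) = 1 := by
  rw [PowerSeries.constantCoeff_expand, constantCoeff_deltaUnit]

theorem constantCoeff_quotSer : PowerSeries.constantCoeff (quotSer p) = 1 := by
  rw [quotSer, map_mul, map_pow, constantCoeff_deltaUnit, one_pow,
    constantCoeff_invOne (constantCoeff_expand_deltaUnit p), one_mul]

theorem constantCoeff_quotHatSer : PowerSeries.constantCoeff (quotHatSer p) = 0 := by
  have h2 := (Fact.out : p.Prime).two_le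
  have : p * p - 1 ≠ 0 := by
    have : 4 ≤ p * p := Nat.mul_le_mul h2 h2
    omega
  simp [quotHatSer, this]

theorem expand_deltaSer : PowerSeries.expand p (NeZero.ne p) deltaSer =
    PowerSeries.X ^ p * PowerSeries.expand p (NeZero.ne p) deltaUnit := by
  rw [deltaSer_eq, map_mul, PowerSeries.expand_X]

theorem hasIntQExp_quotForm : HasIntQExp ⇑(quotForm p) (quotSer p) := by
  have hn : QNice ⇑(quotForm p) := conj_none (quotForm p) ▸ (conjFam_conj (quotForm p)).qNice_none
  refine hasIntQExp_of_mul hn (hasIntQExp_delta.expand (NeZero.ne p))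
    ((hasIntQExp_delta.pow p).congr ?_) ?_ ?_
  · funext τ
    show (deltaForm τ ^ p / ⇑(hatForm (resForm p deltaForm)) τ) * deltaForm (scalePt p τ) = _
    rw [coe_hatForm_resForm, Pi.pow_apply]
    exact div_mul_cancel₀ _ (ModularForm.discriminant_ne_zero _)
  · rw [expand_deltaSer]
    refine mul_ne_zero (pow_ne_zero _ PowerSeries.X_ne_zero) fun h ↦ ?_
    simpa [h] using constantCoeff_expand_deltaUnit p
  · rw [expand_deltaSer, quotSer]
    calc deltaUnit ^ p * invOne (PowerSeries.expand p (NeZero.ne p) deltaUnit) *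
          (PowerSeries.X ^ p * PowerSeries.expand p (NeZero.ne p) deltaUnit)
        = (PowerSeries.X * deltaUnit) ^ p * (PowerSeries.expand p (NeZero.ne p) deltaUnit *
            invOne (PowerSeries.expand p (NeZero.ne p) deltaUnit)) := by rw [mul_pow]; ring
      _ = deltaSer ^ p := by
        rw [mul_invOne (constantCoeff_expand_deltaUnit p), mul_one, ← deltaSer_eq]

theorem quotForm_slash_S (τ : ℍ) :
    (⇑(quotForm p) ∣[((p : ℤ) * 12 - 12)] ModularGroup.S) τ =
      deltaForm τ ^ p /
        ((-(p : ℂ)) ^ (-12 : ℤ) * deltaForm (ModularForm.heckeMatrix p 0 • τ)) := by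
  show ((⇑deltaForm ^ p / ⇑(hatForm (resForm p deltaForm))) ∣[((p : ℤ) * 12 - 12)]
    ModularGroup.S) τ = _
  rw [ModularForm.div_slash_SL2, deltaForm_pow_slash, Pi.div_apply, Pi.pow_apply]
  congr 1
  exact hatFun_slash_S 12 deltaForm τ

theorem hasIntQExp_hat_quotForm :
    HasIntQExp (ConjFam.hat (conj (quotForm p))) (quotHatSer p) := by
  have hpz : (p : ℂ) ≠ 0 := Nat.cast_ne_zero.mpr (NeZero.ne p)
  refine hasIntQExp_of_mul (conjFam_conj (quotForm p)).qNice_hat hasIntQExp_delta
    ((((hasIntQExp_delta.expand (NeZero.ne p)).pow p).intSmul ((p : ℤ) ^ 12)).congr ?_)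
    deltaSer_ne_zero ?_
  · funext τ
    rw [Pi.mul_apply, hat_conj]
    dsimp only
    rw [quotForm_slash_S, heckeMatrix_smul_scalePt,
      Pi.smul_apply, Pi.pow_apply, smul_eq_mul]
    have hd : deltaForm τ ≠ 0 := ModularForm.discriminant_ne_zero _
    rw [show (-12 : ℤ) = -((12 : ℕ) : ℤ) from rfl, zpow_neg, zpow_natCast]
    push_cast
    field_simp
  · rw [expand_deltaSer, quotHatSer, deltaSer_eq]
    have h1 : p * p = p * p - 1 + 1 := by
      have := Nat.mul_pos (NeZero.pos p) (NeZero.pos p)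
      omega
    calc PowerSeries.C ((p : ℤ) ^ 12) * PowerSeries.X ^ (p * p - 1) *
          PowerSeries.expand p (NeZero.ne p) deltaUnit ^ p * invOne deltaUnit *
          (PowerSeries.X * deltaUnit)
        = PowerSeries.C ((p : ℤ) ^ 12) * PowerSeries.X ^ (p * p - 1 + 1) *
            PowerSeries.expand p (NeZero.ne p) deltaUnit ^ p * (deltaUnit * invOne deltaUnit) := by
          ring
      _ = _ := by
        rw [mul_invOne constantCoeff_deltaUnit, mul_one, ← h1, mul_pow, ← pow_mul]
        ring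

/-- In weight `2 < k < 12` and level one, the first coefficient is determined by the constant. -/
theorem coeff_one_levelOne {k : ℤ} (hk : k < 12) (f e : ModularForm 𝒮ℒ k)
    (he : (qExpansion 1 ⇑e).coeff 0 = 1) :
    (qExpansion 1 ⇑f).coeff 1 = (qExpansion 1 ⇑f).coeff 0 * (qExpansion 1 ⇑e).coeff 1 := by
  set c := (qExpansion 1 ⇑f).coeff 0 with hc
  have h0 : f - c • e = 0 := by
    refine ModularForm.sturm_bound_levelOne ?_
    have hz : k.toNat / 12 = 0 := Nat.div_eq_of_lt (by omega)
    rw [hz, Nat.cast_zero]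
    refine lt_of_lt_of_le (by exact_mod_cast zero_lt_one) (PowerSeries.nat_le_order _ 1 ?_)
    intro i hi
    obtain rfl : i = 0 := by omega
    rw [FunLike.coe_sub, ModularForm.qExpansion_sub one_pos one_mem_strictPeriods_SL,
      FunLike.coe_smul, ModularForm.qExpansion_smul one_pos one_mem_strictPeriods_SL, map_sub,
      PowerSeries.coeff_smul, he, smul_eq_mul, mul_one, ← hc, sub_self]
  rw [sub_eq_zero.mp h0, FunLike.coe_smul,
    ModularForm.qExpansion_smul one_pos one_mem_strictPeriods_SL, PowerSeries.coeff_smul,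
    smul_eq_mul]

theorem levelOne_weight_two_eq_zero (f : ModularForm 𝒮ℒ 2) : f = 0 :=
  rank_zero_iff_forall_zero.mp ModularForm.levelOne_weight_two_rank_zero f

end FermatLib.Mazur.EisUpper

end
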