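import Fermat.Agent.Modular.Gamma0Coset
import Fermat.Prelude.Thm_ModularForm_sturm_bound_Gamma0
import Fermat.Agent.Mazur.EisUpperSeries

/-!
# An integral Sturm bound on `Γ₀(3)`

With a weight `2` form `a` with expansion `1 + 12 ∑ (σ(n) - 3 σ(n/3)) qⁿ`, the monomials in `a`,
`b = (E₄(τ) - E₄(3τ))/240 = q + ⋯` and `c = q² + ⋯` (weight `6`) form triangular integral bases,
so a form with integral coefficients which vanishes mod `ℓ` up to the Sturm bound vanishes mod `ℓ`.
-/

set_option autoImplicit false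

noncomputable section

open UpperHalfPlane Function CongruenceSubgroup Matrix.SpecialLinearGroup
open scoped Manifold MatrixGroups ModularForm ArithmeticFunction.sigma

namespace FermatLib.Mazur.EisUpper

local instance : Fact (Nat.Prime 3) := ⟨Nat.prime_three⟩

/-- `∑ (σ₁(n) - 3 σ₁(n/3)) qⁿ`. -/
def sThree : PowerSeries ℤ :=
  sigmaSeries 1 - PowerSeries.C 3 * PowerSeries.expand 3 three_ne_zero (sigmaSeries 1)

/-- The expansion of the weight two Eisenstein form of level `3`. -/
def aThree : PowerSeries ℤ := 1 + PowerSeries.C 12 * sThree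

/-- The expansion of `(E₄(τ) - E₄(3τ))/240`. -/
def bThree : PowerSeries ℤ :=
  sigmaSeries 3 - PowerSeries.expand 3 three_ne_zero (sigmaSeries 3)

/-- The expansion of a weight six form of order two. -/
def cThree : PowerSeries ℤ :=
  twelfthSeries - PowerSeries.expand 3 three_ne_zero twelfthSeries - sThree * bThree

theorem constantCoeff_sThree : PowerSeries.constantCoeff sThree = 0 := by
  simp [sThree, constantCoeff_sigmaSeries]

theorem coeff_one_sThree : PowerSeries.coeff 1 sThree = 1 := by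
  rw [sThree, map_sub, PowerSeries.coeff_C_mul,
    PowerSeries.coeff_expand_of_not_dvd 3 three_ne_zero _ (by decide), coeff_sigmaSeries]
  simp

theorem constantCoeff_aThree : PowerSeries.constantCoeff aThree = 1 := by
  simp [aThree, constantCoeff_sThree]

theorem coeff_zero_bThree : PowerSeries.coeff 0 bThree = 0 := by
  simp [bThree, constantCoeff_sigmaSeries]

theorem coeff_one_bThree : PowerSeries.coeff 1 bThree = 1 := by
  rw [bThree, map_sub, PowerSeries.coeff_expand_of_not_dvd 3 three_ne_zero _ (by decide),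
    coeff_sigmaSeries]
  simp

theorem coeff_twelfthSeries_small :
    PowerSeries.coeff 0 twelfthSeries = 0 ∧ PowerSeries.coeff 1 twelfthSeries = 0 ∧
      PowerSeries.coeff 2 twelfthSeries = 2 := by
  refine ⟨?_, ?_, ?_⟩ <;> simp only [twelfthSeries, PowerSeries.coeff_mk] <;> decide

theorem coeff_small_cThree :
    PowerSeries.coeff 0 cThree = 0 ∧ PowerSeries.coeff 1 cThree = 0 ∧
      PowerSeries.coeff 2 cThree = 1 := by
  obtain ⟨t0, t1, t2⟩ := coeff_twelfthSeries_small
  have s0 : PowerSeries.coeff 0 sThree = 0 := by simpa using constantCoeff_sThree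
  refine ⟨?_, ?_, ?_⟩
  · rw [cThree, map_sub, map_sub, PowerSeries.coeff_expand 3 three_ne_zero, PowerSeries.coeff_mul]
    simp [t0, coeff_zero_bThree, -PowerSeries.coeff_zero_eq_constantCoeff]
  · rw [cThree, map_sub, map_sub, PowerSeries.coeff_expand 3 three_ne_zero, PowerSeries.coeff_mul]
    simp [t1, s0, coeff_zero_bThree, Finset.Nat.antidiagonal_succ,
      -PowerSeries.coeff_zero_eq_constantCoeff]
  · rw [cThree, map_sub, map_sub, PowerSeries.coeff_expand 3 three_ne_zero, PowerSeries.coeff_mul]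
    simp [t2, s0, coeff_zero_bThree, coeff_one_bThree, coeff_one_sThree,
      Finset.Nat.antidiagonal_succ, -PowerSeries.coeff_zero_eq_constantCoeff]

/-- `(E₄(τ) - E₄(3τ))/240`. -/
def bForm : ModularForm (Gamma0 3) 4 :=
  (240 : ℂ)⁻¹ • (resForm 3 ModularForm.E₄ - hatForm (resForm 3 ModularForm.E₄))

theorem hasIntQExp_bForm : HasIntQExp ⇑bForm bThree := by
  have h := hasIntQExp_E4.sub (hasIntQExp_E4.expand (p := 3) three_ne_zero)
  have e : eis4Series - PowerSeries.expand 3 three_ne_zero eis4Series =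
      PowerSeries.C 240 * bThree := by
    rw [eis4Series, bThree, map_add, map_one, map_mul, PowerSeries.expand_C]
    ring
  rw [e] at h
  have hb : ⇑bForm = (240 : ℂ)⁻¹ •
      (⇑ModularForm.E₄ - fun τ ↦ ModularForm.E₄ (scalePt 3 τ)) := by
    rw [bForm, FunLike.coe_smul, FunLike.coe_sub, coe_resForm, coe_hatForm_resForm]
  refine HasIntQExp.of_qExpansion (hb ▸ h.nice.smul _) fun n ↦ ?_
  rw [hb, h.nice.qExpansion_smul, PowerSeries.coeff_smul, h.coeff_eq, PowerSeries.coeff_C_mul,
    smul_eq_mul]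
  push_cast
  ring

variable (a : ModularForm (Gamma0 3) 2)

/-- A weight six form with expansion `q² + ⋯`. -/
def cForm : ModularForm (Gamma0 3) 6 :=
  (12 : ℂ)⁻¹ • ((504 : ℂ)⁻¹ • (hatForm (resForm 3 ModularForm.E₆) - resForm 3 ModularForm.E₆)
    - ModularForm.mcast (by norm_num) (a.mul bForm))

theorem hasIntQExp_cForm (ha : HasIntQExp ⇑a aThree) : HasIntQExp ⇑(cForm a) cThree := by
  have h6 := (hasIntQExp_E6.expand (p := 3) three_ne_zero).sub hasIntQExp_E6
  have e : PowerSeries.expand 3 three_ne_zero eis6Series - eis6Series =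
      PowerSeries.C 504 *
        (sigmaSeries 5 - PowerSeries.expand 3 three_ne_zero (sigmaSeries 5)) := by
    rw [eis6Series, map_sub, map_one, map_mul, PowerSeries.expand_C]
    ring
  rw [e] at h6
  set u : ℍ → ℂ := (fun τ ↦ ModularForm.E₆ (scalePt 3 τ)) - ⇑ModularForm.E₆ with hu
  have h6' : HasIntQExp ((504 : ℂ)⁻¹ • u)
      (sigmaSeries 5 - PowerSeries.expand 3 three_ne_zero (sigmaSeries 5)) := by
    refine HasIntQExp.of_qExpansion (h6.nice.smul _) fun n ↦ ?_
    rw [h6.nice.qExpansion_smul, PowerSeries.coeff_smul, h6.coeff_eq, PowerSeries.coeff_C_mul,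
      smul_eq_mul]
    push_cast
    ring
  have h := h6'.sub (ha.mul hasIntQExp_bForm)
  have e' : sigmaSeries 5 - PowerSeries.expand 3 three_ne_zero (sigmaSeries 5) - aThree * bThree =
      PowerSeries.C 12 * cThree := by
    rw [aThree, cThree, bThree, sigmaSeries_five, map_add, map_mul, PowerSeries.expand_C]
    ring
  rw [e'] at h
  have hc : ⇑(cForm a) = (12 : ℂ)⁻¹ • ((504 : ℂ)⁻¹ • u - ⇑a * ⇑bForm) := by
    rw [cForm, FunLike.coe_smul, FunLike.coe_sub, FunLike.coe_smul, FunLike.coe_sub,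
      coe_resForm, coe_hatForm_resForm, ModularForm.coe_mcast, ModularForm.coe_mul, hu]
  refine HasIntQExp.of_qExpansion (hc ▸ h.nice.smul _) fun n ↦ ?_
  rw [hc, h.nice.qExpansion_smul, PowerSeries.coeff_smul, h.coeff_eq, PowerSeries.coeff_C_mul,
    smul_eq_mul]
  push_cast
  ring

theorem exists_basisThree (ha : HasIntQExp ⇑a aThree) (w i : ℕ) (hi : 3 * i ≤ 2 * w) :
    ∃ (e : ModularForm (Gamma0 3) ((2 * w : ℕ) : ℤ)) (E : PowerSeries ℤ),
      HasIntQExp ⇑e E ∧ PowerSeries.coeff i E = 1 ∧ ∀ n < i, PowerSeries.coeff n E = 0 := by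
  obtain ⟨c0, c1, c2⟩ := coeff_small_cThree
  obtain ⟨b', hb'⟩ : PowerSeries.X ^ 1 ∣ bThree := PowerSeries.X_pow_dvd_iff.mpr fun m hm ↦ by
    obtain rfl : m = 0 := by omega
    exact coeff_zero_bThree
  obtain ⟨c', hc'⟩ : PowerSeries.X ^ 2 ∣ cThree := PowerSeries.X_pow_dvd_iff.mpr fun m hm ↦ by
    obtain rfl | rfl : m = 0 ∨ m = 1 := by omega
    exacts [c0, c1]
  have hb1 : PowerSeries.constantCoeff b' = 1 := by
    have := coeff_one_bThree
    rw [hb', pow_one, PowerSeries.coeff_succ_X_mul] at this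
    simpa using this
  have hc1 : PowerSeries.constantCoeff c' = 1 := by
    have := c2
    rw [hc', show (2 : ℕ) = 0 + 2 from rfl, PowerSeries.coeff_X_pow_mul] at this
    simpa using this
  have hexp : 3 * (i / 2) + 2 * (i % 2) ≤ w := by omega
  set m := w - (3 * (i / 2) + 2 * (i % 2)) with hm
  let e : ModularForm (Gamma0 3) ((2 * w : ℕ) : ℤ) :=
    ModularForm.mcast (by push_cast; omega)
      ((((cForm a).pow (i / 2)).mul (bForm.pow (i % 2))).mul (a.pow m))
  refine ⟨e, cThree ^ (i / 2) * bThree ^ (i % 2) * aThree ^ m, ?_, ?_, ?_⟩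
  · refine ((((hasIntQExp_cForm a ha).pow _).mul (hasIntQExp_bForm.pow _)).mul (ha.pow m)).congr ?_
    simp only [e, ModularForm.coe_mcast, ModularForm.coe_mul, ModularForm.coe_pow]
  all_goals
    rw [hb', hc', pow_one, mul_pow, mul_pow, ← pow_mul,
      show PowerSeries.X ^ (2 * (i / 2)) * c' ^ (i / 2) * (PowerSeries.X ^ (i % 2) * b' ^ (i % 2))
        * aThree ^ m = PowerSeries.X ^ i * (c' ^ (i / 2) * b' ^ (i % 2) * aThree ^ m) by
        have e2 : PowerSeries.X ^ i =
            (PowerSeries.X : PowerSeries ℤ) ^ (2 * (i / 2)) * PowerSeries.X ^ (i % 2) := by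
          rw [← pow_add, Nat.div_add_mod]
        rw [e2]
        ring]
  · have := PowerSeries.coeff_X_pow_mul (c' ^ (i / 2) * b' ^ (i % 2) * aThree ^ m) i 0
    rw [zero_add] at this
    rw [this, PowerSeries.coeff_zero_eq_constantCoeff, map_mul, map_mul, map_pow, map_pow,
      map_pow, hb1, hc1, constantCoeff_aThree]
    simp
  · intro n hn
    rw [PowerSeries.coeff_X_pow_mul', if_neg (by omega)]

theorem index_Gamma0_three : (Gamma0 3).index = 4 := by
  rw [FermatLib.Modular.index_Gamma0, FermatLib.Modular.dedekindPsi_prime Nat.prime_three]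

/-- An integral form on `Γ₀(3)` vanishing mod `ℓ` up to the Sturm bound vanishes mod `ℓ`. -/
theorem levelThree_sturm_mod (ha : HasIntQExp ⇑a aThree) {w : ℕ}
    (B : ModularForm (Gamma0 3) ((2 * w : ℕ) : ℤ)) {Bs : PowerSeries ℤ} (hB : HasIntQExp ⇑B Bs)
    (l : ℤ) (h : ∀ n, 3 * n ≤ 2 * w → l ∣ PowerSeries.coeff n Bs) (n : ℕ) :
    l ∣ PowerSeries.coeff n Bs := by
  have step : ∀ j : ℕ, j ≤ 2 * w / 3 + 1 →
      ∃ (R : ModularForm (Gamma0 3) ((2 * w : ℕ) : ℤ)) (Rs : PowerSeries ℤ), HasIntQExp ⇑R Rs ∧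
        (∀ m, l ∣ PowerSeries.coeff m Bs - PowerSeries.coeff m Rs) ∧
          ∀ m < j, PowerSeries.coeff m Rs = 0 := by
    intro j
    induction j with
    | zero => exact fun _ ↦ ⟨B, Bs, hB, fun m ↦ by simp, fun m hm ↦ absurd hm (by omega)⟩
    | succ j ih =>
      intro hj
      obtain ⟨R, Rs, hR, hd, hz⟩ := ih (by omega)
      obtain ⟨e, E, he, he1, he0⟩ := exists_basisThree a ha w j (by omega)
      set t := PowerSeries.coeff j Rs with ht
      have htd : l ∣ t := by
        have := dvd_sub (h j (by omega)) (hd j)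
        simpa [ht] using this
      refine ⟨R - (t : ℂ) • e, Rs - PowerSeries.C t * E, ?_, fun m ↦ ?_, fun m hm ↦ ?_⟩
      · refine (hR.sub (he.intSmul t)).congr ?_
        rw [FunLike.coe_sub, FunLike.coe_smul]
      · rw [map_sub, PowerSeries.coeff_C_mul, sub_sub_eq_add_sub, add_sub_right_comm]
        exact dvd_add (hd m) (htd.mul_right _)
      · rw [map_sub, PowerSeries.coeff_C_mul]
        rcases Nat.lt_succ_iff_lt_or_eq.mp hm with h' | h'
        · rw [hz m h', he0 m h', mul_zero, sub_zero]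
        · rw [h', he1, mul_one, ← ht, sub_self]
  obtain ⟨R, Rs, hR, hd, hz⟩ := step (2 * w / 3 + 1) le_rfl
  have hR0 : R = 0 := by
    refine ModularForm.sturm_bound_Gamma0 3 R fun m hm ↦ ?_
    rw [index_Gamma0_three] at hm
    rw [hR.coeff_eq, hz m (by omega), Int.cast_zero]
  have hRs : Rs = 0 := by
    refine HasIntQExp.eq_of hR ?_
    refine HasIntQExp.of_qExpansion hR.nice fun m ↦ ?_
    rw [hR0]
    simp [UpperHalfPlane.qExpansion_zero]
  simpa [hRs] using hd n

end FermatLib.Mazur.EisUpper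

end
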