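import Fermat.Prelude.Def_FLTPrelim_Modularity
import Fermat.Prelude.Def_ModularForm_HeckeOperator
import Mathlib.NumberTheory.ModularForms.EisensteinSeries.E2.MDifferentiable
import Mathlib.NumberTheory.ModularForms.EisensteinSeries.E2.Transform
import Mathlib.NumberTheory.ModularForms.EisensteinSeries.E2.Summable
import Mathlib.Analysis.Normed.Group.Tannery
import Mathlib.NumberTheory.ModularForms.CongruenceSubgroups

/-!
The weight 2 Eisenstein series `N E₂(Nz) - E₂(z)` on `Γ₀(N)`: values at the cusps and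
q-expansion.
-/

set_option autoImplicit false

noncomputable section

open UpperHalfPlane hiding I
open EisensteinSeries Filter Topology Complex ArithmeticFunction
open scoped MatrixGroups ModularForm Manifold ArithmeticFunction.sigma

namespace FermatLib.Mazur

/-- A function given by a `q`-series tends to the constant term at `i∞`. -/
theorem tendsto_atImInfty_of_hasSum {f : ℍ → ℂ} {c : ℕ → ℂ}
    (hf : ∀ τ : ℍ, HasSum (fun m ↦ c m • Function.Periodic.qParam (1 : ℝ) (τ : ℂ) ^ m) (f τ)) :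
    Tendsto f atImInfty (𝓝 (c 0)) := by
  simp only [smul_eq_mul] at hf
  have hbound : Summable fun m ↦
      ‖c m * Function.Periodic.qParam (1 : ℝ) (UpperHalfPlane.I : ℂ) ^ m‖ :=
    (hf UpperHalfPlane.I).summable.norm
  have hq : Tendsto (fun τ : ℍ ↦ Function.Periodic.qParam (1 : ℝ) (τ : ℂ)) atImInfty (𝓝 0) :=
    UpperHalfPlane.qParam_tendsto_atImInfty one_pos
  have hlim : c 0 = ∑' m : ℕ, c m * ((0 : ℂ) ^ m) := by
    rw [tsum_eq_single 0 fun m hm ↦ by simp [hm]]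
    simp
  have hlim1 : ∀ m : ℕ, Tendsto
      (fun τ : ℍ ↦ c m * Function.Periodic.qParam (1 : ℝ) (τ : ℂ) ^ m) atImInfty
      (𝓝 (c m * (0 : ℂ) ^ m)) := fun m ↦ (hq.pow m).const_mul (c m)
  rw [show f = fun τ : ℍ ↦ ∑' m : ℕ, c m * Function.Periodic.qParam (1 : ℝ) (τ : ℂ) ^ m from
    funext fun τ ↦ (hf τ).tsum_eq.symm, hlim]
  refine tendsto_tsum_of_dominated_convergence
    (f := fun (τ : ℍ) (m : ℕ) ↦ c m * Function.Periodic.qParam (1 : ℝ) (τ : ℂ) ^ m)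
    (g := fun m : ℕ ↦ c m * (0 : ℂ) ^ m) hbound hlim1 ?_
  have hmem : ∀ᶠ τ : ℍ in atImInfty, 1 ≤ τ.im := tendsto_comap.eventually (eventually_ge_atTop 1)
  filter_upwards [hmem] with τ hτ m
  simp only [norm_mul, norm_pow]
  refine mul_le_mul_of_nonneg_left (pow_le_pow_left₀ (norm_nonneg _) ?_ m) (norm_nonneg _)
  rw [Function.Periodic.norm_qParam, Function.Periodic.norm_qParam, UpperHalfPlane.coe_I,
    Complex.I_im, Real.exp_le_exp, UpperHalfPlane.coe_im]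
  have := mul_le_mul_of_nonneg_left hτ (by positivity : (0 : ℝ) ≤ 2 * Real.pi)
  simp only [neg_mul, div_one]
  linarith

theorem tendsto_E2_atImInfty : Tendsto E2 atImInfty (𝓝 1) := by
  have h : ∀ τ : ℍ, HasSum (fun m : ℕ ↦ (if m = 0 then 1 else -24 * σ 1 m : ℂ) •
      Function.Periodic.qParam (1 : ℝ) (τ : ℂ) ^ m) (E2 τ) := fun τ ↦ by
    simpa [Function.Periodic.qParam] using hasSum_qExpansion_E2 (z := τ)
  simpa using tendsto_atImInfty_of_hasSum
    (c := fun m : ℕ ↦ (if m = 0 then 1 else -24 * σ 1 m : ℂ)) h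

/-- `N E₂(Nz) - E₂(z)`. -/
def eisLevelFun (N : ℕ) : ℍ → ℂ := E2 ∣[(2 : ℤ)] ModularForm.heckeDiagMatrix N - E2

theorem mdifferentiable_eisLevelFun (N : ℕ) : MDiff (eisLevelFun N) :=
  (E2_mdifferentiable.slash 2 _).sub E2_mdifferentiable

theorem eisLevelFun_apply (N : ℕ) [NeZero N] (z : ℍ) :
    eisLevelFun N z = (N : ℂ) * E2 (ModularForm.heckeDiagMatrix N • z) - E2 z := by
  rw [eisLevelFun, Pi.sub_apply, ModularForm.slash_heckeDiagMatrix_apply 2 (NeZero.ne N)]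
  norm_num

/-- `z ↦ (αz + β)/δ`. -/
def uhpAffineMap (a b d : ℤ) (ha : 0 < a) (hd : 0 < d) (z : ℍ) : ℍ :=
  ⟨((a : ℂ) * z + b) / d, by
    simpa [Complex.div_intCast_im] using
      div_pos (mul_pos (Int.cast_pos.mpr ha) z.im_pos) (Int.cast_pos.mpr hd)⟩

theorem tendsto_uhpAffineMap (a b d : ℤ) (ha : 0 < a) (hd : 0 < d) :
    Tendsto (uhpAffineMap a b d ha hd) atImInfty atImInfty := by
  refine tendsto_comap_iff.mpr ?_
  have h : (UpperHalfPlane.im ∘ uhpAffineMap a b d ha hd) = fun z : ℍ ↦ (a : ℝ) / d * z.im := by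
    funext z
    simp only [Function.comp, uhpAffineMap, ← UpperHalfPlane.coe_im]
    simp [Complex.div_intCast_im]
    ring
  rw [h]
  exact tendsto_comap.const_mul_atTop (div_pos (Int.cast_pos.mpr ha) (Int.cast_pos.mpr hd))

/-- Every translate of `eisLevelFun N` is again a combination of `E₂`. -/
theorem eisLevelFun_slash (N : ℕ) [NeZero N] (γ γ' : SL(2, ℤ)) (a b d : ℤ) (ha : 0 < a)
    (hd : 0 < d) (hdet : a * d = N) (h00 : (N : ℤ) * γ 0 0 = γ' 0 0 * a)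
    (h01 : (N : ℤ) * γ 0 1 = γ' 0 0 * b + γ' 0 1 * d) (h10 : γ 1 0 = γ' 1 0 * a)
    (h11 : γ 1 1 = γ' 1 0 * b + γ' 1 1 * d) (z : ℍ) :
    (eisLevelFun N ∣[(2 : ℤ)] γ) z = (a : ℂ) / d * E2 (uhpAffineMap a b d ha hd z) - E2 z := by
  set w := uhpAffineMap a b d ha hd z with hw
  have e1 := congrFun (E2_slash_action γ) z
  have e2 := congrFun (E2_slash_action γ') w
  simp only [Pi.sub_apply, Pi.smul_apply, smul_eq_mul, ModularForm.SL_slash_apply, D2,
    ModularGroup.denom_apply] at e1 e2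
  have hdC : (d : ℂ) ≠ 0 := Int.cast_ne_zero.mpr hd.ne'
  have haC : (a : ℂ) ≠ 0 := Int.cast_ne_zero.mpr ha.ne'
  have hj : (γ' 1 0 : ℂ) * w + γ' 1 1 = ((γ 1 0 : ℂ) * z + γ 1 1) / d := by
    have hwc : (w : ℂ) = ((a : ℂ) * z + b) / d := rfl
    rw [hwc, eq_div_iff hdC, h10, h11]
    push_cast
    field_simp
    ring
  have hN : ((N : ℕ) : ℂ) = (a : ℂ) * d := by exact_mod_cast hdet.symm
  have hj0 : ((γ 1 0 : ℂ) * z + γ 1 1) ≠ 0 := by
    have := UpperHalfPlane.denom_ne_zero (γ : GL (Fin 2) ℝ) z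
    simpa [ModularGroup.denom_apply] using this
  have hpt : ModularForm.heckeDiagMatrix N • (γ • z) = γ' • w := by
    apply UpperHalfPlane.ext
    rw [ModularForm.coe_heckeDiagMatrix_smul (NeZero.ne N), UpperHalfPlane.coe_specialLinearGroup_apply,
      UpperHalfPlane.coe_specialLinearGroup_apply]
    simp only [eq_intCast, Complex.ofReal_intCast]
    rw [hj, mul_div_assoc', div_eq_div_iff hj0 (div_ne_zero hj0 hdC)]
    have h00' : ((N : ℕ) : ℂ) * (γ 0 0 : ℂ) = (γ' 0 0 : ℂ) * a := by exact_mod_cast h00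
    have h01' : ((N : ℕ) : ℂ) * (γ 0 1 : ℂ) = (γ' 0 0 : ℂ) * b + (γ' 0 1 : ℂ) * d := by
      exact_mod_cast h01
    have hwc : (w : ℂ) = ((a : ℂ) * z + b) / d := rfl
    rw [hwc]
    field_simp
    linear_combination (norm := ring_nf) ((γ 1 0 : ℂ) * z + γ 1 1) * ((z : ℂ) * h00' + h01')
  rw [ModularForm.SL_slash_apply, eisLevelFun_apply, hpt, sub_mul]
  simp only [ModularGroup.denom_apply]
  rw [e1]
  rw [hj] at e2
  have h10' : ((γ 1 0 : ℤ) : ℂ) = (γ' 1 0 : ℂ) * a := by exact_mod_cast h10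
  simp only [zpow_neg, zpow_two] at e2 ⊢
  rw [hN]
  have key : E2 (γ' • w) = ((((γ 1 0 : ℂ) * z + γ 1 1) / d) * (((γ 1 0 : ℂ) * z + γ 1 1) / d)) *
      (E2 w - 1 / (2 * riemannZeta 2) *
        (2 * Real.pi * I * (γ' 1 0 : ℂ) / (((γ 1 0 : ℂ) * z + γ 1 1) / d))) := by
    rw [← e2]
    field_simp
  rw [key]
  generalize ((γ 1 0 : ℂ) * z + γ 1 1) = J at hj0 ⊢
  rw [h10']
  field_simp
  ring

/-- Every `γ` admits the data of `eisLevelFun_slash`. -/
theorem exists_affine_decomposition (N : ℕ) [NeZero N] (γ : SL(2, ℤ)) :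
    ∃ (γ' : SL(2, ℤ)) (a b d : ℤ), 0 < a ∧ 0 < d ∧ a * d = N ∧
      (N : ℤ) * γ 0 0 = γ' 0 0 * a ∧ (N : ℤ) * γ 0 1 = γ' 0 0 * b + γ' 0 1 * d ∧
      γ 1 0 = γ' 1 0 * a ∧ γ 1 1 = γ' 1 0 * b + γ' 1 1 * d := by
  have hdet : γ 0 0 * γ 1 1 - γ 0 1 * γ 1 0 = 1 := by
    rw [← Matrix.det_fin_two]; exact γ.det_coe
  set g : ℤ := (Int.gcd ((N : ℤ) * γ 0 0) (γ 1 0) : ℤ) with hg
  obtain ⟨A, hA⟩ : g ∣ (N : ℤ) * γ 0 0 := Int.gcd_dvd_left _ _
  obtain ⟨C, hC⟩ : g ∣ γ 1 0 := Int.gcd_dvd_right _ _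
  set δ : ℤ := A * γ 1 1 - (N : ℤ) * γ 0 1 * C with hδ
  have hgd : g * δ = N := by
    rw [hδ]
    linear_combination (-(γ 1 1)) * hA + ((N : ℤ) * γ 0 1) * hC + (N : ℤ) * hdet
  have hN0 : (0 : ℤ) < N := by exact_mod_cast Nat.pos_of_ne_zero (NeZero.ne N)
  have hg0 : 0 < g := by
    refine lt_of_le_of_ne (Int.natCast_nonneg _) fun h ↦ ?_
    rw [← h, zero_mul] at hgd
    omega
  have hbez := Int.gcd_eq_gcd_ab ((N : ℤ) * γ 0 0) (γ 1 0)
  set x := Int.gcdA ((N : ℤ) * γ 0 0) (γ 1 0)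
  set y := Int.gcdB ((N : ℤ) * γ 0 0) (γ 1 0)
  rw [← hg] at hbez
  have hone : A * x + C * y = 1 := by
    refine mul_left_cancel₀ hg0.ne' ?_
    linear_combination -hbez - x * hA - y * hC
  refine ⟨⟨!![A, -y; C, x], by rw [Matrix.det_fin_two_of]; linear_combination hone⟩, g,
    x * ((N : ℤ) * γ 0 1) + y * γ 1 1, δ, hg0, ?_, hgd, ?_, ?_, ?_, ?_⟩
  · exact pos_of_mul_pos_right (hgd ▸ hN0) hg0.le
  all_goals simp only [Matrix.cons_val_zero, Matrix.cons_val_one, Matrix.of_apply]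
  · linear_combination hA
  · linear_combination (-((N : ℤ) * γ 0 1)) * hone + y * hδ
  · linear_combination hC
  · linear_combination (-(γ 1 1)) * hone - x * hδ

theorem exists_tendsto_eisLevelFun_slash (N : ℕ) [NeZero N] (γ : SL(2, ℤ)) :
    ∃ l : ℂ, Tendsto (eisLevelFun N ∣[(2 : ℤ)] γ) atImInfty (𝓝 l) := by
  obtain ⟨γ', a, b, d, ha, hd, hdet, h00, h01, h10, h11⟩ := exists_affine_decomposition N γ
  refine ⟨(a : ℂ) / d * 1 - 1, ?_⟩
  rw [funext (eisLevelFun_slash N γ γ' a b d ha hd hdet h00 h01 h10 h11)]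
  exact (((tendsto_E2_atImInfty.comp (tendsto_uhpAffineMap a b d ha hd)).const_mul _).sub
    tendsto_E2_atImInfty)

theorem tendsto_eisLevelFun_S (N : ℕ) [NeZero N] :
    Tendsto (eisLevelFun N ∣[(2 : ℤ)] ModularGroup.S) atImInfty (𝓝 (1 / (N : ℂ) - 1)) := by
  have hN : (0 : ℤ) < N := by exact_mod_cast Nat.pos_of_ne_zero (NeZero.ne N)
  rw [funext (eisLevelFun_slash N ModularGroup.S ModularGroup.S 1 0 N one_pos hN (one_mul _)
    (by simp [ModularGroup.coe_S]) (by simp [ModularGroup.coe_S])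
    (by simp [ModularGroup.coe_S]) (by simp [ModularGroup.coe_S]))]
  simpa using (((tendsto_E2_atImInfty.comp (tendsto_uhpAffineMap 1 0 N one_pos hN)).const_mul
    ((1 : ℤ) / ((N : ℤ) : ℂ))).sub tendsto_E2_atImInfty)

theorem eisLevelFun_slash_of_mem {N : ℕ} [NeZero N] {γ : SL(2, ℤ)}
    (hγ : γ ∈ CongruenceSubgroup.Gamma0 N) : eisLevelFun N ∣[(2 : ℤ)] γ = eisLevelFun N := by
  have hN : (0 : ℤ) < N := by exact_mod_cast Nat.pos_of_ne_zero (NeZero.ne N)
  obtain ⟨c, hc⟩ := (ZMod.intCast_zmod_eq_zero_iff_dvd _ _).mp (CongruenceSubgroup.Gamma0_mem.mp hγ)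
  have hdet : γ 0 0 * γ 1 1 - γ 0 1 * γ 1 0 = 1 := by
    rw [← Matrix.det_fin_two]; exact γ.det_coe
  ext z
  rw [eisLevelFun_slash N γ ⟨!![γ 0 0, (N : ℤ) * γ 0 1; c, γ 1 1], by
      rw [Matrix.det_fin_two_of]; linear_combination hdet + γ 0 1 * hc⟩ N 0 1 hN one_pos (mul_one _)
      (by simp; ring) (by simp) (by simp; linear_combination hc) (by simp) z, eisLevelFun_apply]
  congr 1
  simp only [Int.cast_one, div_one, Int.cast_natCast]
  congr 2
  apply UpperHalfPlane.ext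
  rw [ModularForm.coe_heckeDiagMatrix_smul (NeZero.ne N)]
  simp [uhpAffineMap]

/-- The coefficients of `N E₂(Nz) - E₂(z)`. -/
def eisLevelCoeff (N m : ℕ) : ℤ :=
  if m = 0 then (N : ℤ) - 1 else 24 * ((σ 1 m : ℤ) - if N ∣ m then (N : ℤ) * σ 1 (m / N) else 0)

theorem hasSum_eisLevelFun (N : ℕ) [NeZero N] (τ : ℍ) :
    HasSum (fun m ↦ (eisLevelCoeff N m : ℂ) • Function.Periodic.qParam (1 : ℝ) (τ : ℂ) ^ m)
      (eisLevelFun N τ) := by
  rw [eisLevelFun_apply]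
  set q := Function.Periodic.qParam (1 : ℝ) (τ : ℂ) with hqdef
  have hq : Function.Periodic.qParam (1 : ℝ)
      ((ModularForm.heckeDiagMatrix N • τ : ℍ) : ℂ) = q ^ N := by
    rw [ModularForm.coe_heckeDiagMatrix_smul (NeZero.ne N), hqdef, Function.Periodic.qParam,
      Function.Periodic.qParam, ← Complex.exp_nat_mul]
    congr 1
    ring
  have h1 := hasSum_qExpansion_E2 (z := τ)
  have h2 := (hasSum_qExpansion_E2 (z := ModularForm.heckeDiagMatrix N • τ)).mul_left (N : ℂ)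
  have hexp : ∀ x : ℂ, cexp (2 * Real.pi * Complex.I * x) = Function.Periodic.qParam (1 : ℝ) x :=
    fun x ↦ by simp [Function.Periodic.qParam]
  rw [hexp, ← hqdef] at h1
  simp only [smul_eq_mul, hexp, hq, ← pow_mul] at h2
  have hN := NeZero.ne N
  let g : ℕ → ℂ := fun m ↦ if N ∣ m then
    (N : ℂ) * ((if m = 0 then 1 else -24 * (σ 1 (m / N) : ℂ)) * q ^ m) else 0
  have hinj : Function.Injective fun m : ℕ ↦ N * m := fun a b h ↦ Nat.eq_of_mul_eq_mul_left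
    (Nat.pos_of_ne_zero hN) h
  have h3 : HasSum g ((N : ℂ) * E2 (ModularForm.heckeDiagMatrix N • τ)) := by
    refine (hinj.hasSum_iff fun m hm ↦ ?_).mp (h2.congr_fun fun m ↦ ?_)
    · simp only [g]
      rw [if_neg]
      rintro ⟨k, rfl⟩
      exact hm ⟨k, rfl⟩
    · simp only [g, Function.comp, dvd_mul_right, if_true, Nat.mul_div_cancel_left _
        (Nat.pos_of_ne_zero hN), mul_eq_zero, hN, false_or]
  refine (h3.sub h1).congr_fun fun m ↦ ?_
  rcases eq_or_ne m 0 with rfl | hm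
  · simp [g, eisLevelCoeff]
  · simp only [g, eisLevelCoeff, hm, if_false, smul_eq_mul]
    split_ifs with h <;> push_cast <;> ring

theorem isBoundedAtImInfty_eisLevelFun_slash (N : ℕ) [NeZero N] (γ : SL(2, ℤ)) :
    IsBoundedAtImInfty (eisLevelFun N ∣[(2 : ℤ)] γ) := by
  obtain ⟨l, hl⟩ := exists_tendsto_eisLevelFun_slash N γ
  exact hl.isBigO_one ℝ

/-- `N E₂(Nz) - E₂(z)` as a modular form of weight `2` on `Γ₀(N)`. -/
def eisLevelForm (N : ℕ) [NeZero N] : ModularForm (CongruenceSubgroup.Gamma0 N) 2 where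
  toFun := eisLevelFun N
  slash_action_eq' := by
    rintro _ ⟨γ, hγ, rfl⟩
    exact eisLevelFun_slash_of_mem hγ
  holo' := mdifferentiable_eisLevelFun N
  bdd_at_cusps' {c} hc := by
    rw [Subgroup.IsArithmetic.isCusp_iff_isCusp_SL2Z] at hc
    exact (OnePoint.isBoundedAt_iff_forall_SL2Z hc).mpr fun γ _ ↦
      isBoundedAtImInfty_eisLevelFun_slash N γ

@[simp] theorem coe_eisLevelForm (N : ℕ) [NeZero N] : ⇑(eisLevelForm N) = eisLevelFun N := rfl

theorem qCoeff_eisLevelForm (N : ℕ) [NeZero N] (m : ℕ) :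
    ModularFormClass.qCoeff (eisLevelForm N) m = (eisLevelCoeff N m : ℂ) :=
  (ModularFormClass.qExpansion_coeff_unique (f := eisLevelForm N) one_pos
    (by simp) (fun τ ↦ hasSum_eisLevelFun N τ) m).symm

end FermatLib.Mazur

end
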