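import Fermat.Agent.Mazur.LevelPTheta
import Fermat.Agent.Mazur.EisensteinLevelN
import Fermat.Prelude.Def_CuspForm_HeckeLocal
import Fermat.Prelude.Def_CuspForm_HeckeEvalForms
import Fermat.Prelude.Def_ModularCurve_ModularUnit
import Fermat.Prelude.Thm_ModularFormClass_qCoeff_heckeT
import Fermat.Prelude.Thm_ModularFormClass_qCoeff_heckeU
import Fermat.Prelude.Thm_CongruenceSubgroup_one_mem_strictPeriods_Gamma0

/-!
For a prime `p`, a cusp form of weight `2` on `Γ₀(p)` with integral coefficients congruent to the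
Eisenstein series modulo the numerator of `(p - 1)/12`, and the resulting character of the Hecke
algebra. The congruence comes from comparing the Eisenstein series with a theta series of level `p`.
-/

set_option autoImplicit false

noncomputable section

open UpperHalfPlane hiding I
open ModularGroup Filter Topology ArithmeticFunction
open scoped MatrixGroups ModularForm Manifold ArithmeticFunction.sigma

namespace FermatLib.Mazur

variable {p : ℕ} [Fact p.Prime]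

/-- Vanishing at the two cusps of `Γ₀(p)` gives vanishing at all cusps. -/
theorem isZeroAtImInfty_slash_of_prime {k : ℤ} {f : ℍ → ℂ}
    (hinv : ∀ γ ∈ CongruenceSubgroup.Gamma0 p, f ∣[k] γ = f) (h1 : IsZeroAtImInfty f)
    (hS : IsZeroAtImInfty (f ∣[k] S)) (γ : SL(2, ℤ)) : IsZeroAtImInfty (f ∣[k] γ) := by
  by_cases hc : γ ∈ CongruenceSubgroup.Gamma0 p
  · rwa [hinv γ hc]
  rw [CongruenceSubgroup.Gamma0_mem] at hc
  set j : ℕ := (((γ 1 1 : ℤ) : ZMod p) / ((γ 1 0 : ℤ) : ZMod p)).val with hj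
  set δ : SL(2, ℤ) := γ * T ^ (-(j : ℤ)) * S⁻¹ with hδ
  have hδmem : δ ∈ CongruenceSubgroup.Gamma0 p := by
    rw [CongruenceSubgroup.Gamma0_mem, hδ]
    simp only [Matrix.SpecialLinearGroup.coe_mul, Matrix.SpecialLinearGroup.coe_inv, coe_T_zpow,
      coe_S, Matrix.adjugate_fin_two_of, Matrix.mul_apply, Fin.sum_univ_two, Matrix.of_apply,
      Matrix.cons_val', Matrix.cons_val_zero, Matrix.cons_val_one, Matrix.empty_val',
      Matrix.cons_val_fin_one]
    push_cast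
    rw [hj, ZMod.natCast_zmod_val]
    field_simp
    ring
  have hγ : γ = δ * S * T ^ (j : ℤ) := by
    rw [hδ, inv_mul_cancel_right, mul_assoc, ← zpow_add, neg_add_cancel, zpow_zero, mul_one]
  rw [hγ, SlashAction.slash_mul, SlashAction.slash_mul, hinv δ hδmem, ModularForm.SL_slash]
  refine IsZeroAtImInfty.slash _ ?_ hS
  change (((T ^ (j : ℤ) : SL(2, ℤ)) 1 0 : ℤ) : ℝ) = 0
  rw [coe_T_zpow]
  simp

/-- The coefficients of the Eisenstein eigensystem of level `p`. -/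
def eisCoeff (p m : ℕ) : ℤ := (σ 1 m : ℤ) - if p ∣ m then (p : ℤ) * σ 1 (m / p) else 0

@[simp] theorem eisCoeff_zero (p : ℕ) : eisCoeff p 0 = 0 := by simp [eisCoeff]

theorem eisCoeff_one {p : ℕ} (hp : p.Prime) : eisCoeff p 1 = 1 := by
  simp [eisCoeff, hp.one_lt.ne']

theorem sigma_one_prime_pow_succ {ℓ : ℕ} (hℓ : ℓ.Prime) (a : ℕ) :
    σ 1 (ℓ ^ (a + 1)) = 1 + ℓ * σ 1 (ℓ ^ a) := by
  rw [sigma_one_apply_prime_pow hℓ, sigma_one_apply_prime_pow hℓ, Finset.sum_range_succ',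
    Finset.mul_sum, add_comm]
  simp [pow_succ, mul_comm]

theorem sigma_one_hecke {ℓ : ℕ} (hℓ : ℓ.Prime) (m : ℕ) :
    ((σ 1 (m * ℓ) : ℤ) + if ℓ ∣ m then (ℓ : ℤ) * σ 1 (m / ℓ) else 0) = (1 + ℓ) * σ 1 m := by
  rcases eq_or_ne m 0 with rfl | hm
  · simp
  obtain ⟨a, m', hm', rfl⟩ := Nat.exists_eq_pow_mul_and_not_dvd hm ℓ hℓ.ne_one
  have hc : ∀ i, Nat.Coprime (ℓ ^ i) m' := fun i ↦
    Nat.Coprime.pow_left _ ((Nat.Prime.coprime_iff_not_dvd hℓ).mpr hm')
  rw [show ℓ ^ a * m' * ℓ = ℓ ^ (a + 1) * m' by ring,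
    isMultiplicative_sigma.map_mul_of_coprime (hc _), isMultiplicative_sigma.map_mul_of_coprime (hc _)]
  rcases a with _ | a
  · rw [if_neg (by simpa using hm'), sigma_one_prime_pow_succ hℓ]
    push_cast
    simp
  · have hdiv : ℓ ^ (a + 1) * m' / ℓ = ℓ ^ a * m' := by
      rw [show ℓ ^ (a + 1) * m' = ℓ ^ a * m' * ℓ by ring, Nat.mul_div_cancel _ hℓ.pos]
    rw [if_pos (Dvd.intro (ℓ ^ a * m') (by ring)), hdiv,
      isMultiplicative_sigma.map_mul_of_coprime (hc _), sigma_one_prime_pow_succ hℓ (a + 1),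
      sigma_one_prime_pow_succ hℓ a]
    push_cast
    ring

theorem eisCoeff_mul_self {p : ℕ} (hp : p.Prime) (m : ℕ) : eisCoeff p (m * p) = eisCoeff p m := by
  have h := sigma_one_hecke hp m
  simp only [eisCoeff, dvd_mul_left, if_true, Nat.mul_div_cancel _ hp.pos]
  split_ifs at h ⊢ <;> linarith

theorem eisCoeff_hecke {p ℓ : ℕ} (hp : p.Prime) (hℓ : ℓ.Prime) (hne : ¬ ℓ ∣ p) (m : ℕ) :
    (eisCoeff p (m * ℓ) + if ℓ ∣ m then (ℓ : ℤ) * eisCoeff p (m / ℓ) else 0) =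
      (1 + ℓ) * eisCoeff p m := by
  have hco : Nat.Coprime p ℓ := ((Nat.Prime.coprime_iff_not_dvd hℓ).mpr hne).symm
  have h1 : p ∣ m * ℓ ↔ p ∣ m := ⟨hco.dvd_of_dvd_mul_right, fun h ↦ dvd_mul_of_dvd_left h ℓ⟩
  have hσ := sigma_one_hecke hℓ m
  simp only [eisCoeff, h1]
  by_cases hpm : p ∣ m
  · have hσ' := sigma_one_hecke hℓ (m / p)
    obtain ⟨m', rfl⟩ := hpm
    rw [Nat.mul_div_cancel_left _ hp.pos] at hσ' ⊢
    rw [mul_assoc, Nat.mul_div_cancel_left _ hp.pos, ← mul_assoc]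
    have h2 : ℓ ∣ p * m' ↔ ℓ ∣ m' := ⟨hco.symm.dvd_of_dvd_mul_left, fun h ↦ dvd_mul_of_dvd_right h p⟩
    simp only [dvd_mul_right, if_true, h2] at hσ ⊢
    by_cases hℓm : ℓ ∣ m'
    · obtain ⟨m'', rfl⟩ := hℓm
      simp only [dvd_mul_right, if_true, show p * (ℓ * m'') = ℓ * (p * m'') by ring,
        Nat.mul_div_cancel_left _ hℓ.pos, Nat.mul_div_cancel_left _ hp.pos] at hσ hσ' ⊢
      linear_combination hσ - (p : ℤ) * hσ'
    · simp only [if_neg hℓm, add_zero] at hσ hσ' ⊢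
      linear_combination hσ - (p : ℤ) * hσ'
  · by_cases hℓm : ℓ ∣ m
    · obtain ⟨m'', rfl⟩ := hℓm
      have h3 : ¬ p ∣ m'' := fun h ↦ hpm (dvd_mul_of_dvd_right h ℓ)
      simp only [dvd_mul_right, if_true, Nat.mul_div_cancel_left _ hℓ.pos, hpm, if_false, h3,
        sub_zero] at hσ ⊢
      exact hσ
    · simp only [if_neg hℓm, if_neg hpm, add_zero, sub_zero] at hσ ⊢
      exact hσ

/-- `pE₂(pz) - E₂(z) - (p - 1)θ(z)`. -/
def cuspDiff (D : ThetaDatum p) : ℍ → ℂ := eisLevelFun p - ((p : ℂ) - 1) • D.theta 0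

theorem cuspDiff_slash (D : ThetaDatum p) (γ : SL(2, ℤ)) :
    cuspDiff D ∣[(2 : ℤ)] γ =
      eisLevelFun p ∣[(2 : ℤ)] γ - ((p : ℂ) - 1) • (D.theta 0 ∣[(2 : ℤ)] γ) := by
  ext z
  simp only [cuspDiff, ModularForm.SL_slash_apply, Pi.sub_apply, Pi.smul_apply, smul_eq_mul]
  ring

theorem cuspDiff_slash_of_mem (D : ThetaDatum p) {γ : SL(2, ℤ)}
    (hγ : γ ∈ CongruenceSubgroup.Gamma0 p) : cuspDiff D ∣[(2 : ℤ)] γ = cuspDiff D := by
  rw [cuspDiff_slash, eisLevelFun_slash_of_mem hγ, D.theta_zero_slash_of_mem hγ, cuspDiff]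

theorem isZeroAtImInfty_cuspDiff (D : ThetaDatum p) (γ : SL(2, ℤ)) :
    IsZeroAtImInfty (cuspDiff D ∣[(2 : ℤ)] γ) := by
  refine isZeroAtImInfty_slash_of_prime (fun γ hγ ↦ cuspDiff_slash_of_mem D hγ) ?_ ?_ γ
  · have h := ((tendsto_atImInfty_of_hasSum (hasSum_eisLevelFun p)).sub
      ((tendsto_atImInfty_of_hasSum D.hasSum_theta_zero).const_mul ((p : ℂ) - 1)))
    simpa [eisLevelCoeff, D.repCount_zero, IsZeroAtImInfty, ZeroAtFilter, cuspDiff, Pi.sub_def,
      Pi.smul_def] using h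
  · rw [cuspDiff_slash]
    have h := (tendsto_eisLevelFun_S p).sub (D.tendsto_theta_zero_S.const_mul ((p : ℂ) - 1))
    have hp : (p : ℂ) ≠ 0 := Nat.cast_ne_zero.mpr (Fact.out : p.Prime).ne_zero
    rw [show (1 : ℂ) / p - 1 - ((p : ℂ) - 1) * -(1 / (p : ℂ)) = 0 by field_simp; ring] at h
    simpa [IsZeroAtImInfty, ZeroAtFilter, Pi.sub_def, Pi.smul_def] using h

/-- The cusp form `pE₂(pz) - E₂(z) - (p - 1)θ(z)`. -/
def cuspDiffForm (D : ThetaDatum p) : CuspForm (CongruenceSubgroup.Gamma0 p) 2 where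
  toFun := cuspDiff D
  slash_action_eq' := by
    rintro _ ⟨γ, hγ, rfl⟩
    exact cuspDiff_slash_of_mem D hγ
  holo' := (mdifferentiable_eisLevelFun p).sub ((D.mdifferentiable_theta 0).const_smul _)
  zero_at_cusps' {c} hc := by
    rw [Subgroup.IsArithmetic.isCusp_iff_isCusp_SL2Z] at hc
    exact (OnePoint.isZeroAt_iff_forall_SL2Z hc).mpr fun γ _ ↦ isZeroAtImInfty_cuspDiff D γ

theorem qCoeff_cuspDiffForm (D : ThetaDatum p) (m : ℕ) :
    ModularFormClass.qCoeff (cuspDiffForm D) m =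
      ((eisLevelCoeff p m - ((p : ℤ) - 1) * D.repCount m : ℤ) : ℂ) := by
  refine (ModularFormClass.qExpansion_coeff_unique (f := cuspDiffForm D)
    (c := fun m ↦ ((eisLevelCoeff p m - ((p : ℤ) - 1) * D.repCount m : ℤ) : ℂ)) one_pos
    (CongruenceSubgroup.one_mem_strictPeriods_Gamma0 p) (fun τ ↦ ?_) m).symm
  have h := (hasSum_eisLevelFun p τ).sub ((D.hasSum_theta_zero τ).mul_left ((p : ℂ) - 1))
  refine h.congr_fun fun i ↦ ?_
  simp only [smul_eq_mul]
  push_cast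
  ring

theorem qCoeff_cusp_smul {N : ℕ} (c : ℂ) (f : CuspForm (CongruenceSubgroup.Gamma0 N) 2) (m : ℕ) :
    ModularFormClass.qCoeff (⇑(c • f)) m = c * ModularFormClass.qCoeff f m := by
  simp only [ModularFormClass.qCoeff, FunLike.coe_smul,
    ModularForm.qExpansion_smul one_pos (CongruenceSubgroup.one_mem_strictPeriods_Gamma0 N) c f,
    map_smul, smul_eq_mul]

theorem qCoeff_cusp_sub {N : ℕ} (f g : CuspForm (CongruenceSubgroup.Gamma0 N) 2) (m : ℕ) :
    ModularFormClass.qCoeff (⇑(f - g)) m =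
      ModularFormClass.qCoeff f m - ModularFormClass.qCoeff g m := by
  simp only [ModularFormClass.qCoeff, FunLike.coe_sub,
    ModularForm.qExpansion_sub one_pos (CongruenceSubgroup.one_mem_strictPeriods_Gamma0 N) f g,
    map_sub]

theorem eisensteinNumerator_pos (hp : p ≠ 2) : 0 < ModularCurve.eisensteinNumerator p := by
  have hp3 : 3 ≤ p := Nat.succ_le_of_lt
    (lt_of_le_of_ne (Fact.out : p.Prime).two_le (Ne.symm hp))
  exact Nat.div_pos (Nat.le_of_dvd (by omega) (Nat.gcd_dvd_left _ _))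
    (Nat.gcd_pos_of_pos_right _ (by norm_num))

/-- **The Eisenstein congruence**: an integral cusp form congruent to the Eisenstein series. -/
theorem exists_cuspForm_congr_eisenstein (hp : p ≠ 2) :
    ∃ (F : CuspForm (CongruenceSubgroup.Gamma0 p) 2) (a : ℕ → ℤ),
      (∀ m, ModularFormClass.qCoeff F m = (a m : ℂ)) ∧
      ∀ m, (ModularCurve.eisensteinNumerator p : ℤ) ∣ a m - eisCoeff p m := by
  obtain ⟨D⟩ := exists_thetaDatum p hp
  set g := Nat.gcd (p - 1) 12 with hg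
  set n := ModularCurve.eisensteinNumerator p with hn
  have hg0 : 0 < g := Nat.gcd_pos_of_pos_right _ (by norm_num)
  have hgn : g * n = p - 1 := Nat.mul_div_cancel' (Nat.gcd_dvd_left _ _)
  obtain ⟨d, hd⟩ : g ∣ 12 := Nat.gcd_dvd_right _ _
  have hco : Nat.Coprime d n := by
    have h := (Nat.coprime_div_gcd_div_gcd (m := p - 1) (n := 12) hg0).symm
    rw [← hg] at h
    rwa [show 12 / g = d by rw [hd, Nat.mul_div_cancel_left _ hg0],
      show (p - 1) / g = n by rw [← hgn, Nat.mul_div_cancel_left _ hg0]] at h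
  obtain ⟨x, y, hxy⟩ := hco.cast (R := ℤ)
  choose r hr using fun m : ℕ ↦ show ∃ r : ℤ, m ≠ 0 → (D.repCount m : ℤ) = 2 * r by
    by_cases hm : m = 0
    · exact ⟨0, fun h ↦ absurd hm h⟩
    · obtain ⟨r, hr⟩ := D.two_dvd_repCount hm
      exact ⟨r, fun _ ↦ by exact_mod_cast hr⟩
  refine ⟨((x : ℂ) / (2 * g)) • cuspDiffForm D,
    fun m ↦ if m = 0 then 0 else x * (d * eisCoeff p m - n * r m), fun m ↦ ?_, fun m ↦ ?_⟩
    <;> dsimp only
  · rw [qCoeff_cusp_smul, qCoeff_cuspDiffForm]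
    rcases eq_or_ne m 0 with rfl | hm
    · simp [eisLevelCoeff, D.repCount_zero]
    have h1 : ((p : ℤ) - 1) = (g : ℤ) * n := by
      rw [← Nat.cast_mul, hgn, Nat.cast_sub (Fact.out : p.Prime).one_le, Nat.cast_one]
    have h2 : (eisLevelCoeff p m - ((p : ℤ) - 1) * D.repCount m) =
        2 * g * (d * eisCoeff p m - n * r m) := by
      have h12 : (12 : ℤ) = g * d := by exact_mod_cast hd
      rw [eisLevelCoeff, if_neg hm, ← eisCoeff, h1, hr m hm]
      linear_combination (2 * eisCoeff p m) * h12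
    rw [h2, if_neg hm]
    have hgC : (g : ℂ) ≠ 0 := Nat.cast_ne_zero.mpr hg0.ne'
    push_cast
    field_simp
  · rcases eq_or_ne m 0 with rfl | hm
    · simp
    · rw [if_neg hm]
      exact ⟨-(y * eisCoeff p m) - x * r m, by linear_combination eisCoeff p m * hxy⟩

end FermatLib.Mazur

end
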