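import Fermat.Agent.Mazur.EisensteinCongruence
import Fermat.Prelude.Thm_CuspForm_mem_intLattice_of_mem_heckeAlgebra

/-!
The Eisenstein character of the Hecke algebra of level `p` modulo the numerator `n` of
`(p - 1)/12`: the lower bound for the index of the Eisenstein ideal, and the exact index
once `n` is known to lie in the ideal.
-/

set_option autoImplicit false
set_option linter.unusedSectionVars false

noncomputable section

open CuspForm ModularCurve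

namespace FermatLib.Mazur

theorem qCoeff_cusp_add {N : ℕ} (f g : CuspForm (CongruenceSubgroup.Gamma0 N) 2) (m : ℕ) :
    ModularFormClass.qCoeff (⇑(f + g)) m =
      ModularFormClass.qCoeff f m + ModularFormClass.qCoeff g m := by
  simp only [ModularFormClass.qCoeff, FunLike.coe_add,
    ModularForm.qExpansion_add one_pos (CongruenceSubgroup.one_mem_strictPeriods_Gamma0 N) f g,
    map_add]

theorem exists_qCoeff_eq_intCast {N : ℕ} {f : CuspForm (CongruenceSubgroup.Gamma0 N) 2}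
    (hf : f ∈ intLattice N 2) (m : ℕ) : ∃ z : ℤ, ModularFormClass.qCoeff f m = (z : ℂ) := by
  induction hf using Submodule.span_induction with
  | mem x hx => exact hx m
  | zero =>
    refine ⟨0, ?_⟩
    have h := qCoeff_cusp_smul (0 : ℂ) (0 : CuspForm (CongruenceSubgroup.Gamma0 N) 2) m
    simpa using h
  | add x y _ _ hx hy =>
    obtain ⟨a, ha⟩ := hx
    obtain ⟨b, hb⟩ := hy
    exact ⟨a + b, by rw [qCoeff_cusp_add, ha, hb, Int.cast_add]⟩
  | smul c x _ hx =>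
    obtain ⟨a, ha⟩ := hx
    refine ⟨c * a, ?_⟩
    rw [← Int.cast_smul_eq_zsmul ℂ c x, qCoeff_cusp_smul, ha, Int.cast_mul]

variable {p : ℕ} [Fact p.Prime]

/-- If the coefficients of `g` are congruent to `z` times those of `f` modulo `n`, then
`g - z f ∈ n L`. -/
theorem exists_eq_smul_add_smul {n : ℕ} (hn : n ≠ 0)
    {f g : CuspForm (CongruenceSubgroup.Gamma0 p) 2} (z : ℤ)
    (h : ∀ m, ∃ w : ℤ, ModularFormClass.qCoeff g m =
      (z : ℂ) * ModularFormClass.qCoeff f m + (n : ℂ) * w) :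
    ∃ k ∈ intLattice p 2, g = z • f + (n : ℤ) • k := by
  have hnC : (n : ℂ) ≠ 0 := Nat.cast_ne_zero.mpr hn
  refine ⟨((n : ℂ)⁻¹) • (g - (z : ℂ) • f), Submodule.subset_span fun m ↦ ?_, ?_⟩
  · obtain ⟨w, hw⟩ := h m
    refine ⟨w, ?_⟩
    rw [qCoeff_cusp_smul, qCoeff_cusp_sub, qCoeff_cusp_smul, hw]
    field_simp
    ring
  · rw [← Int.cast_smul_eq_zsmul ℂ z f, ← Int.cast_smul_eq_zsmul ℂ (n : ℤ), Int.cast_natCast,
      smul_inv_smul₀ hnC]
    abel

/-- The Eisenstein eigenvalue property of a Hecke operator on a form `f` modulo `n`. -/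
def EisEigen (n : ℕ) (f : CuspForm (CongruenceSubgroup.Gamma0 p) 2)
    (t : Module.End ℂ (CuspForm (CongruenceSubgroup.Gamma0 p) 2)) (z : ℤ) : Prop :=
  ∃ k ∈ intLattice p 2, t f = z • f + (n : ℤ) • k

theorem eisEigen_heckeT {n ℓ : ℕ} (hn : n ≠ 0) {f : CuspForm (CongruenceSubgroup.Gamma0 p) 2}
    {a : ℕ → ℤ} (ha : ∀ m, ModularFormClass.qCoeff f m = (a m : ℂ))
    (hc : ∀ m, (n : ℤ) ∣ a m - eisCoeff p m) (hℓ : ℓ.Prime) (hℓp : ¬ ℓ ∣ p) :
    EisEigen n f (heckeTLin 2 hℓ hℓp) (1 + ℓ) := by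
  refine exists_eq_smul_add_smul hn _ fun m ↦ ?_
  obtain ⟨u, hu⟩ := hc (m * ℓ)
  obtain ⟨v, hv⟩ := hc (m / ℓ)
  obtain ⟨w, hw⟩ := hc m
  have hrec := eisCoeff_hecke (Fact.out : p.Prime) hℓ hℓp m
  refine ⟨u + (if ℓ ∣ m then (ℓ : ℤ) * v else 0) - (1 + ℓ) * w, ?_⟩
  rw [CuspForm.coe_heckeTLin_apply,
    ModularFormClass.qCoeff_heckeT f (CongruenceSubgroup.one_mem_strictPeriods_Gamma0 p) hℓ.ne_zero,
    ModularForm.coeffHeckeT_apply]
  simp only [ha]
  have key : a (m * ℓ) + (if ℓ ∣ m then (ℓ : ℤ) * a (m / ℓ) else 0) =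
      (1 + ℓ) * a m + n * (u + (if ℓ ∣ m then (ℓ : ℤ) * v else 0) - (1 + ℓ) * w) := by
    split_ifs at hrec ⊢
    · linear_combination hu + (ℓ : ℤ) * hv - (1 + (ℓ : ℤ)) * hw + hrec
    · linear_combination hu - (1 + (ℓ : ℤ)) * hw + hrec
  have key' := congrArg (Int.cast : ℤ → ℂ) key
  push_cast at key'
  rw [show ((2 : ℤ) - 1) = 1 by norm_num, zpow_one]
  split_ifs with h <;> simpa [h] using key'

theorem eisEigen_heckeU {n q : ℕ} (hn : n ≠ 0) {f : CuspForm (CongruenceSubgroup.Gamma0 p) 2}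
    {a : ℕ → ℤ} (ha : ∀ m, ModularFormClass.qCoeff f m = (a m : ℂ))
    (hc : ∀ m, (n : ℤ) ∣ a m - eisCoeff p m) (hq : q.Prime) (hqp : q ∣ p) :
    EisEigen n f (heckeULin 2 hqp) 1 := by
  refine exists_eq_smul_add_smul hn _ fun m ↦ ?_
  obtain rfl : q = p := (Nat.prime_dvd_prime_iff_eq hq Fact.out).mp hqp
  obtain ⟨u, hu⟩ := hc (m * q)
  obtain ⟨w, hw⟩ := hc m
  refine ⟨u - w, ?_⟩
  rw [CuspForm.coe_heckeULin_apply,
    ModularFormClass.qCoeff_heckeU f (CongruenceSubgroup.one_mem_strictPeriods_Gamma0 q) hq.ne_zero,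
    ModularForm.coeffHeckeU_apply, ha, ha]
  have hrec := eisCoeff_mul_self hq m
  have key : a (m * q) = a m + n * (u - w) := by linear_combination hu - hw + hrec
  have key' := congrArg (Int.cast : ℤ → ℂ) key
  push_cast at key' ⊢
  linear_combination key'

/-- Every Hecke operator has an Eisenstein eigenvalue modulo `n` on `f`. -/
theorem exists_eisEigen {n : ℕ} (hn : n ≠ 0) {f : CuspForm (CongruenceSubgroup.Gamma0 p) 2}
    {a : ℕ → ℤ} (ha : ∀ m, ModularFormClass.qCoeff f m = (a m : ℂ))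
    (hc : ∀ m, (n : ℤ) ∣ a m - eisCoeff p m)
    {t : Module.End ℂ (CuspForm (CongruenceSubgroup.Gamma0 p) 2)} (ht : t ∈ heckeAlgebra p 2 ∅) :
    ∃ z : ℤ, EisEigen n f t z := by
  unfold heckeAlgebra at ht
  induction ht using Algebra.adjoin_induction with
  | mem x hx =>
    rcases hx with ⟨ℓ, hℓ, hℓN, -, rfl⟩ | ⟨q, hqN, hq, -, rfl⟩
    · exact ⟨_, eisEigen_heckeT hn ha hc hℓ hℓN⟩
    · exact ⟨_, eisEigen_heckeU hn ha hc hq hqN⟩
  | algebraMap r =>
    refine ⟨r, 0, zero_mem _, ?_⟩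
    rw [smul_zero, add_zero, Algebra.algebraMap_eq_smul_one, LinearMap.smul_apply,
      Module.End.one_apply]
  | add x y _ _ hx hy =>
    obtain ⟨z₁, k₁, hk₁, h₁⟩ := hx
    obtain ⟨z₂, k₂, hk₂, h₂⟩ := hy
    refine ⟨z₁ + z₂, k₁ + k₂, add_mem hk₁ hk₂, ?_⟩
    rw [LinearMap.add_apply, h₁, h₂, add_smul, smul_add]
    abel
  | mul x y hx' _ hx hy =>
    obtain ⟨z₁, k₁, hk₁, h₁⟩ := hx
    obtain ⟨z₂, k₂, hk₂, h₂⟩ := hy
    refine ⟨z₁ * z₂, z₂ • k₁ + x k₂, add_mem (Submodule.smul_mem _ _ hk₁)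
      (mem_intLattice_of_mem_heckeAlgebra one_le_two hx' hk₂), ?_⟩
    rw [Module.End.mul_apply, h₂, map_add, map_zsmul, map_zsmul, h₁, smul_add, smul_add, mul_comm,
      mul_smul, smul_comm (n : ℤ) z₂]
    abel

theorem eisEigen_unique {n : ℕ} {f : CuspForm (CongruenceSubgroup.Gamma0 p) 2}
    {a : ℕ → ℤ} (ha : ∀ m, ModularFormClass.qCoeff f m = (a m : ℂ))
    (hc : ∀ m, (n : ℤ) ∣ a m - eisCoeff p m)
    {t : Module.End ℂ (CuspForm (CongruenceSubgroup.Gamma0 p) 2)} {z z' : ℤ}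
    (h : EisEigen n f t z) (h' : EisEigen n f t z') : (z : ZMod n) = (z' : ZMod n) := by
  obtain ⟨k, hk, h⟩ := h
  obtain ⟨k', hk', h'⟩ := h'
  obtain ⟨c, hc'⟩ := exists_qCoeff_eq_intCast hk 1
  obtain ⟨c', hc''⟩ := exists_qCoeff_eq_intCast hk' 1
  have e : ∀ (w : ℤ) (g : CuspForm (CongruenceSubgroup.Gamma0 p) 2),
      ModularFormClass.qCoeff (⇑(w • g)) 1 = (w : ℂ) * ModularFormClass.qCoeff g 1 := fun w g ↦ by
    rw [← Int.cast_smul_eq_zsmul ℂ, qCoeff_cusp_smul]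
  have := congrArg (fun g : CuspForm (CongruenceSubgroup.Gamma0 p) 2 ↦
    ModularFormClass.qCoeff g 1) (h.symm.trans h')
  simp only [qCoeff_cusp_add, e, ha, hc', hc''] at this
  have hz : z * a 1 + (n : ℤ) * c = z' * a 1 + (n : ℤ) * c' := by exact_mod_cast this
  have ha1 : ((a 1 : ℤ) : ZMod n) = 1 := by
    obtain ⟨w, hw⟩ := hc 1
    rw [eisCoeff_one Fact.out] at hw
    rw [show a 1 = 1 + (n : ℤ) * w by linarith]
    push_cast
    simp
  have := congrArg (Int.cast : ℤ → ZMod n) hz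
  push_cast at this
  simpa [ha1] using this

private theorem eisEigen_mul {n : ℕ} {f : CuspForm (CongruenceSubgroup.Gamma0 p) 2}
    {s t : Module.End ℂ (CuspForm (CongruenceSubgroup.Gamma0 p) 2)} (hs : s ∈ heckeAlgebra p 2 ∅)
    {z w : ℤ} (h₁ : EisEigen n f s z) (h₂ : EisEigen n f t w) : EisEigen n f (s * t) (z * w) := by
  obtain ⟨k₁, hk₁, h₁⟩ := h₁
  obtain ⟨k₂, hk₂, h₂⟩ := h₂
  refine ⟨w • k₁ + s k₂, add_mem (Submodule.smul_mem _ _ hk₁)
    (mem_intLattice_of_mem_heckeAlgebra one_le_two hs hk₂), ?_⟩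
  rw [Module.End.mul_apply, h₂, LinearMap.map_add, map_zsmul, map_zsmul, h₁, smul_add, smul_add,
    mul_comm, mul_smul, smul_comm (n : ℤ)]
  abel

private theorem eisEigen_add {n : ℕ} {f : CuspForm (CongruenceSubgroup.Gamma0 p) 2}
    {s t : Module.End ℂ (CuspForm (CongruenceSubgroup.Gamma0 p) 2)} {z w : ℤ}
    (h₁ : EisEigen n f s z) (h₂ : EisEigen n f t w) : EisEigen n f (s + t) (z + w) := by
  obtain ⟨k₁, hk₁, h₁⟩ := h₁
  obtain ⟨k₂, hk₂, h₂⟩ := h₂
  refine ⟨k₁ + k₂, add_mem hk₁ hk₂, ?_⟩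
  rw [LinearMap.add_apply, h₁, h₂, add_smul, smul_add]
  abel

private theorem ker_le_map_of_eval {R S : Type*} [CommRing R] [CommRing S] (φ : S →+* R)
    (hφ : Function.Surjective φ) {n : ℕ} (χ : R →+* ZMod n) (ev : S → ℤ)
    (hev : ∀ P, χ (φ P) = (ev P : ZMod n)) {J : Ideal S} (hJ : ∀ P, P - (ev P : S) ∈ J)
    (hn : (n : R) ∈ J.map φ) : RingHom.ker χ ≤ J.map φ := by
  intro T hT
  obtain ⟨P, rfl⟩ := hφ T
  obtain ⟨c, hc⟩ := (ZMod.intCast_zmod_eq_zero_iff_dvd (ev P) n).mp ((hev P).symm.trans hT)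
  have hP := Ideal.mem_map_of_mem φ (hJ P)
  rw [map_sub, map_intCast, hc, Int.cast_mul, Int.cast_natCast] at hP
  have := (J.map φ).add_mem hP ((J.map φ).mul_mem_right (c : R) hn)
  rwa [sub_add_cancel] at this

private theorem exists_ringHom_of_eisEigen {n : ℕ}
    {f : CuspForm (CongruenceSubgroup.Gamma0 p) 2} {a : ℕ → ℤ}
    (ha : ∀ m, ModularFormClass.qCoeff f m = (a m : ℂ))
    (hc : ∀ m, (n : ℤ) ∣ a m - eisCoeff p m) (z : ↥(heckeLatticeAlgebra p ∅) → ℤ)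
    (hz : ∀ T (t : ↥(heckeAlgebra p 2 ∅)), latticeRestrictHom p ∅ t = T →
      EisEigen n f (t : Module.End ℂ (CuspForm (CongruenceSubgroup.Gamma0 p) 2)) (z T)) :
    ∃ χ : ↥(heckeLatticeAlgebra p ∅) →+* ZMod n, ∀ (t : ↥(heckeAlgebra p 2 ∅)) (w : ℤ),
      EisEigen n f (t : Module.End ℂ (CuspForm (CongruenceSubgroup.Gamma0 p) 2)) w →
        χ (latticeRestrictHom p ∅ t) = (w : ZMod n) := by
  let χ₀ : ↥(heckeAlgebra p 2 ∅) → ZMod n := fun t ↦ (z (latticeRestrictHom p ∅ t) : ZMod n)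
  have hχ₀ : ∀ (t : ↥(heckeAlgebra p 2 ∅)) (w : ℤ),
      EisEigen n f (t : Module.End ℂ (CuspForm (CongruenceSubgroup.Gamma0 p) 2)) w →
        χ₀ t = (w : ZMod n) :=
    fun t w hw ↦ eisEigen_unique ha hc (hz _ t rfl) hw
  have hsurj := latticeRestrictHom_surjective p ∅
  let χ : ↥(heckeLatticeAlgebra p ∅) →+* ZMod n :=
    { toFun := fun T ↦ (z T : ZMod n)
      map_one' := by
        rw [← map_one (latticeRestrictHom p ∅)]
        exact (hχ₀ 1 1 ⟨0, zero_mem _, by simp⟩).trans Int.cast_one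
      map_mul' := fun A B ↦ by
        obtain ⟨s, rfl⟩ := hsurj A
        obtain ⟨t, rfl⟩ := hsurj B
        rw [← map_mul (latticeRestrictHom p ∅) s t]
        refine (hχ₀ (s * t) (z (latticeRestrictHom p ∅ s) * z (latticeRestrictHom p ∅ t)) ?_).trans
          (Int.cast_mul _ _)
        exact eisEigen_mul s.2 (hz _ s rfl) (hz _ t rfl)
      map_zero' := by
        rw [← map_zero (latticeRestrictHom p ∅)]
        exact (hχ₀ 0 0 ⟨0, zero_mem _, by simp⟩).trans Int.cast_zero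
      map_add' := fun A B ↦ by
        obtain ⟨s, rfl⟩ := hsurj A
        obtain ⟨t, rfl⟩ := hsurj B
        rw [← show latticeRestrictHom p ∅ (s + t) =
            latticeRestrictHom p ∅ s + latticeRestrictHom p ∅ t from
          (latticeRestrictHom p ∅).toRingHom.map_add s t]
        refine (hχ₀ (s + t) (z (latticeRestrictHom p ∅ s) + z (latticeRestrictHom p ∅ t)) ?_).trans
          (Int.cast_add _ _)
        exact eisEigen_add (hz _ s rfl) (hz _ t rfl) }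
  exact ⟨χ, hχ₀⟩

/-- **Lower bound**: the Eisenstein system modulo `n` is a character of the Hecke algebra. -/
theorem exists_eisenstein_character (hp : p ≠ 2) :
    ∃ χ : ↥(heckeLatticeAlgebra p ∅) →+* ZMod (eisensteinNumerator p),
      ∀ P : HeckeAlg, χ (latticeRestrictHom p ∅ (heckeEvalForms p 2 P)) =
        ((MvPolynomial.aeval (eisensteinSystem p) P : ℤ) : ZMod (eisensteinNumerator p)) := by
  obtain ⟨f, a, ha, hc⟩ := exists_cuspForm_congr_eisenstein (p := p) hp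
  have hn := (eisensteinNumerator_pos (p := p) hp).ne'
  set n := eisensteinNumerator p
  have hfL : f ∈ intLattice p 2 := Submodule.subset_span fun m ↦ ⟨a m, ha m⟩
  have key : ∀ T : ↥(heckeLatticeAlgebra p ∅), ∃ z : ℤ, ∀ t : ↥(heckeAlgebra p 2 ∅),
      latticeRestrictHom p ∅ t = T →
        EisEigen n f (t : Module.End ℂ (CuspForm (CongruenceSubgroup.Gamma0 p) 2)) z := by
    intro T
    obtain ⟨t₀, rfl⟩ := latticeRestrictHom_surjective p ∅ T
    obtain ⟨z, k, hk, hz⟩ := exists_eisEigen hn ha hc t₀.2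
    refine ⟨z, fun t ht ↦ ⟨k, hk, ?_⟩⟩
    have := congrArg (fun u : ↥(heckeLatticeAlgebra p ∅) ↦
      ((u.1 ⟨f, hfL⟩ : ↥(intLattice p 2)) : CuspForm (CongruenceSubgroup.Gamma0 p) 2)) ht
    exact this.trans hz
  choose z hz using key
  obtain ⟨χ, hχ⟩ := exists_ringHom_of_eisEigen ha hc z hz
  refine ⟨χ, fun P ↦ ?_⟩
  have : χ.comp ((latticeRestrictHom p ∅).toRingHom.comp (heckeEvalForms p 2)) =
      (Int.castRingHom (ZMod n)).comp
        (MvPolynomial.aeval (R := ℤ) (eisensteinSystem p)).toRingHom := by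
    refine MvPolynomial.ringHom_ext (fun r ↦ ?_) fun ℓ ↦ ?_
    · rw [eq_intCast MvPolynomial.C r, map_intCast, map_intCast]
    change χ (latticeRestrictHom p ∅ (heckeEvalForms p 2 (heckeGen ℓ))) =
      ((MvPolynomial.aeval (eisensteinSystem p) (heckeGen ℓ) : ℤ) : ZMod n)
    rw [aeval_heckeGen]
    by_cases h : (ℓ : ℕ) ∣ p
    · rw [heckeEvalForms_heckeGen_of_dvd h, eisensteinSystem_of_dvd h]
      exact hχ _ 1 (eisEigen_heckeU hn ha hc ℓ.2 h)
    · rw [heckeEvalForms_heckeGen_of_not_dvd h, eisensteinSystem_of_not_dvd h]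
      exact hχ _ _ (eisEigen_heckeT hn ha hc ℓ.2 h)
  exact RingHom.congr_fun this P

theorem heckeEvalForms_surjective (p : ℕ) [NeZero p] :
    Function.Surjective (heckeEvalForms p 2) := by
  rintro ⟨t, ht⟩
  suffices ∃ P, (heckeEvalForms p 2 P : Module.End ℂ (CuspForm (CongruenceSubgroup.Gamma0 p) 2)) = t
    from this.imp fun P h ↦ Subtype.ext h
  unfold heckeAlgebra at ht
  induction ht using Algebra.adjoin_induction with
  | mem x hx =>
    rcases hx with ⟨ℓ, hℓ, hℓN, -, rfl⟩ | ⟨q, hqN, hq, -, rfl⟩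
    · exact ⟨heckeGen ⟨ℓ, hℓ⟩, by rw [heckeEvalForms_heckeGen_of_not_dvd (ℓ := ⟨ℓ, hℓ⟩) hℓN]; rfl⟩
    · exact ⟨heckeGen ⟨q, hq⟩, by rw [heckeEvalForms_heckeGen_of_dvd (q := ⟨q, hq⟩) hqN]; rfl⟩
  | algebraMap r => exact ⟨MvPolynomial.C r, by rw [heckeEvalForms_C]; rfl⟩
  | add x y _ _ hx hy =>
    obtain ⟨P, rfl⟩ := hx
    obtain ⟨Q, rfl⟩ := hy
    exact ⟨P + Q, by rw [map_add]; rfl⟩
  | mul x y _ _ hx hy =>
    obtain ⟨P, rfl⟩ := hx
    obtain ⟨Q, rfl⟩ := hy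
    exact ⟨P * Q, by rw [map_mul]; rfl⟩

/-- The index of the Eisenstein ideal, given that `n` lies in it. -/
theorem natCard_quotient_eisenstein (p : ℕ) [Fact p.Prime]
    (hmem : (eisensteinNumerator p : ↥(heckeLatticeAlgebra p ∅)) ∈
      Ideal.map ((latticeRestrictHom p ∅).toRingHom.comp (heckeEvalForms p 2))
        (eisensteinIdeal p)) :
    Nat.card (↥(heckeLatticeAlgebra p ∅) ⧸
        Ideal.map ((latticeRestrictHom p ∅).toRingHom.comp (heckeEvalForms p 2))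
          (eisensteinIdeal p)) = eisensteinNumerator p := by
  set ψ := (latticeRestrictHom p ∅).toRingHom.comp (heckeEvalForms p 2) with hψ
  set I := Ideal.map ψ (eisensteinIdeal p)
  by_cases hn1 : eisensteinNumerator p = 1
  · rw [hn1, Nat.cast_one] at hmem
    rw [hn1, (Ideal.eq_top_iff_one I).mpr hmem]
    exact Nat.card_of_subsingleton 0
  have hp : p ≠ 2 := by
    rintro rfl
    exact hn1 (by decide)
  obtain ⟨χ, hχ⟩ := exists_eisenstein_character (p := p) hp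
  have hle : I ≤ RingHom.ker χ := by
    refine Ideal.map_le_iff_le_comap.mpr fun P hP ↦ ?_
    rw [Ideal.mem_comap, RingHom.mem_ker]
    change χ (latticeRestrictHom p ∅ (heckeEvalForms p 2 P)) = 0
    rw [hχ P]
    rw [(mem_eigenIdeal_iff (eisensteinSystem p) P).mp hP, Int.cast_zero]
  let χ' : (↥(heckeLatticeAlgebra p ∅) ⧸ I) →+* ZMod (eisensteinNumerator p) := Ideal.Quotient.lift I χ fun x hx ↦ hle hx
  refine (Nat.card_congr (Equiv.ofBijective χ' ⟨?_, ?_⟩)).trans (Nat.card_zmod _)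
  · exact RingHom.lift_injective_of_ker_le_ideal I (fun x hx ↦ hle hx)
      (ker_le_map_of_eval ψ
        ((latticeRestrictHom_surjective p ∅).comp (heckeEvalForms_surjective p))
        χ _ hχ (fun P ↦ (mem_eigenIdeal_iff (eisensteinSystem p) _).mpr (by simp)) hmem)
  · exact ZMod.ringHom_surjective χ'

end FermatLib.Mazur

end
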