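import Fermat.Agent.Mazur.EisUpperArith
import Fermat.Agent.Mazur.EisUpperHecke
import Fermat.Agent.Mazur.EisensteinLevelN
import Fermat.Agent.Modular.Gamma0Coset
import Fermat.Prelude.Thm_ModularForm_sturm_bound_Gamma0

/-!
# The Eisenstein numerator lies in the Eisenstein ideal

This is the upper bound `#(T/I) ∣ num((p - 1)/12)` for the weight two Hecke algebra of prime level.
-/

set_option autoImplicit false

noncomputable section

open UpperHalfPlane CongruenceSubgroup ModularCurve CuspForm
open scoped MatrixGroups ModularForm ArithmeticFunction.sigma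

namespace FermatLib.Mazur

namespace EisUpper

theorem qNice_gamma0Form {N : ℕ} [NeZero N] {k : ℤ} (f : ModularForm (Gamma0 N) k) : QNice ⇑f :=
  have hs := CongruenceSubgroup.one_mem_strictPeriods_Gamma0 N
  have : Fact (IsCusp OnePoint.infty ((Gamma0 N).map (Matrix.SpecialLinearGroup.mapGL ℝ))) :=
    ⟨Subgroup.isCusp_of_mem_strictPeriods one_pos hs⟩
  ⟨by simpa using SlashInvariantFormClass.periodic_comp_ofComplex f hs, f.holo',
    ModularFormClass.bdd_at_infty f⟩

/-- A cusp form as a modular form. -/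
def cuspToModular {N : ℕ} {k : ℤ} (f : CuspForm (Gamma0 N) k) : ModularForm (Gamma0 N) k where
  toFun := ⇑f
  slash_action_eq' := f.slash_action_eq'
  holo' := f.holo'
  bdd_at_cusps' hc g hg := (f.zero_at_cusps' hc g hg).isBoundedAtImInfty

theorem hasIntQExp_eisLevelForm (N : ℕ) [NeZero N] :
    HasIntQExp ⇑(eisLevelForm N) (PowerSeries.mk (eisLevelCoeff N)) :=
  HasIntQExp.of_qExpansion (qNice_gamma0Form _) fun n ↦ by
    rw [PowerSeries.coeff_mk]
    exact qCoeff_eisLevelForm N n

theorem mk_eisLevelCoeff_three :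
    PowerSeries.mk (eisLevelCoeff 3) = PowerSeries.C 2 * aThree := by
  ext n
  rw [PowerSeries.coeff_mk, PowerSeries.coeff_C_mul, aThree, map_add, PowerSeries.coeff_C_mul,
    sThree, map_sub, PowerSeries.coeff_C_mul, coeff_sigmaSeries, PowerSeries.coeff_one,
    eisLevelCoeff]
  rcases eq_or_ne n 0 with rfl | hn
  · simp [constantCoeff_sigmaSeries]
  · rw [if_neg hn, if_neg hn]
    by_cases h : 3 ∣ n
    · obtain ⟨m, rfl⟩ := h
      rw [if_pos (dvd_mul_right 3 m), PowerSeries.coeff_expand_mul, coeff_sigmaSeries,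
        Nat.mul_div_cancel_left _ three_pos]
      push_cast
      ring
    · rw [if_neg h, PowerSeries.coeff_expand_of_not_dvd 3 three_ne_zero _ h]
      ring

/-- The weight two Eisenstein series of level `3`, normalised to constant term `1`. -/
theorem exists_aThree_form :
    ∃ a : ModularForm (Gamma0 3) 2, HasIntQExp ⇑a aThree := by
  refine ⟨(2 : ℂ)⁻¹ • eisLevelForm 3, HasIntQExp.of_qExpansion (qNice_gamma0Form _) fun n ↦ ?_⟩
  have h := (hasIntQExp_eisLevelForm 3).coeff_eq n
  rw [mk_eisLevelCoeff_three, PowerSeries.coeff_C_mul] at h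
  rw [FunLike.coe_smul,
    (qNice_gamma0Form (eisLevelForm 3)).qExpansion_smul, PowerSeries.coeff_smul, h]
  push_cast
  simp

theorem intLattice_eq_zero {p : ℕ} [Fact p.Prime] (hp : p < 5) (f : ↥(intLattice p 2)) : f = 0 := by
  have hp' : p.Prime := Fact.out
  refine eq_zero_of_intCoeff p f ?_
  have h0 : cuspToModular (f : CuspForm (Gamma0 p) 2) = 0 := by
    refine ModularForm.sturm_bound_Gamma0 p _ fun n hn ↦ ?_
    have hn0 : n = 0 := by
      rw [FermatLib.Modular.index_Gamma0, FermatLib.Modular.dedekindPsi_prime hp',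
        show ((2 : ℤ) * ((p + 1 : ℕ) : ℤ)).toNat = 2 * (p + 1) by omega] at hn
      omega
    subst hn0
    exact CuspFormClass.qExpansion_coeff_zero (f : CuspForm (Gamma0 p) 2) one_pos
      (CongruenceSubgroup.one_mem_strictPeriods_Gamma0 p)
  intro n
  apply Int.cast_injective (α := ℂ)
  rw [cast_intCoeff, Int.cast_zero, ModularFormClass.qCoeff,
    show ⇑(f : CuspForm (Gamma0 p) 2) = ⇑(cuspToModular (f : CuspForm (Gamma0 p) 2)) from rfl, h0,
    FunLike.coe_zero, UpperHalfPlane.qExpansion_zero, map_zero]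

theorem mem_of_lt_five {p : ℕ} [Fact p.Prime] (hp : p < 5) (I : Ideal ↥(heckeLatticeAlgebra p ∅))
    (t : ↥(heckeLatticeAlgebra p ∅)) : t ∈ I := by
  have ht : t = 0 := Subtype.ext (LinearMap.ext fun f ↦ by
    rw [intLattice_eq_zero hp f, map_zero, map_zero])
  rw [ht]
  exact zero_mem I

/-- The congruence between the Eisenstein series and a cusp form. -/
def congruenceSeries (p : ℕ) (c : ℕ → ℤ) : PowerSeries ℤ :=
  PowerSeries.mk fun n ↦ if n = 0 then (p : ℤ) - 1 else 24 * (primeToSigma p n - c n)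

theorem hasIntQExp_congruence (p : ℕ) [Fact p.Prime] (f : ↥(intLattice p 2)) :
    HasIntQExp
      ⇑(eisLevelForm p - (24 : ℂ) • cuspToModular (f : CuspForm (Gamma0 p) 2))
      (congruenceSeries p (intCoeff p f)) := by
  have hf : HasIntQExp ⇑(cuspToModular (f : CuspForm (Gamma0 p) 2))
      (PowerSeries.mk (intCoeff p f)) :=
    HasIntQExp.of_qExpansion (qNice_gamma0Form _) fun n ↦ by
      rw [PowerSeries.coeff_mk, cast_intCoeff]
      rfl
  have h := (hasIntQExp_eisLevelForm p).sub (hf.intSmul 24)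
  rw [show congruenceSeries p (intCoeff p f) =
      PowerSeries.mk (eisLevelCoeff p) - PowerSeries.C 24 * PowerSeries.mk (intCoeff p f) by
    ext n
    rw [congruenceSeries, map_sub, PowerSeries.coeff_C_mul, PowerSeries.coeff_mk,
      PowerSeries.coeff_mk, PowerSeries.coeff_mk, eisLevelCoeff]
    rcases eq_or_ne n 0 with rfl | hn
    · rw [if_pos rfl, if_pos rfl, intCoeff_zero]; ring
    · rw [if_neg hn, if_neg hn, primeToSigma]; ring]
  refine h.congr ?_
  rw [FunLike.coe_sub, FunLike.coe_smul]
  norm_num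

end EisUpper

open EisUpper in
/-- The Eisenstein numerator lies in the Eisenstein ideal of the Hecke algebra of prime level. -/
theorem eisensteinNumerator_mem (p : ℕ) [Fact p.Prime] :
    (eisensteinNumerator p : ↥(heckeLatticeAlgebra p ∅)) ∈
      Ideal.map ((latticeRestrictHom p ∅).toRingHom.comp (heckeEvalForms p 2))
        (eisensteinIdeal p) := by
  rcases lt_or_ge p 5 with hp | hp
  · exact mem_of_lt_five hp _ _
  obtain ⟨m, f, hm, hc⟩ := exists_congruent_cuspForm p
  obtain ⟨a, ha⟩ := exists_aThree_form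
  have h : m ∣ eisensteinNumerator p := by
    refine dvd_eisensteinNumerator _ (hasIntQExp_congruence p f) ?_ ?_ a ha hp
    · rw [congruenceSeries, PowerSeries.coeff_mk, if_pos rfl]
    · intro n hn
      rw [congruenceSeries, PowerSeries.coeff_mk, if_neg (Nat.one_le_iff_ne_zero.mp hn)]
      exact mul_dvd_mul_left 24 (hc n hn)
  have h' := hm (eisensteinNumerator p) (Int.natCast_dvd_natCast.mpr h)
  rwa [Int.cast_natCast] at h'

end FermatLib.Mazur

end
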