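import Mathlib.Algebra.Algebra.Operations
import Fermat.Agent.Mazur.CharDual

/-!
# Fourier analysis on finite abelian groups with values in `ℚ̄`

Characters, Fourier coefficients and the lattice of functions with integral spectrum at a place.
-/

set_option autoImplicit false
set_option linter.unusedSectionVars false

noncomputable section

namespace FermatLib.Mazur.FlatFourier

local notation "Qbar" => AlgebraicClosure ℚ

variable {K : Type*} [AddCommGroup K]

/-- A character as a function with values in `ℚ̄`. -/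
def charFun (φ : K →+ QbarMul) : K → Qbar := fun x => mulVal (φ x)

theorem charFun_apply (φ : K →+ QbarMul) (x : K) : charFun φ x = mulVal (φ x) := rfl

@[simp] theorem charFun_map_zero (φ : K →+ QbarMul) : charFun φ 0 = 1 := by
  rw [charFun_apply, map_zero, mulVal_zero]

theorem charFun_map_add (φ : K →+ QbarMul) (x y : K) :
    charFun φ (x + y) = charFun φ x * charFun φ y := by
  simp only [charFun_apply, map_add, mulVal_add]

@[simp] theorem charFun_zero : charFun (0 : K →+ QbarMul) = 1 := rfl

theorem charFun_ne_zero (φ : K →+ QbarMul) (x : K) : charFun φ x ≠ 0 := mulVal_ne_zero _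

theorem charFun_neg_mul (φ : K →+ QbarMul) (x : K) : charFun φ (-x) * charFun φ x = 1 := by
  rw [← charFun_map_add, neg_add_cancel, charFun_map_zero]

theorem charFun_sub_apply (φ ψ : K →+ QbarMul) (x : K) :
    charFun (φ - ψ) x = charFun φ x * charFun ψ (-x) := by
  simp only [charFun_apply, AddMonoidHom.sub_apply, map_neg, sub_eq_add_neg, mulVal_add]

variable [Finite K]

noncomputable instance fintype_char : Fintype (K →+ QbarMul) := Fintype.ofFinite _

theorem charFun_ne_one {φ : K →+ QbarMul} {x : K} (h : φ x ≠ 0) : charFun φ x ≠ 1 := by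
  intro h1
  exact h (mulVal_injective (by rw [← charFun_apply, h1, mulVal_zero]))

theorem sum_charFun_apply [DecidableEq K] (x : K) :
    ∑ φ : K →+ QbarMul, charFun φ x = if x = 0 then (Nat.card K : Qbar) else 0 := by
  split_ifs with h
  · subst h
    simp [← Nat.card_eq_fintype_card, CharDual.natCard_addMonoidHom]
  · obtain ⟨ψ, hψ⟩ := CharDual.exists_apply_ne_zero h
    refine eq_zero_of_mul_eq_self_left (charFun_ne_one hψ) ?_
    rw [Finset.mul_sum]
    exact Fintype.sum_equiv (Equiv.addLeft ψ) _ _ fun φ => rfl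

variable [Fintype K]

theorem sum_apply_charFun (φ : K →+ QbarMul) [Decidable (φ = 0)] :
    ∑ x : K, charFun φ x = if φ = 0 then (Nat.card K : Qbar) else 0 := by
  split_ifs with h
  · subst h
    simp [← Nat.card_eq_fintype_card]
  · obtain ⟨a, ha⟩ : ∃ a, φ a ≠ 0 := by
      by_contra hne
      exact h (AddMonoidHom.ext fun a => not_not.mp (not_exists.mp hne a))
    refine eq_zero_of_mul_eq_self_left (charFun_ne_one ha) ?_
    rw [Finset.mul_sum]
    exact Fintype.sum_equiv (Equiv.addLeft a) _ _ fun x => (charFun_map_add φ a x).symm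

theorem natCard_ne_zero : (Nat.card K : Qbar) ≠ 0 := Nat.cast_ne_zero.mpr Nat.card_pos.ne'

/-- The Fourier coefficient of `F` at `φ`, as a linear form. -/
def coeff (φ : K →+ QbarMul) : (K → Qbar) →ₗ[Qbar] Qbar where
  toFun F := (Nat.card K : Qbar)⁻¹ * ∑ x : K, F x * charFun φ (-x)
  map_add' F G := by simp [add_mul, Finset.sum_add_distrib, mul_add]
  map_smul' c F := by
    simp only [Pi.smul_apply, smul_eq_mul, RingHom.id_apply, mul_assoc, ← Finset.mul_sum]
    ring

theorem coeff_apply (φ : K →+ QbarMul) (F : K → Qbar) :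
    coeff φ F = (Nat.card K : Qbar)⁻¹ * ∑ x : K, F x * charFun φ (-x) := rfl

theorem sum_coeff_smul_charFun (F : K → Qbar) :
    ∑ φ : K →+ QbarMul, coeff φ F • charFun φ = F := by
  classical
  funext y
  simp only [Finset.sum_apply, Pi.smul_apply, smul_eq_mul, coeff_apply, Finset.mul_sum,
    Finset.sum_mul]
  rw [Finset.sum_comm]
  simp_rw [mul_assoc, ← charFun_map_add, ← Finset.mul_sum, sum_charFun_apply, neg_add_eq_zero]
  rw [Finset.mul_sum, Finset.sum_eq_single y]
  · rw [if_pos rfl]
    field_simp [natCard_ne_zero]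
  · intro x _ hx; simp [hx]
  · simp

theorem coeff_charFun [DecidableEq (K →+ QbarMul)] (φ ψ : K →+ QbarMul) :
    coeff φ (charFun ψ) = if ψ = φ then 1 else 0 := by
  rw [coeff_apply]
  simp_rw [← charFun_sub_apply]
  rw [sum_apply_charFun]
  split_ifs with h1 h2 h2
  · exact inv_mul_cancel₀ natCard_ne_zero
  · exact absurd (sub_eq_zero.mp h1) h2
  · exact absurd (sub_eq_zero.mpr h2) h1
  · rw [mul_zero]

theorem coeff_charFun_mul (φ θ : K →+ QbarMul) (F : K → Qbar) :
    coeff φ (charFun θ * F) = coeff (φ - θ) F := by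
  simp only [coeff_apply, Pi.mul_apply, charFun_sub_apply, neg_neg]
  congr 1
  refine Finset.sum_congr rfl fun x _ => ?_
  ring

theorem coeff_mul (φ : K →+ QbarMul) (F G : K → Qbar) :
    coeff φ (F * G) = ∑ θ : K →+ QbarMul, coeff θ F * coeff (φ - θ) G := by
  conv_lhs => rw [← sum_coeff_smul_charFun F]
  rw [Finset.sum_mul, map_sum]
  exact Finset.sum_congr rfl fun θ _ => by
    rw [smul_mul_assoc, map_smul, coeff_charFun_mul, smul_eq_mul]

variable (A : ValuationSubring Qbar)

/-- The `A`-span of the characters. -/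
def charSpan (K : Type*) [AddCommGroup K] : Submodule A (K → Qbar) :=
  Submodule.span A (Set.range (charFun : (K →+ QbarMul) → K → Qbar))

variable {A}

omit [Finite K] [Fintype K] in
theorem charFun_mem_charSpan (φ : K →+ QbarMul) : charFun φ ∈ charSpan A K :=
  Submodule.subset_span ⟨φ, rfl⟩

theorem mem_charSpan_iff {F : K → Qbar} : F ∈ charSpan A K ↔ ∀ φ, coeff φ F ∈ A := by
  classical
  constructor
  · intro hF φ
    induction hF using Submodule.span_induction with
    | mem x hx =>
      obtain ⟨ψ, rfl⟩ := hx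
      rw [coeff_charFun]
      split_ifs
      · exact A.one_mem
      · exact A.zero_mem
    | zero => rw [map_zero]; exact A.zero_mem
    | add x y _ _ hx hy => rw [map_add]; exact A.add_mem _ _ hx hy
    | smul a x _ hx =>
      rw [← IsScalarTower.algebraMap_smul Qbar a x, map_smul, smul_eq_mul]
      exact A.mul_mem _ _ a.2 hx
  · intro h
    rw [← sum_coeff_smul_charFun F]
    exact Submodule.sum_mem _ fun φ _ =>
      Submodule.smul_mem _ (⟨_, h φ⟩ : A) (charFun_mem_charSpan φ)

theorem mul_mem_charSpan {F G : K → Qbar} (hF : F ∈ charSpan A K) (hG : G ∈ charSpan A K) :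
    F * G ∈ charSpan A K := by
  rw [mem_charSpan_iff] at hF hG ⊢
  intro φ
  rw [coeff_mul]
  exact A.toSubring.sum_mem fun θ _ => A.mul_mem _ _ (hF θ) (hG _)

omit [Finite K] [Fintype K] in
theorem comp_mem_charSpan {L : Type*} [AddCommGroup L] (π : L →+ K) {F : K → Qbar}
    (hF : F ∈ charSpan A K) : F ∘ π ∈ charSpan A L := by
  induction hF using Submodule.span_induction with
  | mem x hx =>
    obtain ⟨ψ, rfl⟩ := hx
    exact charFun_mem_charSpan (ψ.comp π)
  | zero => exact zero_mem _
  | add x y _ _ hx hy => exact add_mem hx hy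
  | smul a x _ hx => exact Submodule.smul_mem _ a hx

end FermatLib.Mazur.FlatFourier
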