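import Fermat.Agent.Mazur.FlatModelFourier
import Fermat.Agent.EC.InertiaIntegers

/-!
# Connected models and projection to isotypic functions

Lattices of integral functions on a finite group with an action of inertia, and the projection
onto the functions transforming by a character of a subgroup.
-/

set_option autoImplicit false
set_option linter.unusedSectionVars false

noncomputable section

namespace FermatLib.Mazur

local notation "Qbar" => AlgebraicClosure ℚ
local notation "Γℚ" => (AlgebraicClosure ℚ ≃ₐ[ℚ] AlgebraicClosure ℚ)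

namespace FlatFourier

variable {K : Type*} [AddCommGroup K]

theorem coeff_translate [Fintype K] (φ : K →+ QbarMul) (F : K → Qbar) (b : K) :
    coeff φ (fun a => F (a + b)) = charFun φ b * coeff φ F := by
  simp only [coeff_apply, Finset.mul_sum]
  refine Fintype.sum_equiv (Equiv.addRight b) _ _ fun a => ?_
  simp only [Equiv.coe_addRight, neg_add, charFun_map_add]
  linear_combination (-((Nat.card K : Qbar)⁻¹) * F (a + b) * charFun φ (-a)) * charFun_neg_mul φ b

variable (S : AddSubgroup K) [Fintype S]

/-- Projection onto the functions transforming by the character `ψ` of `S`. -/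
def proj (ψ : S →+ QbarMul) : (K → Qbar) →ₗ[Qbar] (K → Qbar) where
  toFun F a := coeff ψ fun s : S => F (a + s)
  map_add' _ _ := funext fun _ => map_add (coeff ψ) _ _
  map_smul' c _ := funext fun _ => map_smul (coeff ψ) c _

variable {S}

theorem proj_apply (ψ : S →+ QbarMul) (F : K → Qbar) (a : K) :
    proj S ψ F a = coeff ψ fun s : S => F (a + s) := rfl

theorem proj_translate (ψ : S →+ QbarMul) (F : K → Qbar) (a : K) (t : S) :
    proj S ψ F (a + t) = charFun ψ t * proj S ψ F a := by
  rw [proj_apply, proj_apply, ← coeff_translate]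
  refine congrArg (coeff ψ) (funext fun s => ?_)
  rw [AddSubgroup.coe_add, add_assoc, add_comm (t : K) (s : K)]

theorem sum_proj (F : K → Qbar) : ∑ ψ : S →+ QbarMul, proj S ψ F = F := by
  funext a
  have := congrFun (sum_coeff_smul_charFun fun s : S => F (a + s)) 0
  simp only [Finset.sum_apply, Pi.smul_apply, charFun_map_zero, smul_eq_mul, mul_one,
    AddSubgroup.coe_zero, add_zero] at this
  rw [Finset.sum_apply]
  exact this

theorem proj_eq_self {ψ : S →+ QbarMul} {F : K → Qbar}
    (hF : ∀ (a : K) (s : S), F (a + s) = charFun ψ s * F a) : proj S ψ F = F := by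
  classical
  funext a
  have : (fun s : S => F (a + s)) = F a • charFun ψ := funext fun s => by
    rw [Pi.smul_apply, smul_eq_mul, mul_comm, hF]
  rw [proj_apply, this, map_smul, coeff_charFun, if_pos rfl, smul_eq_mul, mul_one]

/-- Projection commutes with a semilinear symmetry preserving the character. -/
theorem proj_apply_map (σ : Γℚ) (T : K →+ K) (hT : Function.Injective T)
    (hTS : ∀ s ∈ S, T s ∈ S) {ψ : S →+ QbarMul} {F : K → Qbar}
    (hF : ∀ a, F (T a) = σ (F a))
    (hψ : ∀ s : S, charFun ψ ⟨T s, hTS s s.2⟩ = σ (charFun ψ s)) (a : K) :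
    proj S ψ F (T a) = σ (proj S ψ F a) := by
  let e : S → S := fun s => ⟨T s, hTS s s.2⟩
  have he : Function.Bijective e :=
    Finite.injective_iff_bijective.mp fun x y h => Subtype.ext (hT (congrArg Subtype.val h))
  simp only [proj_apply, coeff_apply, map_mul, map_inv₀, map_natCast, map_sum]
  congr 1
  refine (Fintype.sum_bijective e he _ _ fun s => ?_).symm
  rw [← hF, map_add, ← hψ (-s)]
  have hneg : (⟨T ↑(-s), hTS _ (-s).2⟩ : S) = -e s := Subtype.ext (by simp [e])
  rw [hneg]

end FlatFourier

namespace FlatConn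

variable {A : ValuationSubring Qbar}

theorem smul_apply_eq {X : Type*} (a : A) (F : X → Qbar) (x : X) :
    (a • F) x = (a : Qbar) * F x := rfl

theorem add_mem_nonunits {x y : Qbar} (hx : x ∈ A.nonunits) (hy : y ∈ A.nonunits) :
    x + y ∈ A.nonunits := by
  rw [ValuationSubring.mem_nonunits_iff] at hx hy ⊢
  exact A.valuation.map_add_lt hx hy

theorem mul_mem_nonunits {x y : Qbar} (hx : x ∈ A) (hy : y ∈ A.nonunits) :
    x * y ∈ A.nonunits := by
  rw [ValuationSubring.mem_nonunits_iff] at hy ⊢
  rw [map_mul]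
  exact (mul_le_of_le_one_left' ((A.valuation_le_one_iff x).mpr hx)).trans_lt hy

theorem zero_mem_nonunits : (0 : Qbar) ∈ A.nonunits := by
  rw [ValuationSubring.mem_nonunits_iff, map_zero]
  exact zero_lt_one

theorem sum_mem_nonunits {ι : Type*} (t : Finset ι) {f : ι → Qbar}
    (h : ∀ i ∈ t, f i ∈ A.nonunits) : ∑ i ∈ t, f i ∈ A.nonunits := by
  classical
  induction t using Finset.induction with
  | empty => rw [Finset.sum_empty]; exact zero_mem_nonunits
  | insert i t hi ih =>
    rw [Finset.sum_insert hi]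
    exact add_mem_nonunits (h i (Finset.mem_insert_self _ _))
      (ih fun j hj => h j (Finset.mem_insert_of_mem hj))

theorem one_not_mem_nonunits : (1 : Qbar) ∉ A.nonunits := by
  rw [ValuationSubring.mem_nonunits_iff, map_one]
  exact lt_irrefl _

theorem mem_of_mem_nonunits {x : Qbar} (hx : x ∈ A.nonunits) : x ∈ A :=
  A.nonunits_subset hx

theorem isUnitAt_of_not_mem_nonunits {x : Qbar} (hx : x ∈ A) (h : x ∉ A.nonunits) :
    IsUnitAt A x := by
  have h0 : x ≠ 0 := fun h0 => h (h0 ▸ zero_mem_nonunits)
  refine ⟨h0, hx, ?_⟩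
  rcases A.mem_or_inv_mem x⁻¹ with h1 | h1
  · exact h1
  · by_contra h2
    rw [ValuationSubring.mem_nonunits_iff, not_lt] at h
    rw [← A.valuation_le_one_iff, map_inv₀] at h2
    exact h2 (inv_le_one_of_one_le₀ h)

theorem isUnitAt_of_sub_one_mem {x : Qbar} (h : x - 1 ∈ A.nonunits) : IsUnitAt A x := by
  have hx : x ∈ A := by
    simpa using A.add_mem _ _ (mem_of_mem_nonunits h) A.one_mem
  exact isUnitAt_of_not_mem_nonunits hx
    (FermatLib.EC.not_mem_nonunits_congr A hx A.one_mem h one_not_mem_nonunits)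

/-- A lattice of functions on a finite group with all points reducing to the origin. -/
structure IsConnModel (A : ValuationSubring Qbar) {K : Type*} [AddCommGroup K]
    [DistribMulAction (A.inertiaSubgroupIn ℚ) K] (M : Submodule A (K → Qbar)) : Prop where
  one_mem : (1 : K → Qbar) ∈ M
  mul_mem : ∀ F ∈ M, ∀ F' ∈ M, F * F' ∈ M
  mem : ∀ F ∈ M, ∀ a : K, F a ∈ A
  connected : ∀ F ∈ M, ∀ a : K, F a - F 0 ∈ A.nonunits
  fg : M.FG
  separating : ∀ a b : K, (∀ F ∈ M, F a = F b) → a = b
  comul : ∀ F ∈ M, ∃ (n : ℕ) (g g' : Fin n → K → Qbar), (∀ i, g i ∈ M) ∧ (∀ i, g' i ∈ M) ∧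
    ∀ a b : K, F (a + b) = ∑ i, g i a * g' i b
  spanned : M ≤ Submodule.span A {F : K → Qbar | F ∈ M ∧
    ∀ (g : A.inertiaSubgroupIn ℚ) (a : K), F (g • a) = (g : Γℚ) (F a)}

end FlatConn

end FermatLib.Mazur
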