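import Mathlib.RingTheory.Ideal.IdempotentFG
import Mathlib.RingTheory.Finiteness.Basic
import Mathlib.GroupTheory.Coset.Card
import Mathlib.GroupTheory.QuotientGroup.Basic
import Fermat.Agent.Mazur.LocalLemmas
import Fermat.Agent.Mazur.FlatModelLine
import Fermat.Agent.Mazur.FlatModelProj

/-!
# Connected models with Eisenstein constituents are multiplicative

The functions of a connected model have integral spectrum, and all characters lie in the model.
-/

set_option autoImplicit false
set_option linter.unusedSectionVars false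
set_option linter.style.haveILetI false

noncomputable section

namespace FermatLib.Mazur.FlatConn

open FlatFourier

local notation "Qbar" => AlgebraicClosure ℚ
local notation "Γℚ" => (AlgebraicClosure ℚ ≃ₐ[ℚ] AlgebraicClosure ℚ)

variable {A : ValuationSubring Qbar}

theorem coeff_smul_mem {K : Type*} [AddCommGroup K] [Fintype K] (φ : K →+ QbarMul) (a : A)
    (F : K → Qbar) : coeff φ (a • F) = (a : Qbar) * coeff φ F := by
  rw [← IsScalarTower.algebraMap_smul Qbar a F, map_smul, smul_eq_mul]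
  rfl

variable {K : Type*} [AddCommGroup K] [DistribMulAction (A.inertiaSubgroupIn ℚ) K]
  {M : Submodule A (K → Qbar)}

theorem IsConnModel.const_mem (hM : IsConnModel A M) {c : Qbar} (hc : c ∈ A) :
    (fun _ => c : K → Qbar) ∈ M := by
  have : (fun _ => c : K → Qbar) = (⟨c, hc⟩ : A) • (1 : K → Qbar) :=
    funext fun x => (mul_one c).symm
  exact this ▸ M.smul_mem _ hM.one_mem

theorem IsConnModel.exists_bump [Fintype K] (hM : IsConnModel A M) (a : K) :
    ∃ F ∈ M, F a ≠ 0 ∧ ∀ b, b ≠ a → F b = 0 := by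
  classical
  have hsep : ∀ b : K, b ≠ a → ∃ F ∈ M, F a ≠ F b := fun b hb => by
    by_contra h
    exact hb (hM.separating a b fun F hF => by_contra fun hne => h ⟨F, hF, hne⟩).symm
  choose! f hf hfne using hsep
  refine ⟨∏ b ∈ Finset.univ.erase a, (f b - fun _ => f b b), ?_, ?_, fun c hc => ?_⟩
  · refine Finset.prod_induction _ (· ∈ M) (fun x y hx hy => hM.mul_mem x hx y hy) hM.one_mem
      fun b hb => M.sub_mem (hf b (Finset.ne_of_mem_erase hb))
        (hM.const_mem (hM.mem _ (hf b (Finset.ne_of_mem_erase hb)) b))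
  · rw [Finset.prod_apply]
    exact Finset.prod_ne_zero_iff.mpr fun b hb => sub_ne_zero.mpr (hfne b (Finset.ne_of_mem_erase hb))
  · rw [Finset.prod_apply]
    exact Finset.prod_eq_zero (Finset.mem_erase.mpr ⟨hc, Finset.mem_univ c⟩) (sub_self _)

/-- If the model has integral spectrum then it contains all characters. -/
theorem IsConnModel.charFun_mem [Fintype K] (hM : IsConnModel A M) (h : M ≤ charSpan A K)
    (φ : K →+ QbarMul) : charFun φ ∈ M := by
  have hint : ∀ F ∈ M, coeff φ F ∈ A := fun F hF => mem_charSpan_iff.mp (h hF) φ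
  let ℓ : M →ₗ[A] A :=
    { toFun := fun F => ⟨coeff φ F, hint F F.2⟩
      map_add' := fun F G => Subtype.ext (map_add (coeff φ) (F : K → Qbar) G)
      map_smul' := fun a F => Subtype.ext (coeff_smul_mem φ a (F : K → Qbar)) }
  let I : Ideal A := LinearMap.range ℓ
  have hfg : I.FG := by
    have : Module.Finite A M := Module.Finite.iff_fg.mpr hM.fg
    show (LinearMap.range ℓ).FG
    rw [LinearMap.range_eq_map]
    exact Submodule.FG.map _ Module.Finite.fg_top
  have hsplit : ∀ F ∈ M, ∃ (n : ℕ) (g g' : Fin n → K → Qbar), (∀ i, g i ∈ M) ∧ (∀ i, g' i ∈ M) ∧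
      coeff φ F • charFun φ = ∑ i, coeff φ (g i) • g' i := by
    intro F hF
    obtain ⟨n, g, g', hg, hg', hFg⟩ := hM.comul F hF
    refine ⟨n, g, g', hg, hg', funext fun b => ?_⟩
    rw [Pi.smul_apply, smul_eq_mul, mul_comm, ← coeff_translate]
    have : (fun a => F (a + b)) = ∑ i, g' i b • g i := funext fun a => by
      simp only [hFg, Finset.sum_apply, Pi.smul_apply, smul_eq_mul, mul_comm]
    rw [this, map_sum, Finset.sum_apply]
    exact Finset.sum_congr rfl fun i _ => by rw [map_smul, Pi.smul_apply, smul_eq_mul,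
      smul_eq_mul, mul_comm]
  have hidem : IsIdempotentElem I := by
    refine le_antisymm Ideal.mul_le_left ?_
    rintro _ ⟨F, rfl⟩
    obtain ⟨n, g, g', hg, hg', hFg⟩ := hsplit F F.2
    have h1 := congrArg (coeff φ) hFg
    classical
    rw [map_smul, coeff_charFun, if_pos rfl, smul_eq_mul, mul_one, map_sum] at h1
    have : ℓ F = ∑ i, ℓ ⟨g i, hg i⟩ * ℓ ⟨g' i, hg' i⟩ := Subtype.ext (by
      rw [AddSubmonoidClass.coe_finsetSum]
      refine h1.trans (Finset.sum_congr rfl fun i _ => ?_)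
      rw [map_smul]
      rfl)
    rw [this]
    exact (I * I).sum_mem fun i _ =>
      Ideal.mul_mem_mul (LinearMap.mem_range_self ℓ _) (LinearMap.mem_range_self ℓ _)
  have hne : I ≠ ⊥ := by
    intro hbot
    obtain ⟨F, hF, hF0, hFz⟩ := hM.exists_bump 0
    have h0 : ℓ ⟨F, hF⟩ ∈ I := LinearMap.mem_range_self ℓ _
    rw [hbot, Ideal.mem_bot] at h0
    have h1 : coeff φ F = 0 := congrArg Subtype.val h0
    rw [coeff_apply, Finset.sum_eq_single 0 (fun b _ hb => by rw [hFz b hb, zero_mul])
      (fun hb => absurd (Finset.mem_univ _) hb), neg_zero, charFun_map_zero, mul_one] at h1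
    exact mul_ne_zero (inv_ne_zero natCard_ne_zero) hF0 h1
  have htop : (1 : A) ∈ I := by
    obtain ⟨e, he, hIe⟩ := (Ideal.isIdempotentElem_iff_of_fg I hfg).mp hidem
    rcases IsIdempotentElem.iff_eq_zero_or_one.mp he with rfl | rfl
    · exact absurd (hIe.trans (Submodule.span_zero_singleton A)) hne
    · rw [hIe]; exact Submodule.mem_span_singleton_self 1
  obtain ⟨F, hF⟩ := htop
  obtain ⟨n, g, g', hg, hg', hFg⟩ := hsplit F F.2
  have h1 : coeff φ (F : K → Qbar) = 1 := congrArg Subtype.val hF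
  rw [h1, one_smul] at hFg
  rw [hFg]
  refine M.sum_mem fun i _ => ?_
  rw [show coeff φ (g i) • g' i = (⟨_, hint _ (hg i)⟩ : A) • g' i from rfl]
  exact M.smul_mem _ (hg' i)

/-- Restriction along an injective equivariant homomorphism. -/
theorem IsConnModel.restrict (hM : IsConnModel A M) {L : Type*} [AddCommGroup L]
    [DistribMulAction (A.inertiaSubgroupIn ℚ) L] (f : L →+ K) (hf : Function.Injective f)
    (hfs : ∀ (g : A.inertiaSubgroupIn ℚ) (x : L), f (g • x) = g • f x) :
    IsConnModel A (M.map (LinearMap.funLeft A Qbar f)) where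
  one_mem := ⟨1, hM.one_mem, rfl⟩
  mul_mem := by
    rintro _ ⟨F, hF, rfl⟩ _ ⟨G, hG, rfl⟩
    exact ⟨F * G, hM.mul_mem F hF G hG, rfl⟩
  mem := by rintro _ ⟨F, hF, rfl⟩ a; exact hM.mem F hF _
  connected := by
    rintro _ ⟨F, hF, rfl⟩ a
    show F (f a) - F (f 0) ∈ A.nonunits
    rw [map_zero]
    exact hM.connected F hF _
  fg := hM.fg.map _
  separating a b h := hf (hM.separating _ _ fun F hF => h _ ⟨F, hF, rfl⟩)
  comul := by
    rintro _ ⟨F, hF, rfl⟩
    obtain ⟨n, g, g', hg, hg', hFg⟩ := hM.comul F hF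
    exact ⟨n, fun i => g i ∘ f, fun i => g' i ∘ f, fun i => ⟨g i, hg i, rfl⟩,
      fun i => ⟨g' i, hg' i, rfl⟩, fun a b => (congrArg F (map_add f a b)).trans (hFg _ _)⟩
  spanned := by
    refine (Submodule.map_mono hM.spanned).trans ?_
    rw [Submodule.map_span]
    refine Submodule.span_mono ?_
    rintro _ ⟨F, ⟨hF, heq⟩, rfl⟩
    exact ⟨⟨F, hF, rfl⟩, fun g a => (congrArg F (hfs g a)).trans (heq g (f a))⟩

/-- An element of the maximal ideal fixed by inertia is divisible by the prime. -/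
theorem natCast_inv_mul_mem {r : ℕ} (hr : r.Prime) (hA : A.LiesOverPrime r) {y : Qbar}
    (hy : y ∈ A.nonunits) (hfix : ∀ σ ∈ A.inertiaSubgroupIn ℚ, σ y = y) :
    (r : Qbar)⁻¹ * y ∈ A := by
  rcases eq_or_ne y 0 with rfl | hy0
  · rw [mul_zero]; exact A.zero_mem
  obtain ⟨m, hu0, hu, hu'⟩ := exists_zpow_mul_unit_of_inertia_fixed hr hA hy0 hfix
  have hr0 : (r : Qbar) ≠ 0 := Nat.cast_ne_zero.mpr hr.ne_zero
  have hrA : (r : Qbar) ∈ A := natCast_mem A r
  have hm : 1 ≤ m := by
    by_contra hlt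
    obtain ⟨k, rfl⟩ : ∃ k : ℕ, m = -(k : ℤ) := ⟨(-m).toNat, by omega⟩
    rw [neg_neg, zpow_natCast] at hu hu' hu0
    have h1 : y * (r : Qbar) ^ k ∈ A.nonunits := by
      rw [mul_comm]; exact mul_mem_nonunits (pow_mem hrA k) hy
    refine one_not_mem_nonunits (A := A) ?_
    rw [← inv_mul_cancel₀ hu0]
    exact mul_mem_nonunits hu' h1
  obtain ⟨k, rfl⟩ : ∃ k : ℕ, m = (k : ℤ) + 1 := ⟨(m - 1).toNat, by omega⟩
  have h2 : (r : Qbar)⁻¹ * y = y * (r : Qbar) ^ (-((k : ℤ) + 1)) * (r : Qbar) ^ k := by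
    rw [neg_add, zpow_add₀ hr0, zpow_neg, zpow_natCast, zpow_neg_one]
    field_simp
  rw [h2]
  exact A.mul_mem _ _ hu (pow_mem hrA k)

variable {r : ℕ}

/-- A connected model of a group of order `r` with trivial or cyclotomic action. -/
theorem IsConnModel.le_charSpan_of_prime_card [Fintype K] (hM : IsConnModel A M) (hr : r.Prime)
    (hA : A.LiesOverPrime r) (hcard : Nat.card K = r)
    (hact : (∀ (g : A.inertiaSubgroupIn ℚ) (x : K), g • x = x) ∨
      ∀ (g : A.inertiaSubgroupIn ℚ) (u : ℕ), IsCycloValue r (g : Γℚ) u → ∀ x : K, g • x = u • x) :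
    M ≤ charSpan A K := by
  classical
  refine hM.spanned.trans (Submodule.span_le.mpr ?_)
  rintro F ⟨hF, heq⟩
  rw [SetLike.mem_coe, mem_charSpan_iff]
  intro φ
  have hrA : (r : Qbar) ∈ A.nonunits := hA
  have hpow : ∀ x : K, charFun φ x ^ r = 1 := fun x => by
    have hx : r • x = 0 := hcard ▸ card_nsmul_eq_zero'
    have h1 : ∀ n : ℕ, charFun φ (n • x) = charFun φ x ^ n := fun n => by
      induction n with
      | zero => simp
      | succ n ih => rw [succ_nsmul, charFun_map_add, ih, pow_succ]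
    rw [← h1, hx, charFun_map_zero]
  have hmemA : ∀ x : K, charFun φ x ∈ A := fun x =>
    FermatLib.EC.integral_mem_valuationSubring A
      (IsIntegral.of_pow hr.pos (by rw [hpow x]; exact isIntegral_one))
  rcases hact with htriv | hcyc
  · have hterm : ∀ x : K, (r : Qbar)⁻¹ * (F x - F 0) ∈ A := fun x => by
      refine natCast_inv_mul_mem hr hA (hM.connected F hF x) fun σ hσ => ?_
      rw [map_sub, ← heq ⟨σ, hσ⟩ x, ← heq ⟨σ, hσ⟩ 0, htriv, htriv]
    have hsum : ∑ x : K, charFun φ (-x) = if φ = 0 then (r : Qbar) else 0 := by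
      rw [← hcard, ← sum_apply_charFun φ]
      exact Fintype.sum_equiv (Equiv.neg K) _ _ fun x => rfl
    have hdec : coeff φ F = ∑ x : K, (r : Qbar)⁻¹ * (F x - F 0) * charFun φ (-x)
        + (r : Qbar)⁻¹ * (F 0 * ∑ x : K, charFun φ (-x)) := by
      rw [coeff_apply, hcard, Finset.mul_sum, Finset.mul_sum, Finset.mul_sum,
        ← Finset.sum_add_distrib]
      exact Finset.sum_congr rfl fun x _ => by ring
    rw [hdec, hsum]
    refine A.add_mem _ _ (A.toSubring.sum_mem fun x _ => A.mul_mem _ _ (hterm x) (hmemA _)) ?_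
    split_ifs
    · rw [mul_comm (F 0), inv_mul_cancel_left₀ (Nat.cast_ne_zero.mpr hr.ne_zero)]
      exact hM.mem F hF 0
    · rw [mul_zero, mul_zero]; exact A.zero_mem
  · rw [coeff_apply, hcard]
    refine natCast_inv_mul_mem hr hA ?_ fun σ hσ => ?_
    · have hdec : ∑ x : K, F x * charFun φ (-x) =
          ∑ x : K, charFun φ (-x) * (F x - F 0) + F 0 * ∑ x : K, charFun φ (-x) := by
        rw [Finset.mul_sum, ← Finset.sum_add_distrib]
        exact Finset.sum_congr rfl fun x _ => by ring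
      rw [hdec]
      refine add_mem_nonunits (sum_mem_nonunits _ fun x _ =>
        mul_mem_nonunits (hmemA _) (hM.connected F hF x)) (mul_mem_nonunits (hM.mem F hF 0) ?_)
      rw [Fintype.sum_equiv (Equiv.neg K) (fun x => charFun φ (-x)) (charFun φ) fun x => rfl,
        sum_apply_charFun]
      split_ifs
      · rw [hcard]; exact hrA
      · exact zero_mem_nonunits
    · obtain ⟨u, hu⟩ := StableLine.exists_cycloValue hr σ
      rw [map_sum]
      refine Fintype.sum_equiv (MulAction.toPerm (⟨σ, hσ⟩ : A.inertiaSubgroupIn ℚ)) _ _ fun x => ?_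
      rw [map_mul, MulAction.toPerm_apply, heq ⟨σ, hσ⟩ x, ← smul_neg, hcyc ⟨σ, hσ⟩ u hu (-x)]
      congr 1
      refine (hu _ (hpow (-x))).trans ?_
      rw [charFun_apply, charFun_apply, map_nsmul]
      exact (Units.val_pow_eq_pow_val _ _).symm

/-- A function invertible at all points is invertible in the model. -/
theorem IsConnModel.inv_mem [Fintype K] (hM : IsConnModel A M) {h : K → Qbar} (hh : h ∈ M)
    (hu : ∀ a, IsUnitAt A (h a)) : (fun a => (h a)⁻¹) ∈ M := by
  classical
  have key : ∀ T : Finset K, ∃ Q ∈ M, ∏ c ∈ T, (h - fun _ => h c) =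
      h * Q + (fun _ => ∏ c ∈ T, -h c) := by
    intro T
    induction T using Finset.induction with
    | empty => exact ⟨0, M.zero_mem, by simp only [Finset.prod_empty, mul_zero, zero_add]; rfl⟩
    | insert c T hc ih =>
      obtain ⟨Q, hQ, hQeq⟩ := ih
      refine ⟨(h - fun _ => h c) * Q + (fun _ => ∏ c ∈ T, -h c),
        M.add_mem (hM.mul_mem _ (M.sub_mem hh (hM.const_mem (hu c).2.1)) _ hQ)
          (hM.const_mem (A.toSubring.prod_mem fun c _ => A.neg_mem _ (hu c).2.1)), ?_⟩
      rw [Finset.prod_insert hc, hQeq]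
      funext a
      simp only [Pi.mul_apply, Pi.add_apply, Pi.sub_apply, Finset.prod_insert hc]
      ring
  obtain ⟨Q, hQ, hQeq⟩ := key Finset.univ
  set k : Qbar := ∏ c : K, -h c
  have hk : k ≠ 0 := Finset.prod_ne_zero_iff.mpr fun c _ => neg_ne_zero.mpr (hu c).1
  have hkinv : -k⁻¹ ∈ A := by
    refine A.neg_mem _ ?_
    rw [show k = ∏ c : K, -h c from rfl, ← Finset.prod_inv_distrib]
    exact A.toSubring.prod_mem fun c _ => by rw [inv_neg]; exact A.neg_mem _ (hu c).2.2
  have heq : (fun a => (h a)⁻¹) = (⟨_, hkinv⟩ : A) • Q := funext fun a => by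
    have h0 : (0 : Qbar) = h a * Q a + k := by
      have := congrFun hQeq a
      rw [Finset.prod_apply, Finset.prod_eq_zero (Finset.mem_univ a)] at this
      · exact this
      · exact sub_self _
    rw [smul_apply_eq]
    have hha := (hu a).1
    field_simp
    linear_combination -h0
  exact heq ▸ M.smul_mem _ hQ

theorem IsConnModel.proj_mem (hM : IsConnModel A M) {S : AddSubgroup K} [Fintype S]
    (hS : M.map (LinearMap.funLeft A Qbar S.subtype) ≤ charSpan A S) (ψ : S →+ QbarMul)
    {F : K → Qbar} (hF : F ∈ M) : proj S ψ F ∈ M := by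
  obtain ⟨n, g, g', hg, hg', hFg⟩ := hM.comul F hF
  have hint : ∀ i, coeff ψ (fun s : S => g' i s) ∈ A := fun i =>
    mem_charSpan_iff.mp (hS ⟨g' i, hg' i, rfl⟩) ψ
  have : proj S ψ F = ∑ i, (⟨_, hint i⟩ : A) • g i := funext fun a => by
    have h1 : (fun s : S => F (a + s)) = ∑ i, g i a • fun s : S => g' i s := funext fun s => by
      simp only [hFg, Finset.sum_apply, Pi.smul_apply, smul_eq_mul]
    rw [proj_apply, h1, map_sum, Finset.sum_apply]
    exact Finset.sum_congr rfl fun i _ => by rw [map_smul, smul_eq_mul, smul_apply_eq, mul_comm]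
  rw [this]
  exact M.sum_mem fun i _ => M.smul_mem _ (hg i)

end FermatLib.Mazur.FlatConn
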