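import Fermat.Agent.S10
import Fermat.Agent.S11
import Fermat.Agent.S13

/-!
# Irreducibility of Frey representations from the absence of cofixed lines
-/

set_option autoImplicit false

noncomputable section

namespace FermatLib.Mazur

open WeierstrassCurve WeierstrassCurve.Affine WeierstrassCurve.Affine.Point

/-- S09 from S10, S11, S13 and the conclusion of S12. -/
theorem frey_irreducible_of (P : FreyPackage)
    (h12 : 17 ≤ P.p → ¬HasGaloisStableCofixedLine (K := AlgebraicClosure ℚ) ℚ P.freyCurve P.p) :
    GaloisRepIsIrreducible (K := AlgebraicClosure ℚ) ℚ P.freyCurve P.p := by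
  by_contra h
  have hline := Fermat.Agent.S13.result P h
  have hpp := P.pp
  have h5 := P.hp5
  by_cases h17 : 17 ≤ P.p
  · exact h12 h17 hline
  by_cases h11 : P.p = 11
  · exact Fermat.Agent.S11.result P h11 hline
  refine Fermat.Agent.S10.result P ?_ hline
  interval_cases hP : P.p <;> first | omega | (exact absurd hpp (by decide))

end FermatLib.Mazur
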