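import Fermat.Agent.EC.RedBasic
import Fermat.Agent.EC.Torsion

/-!
# Integrality bounds for the coordinates of torsion points

If `p • P = 0` for an odd prime `p` on a curve with coefficients in a valuation subring `A`, and
`x(P) ∉ A`, then `p * x ∈ A`; when moreover `b₂ = 0` then even `p * x ^ 2 ∈ A`.  This only uses
the two leading coefficients of the division polynomial.
-/

set_option autoImplicit false
set_option linter.unusedSectionVars false

noncomputable section

namespace FermatLib.Mazur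

open Polynomial WeierstrassCurve

section Poly

variable {R : Type*} [CommRing R]

/-- Degree at most `d` and vanishing coefficient in degree `d - 1`. -/
def GapBelowLead (f : R[X]) (d : ℕ) : Prop :=
  f.natDegree ≤ d ∧ ∀ i, i + 1 = d → f.coeff i = 0

lemma GapBelowLead.zero (d : ℕ) : GapBelowLead (0 : R[X]) d := ⟨by simp, by simp⟩

lemma GapBelowLead.one : GapBelowLead (1 : R[X]) 0 := ⟨by simp, by simp⟩

lemma GapBelowLead.sub {f g : R[X]} {d : ℕ} (hf : GapBelowLead f d) (hg : GapBelowLead g d) :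
    GapBelowLead (f - g) d :=
  ⟨(natDegree_sub_le _ _).trans (max_le hf.1 hg.1),
    fun i hi => by rw [coeff_sub, hf.2 i hi, hg.2 i hi, sub_zero]⟩

lemma GapBelowLead.mul {f g : R[X]} {d e : ℕ} (hf : GapBelowLead f d) (hg : GapBelowLead g e) :
    GapBelowLead (f * g) (d + e) := by
  refine ⟨natDegree_mul_le_of_le hf.1 hg.1, fun i hi => ?_⟩
  rw [coeff_mul]
  refine Finset.sum_eq_zero fun x hx => ?_
  rw [Finset.mem_antidiagonal] at hx
  by_cases h1 : d < x.1
  · rw [coeff_eq_zero_of_natDegree_lt (hf.1.trans_lt h1), zero_mul]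
  by_cases h2 : e < x.2
  · rw [coeff_eq_zero_of_natDegree_lt (hg.1.trans_lt h2), mul_zero]
  rcases (show x.1 + 1 = d ∨ x.2 + 1 = e by omega) with h | h
  · rw [hf.2 _ h, zero_mul]
  · rw [hg.2 _ h, mul_zero]

lemma GapBelowLead.pow {f : R[X]} {d : ℕ} (hf : GapBelowLead f d) :
    ∀ n : ℕ, GapBelowLead (f ^ n) (n * d)
  | 0 => by rw [pow_zero, Nat.zero_mul]; exact .one
  | n + 1 => by rw [pow_succ, Nat.succ_mul]; exact (hf.pow n).mul hf

/-- The expected degree of the division polynomial `preΨ' n`. -/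
def preΨDeg (n : ℕ) : ℕ :=
  (n ^ 2 - if Even n then 4 else 1) / 2

lemma preΨDeg_cast {n : ℕ} (hn : n ≠ 0) :
    2 * (preΨDeg n : ℤ) = n ^ 2 - if Even n then 4 else 1 := by
  rcases n.even_or_odd' with ⟨n, rfl | rfl⟩
  · rcases n with _ | n
    · contradiction
    push_cast [preΨDeg, show (2 * (n + 1)) ^ 2 = 2 * (2 * n * (n + 2)) + 4 by ring1, even_two_mul,
      Nat.add_sub_cancel, Nat.mul_div_cancel_left _ two_pos]
    ring1
  · push_cast [preΨDeg, show (2 * n + 1) ^ 2 = 2 * (2 * n * (n + 1)) + 1 by ring1,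
      n.not_even_two_mul_add_one, Nat.add_sub_cancel, Nat.mul_div_cancel_left _ two_pos]
    ring1

lemma preΨDeg_rec (m : ℕ) :
    (preΨDeg (2 * (m + 3)) = 2 * preΨDeg (m + 2) + preΨDeg (m + 3) + preΨDeg (m + 5) ∧
    preΨDeg (2 * (m + 3)) = preΨDeg (m + 1) + preΨDeg (m + 3) + 2 * preΨDeg (m + 4)) ∧
    (preΨDeg (2 * (m + 2) + 1) =
      preΨDeg (m + 4) + 3 * preΨDeg (m + 2) + (if Even m then 2 * 3 else 0) ∧
    preΨDeg (2 * (m + 2) + 1) =
      preΨDeg (m + 1) + 3 * preΨDeg (m + 3) + (if Even m then 0 else 2 * 3)) := by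
  push_cast [← @Nat.cast_inj ℤ, ← mul_left_cancel_iff_of_pos (b := (preΨDeg _ : ℤ)) two_pos,
    mul_add, mul_left_comm (2 : ℤ)]
  repeat rw [preΨDeg_cast <| by lia]
  push_cast [Nat.even_add_one, ite_not, even_two_mul]
  constructor <;> constructor <;> split_ifs <;> ring1

lemma gapBelowLead_preΨ' (W : WeierstrassCurve R) (hb : W.b₂ = 0) (n : ℕ) :
    GapBelowLead (W.preΨ' n) (preΨDeg n) := by
  have h2 : GapBelowLead W.Ψ₂Sq 3 := by
    refine ⟨W.natDegree_Ψ₂Sq_le, fun i hi => ?_⟩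
    obtain rfl : i = 2 := by omega
    simp [WeierstrassCurve.Ψ₂Sq, hb]
  induction n using normEDSRec with
  | zero => rw [preΨ'_zero]; exact .zero _
  | one => rw [preΨ'_one]; exact .one
  | two => rw [preΨ'_two]; exact .one
  | three =>
    rw [preΨ'_three]
    refine ⟨W.natDegree_Ψ₃_le.trans (by decide), fun i hi => ?_⟩
    obtain rfl : i = 3 := by
      have : preΨDeg 3 = 4 := by decide
      omega
    simp only [WeierstrassCurve.Ψ₃, hb, Polynomial.C_0, ← Polynomial.C_ofNat, ← Polynomial.C_mul,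
      Polynomial.coeff_add, Polynomial.coeff_C_mul, Polynomial.coeff_X_pow, Polynomial.coeff_C,
      Polynomial.coeff_X, zero_mul, Polynomial.coeff_zero]
    norm_num
  | four =>
    rw [preΨ'_four]
    refine ⟨W.natDegree_preΨ₄_le.trans (by decide), fun i hi => ?_⟩
    obtain rfl : i = 5 := by
      have : preΨDeg 4 = 6 := by decide
      omega
    simp only [WeierstrassCurve.preΨ₄, hb, Polynomial.C_0, ← Polynomial.C_ofNat, ← Polynomial.C_mul,
      Polynomial.coeff_add, Polynomial.coeff_C_mul, Polynomial.coeff_X_pow, Polynomial.coeff_C,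
      Polynomial.coeff_X, zero_mul, Polynomial.coeff_zero]
    norm_num
  | even m h₁ h₂ h₃ h₄ h₅ =>
    rw [preΨ'_even]
    refine .sub ?_ ?_
    · rw [(preΨDeg_rec m).1.1]; exact ((h₂.pow 2).mul h₃).mul h₅
    · rw [(preΨDeg_rec m).1.2]; exact (h₁.mul h₃).mul (h₄.pow 2)
  | odd m h₁ h₂ h₃ h₄ =>
    rw [preΨ'_odd]
    refine .sub ?_ ?_
    · rw [(preΨDeg_rec m).2.1]
      refine (h₄.mul (h₂.pow 3)).mul ?_
      split_ifs
      · exact h2.pow 2
      · exact .one
    · rw [(preΨDeg_rec m).2.2]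
      refine (h₁.mul (h₃.pow 3)).mul ?_
      split_ifs
      · exact .one
      · exact h2.pow 2

end Poly

section Root

variable {L : Type*} [Field L] {A : ValuationSubring L}

/-- Dividing a polynomial relation by a power of a non-integral root. -/
lemma lead_mul_pow_mem {f : A[X]} {d k : ℕ} (hd : f.natDegree ≤ d) (hk : k ≤ d)
    (hgap : ∀ i, d < i + k → i < d → f.coeff i = 0) {x : L} (hx : x ∉ A)
    (h0 : (f.map A.subtype).eval x = 0) : (f.coeff d : L) * x ^ k ∈ A := by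
  have hx0 : x ≠ 0 := fun h => hx (h ▸ A.zero_mem)
  have hi : x⁻¹ ∈ A := (A.mem_or_inv_mem x).resolve_left hx
  rw [eval_eq_sum_range' (n := d + 1) (by
    exact lt_of_le_of_lt natDegree_map_le (Nat.lt_succ_of_le hd)), Finset.sum_range_succ] at h0
  simp only [coeff_map] at h0
  change _ + (f.coeff d : L) * x ^ d = 0 at h0
  have : (f.coeff d : L) * x ^ k
      = -∑ i ∈ Finset.range d, (f.coeff i : L) * x ^ i * x⁻¹ ^ (d - k) := by
    rw [← Finset.sum_mul, ← neg_mul]
    have hs : -∑ i ∈ Finset.range d, (f.coeff i : L) * x ^ i = (f.coeff d : L) * x ^ d := by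
      exact neg_eq_of_add_eq_zero_left ((add_comm _ _).trans h0)
    rw [hs, inv_pow, mul_assoc]
    congr 1
    obtain ⟨j, rfl⟩ := Nat.exists_eq_add_of_le hk
    rw [Nat.add_sub_cancel_left, pow_add, mul_assoc, mul_inv_cancel₀ (pow_ne_zero _ hx0), mul_one]
  rw [this]
  refine neg_mem (sum_mem fun i hi' => ?_)
  rw [Finset.mem_range] at hi'
  rcases lt_or_ge d (i + k) with h | h
  · rw [hgap i h hi']; simp
  · obtain ⟨j, hj⟩ := Nat.exists_eq_add_of_le (show i ≤ d - k by omega)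
    rw [hj, pow_add, ← mul_assoc, mul_assoc ((f.coeff i : L)), ← mul_pow, mul_inv_cancel₀ hx0,
      one_pow, mul_one]
    exact mul_mem (SetLike.coe_mem _) (pow_mem hi j)

variable [DecidableEq L] {V : WeierstrassCurve L}

/-- The model over `A` of a curve with coefficients in `A`. -/
def modelOver (hV : EC.IntegralAt A V) : WeierstrassCurve A :=
  ⟨⟨_, hV.a₁⟩, ⟨_, hV.a₂⟩, ⟨_, hV.a₃⟩, ⟨_, hV.a₄⟩, ⟨_, hV.a₆⟩⟩

lemma modelOver_map (hV : EC.IntegralAt A V) : (modelOver hV).map A.subtype = V := rfl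

lemma coe_coeff_preΨ'_modelOver (hV : EC.IntegralAt A V) {p : ℕ} (hp : Odd p) :
    ((((modelOver hV).preΨ' p).coeff (preΨDeg p) : A) : L) = p := by
  have hne : ¬ Even p := Nat.not_even_iff_odd.mpr hp
  have h := (modelOver hV).coeff_preΨ' p
  simp only [if_neg hne] at h
  have hd : preΨDeg p = (p ^ 2 - 1) / 2 := by rw [preΨDeg, if_neg hne]
  rw [hd, h]
  exact map_natCast A.subtype p

lemma natDegree_preΨ'_modelOver (hV : EC.IntegralAt A V) (p : ℕ) :
    ((modelOver hV).preΨ' p).natDegree ≤ preΨDeg p :=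
  (modelOver hV).natDegree_preΨ'_le p

variable [V.IsElliptic]

lemma eval_preΨ'_eq_zero_of_nsmul_eq_zero {x y : L} {h : V.toAffine.Nonsingular x y} {p : ℕ}
    (hp : Odd p) (hP : p • Affine.Point.some x y h = 0) : (V.preΨ' p).eval x = 0 := by
  have : V.toAffine.IsElliptic := inferInstanceAs V.IsElliptic
  rw [← natCast_zsmul, EC.zsmul_some_eq_zero_iff h, WeierstrassCurve.ΨSq_ofNat] at hP
  simpa [Nat.not_even_iff_odd.mpr hp] using hP

lemma natCast_mul_x_mem (hV : EC.IntegralAt A V) {x y : L} {h : V.toAffine.Nonsingular x y}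
    {p : ℕ} (hp : p.Prime) (hp2 : p ≠ 2) (hP : p • Affine.Point.some x y h = 0) (hx : x ∉ A) :
    (p : L) * x ∈ A := by
  have h0 := eval_preΨ'_eq_zero_of_nsmul_eq_zero (hp.odd_of_ne_two hp2) hP
  have hd : 1 ≤ preΨDeg p := by
    have h3 : 3 ≤ p := by have := hp.two_le; omega
    have : 3 ^ 2 ≤ p ^ 2 := Nat.pow_le_pow_left h3 2
    rw [preΨDeg, if_neg (Nat.not_even_iff_odd.mpr (hp.odd_of_ne_two hp2))]
    omega
  rw [← modelOver_map hV, WeierstrassCurve.map_preΨ'] at h0
  have := lead_mul_pow_mem (natDegree_preΨ'_modelOver hV p) hd (by omega) hx h0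
  rwa [coe_coeff_preΨ'_modelOver hV (hp.odd_of_ne_two hp2), pow_one] at this

lemma natCast_mul_x_sq_mem (hV : EC.IntegralAt A V) (hb : V.b₂ = 0) {x y : L}
    {h : V.toAffine.Nonsingular x y}
    {p : ℕ} (hp : p.Prime) (hp2 : p ≠ 2) (hP : p • Affine.Point.some x y h = 0) (hx : x ∉ A) :
    (p : L) * x ^ 2 ∈ A := by
  have h0 := eval_preΨ'_eq_zero_of_nsmul_eq_zero (hp.odd_of_ne_two hp2) hP
  have hd : 2 ≤ preΨDeg p := by
    have h3 : 3 ≤ p := by have := hp.two_le; omega
    have : 3 ^ 2 ≤ p ^ 2 := Nat.pow_le_pow_left h3 2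
    rw [preΨDeg, if_neg (Nat.not_even_iff_odd.mpr (hp.odd_of_ne_two hp2))]
    omega
  rw [← modelOver_map hV, WeierstrassCurve.map_preΨ'] at h0
  have hb' : (modelOver hV).b₂ = 0 := by
    apply Subtype.ext
    rw [← modelOver_map hV, WeierstrassCurve.map_b₂] at hb
    exact hb
  have := lead_mul_pow_mem (natDegree_preΨ'_modelOver hV p) hd
    (fun i hi hi' => (gapBelowLead_preΨ' _ hb' p).2 i (by omega)) hx h0
  rwa [coe_coeff_preΨ'_modelOver hV (hp.odd_of_ne_two hp2)] at this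

lemma x_mem_of_natCast_unit (hV : EC.IntegralAt A V) {x y : L} {h : V.toAffine.Nonsingular x y}
    {p : ℕ} (hp : p.Prime) (hp2 : p ≠ 2) (hu : A.valuation (p : L) = 1)
    (hP : p • Affine.Point.some x y h = 0) : x ∈ A := by
  by_contra hx
  have := natCast_mul_x_mem hV hp hp2 hP hx
  rw [EC.mem_iff_valuation, map_mul, hu, one_mul, ← EC.mem_iff_valuation] at this
  exact hx this

end Root

end FermatLib.Mazur
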