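import Fermat.Agent.Mazur.FullTwoSquares
import Fermat.Agent.Mazur.TorsionIntegral
import Fermat.Agent.EC.RedBridge
import Fermat.Agent.Basic.FrobeniusExists

/-!
# Curves with full rational `2`-torsion and a rational `p`-point have Frey form

If `Y² = (X + r₁²)(X + r₂²)(X + r₃²)` has a point of prime order `p ≥ 5` with `X = 0`, it is
isomorphic over `ℚ` to `y² + xy = x³ + (B-1-A)/4 x² - AB/16 x` with coprime `A ≡ 3 (4)`, `16 ∣ B`.
-/

set_option autoImplicit false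
set_option linter.unusedSectionVars false

noncomputable section

namespace FermatLib.Mazur

open WeierstrassCurve
open scoped WeierstrassCurve.Affine

local notation "Qbar" => AlgebraicClosure ℚ

/-- `A ≡ 3 (mod 4)`, `16 ∣ B`, coprime, and `A`, `B`, `A + B` nonzero. -/
structure IsFreyPair (A B : ℤ) : Prop where
  hA : A % 4 = 3
  hB : (16 : ℤ) ∣ B
  hco : IsCoprime A B
  hB0 : B ≠ 0
  hAB : A + B ≠ 0

lemma IsFreyPair.hA0 {A B : ℤ} (h : IsFreyPair A B) : A ≠ 0 := by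
  rintro rfl
  exact absurd h.hA (by decide)

/-- The Frey form model attached to a pair. -/
def legModel (A B : ℤ) : WeierstrassCurve ℤ :=
  ⟨1, (B - 1 - A) / 4, 0, -(A * B / 16), 0⟩

section Local

variable {A : ValuationSubring Qbar}

lemma div_not_mem_of_res {a b : Qbar} (ha : EC.res A a ≠ 0) (hbA : b ∈ A) (hb : EC.res A b = 0)
    (hb0 : b ≠ 0) : a / b ∉ A := fun h => ha (by
  rw [← div_mul_cancel₀ a hb0, EC.res_mul h hbA, hb, mul_zero])

lemma natCast_q_res {q : ℕ} (hA : A.LiesOverPrime q) :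
    (q : Qbar) ∈ A ∧ EC.res A (q : Qbar) = 0 :=
  EC.mem_nonunits_iff_res.mp hA

/-- An integer over an integer prime to the residue characteristic lies in `A`. -/
lemma intCast_div_mem {q : ℕ} (hq : q.Prime) (hA : A.LiesOverPrime q) (n d : ℤ)
    (hd : ¬(q : ℤ) ∣ d) : (n : Qbar) / d ∈ A :=
  EC.div_mem_of_res_ne_zero (EC.intCast_mem_place n) ((EC.res_intCast_ne_zero_iff A hq hA d).mpr hd)

variable {V : WeierstrassCurve Qbar} [V.IsElliptic] (C : VariableChange Qbar)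
  {x y : Qbar} {h : V.toAffine.Nonsingular x y} {p : ℕ}

lemma natCast_mul_new_x_mem (hp : p.Prime) (hp2 : p ≠ 2) (hP : p • Affine.Point.some x y h = 0)
    (hint : EC.IntegralAt A (C • V)) (hx : (x - C.r) / (C.u : Qbar) ^ 2 ∉ A) :
    (p : Qbar) * ((x - C.r) / (C.u : Qbar) ^ 2) ∈ A := by
  obtain ⟨h', e⟩ := vcEquiv_symm_some V C h
  have hP' := congrArg (EC.vcEquiv V C).symm hP
  rw [map_nsmul, map_zero, e] at hP'
  exact natCast_mul_x_mem hint hp hp2 hP' hx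

lemma natCast_mul_new_x_sq_mem (hp : p.Prime) (hp2 : p ≠ 2)
    (hP : p • Affine.Point.some x y h = 0) (hint : EC.IntegralAt A (C • V)) (hb : (C • V).b₂ = 0)
    (hx : (x - C.r) / (C.u : Qbar) ^ 2 ∉ A) :
    (p : Qbar) * ((x - C.r) / (C.u : Qbar) ^ 2) ^ 2 ∈ A := by
  obtain ⟨h', e⟩ := vcEquiv_symm_some V C h
  have hP' := congrArg (EC.vcEquiv V C).symm hP
  rw [map_nsmul, map_zero, e] at hP'
  exact natCast_mul_x_sq_mem hint hb hp hp2 hP' hx

lemma new_x_mem {q : ℕ} (hq : q.Prime) (hA : A.LiesOverPrime q) (hp : p.Prime) (hp2 : p ≠ 2)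
    (hqp : q ≠ p) (hP : p • Affine.Point.some x y h = 0) (hint : EC.IntegralAt A (C • V)) :
    (x - C.r) / (C.u : Qbar) ^ 2 ∈ A := by
  by_contra hx
  have h1 := natCast_mul_new_x_mem C hp hp2 hP hint hx
  have hu := EC.res_natCast_ne_zero A hq hA fun hd => hqp ((Nat.prime_dvd_prime_iff_eq hq hp).mp hd)
  refine hx ?_
  have := mul_mem (EC.inv_mem_of_res_ne_zero hu) h1
  rwa [← mul_assoc, inv_mul_cancel₀ (Nat.cast_ne_zero.mpr hp.ne_zero), one_mul] at this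

end Local

section Global

variable {r₁ r₂ r₃ : ℤ}

/-- A point of order `p` on `sqModel` over `ℚ̄` with zero `x`-coordinate. -/
def HasSqPoint (r₁ r₂ r₃ : ℤ) (p : ℕ) : Prop :=
  ((sqModel r₁ r₂ r₃).map (Int.castRingHom Qbar)).IsElliptic ∧
    ∃ (y : Qbar) (h : ((sqModel r₁ r₂ r₃).map (Int.castRingHom Qbar)).toAffine.Nonsingular 0 y),
      p • Affine.Point.some 0 y h = 0

lemma HasSqPoint.swap₁₂ {p : ℕ} (h : HasSqPoint r₁ r₂ r₃ p) : HasSqPoint r₂ r₁ r₃ p := by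
  rwa [HasSqPoint, sqModel_swap₁₂]

lemma HasSqPoint.swap₂₃ {p : ℕ} (h : HasSqPoint r₁ r₂ r₃ p) : HasSqPoint r₁ r₃ r₂ p := by
  rwa [HasSqPoint, sqModel_swap₂₃]

variable {p : ℕ}

/-- No prime divides both differences of squares. -/
lemma not_dvd_both (hp : p.Prime) (hp5 : 5 ≤ p) (hP : HasSqPoint r₁ r₂ r₃ p) {q : ℕ} (hq : q.Prime)
    (hr : ¬(q : ℤ) ∣ r₁) (h₂ : (q : ℤ) ∣ r₂ ^ 2 - r₁ ^ 2) (h₃ : (q : ℤ) ∣ r₃ ^ 2 - r₁ ^ 2) :
    False := by
  obtain ⟨hell, y, hy, hP⟩ := hP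
  obtain ⟨e₂, he₂⟩ := h₂
  obtain ⟨e₃, he₃⟩ := h₃
  have he₂' : (r₂ : Qbar) ^ 2 = r₁ ^ 2 + q * e₂ := by
    have := congrArg (Int.cast : ℤ → Qbar) he₂; push_cast at this; linear_combination this
  have he₃' : (r₃ : Qbar) ^ 2 = r₁ ^ 2 + q * e₃ := by
    have := congrArg (Int.cast : ℤ → Qbar) he₃; push_cast at this; linear_combination this
  obtain ⟨A, hA⟩ := Basic.exists_liesOverPrime hq
  obtain ⟨u, hu⟩ := IsAlgClosed.exists_pow_nat_eq (q : Qbar) (n := 2) two_pos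
  obtain ⟨hqA, hq0⟩ := natCast_q_res hA
  have hqne : (q : Qbar) ≠ 0 := Nat.cast_ne_zero.mpr hq.ne_zero
  have hu0 : u ≠ 0 := by rintro rfl; exact hqne (by rw [← hu]; simp)
  have hr1 : EC.res A ((r₁ : Qbar) ^ 2) ≠ 0 := by
    have := (EC.res_intCast_ne_zero_iff A hq hA (r₁ ^ 2)).mpr fun h =>
      hr (Int.Prime.dvd_pow' hq h)
    simpa using this
  by_cases hqp : q = p
  · subst hqp
    have h3 : ∀ k : ℕ, ¬(q : ℤ) ∣ ((3 ^ k : ℕ) : ℤ) := fun k hd => by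
      have hd' : q ∣ 3 ^ k := Int.natCast_dvd_natCast.mp hd
      have := (Nat.prime_dvd_prime_iff_eq hq Nat.prime_three).mp (hq.dvd_of_dvd_pow hd')
      omega
    let r : Qbar := -((r₁ : Qbar) ^ 2 + r₂ ^ 2 + r₃ ^ 2) / 3
    let C : VariableChange Qbar := ⟨Units.mk0 u hu0, r, 0, 0⟩
    have ha₂ : (C • (sqModel r₁ r₂ r₃).map (Int.castRingHom Qbar)).a₂ = 0 := by
      simp [C, r, variableChange_a₂, sqModel]
      right; ring
    have ha₁ : (C • (sqModel r₁ r₂ r₃).map (Int.castRingHom Qbar)).a₁ = 0 := by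
      simp [C, variableChange_a₁, sqModel]
    have ha₃ : (C • (sqModel r₁ r₂ r₃).map (Int.castRingHom Qbar)).a₃ = 0 := by
      simp [C, variableChange_a₃, sqModel]
    have ha₄ : (C • (sqModel r₁ r₂ r₃).map (Int.castRingHom Qbar)).a₄
        = ((-(e₂ ^ 2 - e₂ * e₃ + e₃ ^ 2) : ℤ) : Qbar) / ((3 ^ 1 : ℕ) : ℤ) := by
      simp [C, r, variableChange_a₄, sqModel]
      rw [show u ^ 4 = (q : Qbar) ^ 2 by rw [← hu]; ring, he₂', he₃']
      field_simp
      ring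
    have ha₆ : (C • (sqModel r₁ r₂ r₃).map (Int.castRingHom Qbar)).a₆
        = ((-((e₂ + e₃) * (2 * e₂ - e₃) * (2 * e₃ - e₂)) : ℤ) : Qbar) / ((3 ^ 3 : ℕ) : ℤ) := by
      simp [C, r, variableChange_a₆, sqModel]
      rw [show u ^ 6 = (q : Qbar) ^ 3 by rw [← hu]; ring, he₂', he₃']
      field_simp
      ring
    have hint : EC.IntegralAt A (C • (sqModel r₁ r₂ r₃).map (Int.castRingHom Qbar)) :=
      ⟨ha₁ ▸ A.zero_mem, ha₂ ▸ A.zero_mem, ha₃ ▸ A.zero_mem,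
        ha₄ ▸ intCast_div_mem hq hA _ _ (h3 1), ha₆ ▸ intCast_div_mem hq hA _ _ (h3 3)⟩
    have hb : (C • (sqModel r₁ r₂ r₃).map (Int.castRingHom Qbar)).b₂ = 0 := by
      rw [WeierstrassCurve.b₂, ha₁, ha₂]; ring
    set S : Qbar := r₁ ^ 2 + (q : Qbar) * (((e₂ + e₃ : ℤ) : Qbar) / ((3 ^ 1 : ℕ) : ℤ)) with hS
    have hSr : 0 - C.r = S := by
      simp only [C, r, hS, he₂', he₃']; push_cast; ring
    have hmA : ((e₂ + e₃ : ℤ) : Qbar) / (((3 ^ 1 : ℕ) : ℤ) : Qbar) ∈ A :=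
      intCast_div_mem hq hA _ _ (h3 1)
    have hr1A : (r₁ : Qbar) ^ 2 ∈ A := pow_mem (EC.intCast_mem_place _) 2
    have hS0 : EC.res A S ≠ 0 := by
      rw [hS, EC.res_add hr1A (mul_mem hqA hmA), EC.res_mul hqA hmA, hq0, zero_mul, add_zero]
      exact hr1
    have hxA : (0 - C.r) / (C.u : Qbar) ^ 2 ∉ A := by
      rw [hSr]
      show S / u ^ 2 ∉ A
      rw [hu]; exact div_not_mem_of_res hS0 hqA hq0 hqne
    have := natCast_mul_new_x_sq_mem C hp (by omega) hP hint hb hxA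
    rw [hSr] at this
    change (q : Qbar) * (S / u ^ 2) ^ 2 ∈ A at this
    rw [hu, show (q : Qbar) * (S / q) ^ 2 = S ^ 2 / q by field_simp] at this
    have hS2 : EC.res A (S ^ 2) ≠ 0 := by
      rw [EC.res_pow (EC.mem_of_res_ne_zero hS0)]
      exact pow_ne_zero 2 hS0
    exact div_not_mem_of_res hS2 hqA hq0 hqne this
  · let C : VariableChange Qbar := ⟨Units.mk0 u hu0, -(r₁ : Qbar) ^ 2, 0, 0⟩
    have hint : EC.IntegralAt A (C • (sqModel r₁ r₂ r₃).map (Int.castRingHom Qbar)) := by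
      refine EC.integralAt_of_int (a₁ := 0) (a₂ := e₂ + e₃) (a₃ := 0) (a₄ := e₂ * e₃) (a₆ := 0)
        ?_ ?_ ?_ ?_ ?_
      · simp [C, variableChange_a₁, sqModel]
      · simp [C, variableChange_a₂, sqModel]
        rw [hu, he₂', he₃']; field_simp; ring
      · simp [C, variableChange_a₃, sqModel]
      · simp [C, variableChange_a₄, sqModel]
        rw [show u ^ 4 = (q : Qbar) ^ 2 by rw [← hu]; ring, he₂', he₃']; field_simp; ring
      · simp [C, variableChange_a₆, sqModel]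
        right; ring
    have := new_x_mem C hq hA hp (by omega) hqp hP hint
    refine div_not_mem_of_res hr1 hqA hq0 hqne ?_
    rw [← hu]
    simpa [C] using this

/-- It is impossible that exactly `r₁` is even. -/
lemma not_exactly_one_even (hp : p.Prime) (hp5 : 5 ≤ p) (hP : HasSqPoint r₁ r₂ r₃ p)
    (h₁ : (2 : ℤ) ∣ r₁) (h₂ : ¬(2 : ℤ) ∣ r₂) (h₃ : ¬(2 : ℤ) ∣ r₃) : False := by
  obtain ⟨hell, y, hy, hP⟩ := hP
  obtain ⟨A, hA⟩ := Basic.exists_liesOverPrime Nat.prime_two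
  obtain ⟨u, hu⟩ := IsAlgClosed.exists_pow_nat_eq (2 : Qbar) (n := 2) two_pos
  obtain ⟨h2A, h20⟩ := natCast_q_res hA
  rw [Nat.cast_ofNat] at h2A h20
  have hu0 : u ≠ 0 := by rintro rfl; simp at hu
  obtain ⟨m₁, rfl⟩ := h₁
  obtain ⟨m₂, rfl⟩ : ∃ m, r₂ = 2 * m + 1 := ⟨r₂ / 2, by omega⟩
  obtain ⟨m₃, rfl⟩ : ∃ m, r₃ = 2 * m + 1 := ⟨r₃ / 2, by omega⟩
  let C : VariableChange Qbar := ⟨Units.mk0 u hu0, -((2 * m₂ + 1 : ℤ) : Qbar) ^ 2, 1, 0⟩
  have huA : u ∈ A := EC.mem_of_quadratic (b := 0) (c := (2 : Qbar))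
    (by linear_combination hu) A.zero_mem h2A
  have hint : EC.IntegralAt A
      (C • (sqModel (2 * m₁) (2 * m₂ + 1) (2 * m₃ + 1)).map (Int.castRingHom Qbar)) := by
    refine ⟨?_, ?_, ?_, ?_, ?_⟩
    · have : (C • (sqModel (2 * m₁) (2 * m₂ + 1) (2 * m₃ + 1)).map (Int.castRingHom Qbar)).a₁
          = u := by
        simp [C, variableChange_a₁, sqModel]; field_simp; linear_combination -hu
      rwa [this]
    · have : (C • (sqModel (2 * m₁) (2 * m₂ + 1) (2 * m₃ + 1)).map (Int.castRingHom Qbar)).a₂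
          = ((2 * m₁ ^ 2 - 4 * m₂ ^ 2 - 4 * m₂ + 2 * m₃ ^ 2 + 2 * m₃ - 1 : ℤ) : Qbar) := by
        simp [C, variableChange_a₂, sqModel]; rw [hu]; field_simp; ring
      rw [this]; exact EC.intCast_mem_place _
    · have : (C • (sqModel (2 * m₁) (2 * m₂ + 1) (2 * m₃ + 1)).map (Int.castRingHom Qbar)).a₃
          = 0 := by
        simp [C, variableChange_a₃, sqModel]
      rw [this]; exact A.zero_mem
    · have : (C • (sqModel (2 * m₁) (2 * m₂ + 1) (2 * m₃ + 1)).map (Int.castRingHom Qbar)).a₄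
          = (((2 * m₁) ^ 2 - (2 * m₂ + 1) ^ 2) * (m₃ - m₂) * (m₃ + m₂ + 1) : ℤ) := by
        simp [C, variableChange_a₄, sqModel]
        rw [show u ^ 4 = (2 : Qbar) ^ 2 by rw [← hu]; ring]; field_simp; ring
      rw [this]; exact EC.intCast_mem_place _
    · have : (C • (sqModel (2 * m₁) (2 * m₂ + 1) (2 * m₃ + 1)).map (Int.castRingHom Qbar)).a₆
          = 0 := by
        simp [C, variableChange_a₆, sqModel]; right; ring
      rw [this]; exact A.zero_mem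
  have := new_x_mem C Nat.prime_two hA hp (by omega) (by omega) hP hint
  refine div_not_mem_of_res (a := ((2 * m₂ + 1 : ℤ) : Qbar) ^ 2) ?_ h2A h20 two_ne_zero ?_
  · rw [EC.res_pow (EC.intCast_mem_place _)]
    exact pow_ne_zero 2 ((EC.res_intCast_ne_zero_iff A Nat.prime_two hA _).mpr (by omega))
  · rw [← hu]; simpa [C] using this

/-- If `r₁ = 2·odd` then `r₂` cannot be divisible by `4`. -/
lemma not_two_and_four (hp : p.Prime) (hp5 : 5 ≤ p) {m₁ m₂ : ℤ}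
    (hP : HasSqPoint (2 * m₁) (2 * m₂) r₃ p)
    (h₁ : ¬(2 : ℤ) ∣ m₁) (h₂ : (2 : ℤ) ∣ m₂) (h₃ : ¬(2 : ℤ) ∣ r₃) : False := by
  obtain ⟨hell, y, hy, hP⟩ := hP
  obtain ⟨A, hA⟩ := Basic.exists_liesOverPrime Nat.prime_two
  let V := (sqModel (2 * m₁) (2 * m₂) r₃).map (Int.castRingHom Qbar)
  have hVdef : V = (sqModel (2 * m₁) (2 * m₂) r₃).map (Int.castRingHom Qbar) := rfl
  have ha₁ : V.a₁ = 0 := by simp [hVdef, sqModel]
  have ha₃ : V.a₃ = 0 := by simp [hVdef, sqModel]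
  have ha₄ : V.a₄ = 4 * ((m₁ ^ 2 * r₃ ^ 2 + m₂ ^ 2 * r₃ ^ 2 + 4 * m₁ ^ 2 * m₂ ^ 2 : ℤ) : Qbar) := by
    simp [hVdef, sqModel]; ring
  have heq := (Affine.equation_iff (W := V.toAffine) _ _).mp hy.1
  simp only [ha₁, ha₃] at heq
  have hy2 : y ^ 2 = (4 * ((m₁ * m₂ * r₃ : ℤ) : Qbar)) ^ 2 := by
    have : V.a₆ = (4 * ((m₁ * m₂ * r₃ : ℤ) : Qbar)) ^ 2 := by simp [hVdef, sqModel]; ring
    rw [← this]; linear_combination heq
  have hy0 : y ≠ 0 := by
    intro h0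
    have hneg : -Affine.Point.some 0 y hy = Affine.Point.some 0 y hy := by
      rw [Affine.Point.neg_some, Affine.Point.some.injEq]
      show 0 = 0 ∧ V.toAffine.negY 0 y = y
      simp [Affine.negY, ha₁, ha₃, h0]
    have h2 : 2 • Affine.Point.some 0 y hy = 0 := by
      rw [two_nsmul]; nth_rw 1 [← hneg]; exact neg_add_cancel _
    have : addOrderOf (Affine.Point.some 0 y hy) ∣ Nat.gcd 2 p :=
      Nat.dvd_gcd (addOrderOf_dvd_of_nsmul_eq_zero h2) (addOrderOf_dvd_of_nsmul_eq_zero hP)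
    rw [(Nat.coprime_primes Nat.prime_two hp).mpr (by omega), Nat.dvd_one,
      AddMonoid.addOrderOf_eq_one_iff] at this
    exact Affine.Point.some_ne_zero _ this
  have hyne : y ≠ V.toAffine.negY 0 y := by
    simp [Affine.negY, ha₁, ha₃, eq_neg_iff_add_eq_zero, hy0]
  have hadd := Affine.Point.add_self_of_Y_ne (h₁ := hy) hyne
  have hV : EC.IntegralAt A V := ⟨by simp [hVdef], by simp [hVdef], by simp [hVdef],
    by simp [hVdef], by simp [hVdef]⟩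
  have hP2 : p • (Affine.Point.some 0 y hy + Affine.Point.some 0 y hy) = 0 := by
    rw [nsmul_add, hP, add_zero]
  rw [hadd] at hP2
  have hx := x_mem_of_natCast_unit hV hp (by omega) ((EC.res_ne_zero_iff (EC.natCast_mem_place p)).mp
    (EC.res_natCast_ne_zero A Nat.prime_two hA fun hd => by
      have := (Nat.prime_dvd_prime_iff_eq Nat.prime_two hp).mp hd; omega)) hP2
  rw [Affine.slope_of_Y_ne rfl hyne] at hx
  set lam := (3 * (0 : Qbar) ^ 2 + 2 * V.a₂ * 0 + V.a₄ - V.a₁ * y)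
    / (y - V.toAffine.negY 0 y) with hlam
  change V.toAffine.addX 0 0 lam ∈ A at hx
  have hlam2 : lam ^ 2 ∈ A := by
    have := add_mem hx hV.a₂
    simpa [Affine.addX, ha₁] using this
  have hlamA : lam ∈ A := EC.mem_of_quadratic (b := 0) (c := lam ^ 2) (by ring) A.zero_mem hlam2
  set n : ℤ := m₁ ^ 2 * r₃ ^ 2 + m₂ ^ 2 * r₃ ^ 2 + 4 * m₁ ^ 2 * m₂ ^ 2 with hn
  set d : ℤ := 2 * (m₁ * m₂ * r₃) with hd
  have hl : lam = V.a₄ / (2 * y) := by
    rw [hlam]; simp [Affine.negY, ha₁, ha₃]; ring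
  have hl2 : lam ^ 2 = ((n : Qbar) / d) ^ 2 := by
    rw [hl, ha₄, div_pow, div_pow, mul_pow (2 : Qbar) y, hy2, hd]
    push_cast
    field_simp
  have hnA : EC.res A (n : Qbar) ≠ 0 := (EC.res_intCast_ne_zero_iff A Nat.prime_two hA n).mpr (by
    obtain ⟨k, rfl⟩ := h₂
    obtain ⟨a, rfl⟩ : ∃ m, m₁ = 2 * m + 1 := ⟨m₁ / 2, by omega⟩
    obtain ⟨c, rfl⟩ : ∃ m, r₃ = 2 * m + 1 := ⟨r₃ / 2, by omega⟩
    rw [hn]
    ring_nf
    omega)
  have hd0 : (d : Qbar) ≠ 0 := by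
    intro h0
    apply hy0
    have : y ^ 2 = 0 := by
      rw [hy2, show (4 : Qbar) * ((m₁ * m₂ * r₃ : ℤ) : Qbar) = 2 * (d : Qbar) by
        rw [hd]; push_cast; ring, h0]
      ring
    exact (pow_eq_zero_iff two_ne_zero).mp this
  have hdr : EC.res A (d : Qbar) = 0 := by
    by_contra h0
    exact (EC.res_intCast_ne_zero_iff A Nat.prime_two hA d).mp h0 ⟨m₁ * m₂ * r₃, by rw [hd]; norm_num⟩
  refine div_not_mem_of_res hnA (EC.intCast_mem_place d) hdr hd0 ?_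
  exact EC.mem_of_quadratic (b := 0) (c := lam ^ 2) (by linear_combination -hl2) A.zero_mem hlam2

end Global

end FermatLib.Mazur
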