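import Fermat.Agent.Mazur.FreyPair
import Mathlib.RingTheory.Int.Basic

/-!
# The Frey form of a curve with full rational `2`-torsion and a rational `p`-point
-/

set_option autoImplicit false
set_option linter.unusedSectionVars false

noncomputable section

namespace FermatLib.Mazur

open WeierstrassCurve
open scoped WeierstrassCurve.Affine

local notation "Qbar" => AlgebraicClosure ℚ

lemma intModel_baseChange (W : WeierstrassCurve ℤ) :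
    (W.map (Int.castRingHom ℚ)).map (algebraMap ℚ Qbar) = W.map (Int.castRingHom Qbar) := by
  rw [WeierstrassCurve.map_map]
  congr 1

/-- The rational point gives the point with zero `x`-coordinate on `sqModel` over `ℚ̄`. -/
lemma hasSqPoint_of_point (W : WeierstrassCurve ℚ) [W.IsElliptic] {r₁ r₂ r₃ : ℤ} {p : ℕ}
    (C : VariableChange ℚ) (hC : C • W = (sqModel r₁ r₂ r₃).map (Int.castRingHom ℚ))
    {x₀ y₀ : ℚ} (hT : W.toAffine.Nonsingular x₀ y₀) (hp : p • Affine.Point.some x₀ y₀ hT = 0)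
    (hx : x₀ = C.r) : HasSqPoint r₁ r₂ r₃ p := by
  have e : (C • W).map (algebraMap ℚ Qbar) = (sqModel r₁ r₂ r₃).map (Int.castRingHom Qbar) := by
    rw [hC, intModel_baseChange]
  obtain ⟨h', e'⟩ := vcEquiv_symm_some W C hT
  have hp' := congrArg (EC.vcEquiv W C).symm hp
  rw [map_nsmul, map_zero, e'] at hp'
  have hx' : (x₀ - C.r) / (C.u : ℚ) ^ 2 = 0 := by rw [hx]; simp
  refine ⟨e ▸ inferInstance, algebraMap ℚ Qbar ((y₀ - C.t - C.s * (x₀ - C.r)) / (C.u : ℚ) ^ 3), ?_⟩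
  have hns : ((C • W).map (algebraMap ℚ Qbar)).toAffine.Nonsingular
      (algebraMap ℚ Qbar ((x₀ - C.r) / (C.u : ℚ) ^ 2))
      (algebraMap ℚ Qbar ((y₀ - C.t - C.s * (x₀ - C.r)) / (C.u : ℚ) ^ 3)) :=
    ((C • W).toAffine.map_nonsingular (algebraMap ℚ Qbar).injective _ _).mpr h'
  have hz : p • Affine.Point.some _ _ hns = 0 := by
    have := congrArg (Affine.Point.map (W' := (C • W).toAffine) (Algebra.ofId ℚ Qbar))
      (show p • (Affine.Point.some _ _ h' : ((C • W).toAffine⁄ℚ).Point) = 0 from hp')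
    rw [map_nsmul, map_zero] at this
    exact this
  have key : ∀ (V : WeierstrassCurve Qbar) (a b : Qbar) (hab : V.toAffine.Nonsingular a b),
      V = (sqModel r₁ r₂ r₃).map (Int.castRingHom Qbar) → a = 0 → p • Affine.Point.some a b hab = 0 →
      ∃ h : ((sqModel r₁ r₂ r₃).map (Int.castRingHom Qbar)).toAffine.Nonsingular 0 b,
        p • Affine.Point.some 0 b h = 0 := by
    rintro V a b hab rfl rfl h0; exact ⟨hab, h0⟩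
  exact key _ _ _ hns e (by rw [hx', map_zero]) hz

lemma not_dvd_of_dvd_both {r₁ r₂ r₃ : ℤ} {q : ℕ} (hq : q.Prime)
    (hcop : ∀ q : ℕ, q.Prime → (q : ℤ) ∣ r₁ → (q : ℤ) ∣ r₂ → (q : ℤ) ∣ r₃ → False)
    (h₂ : (q : ℤ) ∣ r₂ ^ 2 - r₁ ^ 2) (h₃ : (q : ℤ) ∣ r₃ ^ 2 - r₁ ^ 2) : ¬(q : ℤ) ∣ r₁ := by
  intro h
  have hsq : (q : ℤ) ∣ r₁ ^ 2 := dvd_pow h two_ne_zero
  refine hcop q hq h (Int.Prime.dvd_pow' hq (k := 2) ?_) (Int.Prime.dvd_pow' hq (k := 2) ?_)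
  · simpa using dvd_add h₂ hsq
  · simpa using dvd_add h₃ hsq

/-- The case `r₁, r₂` even. -/
lemma exists_freyPair_of_two_even {p : ℕ} (hp : p.Prime) (hp5 : 5 ≤ p) {r₁ r₂ r₃ : ℤ}
    (hP : HasSqPoint r₁ r₂ r₃ p) (d₁₂ : r₁ ^ 2 ≠ r₂ ^ 2) (d₂₃ : r₂ ^ 2 ≠ r₃ ^ 2)
    (hcop : ∀ q : ℕ, q.Prime → (q : ℤ) ∣ r₁ → (q : ℤ) ∣ r₂ → (q : ℤ) ∣ r₃ → False)
    (h₁ : (2 : ℤ) ∣ r₁) (h₂ : (2 : ℤ) ∣ r₂) :
    ∃ A B : ℤ, IsFreyPair A B ∧ ∃ C : VariableChange ℚ,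
      C • (sqModel r₁ r₂ r₃).map (Int.castRingHom ℚ) = (legModel A B).map (Int.castRingHom ℚ) := by
  have h₃ : ¬(2 : ℤ) ∣ r₃ := fun h => hcop 2 Nat.prime_two h₁ h₂ h
  obtain ⟨m₁, rfl⟩ := h₁
  obtain ⟨m₂, rfl⟩ := h₂
  have h16 : (16 : ℤ) ∣ (2 * m₂) ^ 2 - (2 * m₁) ^ 2 := by
    rcases Int.even_or_odd' m₁ with ⟨a, rfl | rfl⟩ <;> rcases Int.even_or_odd' m₂ with ⟨b, rfl | rfl⟩
    · exact ⟨b ^ 2 - a ^ 2, by ring⟩
    · exact (not_two_and_four hp hp5 hP.swap₁₂ (by omega) ⟨a, rfl⟩ h₃).elim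
    · exact (not_two_and_four hp hp5 hP (by omega) ⟨b, rfl⟩ h₃).elim
    · exact ⟨b ^ 2 + b - a ^ 2 - a, by ring⟩
  obtain ⟨c, hc⟩ : ∃ c, r₃ = 2 * c + 1 := ⟨r₃ / 2, by omega⟩
  obtain ⟨B', hB'⟩ := h16
  refine ⟨(2 * m₁) ^ 2 - r₃ ^ 2, (2 * m₂) ^ 2 - (2 * m₁) ^ 2, ⟨?_, ⟨B', hB'⟩, ?_, ?_, ?_⟩, ?_⟩
  · rw [hc, show (2 * m₁) ^ 2 - (2 * c + 1) ^ 2 = 4 * (m₁ ^ 2 - c ^ 2 - c) - 1 by ring]
    omega
  · rw [Int.isCoprime_iff_gcd_eq_one]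
    by_contra hg
    obtain ⟨q, hq, hqd⟩ := Nat.exists_prime_and_dvd hg
    have hA := (Int.natCast_dvd_natCast.mpr hqd).trans (Int.gcd_dvd_left _ _)
    have hB := (Int.natCast_dvd_natCast.mpr hqd).trans (Int.gcd_dvd_right _ _)
    have hA' : (q : ℤ) ∣ r₃ ^ 2 - (2 * m₁) ^ 2 := dvd_sub_comm.mp hA
    exact not_dvd_both hp hp5 hP hq (not_dvd_of_dvd_both hq hcop hB hA') hB hA'
  · exact sub_ne_zero.mpr d₁₂.symm
  · rw [show (2 * m₁) ^ 2 - r₃ ^ 2 + ((2 * m₂) ^ 2 - (2 * m₁) ^ 2) = (2 * m₂) ^ 2 - r₃ ^ 2 by ring]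
    exact sub_ne_zero.mpr d₂₃
  · refine ⟨⟨Units.mk0 2 two_ne_zero, -((2 * m₁ : ℤ) : ℚ) ^ 2, 1, 0⟩, ?_⟩
    have h4 : ((2 * m₂) ^ 2 - (2 * m₁) ^ 2 - 1 - ((2 * m₁) ^ 2 - r₃ ^ 2)) / 4
        = m₂ ^ 2 - 2 * m₁ ^ 2 + c ^ 2 + c := by
      rw [hc, show (2 * m₂) ^ 2 - (2 * m₁) ^ 2 - 1 - ((2 * m₁) ^ 2 - (2 * c + 1) ^ 2)
        = 4 * (m₂ ^ 2 - 2 * m₁ ^ 2 + c ^ 2 + c) by ring]
      omega
    have h16' : ((2 * m₁) ^ 2 - r₃ ^ 2) * ((2 * m₂) ^ 2 - (2 * m₁) ^ 2) / 16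
        = ((2 * m₁) ^ 2 - r₃ ^ 2) * B' := by
      rw [hB', mul_left_comm, Int.mul_ediv_cancel_left _ (by norm_num : (16 : ℤ) ≠ 0)]
    have hB'q : (((2 * m₂ : ℤ) : ℚ)) ^ 2 - ((2 * m₁ : ℤ) : ℚ) ^ 2 = 16 * (B' : ℚ) := by
      exact_mod_cast congrArg (Int.cast : ℤ → ℚ) hB'
    push_cast at hB'q
    ext <;> simp [legModel, sqModel, variableChange_a₁, variableChange_a₂, variableChange_a₃,
      variableChange_a₄, variableChange_a₆, h4, h16']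
    · subst hc; push_cast; ring
    · linear_combination -((((2 : ℚ) * m₁) ^ 2 - (r₃ : ℚ) ^ 2) / 16) * hB'q
    · ring

/-- A curve over `ℚ` with full rational `2`-torsion and a rational point of prime order `p ≥ 5` has
a semistable model in Frey form. -/
theorem exists_freyPair (W : WeierstrassCurve ℚ) [W.IsElliptic] (h2 : EC.HasRationalTwoTorsion W)
    {p : ℕ} (hp : p.Prime) (hp5 : 5 ≤ p) (T : W.toAffine.Point) (hT : addOrderOf T = p) :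
    ∃ A B : ℤ, IsFreyPair A B ∧ ∃ C : VariableChange ℚ,
      C • W = (legModel A B).map (Int.castRingHom ℚ) := by
  obtain ⟨r₁, r₂, r₃, d₁₂, d₁₃, d₂₃, hcop, C, hC, x₀, y₀, hT', rfl, hx⟩ :=
    exists_sqModel W h2 (hp.odd_of_ne_two (by omega)) hp.ne_one T hT
  have hP : HasSqPoint r₁ r₂ r₃ p :=
    hasSqPoint_of_point W C hC hT' (by rw [← hT]; exact addOrderOf_nsmul_eq_zero _) hx
  suffices ∃ A B : ℤ, IsFreyPair A B ∧ ∃ D : VariableChange ℚ,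
      D • (sqModel r₁ r₂ r₃).map (Int.castRingHom ℚ) = (legModel A B).map (Int.castRingHom ℚ) by
    obtain ⟨A, B, hAB, D, hD⟩ := this
    exact ⟨A, B, hAB, D * C, by rw [mul_smul, hC, hD]⟩
  by_cases h₁ : (2 : ℤ) ∣ r₁ <;> by_cases h₂ : (2 : ℤ) ∣ r₂ <;> by_cases h₃ : (2 : ℤ) ∣ r₃
  · exact (hcop 2 Nat.prime_two h₁ h₂ h₃).elim
  · exact exists_freyPair_of_two_even hp hp5 hP d₁₂ d₂₃ hcop h₁ h₂
  · rw [← sqModel_swap₂₃]
    exact exists_freyPair_of_two_even hp hp5 hP.swap₂₃ d₁₃ d₂₃.symm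
      (fun q hq a b c => hcop q hq a c b) h₁ h₃
  · exact (not_exactly_one_even hp hp5 hP h₁ h₂ h₃).elim
  · rw [← sqModel_swap₁₂, ← sqModel_swap₂₃]
    exact exists_freyPair_of_two_even hp hp5 hP.swap₁₂.swap₂₃ d₂₃ d₁₃.symm
      (fun q hq a b c => hcop q hq c a b) h₂ h₃
  · exact (not_exactly_one_even hp hp5 hP.swap₁₂ h₂ h₁ h₃).elim
  · exact (not_exactly_one_even hp hp5 hP.swap₂₃.swap₁₂ h₃ h₁ h₂).elim
  · obtain ⟨a, rfl⟩ : ∃ m, r₁ = 2 * m + 1 := ⟨r₁ / 2, by omega⟩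
    obtain ⟨b, rfl⟩ : ∃ m, r₂ = 2 * m + 1 := ⟨r₂ / 2, by omega⟩
    obtain ⟨c, rfl⟩ : ∃ m, r₃ = 2 * m + 1 := ⟨r₃ / 2, by omega⟩
    exact (not_dvd_both hp hp5 hP Nat.prime_two h₁
      ⟨2 * (b ^ 2 + b - a ^ 2 - a), by push_cast; ring⟩
      ⟨2 * (c ^ 2 + c - a ^ 2 - a), by push_cast; ring⟩).elim

end FermatLib.Mazur
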