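import Fermat.Agent.Mazur.CurveIso
import Fermat.Agent.EC.QuotientIsogeny

/-!
# Full rational `2`-torsion and a rational point of odd order

If `T` is a rational point of odd order on a curve with all `2`-torsion rational, the numbers
`x(T) - eᵢ` are squares, so the curve can be written `Y² = (X + r₁²)(X + r₂²)(X + r₃²)` with
integers `rᵢ` without common divisor, `T` having `X = 0`.
-/

set_option autoImplicit false
set_option linter.unusedSectionVars false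

noncomputable section

namespace FermatLib.Mazur

open WeierstrassCurve
open scoped WeierstrassCurve.Affine

/-- The curve `Y² = (X + r₁²)(X + r₂²)(X + r₃²)`. -/
def sqModel (r₁ r₂ r₃ : ℤ) : WeierstrassCurve ℤ :=
  ⟨0, r₁ ^ 2 + r₂ ^ 2 + r₃ ^ 2, 0, r₁ ^ 2 * r₂ ^ 2 + r₁ ^ 2 * r₃ ^ 2 + r₂ ^ 2 * r₃ ^ 2,
    r₁ ^ 2 * r₂ ^ 2 * r₃ ^ 2⟩

lemma sqModel_swap₁₂ (r₁ r₂ r₃ : ℤ) : sqModel r₂ r₁ r₃ = sqModel r₁ r₂ r₃ := by
  ext <;> simp only [sqModel] <;> ring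

lemma sqModel_swap₂₃ (r₁ r₂ r₃ : ℤ) : sqModel r₁ r₃ r₂ = sqModel r₁ r₂ r₃ := by
  ext <;> simp only [sqModel] <;> ring

section Roots

variable {W : WeierstrassCurve ℚ} {e₁ e₂ e₃ : ℚ}

lemma vieta_of_roots (h₁₂ : e₁ ≠ e₂) (h₁₃ : e₁ ≠ e₃) (h₂₃ : e₂ ≠ e₃)
    (h₁ : 4 * e₁ ^ 3 + W.b₂ * e₁ ^ 2 + 2 * W.b₄ * e₁ + W.b₆ = 0)
    (h₂ : 4 * e₂ ^ 3 + W.b₂ * e₂ ^ 2 + 2 * W.b₄ * e₂ + W.b₆ = 0)
    (h₃ : 4 * e₃ ^ 3 + W.b₂ * e₃ ^ 2 + 2 * W.b₄ * e₃ + W.b₆ = 0) :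
    W.b₂ = -4 * (e₁ + e₂ + e₃) ∧ W.b₄ = 2 * (e₁ * e₂ + e₁ * e₃ + e₂ * e₃) ∧
      W.b₆ = -4 * (e₁ * e₂ * e₃) := by
  have d₁₂ : 4 * (e₁ ^ 2 + e₁ * e₂ + e₂ ^ 2) + W.b₂ * (e₁ + e₂) + 2 * W.b₄ = 0 := by
    refine (mul_eq_zero.mp ?_).resolve_left (sub_ne_zero.mpr h₁₂)
    linear_combination h₁ - h₂
  have d₁₃ : 4 * (e₁ ^ 2 + e₁ * e₃ + e₃ ^ 2) + W.b₂ * (e₁ + e₃) + 2 * W.b₄ = 0 := by
    refine (mul_eq_zero.mp ?_).resolve_left (sub_ne_zero.mpr h₁₃)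
    linear_combination h₁ - h₃
  have hb₂ : 4 * (e₁ + e₂ + e₃) + W.b₂ = 0 := by
    refine (mul_eq_zero.mp ?_).resolve_left (sub_ne_zero.mpr h₂₃)
    linear_combination d₁₂ - d₁₃
  have hb₄ : W.b₄ = 2 * (e₁ * e₂ + e₁ * e₃ + e₂ * e₃) := by
    linear_combination (1 / 2 : ℚ) * d₁₂ - (1 / 2 : ℚ) * (e₁ + e₂) * hb₂
  exact ⟨by linear_combination hb₂, hb₄,
    by linear_combination h₁ - e₁ ^ 2 * hb₂ - 2 * e₁ * hb₄⟩

lemma isSquare_x_sub_of_two_nsmul (h₁₂ : e₁ ≠ e₂) (h₁₃ : e₁ ≠ e₃) (h₂₃ : e₂ ≠ e₃)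
    (h₁ : 4 * e₁ ^ 3 + W.b₂ * e₁ ^ 2 + 2 * W.b₄ * e₁ + W.b₆ = 0)
    (h₂ : 4 * e₂ ^ 3 + W.b₂ * e₂ ^ 2 + 2 * W.b₄ * e₂ + W.b₆ = 0)
    (h₃ : 4 * e₃ ^ 3 + W.b₂ * e₃ ^ 2 + 2 * W.b₄ * e₃ + W.b₆ = 0)
    {u v x₀ y₀ : ℚ} {hR : W.toAffine.Nonsingular u v} {hT : W.toAffine.Nonsingular x₀ y₀}
    (h : Affine.Point.some u v hR + Affine.Point.some u v hR = Affine.Point.some x₀ y₀ hT) :
    IsSquare (x₀ - e₁) := by
  obtain ⟨hb₂, hb₄, hb₆⟩ := vieta_of_roots h₁₂ h₁₃ h₂₃ h₁ h₂ h₃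
  by_cases hy : v = W.toAffine.negY u v
  · rw [Affine.Point.add_of_Y_eq rfl hy] at h
    exact absurd h.symm (Affine.Point.some_ne_zero hT)
  rw [Affine.Point.add_self_of_Y_ne hy, Affine.Point.some.injEq] at h
  obtain ⟨hx, -⟩ := h
  rw [Affine.slope_of_Y_ne rfl hy] at hx
  have hY0 : v - W.toAffine.negY u v ≠ 0 := sub_ne_zero.mpr hy
  set Y := v - W.toAffine.negY u v with hY
  simp only [Affine.negY] at hY
  set N := 3 * u ^ 2 + 2 * W.a₂ * u + W.a₄ - W.a₁ * v with hN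
  change W.toAffine.addX u u (N / Y) = x₀ at hx
  simp only [Affine.addX] at hx
  have heq := (Affine.equation_iff _ _).mp hR.1
  have hN' : N + W.a₁ * Y / 2
      = (u - e₁) * (u - e₂) + (u - e₁) * (u - e₃) + (u - e₂) * (u - e₃) := by
    simp only [WeierstrassCurve.b₂, WeierstrassCurve.b₄] at hb₂ hb₄
    rw [hN, hY]
    linear_combination (u / 2) * hb₂ + (1 / 2 : ℚ) * hb₄
  have hY2 : Y ^ 2 = 4 * ((u - e₁) * (u - e₂) * (u - e₃)) := by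
    simp only [WeierstrassCurve.b₂, WeierstrassCurve.b₄, WeierstrassCurve.b₆] at hb₂ hb₄ hb₆
    rw [hY]
    linear_combination 4 * heq + u ^ 2 * hb₂ + 2 * u * hb₄ + hb₆
  refine ⟨((u - e₁) ^ 2 - (e₁ - e₂) * (e₁ - e₃)) / Y, ?_⟩
  rw [← hx]
  simp only [WeierstrassCurve.b₂] at hb₂
  field_simp
  linear_combination (((u - e₁) * (u - e₂) + (u - e₁) * (u - e₃) + (u - e₂) * (u - e₃))
      + (N + W.a₁ * Y / 2)) * hN' - (2 * u + e₁ - e₁ - e₂ - e₃) * hY2 - (Y ^ 2 / 4) * hb₂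

end Roots

/-- Rationals become, after scaling, integers without a common prime factor. -/
lemma exists_coprime_scaling (s₁ s₂ s₃ : ℚ) (h : s₁ ≠ 0 ∨ s₂ ≠ 0 ∨ s₃ ≠ 0) :
    ∃ (μ : ℚ) (r₁ r₂ r₃ : ℤ), μ ≠ 0 ∧ s₁ = μ * r₁ ∧ s₂ = μ * r₂ ∧ s₃ = μ * r₃ ∧
      ∀ q : ℕ, q.Prime → (q : ℤ) ∣ r₁ → (q : ℤ) ∣ r₂ → (q : ℤ) ∣ r₃ → False := by
  set d : ℕ := s₁.den * s₂.den * s₃.den with hd
  set n₁ : ℤ := s₁.num * (s₂.den * s₃.den : ℕ) with hn₁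
  set n₂ : ℤ := s₂.num * (s₁.den * s₃.den : ℕ) with hn₂
  set n₃ : ℤ := s₃.num * (s₁.den * s₂.den : ℕ) with hn₃
  have hd0 : (d : ℚ) ≠ 0 := by
    rw [hd]; push_cast
    exact mul_ne_zero (mul_ne_zero (by simp) (by simp)) (by simp)
  have e₁ : s₁ * d = n₁ := by
    rw [hd, hn₁]; push_cast
    linear_combination (s₂.den * s₃.den : ℚ) * Rat.mul_den_eq_num s₁
  have e₂ : s₂ * d = n₂ := by
    rw [hd, hn₂]; push_cast
    linear_combination (s₁.den * s₃.den : ℚ) * Rat.mul_den_eq_num s₂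
  have e₃ : s₃ * d = n₃ := by
    rw [hd, hn₃]; push_cast
    linear_combination (s₁.den * s₂.den : ℚ) * Rat.mul_den_eq_num s₃
  set g : ℕ := Nat.gcd (Nat.gcd n₁.natAbs n₂.natAbs) n₃.natAbs with hg
  have hg0 : g ≠ 0 := by
    intro h0
    rw [hg, Nat.gcd_eq_zero_iff, Nat.gcd_eq_zero_iff] at h0
    obtain ⟨⟨z₁, z₂⟩, z₃⟩ := h0
    rw [Int.natAbs_eq_zero] at z₁ z₂ z₃
    rw [z₁, Int.cast_zero, mul_eq_zero] at e₁
    rw [z₂, Int.cast_zero, mul_eq_zero] at e₂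
    rw [z₃, Int.cast_zero, mul_eq_zero] at e₃
    exact h.elim (fun h => h (e₁.resolve_right hd0))
      (fun h => h.elim (fun h => h (e₂.resolve_right hd0)) fun h => h (e₃.resolve_right hd0))
  obtain ⟨r₁, hr₁⟩ := Int.natCast_dvd.mpr ((Nat.gcd_dvd_left _ _).trans (Nat.gcd_dvd_left _ _) :
    g ∣ n₁.natAbs)
  obtain ⟨r₂, hr₂⟩ := Int.natCast_dvd.mpr ((Nat.gcd_dvd_left _ _).trans (Nat.gcd_dvd_right _ _) :
    g ∣ n₂.natAbs)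
  obtain ⟨r₃, hr₃⟩ := Int.natCast_dvd.mpr (Nat.gcd_dvd_right _ _ : g ∣ n₃.natAbs)
  refine ⟨(g : ℚ) / d, r₁, r₂, r₃, div_ne_zero (Nat.cast_ne_zero.mpr hg0) hd0, ?_, ?_, ?_, ?_⟩
  · rw [div_mul_eq_mul_div, eq_div_iff hd0, e₁, hr₁]; push_cast; ring
  · rw [div_mul_eq_mul_div, eq_div_iff hd0, e₂, hr₂]; push_cast; ring
  · rw [div_mul_eq_mul_div, eq_div_iff hd0, e₃, hr₃]; push_cast; ring
  · intro q hq d₁ d₂ d₃
    have hmul : ∀ {n r : ℤ}, n = (g : ℤ) * r → (q : ℤ) ∣ r → g * q ∣ n.natAbs := by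
      intro n r hn hr
      rw [← Int.natCast_dvd, hn, Nat.cast_mul]
      exact mul_dvd_mul_left _ hr
    have : g * q ∣ g := by
      conv_rhs => rw [hg]
      exact Nat.dvd_gcd (Nat.dvd_gcd (hmul hr₁ d₁) (hmul hr₂ d₂)) (hmul hr₃ d₃)
    have := Nat.le_of_dvd (Nat.pos_of_ne_zero hg0) this
    have := hq.two_le
    nlinarith [Nat.pos_of_ne_zero hg0]

/-- Main statement of this file. -/
theorem exists_sqModel (W : WeierstrassCurve ℚ) (h2 : EC.HasRationalTwoTorsion W)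
    {p : ℕ} (hp : Odd p) (hp1 : p ≠ 1) (T : W.toAffine.Point) (hT : addOrderOf T = p) :
    ∃ r₁ r₂ r₃ : ℤ, r₁ ^ 2 ≠ r₂ ^ 2 ∧ r₁ ^ 2 ≠ r₃ ^ 2 ∧ r₂ ^ 2 ≠ r₃ ^ 2 ∧
      (∀ q : ℕ, q.Prime → (q : ℤ) ∣ r₁ → (q : ℤ) ∣ r₂ → (q : ℤ) ∣ r₃ → False) ∧
      ∃ C : VariableChange ℚ, C • W = (sqModel r₁ r₂ r₃).map (Int.castRingHom ℚ) ∧
        ∃ (x₀ y₀ : ℚ) (hT' : W.toAffine.Nonsingular x₀ y₀),
          T = Affine.Point.some x₀ y₀ hT' ∧ x₀ = C.r := by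
  classical
  obtain ⟨e, he, hroot⟩ := h2
  have h01 : e 0 ≠ e 1 := fun h => absurd (he h) (by decide)
  have h02 : e 0 ≠ e 2 := fun h => absurd (he h) (by decide)
  have h12 : e 1 ≠ e 2 := fun h => absurd (he h) (by decide)
  obtain ⟨k, hk⟩ := hp
  have hhalf : ((k + 1) • T) + ((k + 1) • T) = T := by
    rw [← add_nsmul, show k + 1 + (k + 1) = p + 1 by omega, add_nsmul, ← hT,
      addOrderOf_nsmul_eq_zero, zero_add, one_nsmul]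
  rcases T with _ | ⟨x₀, y₀, hT'⟩
  · exact absurd (hT.symm.trans addOrderOf_zero) hp1
  generalize hR : (k + 1) • Affine.Point.some x₀ y₀ hT' = R at hhalf
  rcases R with _ | ⟨u, v, hR'⟩
  · exact absurd hhalf.symm (by
      change ¬(Affine.Point.some x₀ y₀ hT' = 0 + 0)
      rw [add_zero]; exact Affine.Point.some_ne_zero hT')
  obtain ⟨s₁, hs₁⟩ := isSquare_x_sub_of_two_nsmul h01 h02 h12 (hroot 0) (hroot 1) (hroot 2) hhalf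
  obtain ⟨s₂, hs₂⟩ := isSquare_x_sub_of_two_nsmul h01.symm h12 h02
    (hroot 1) (hroot 0) (hroot 2) hhalf
  obtain ⟨s₃, hs₃⟩ := isSquare_x_sub_of_two_nsmul h02.symm h12.symm h01
    (hroot 2) (hroot 0) (hroot 1) hhalf
  obtain ⟨hb₂, hb₄, hb₆⟩ := vieta_of_roots h01 h02 h12 (hroot 0) (hroot 1) (hroot 2)
  have hne : s₁ ≠ 0 ∨ s₂ ≠ 0 ∨ s₃ ≠ 0 := by
    by_contra hh
    simp only [not_or, not_not] at hh
    exact h01 (by rw [hh.1, zero_mul] at hs₁; rw [hh.2.1, zero_mul] at hs₂; linarith)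
  obtain ⟨μ, r₁, r₂, r₃, hμ, hr₁, hr₂, hr₃, hcop⟩ := exists_coprime_scaling s₁ s₂ s₃ hne
  subst hr₁ hr₂ hr₃
  have he1 : e 0 = x₀ - μ * r₁ * (μ * r₁) := by linarith
  have he2 : e 1 = x₀ - μ * r₂ * (μ * r₂) := by linarith
  have he3 : e 2 = x₀ - μ * r₃ * (μ * r₃) := by linarith
  refine ⟨r₁, r₂, r₃, ?_, ?_, ?_, hcop,
    ⟨Units.mk0 μ hμ, x₀, -W.a₁ / 2, -(W.a₃ + x₀ * W.a₁) / 2⟩, ?_, x₀, y₀, hT', rfl, rfl⟩
  · intro h; apply h01; rw [he1, he2]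
    have : (r₁ : ℚ) ^ 2 = (r₂ : ℚ) ^ 2 := by exact_mod_cast h
    linear_combination -(μ ^ 2) * this
  · intro h; apply h02; rw [he1, he3]
    have : (r₁ : ℚ) ^ 2 = (r₃ : ℚ) ^ 2 := by exact_mod_cast h
    linear_combination -(μ ^ 2) * this
  · intro h; apply h12; rw [he2, he3]
    have : (r₂ : ℚ) ^ 2 = (r₃ : ℚ) ^ 2 := by exact_mod_cast h
    linear_combination -(μ ^ 2) * this
  · rw [he1, he2, he3] at hb₂ hb₄ hb₆
    simp only [WeierstrassCurve.b₂, WeierstrassCurve.b₄, WeierstrassCurve.b₆] at hb₂ hb₄ hb₆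
    ext
    · simp only [variableChange_a₁, map_a₁, sqModel, map_zero]; ring
    · simp only [variableChange_a₂, map_a₂, sqModel, Units.val_inv_eq_inv_val, Units.val_mk0,
        eq_intCast, Int.cast_add, Int.cast_pow]
      field_simp
      linear_combination hb₂
    · simp only [variableChange_a₃, map_a₃, sqModel, map_zero]; ring
    · simp only [variableChange_a₄, map_a₄, sqModel, Units.val_inv_eq_inv_val, Units.val_mk0,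
        eq_intCast, Int.cast_add, Int.cast_mul, Int.cast_pow]
      field_simp
      linear_combination x₀ * hb₂ + hb₄
    · simp only [variableChange_a₆, map_a₆, sqModel, Units.val_inv_eq_inv_val, Units.val_mk0,
        eq_intCast, Int.cast_mul, Int.cast_pow]
      field_simp
      linear_combination x₀ ^ 2 * hb₂ + 2 * x₀ * hb₄ + hb₆

end FermatLib.Mazur
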