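import Mathlib.NumberTheory.ModularForms.JacobiTheta.TwoVariable
import Mathlib.Topology.Algebra.InfiniteSum.Real
import Mathlib.Analysis.Complex.UpperHalfPlane.Basic

/-!
Poisson summation for Gaussian sums on `ℤ⁴` attached to a quadratic form written as
`a₁(x₁ + c₁x₂)² + a₂(x₂ + c₂x₃)² + a₃(x₃ + c₃x₄)² + a₄x₄²`.
It is obtained from four applications of the functional equation of the Jacobi theta function.
-/

set_option autoImplicit false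

noncomputable section

open Complex

namespace FermatLib.Mazur.Gauss

/-- `e(z) = exp (2πiz)`. -/
def expI (z : ℂ) : ℂ := cexp (2 * Real.pi * I * z)

theorem expI_add (z w : ℂ) : expI (z + w) = expI z * expI w := by
  simp [expI, mul_add, Complex.exp_add]

@[simp] theorem expI_zero : expI 0 = 1 := by simp [expI]

theorem norm_expI (z : ℂ) : ‖expI z‖ = Real.exp (-(2 * Real.pi * z.im)) := by
  rw [expI, Complex.norm_exp]
  simp [Complex.mul_re, Complex.mul_im]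

@[simp] theorem expI_intCast (n : ℤ) : expI n = 1 := by
  rw [expI, mul_comm]
  exact exp_int_mul_two_pi_mul_I n

theorem exists_gaussian_sum_le {k : ℝ} (hk : 0 < k) :
    ∃ M, ∀ t : ℝ, Summable (fun n : ℤ ↦ Real.exp (-(k * ((n : ℝ) + t) ^ 2))) ∧
      ∑' n : ℤ, Real.exp (-(k * ((n : ℝ) + t) ^ 2)) ≤ M := by
  have hB : Summable fun n : ℤ ↦ Real.exp (-(k * ((n : ℝ) ^ 2 - 2 * |(n : ℝ)|))) := by
    refine (summable_pow_mul_jacobiTheta₂_term_bound (k / Real.pi) (T := k / Real.pi)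
      (div_pos hk Real.pi_pos) 0).congr fun n ↦ ?_
    simp only [pow_zero, one_mul, Int.cast_abs]
    congr 1
    field_simp
  refine ⟨∑' n : ℤ, Real.exp (-(k * ((n : ℝ) ^ 2 - 2 * |(n : ℝ)|))), fun t ↦ ?_⟩
  have h1 : ∀ n : ℤ, Real.exp (-(k * ((n : ℝ) + Int.fract t) ^ 2)) ≤
      Real.exp (-(k * ((n : ℝ) ^ 2 - 2 * |(n : ℝ)|))) := by
    intro n
    refine Real.exp_le_exp.mpr (neg_le_neg (mul_le_mul_of_nonneg_left ?_ hk.le))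
    nlinarith [Int.fract_nonneg t, Int.fract_lt_one t, abs_nonneg (n : ℝ),
      neg_abs_le (n : ℝ), sq_nonneg (Int.fract t),
      mul_nonneg (Int.fract_nonneg t) (sub_nonneg.mpr (neg_abs_le (n : ℝ))),
      mul_nonneg (sub_nonneg.mpr (Int.fract_lt_one t).le) (abs_nonneg (n : ℝ))]
  have hs := hB.of_nonneg_of_le (fun n ↦ (Real.exp_pos _).le) h1
  have he : (fun n : ℤ ↦ Real.exp (-(k * ((n : ℝ) + t) ^ 2))) =
      (fun n : ℤ ↦ Real.exp (-(k * ((n : ℝ) + Int.fract t) ^ 2))) ∘ Equiv.addRight ⌊t⌋ := by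
    funext n
    simp only [Function.comp, Equiv.coe_addRight, Int.cast_add, Int.fract]
    ring_nf
  constructor
  · rw [he]
    exact (Equiv.addRight ⌊t⌋).summable_iff.mpr hs
  · rw [he]
    exact ((Equiv.addRight ⌊t⌋).tsum_eq _).trans_le (hs.tsum_le_tsum h1 hB)

theorem summable_gaussian_mul {β : Type*} {k : ℝ} (hk : 0 < k) (L : β → ℝ) {g : β → ℝ}
    (hg0 : ∀ b, 0 ≤ g b) (hg : Summable g) :
    Summable fun q : ℤ × β ↦ Real.exp (-(k * ((q.1 : ℝ) + L q.2) ^ 2)) * g q.2 := by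
  obtain ⟨M, hM⟩ := exists_gaussian_sum_le hk
  have hf : 0 ≤ fun q : β × ℤ ↦ Real.exp (-(k * ((q.2 : ℝ) + L q.1) ^ 2)) * g q.1 :=
    fun q ↦ mul_nonneg (Real.exp_pos _).le (hg0 _)
  have hrow : ∀ b : β, Summable fun n : ℤ ↦
      Real.exp (-(k * ((n : ℝ) + L b) ^ 2)) * g b := fun b ↦ (hM (L b)).1.mul_right (g b)
  have hcol : Summable fun b : β ↦ ∑' n : ℤ, Real.exp (-(k * ((n : ℝ) + L b) ^ 2)) * g b := by
    refine (hg.mul_left M).of_nonneg_of_le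
      (fun b ↦ tsum_nonneg fun n ↦ mul_nonneg (Real.exp_pos _).le (hg0 b)) fun b ↦ ?_
    rw [tsum_mul_right]
    exact mul_le_mul_of_nonneg_right (hM (L b)).2 (hg0 b)
  have h2 : Summable fun q : β × ℤ ↦ Real.exp (-(k * ((q.2 : ℝ) + L q.1) ^ 2)) * g q.1 :=
    (summable_prod_of_nonneg hf).mpr ⟨hrow, hcol⟩
  have h3 := h2.comp_injective (Equiv.prodComm ℤ β).injective
  exact h3

/-- The automorphy factor of the one-dimensional transformation. -/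
def gaussFactor (a : ℝ) (τ : ℂ) : ℂ := 1 / (-I * (2 * (a : ℂ) * τ)) ^ (1 / 2 : ℂ)

theorem gaussian_one_dim {a : ℝ} (ha : 0 < a) (l t : ℝ) {τ : ℂ} (hτ : 0 < τ.im) :
    ∑' x : ℤ, expI ((l : ℂ) * x + (a : ℂ) * τ * ((x : ℂ) + t) ^ 2) =
      gaussFactor a τ *
        ∑' y : ℤ, expI (((y : ℂ) - l) * t - ((y : ℂ) - l) ^ 2 / (4 * a * τ)) := by
  have hτ0 : τ ≠ 0 := fun h ↦ by simp [h] at hτ
  have ha0 : (a : ℂ) ≠ 0 := ofReal_ne_zero.mpr ha.ne'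
  have h1 : ∀ x : ℤ, expI ((l : ℂ) * x + (a : ℂ) * τ * ((x : ℂ) + t) ^ 2) =
      expI ((a : ℂ) * τ * (t : ℂ) ^ 2) *
        jacobiTheta₂_term x (l + 2 * a * τ * t) (2 * a * τ) := by
    intro x
    rw [jacobiTheta₂_term, expI, expI, ← Complex.exp_add]
    congr 1
    ring
  rw [tsum_congr h1, tsum_mul_left]
  change _ * jacobiTheta₂ _ _ = _
  rw [jacobiTheta₂_functional_equation, jacobiTheta₂, gaussFactor]
  simp only [← tsum_mul_left]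
  refine tsum_congr fun y ↦ ?_
  rw [jacobiTheta₂_term, expI, expI, mul_assoc (1 / _) (cexp _) (cexp _), ← mul_assoc (cexp _),
    mul_comm (cexp _) (1 / _), mul_assoc, ← Complex.exp_add, ← Complex.exp_add]
  congr 2
  field_simp
  ring

theorem im_neg_sq_div_pos {a : ℝ} (ha : 0 < a) {τ : ℂ} (hτ : 0 < τ.im) :
    0 < (-1 / (4 * (a : ℂ) * τ)).im := by
  rw [neg_div, neg_im, one_div, inv_im, neg_div, neg_neg]
  refine div_pos ?_ (normSq_pos.mpr ?_)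
  · simpa [mul_im] using mul_pos (mul_pos four_pos ha) hτ
  · intro h
    have := congrArg Complex.im h
    simp [mul_im] at this
    rcases this with h | h <;> linarith

theorem summable_step_left {β : Type*} {a : ℝ} (ha : 0 < a) {τ : ℂ} (hτ : 0 < τ.im)
    (l t : β → ℝ) {g : β → ℂ} (hg : Summable fun b ↦ ‖g b‖) :
    Summable fun q : ℤ × β ↦
      ‖expI ((l q.2 : ℂ) * q.1 + (a : ℂ) * τ * ((q.1 : ℂ) + t q.2) ^ 2) * g q.2‖ := by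
  refine (summable_gaussian_mul (k := 2 * Real.pi * (a * τ.im)) (by positivity) t
    (fun b ↦ norm_nonneg (g b)) hg).congr fun q ↦ ?_
  rw [norm_mul, norm_expI]
  congr 2
  simp [pow_two, mul_im, mul_re]
  ring

theorem summable_step_right {β : Type*} {a : ℝ} (ha : 0 < a) {τ : ℂ} (hτ : 0 < τ.im)
    (l t : β → ℝ) {g : β → ℂ} (hg : Summable fun b ↦ ‖g b‖) :
    Summable fun q : ℤ × β ↦
      ‖expI (((q.1 : ℂ) - l q.2) * t q.2 - ((q.1 : ℂ) - l q.2) ^ 2 / (4 * a * τ)) * g q.2‖ := by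
  have him := im_neg_sq_div_pos ha hτ
  refine (summable_gaussian_mul (k := 2 * Real.pi * (-1 / (4 * (a : ℂ) * τ)).im) (by positivity)
    (fun b ↦ -l b) (fun b ↦ norm_nonneg (g b)) hg).congr fun q ↦ ?_
  rw [norm_mul, norm_expI]
  congr 2
  have : ((q.1 : ℂ) - l q.2) * t q.2 - ((q.1 : ℂ) - l q.2) ^ 2 / (4 * a * τ) =
      ((((q.1 : ℝ) - l q.2) * t q.2 : ℝ) : ℂ) +
        (((((q.1 : ℝ) - l q.2) ^ 2 : ℝ)) : ℂ) * (-1 / (4 * (a : ℂ) * τ)) := by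
    push_cast
    ring
  rw [this, add_im, ofReal_im, im_ofReal_mul]
  ring

/-- One step of Poisson summation, in the first variable of a sum over `ℤ × β`. -/
theorem gaussian_step {β : Type*} {a : ℝ} (ha : 0 < a) {τ : ℂ} (hτ : 0 < τ.im)
    (l t : β → ℝ) {g : β → ℂ} (hg : Summable fun b ↦ ‖g b‖) :
    ∑' q : ℤ × β, expI ((l q.2 : ℂ) * q.1 + (a : ℂ) * τ * ((q.1 : ℂ) + t q.2) ^ 2) * g q.2 =
      gaussFactor a τ * ∑' q : ℤ × β,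
        expI (((q.1 : ℂ) - l q.2) * t q.2 - ((q.1 : ℂ) - l q.2) ^ 2 / (4 * a * τ)) * g q.2 := by
  have hL := ((Equiv.prodComm β ℤ).summable_iff.mpr
    (summable_step_left ha hτ l t hg).of_norm)
  have hR := ((Equiv.prodComm β ℤ).summable_iff.mpr
    (summable_step_right ha hτ l t hg).of_norm)
  rw [← (Equiv.prodComm β ℤ).tsum_eq, ← (Equiv.prodComm β ℤ).tsum_eq]
  simp only [Function.comp_def, Equiv.prodComm_apply, Prod.swap] at hL hR ⊢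
  rw [hL.tsum_prod, hR.tsum_prod, ← tsum_mul_left]
  refine tsum_congr fun b ↦ ?_
  simp only [tsum_mul_right]
  rw [gaussian_one_dim ha _ _ hτ, mul_assoc]

/-- Cyclic rotation of the coordinates of `ℤ⁴`. -/
def rot : ℤ × ℤ × ℤ × ℤ ≃ ℤ × ℤ × ℤ × ℤ where
  toFun x := (x.2.1, x.2.2.1, x.2.2.2, x.1)
  invFun x := (x.2.2.2, x.1, x.2.1, x.2.2.1)
  left_inv _ := rfl
  right_inv _ := rfl

/-- A diagonalised positive definite quaternary form with bidiagonal change of variables. -/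
structure ChainForm where
  a1 : ℝ
  a2 : ℝ
  a3 : ℝ
  a4 : ℝ
  c1 : ℝ
  c2 : ℝ
  c3 : ℝ
  ha1 : 0 < a1
  ha2 : 0 < a2
  ha3 : 0 < a3
  ha4 : 0 < a4

namespace ChainForm

variable (Q : ChainForm)

/-- The value of the form at a real vector. -/
def eval (z : ℝ × ℝ × ℝ × ℝ) : ℝ :=
  Q.a1 * (z.1 + Q.c1 * z.2.1) ^ 2 + Q.a2 * (z.2.1 + Q.c2 * z.2.2.1) ^ 2 +
    Q.a3 * (z.2.2.1 + Q.c3 * z.2.2.2) ^ 2 + Q.a4 * z.2.2.2 ^ 2

/-- The dual form. -/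
def dual (y : ℝ × ℝ × ℝ × ℝ) : ℝ :=
  y.1 ^ 2 / (4 * Q.a1) + (y.2.1 - Q.c1 * y.1) ^ 2 / (4 * Q.a2) +
    (y.2.2.1 - Q.c2 * (y.2.1 - Q.c1 * y.1)) ^ 2 / (4 * Q.a3) +
    (y.2.2.2 - Q.c3 * (y.2.2.1 - Q.c2 * (y.2.1 - Q.c1 * y.1))) ^ 2 / (4 * Q.a4)

/-- Integral vectors as real vectors. -/
def toReal (x : ℤ × ℤ × ℤ × ℤ) : ℝ × ℝ × ℝ × ℝ := (x.1, x.2.1, x.2.2.1, x.2.2.2)

theorem eval_nonneg (z : ℝ × ℝ × ℝ × ℝ) : 0 ≤ Q.eval z := by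
  have := Q.ha1; have := Q.ha2; have := Q.ha3; have := Q.ha4
  unfold eval
  positivity

theorem summable_exp_neg_eval {y : ℝ} (hy : 0 < y) (v : ℝ × ℝ × ℝ × ℝ) :
    Summable fun x : ℤ × ℤ × ℤ × ℤ ↦ Real.exp (-(y * Q.eval (toReal x + v))) := by
  obtain ⟨v1, v2, v3, v4⟩ := v
  have := Q.ha1; have := Q.ha2; have := Q.ha3; have := Q.ha4
  obtain ⟨M, hM⟩ := exists_gaussian_sum_le (k := y * Q.a4) (by positivity)
  have h3 := summable_gaussian_mul (k := y * Q.a3) (by positivity)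
    (fun x4 : ℤ ↦ v3 + Q.c3 * ((x4 : ℝ) + v4)) (fun _ ↦ (Real.exp_pos _).le) (hM v4).1
  have h2 := summable_gaussian_mul (k := y * Q.a2) (by positivity)
    (fun x : ℤ × ℤ ↦ v2 + Q.c2 * ((x.1 : ℝ) + v3)) (fun _ ↦ by positivity) h3
  have h1 := summable_gaussian_mul (k := y * Q.a1) (by positivity)
    (fun x : ℤ × ℤ × ℤ ↦ v1 + Q.c1 * ((x.1 : ℝ) + v2)) (fun _ ↦ by positivity) h2
  refine h1.congr fun x ↦ ?_
  simp only [← Real.exp_add, eval, toReal, Prod.fst_add, Prod.snd_add]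
  congr 1
  ring

/-- **Poisson summation** for the Gaussian sum of a quaternary form. -/
theorem poisson {τ : ℂ} (hτ : 0 < τ.im) (v1 v2 v3 v4 : ℝ) :
    ∑' x : ℤ × ℤ × ℤ × ℤ, expI (τ * (Q.eval (toReal x + (v1, v2, v3, v4)) : ℝ)) =
      gaussFactor Q.a1 τ * (gaussFactor Q.a2 τ * (gaussFactor Q.a3 τ * (gaussFactor Q.a4 τ *
        ∑' y : ℤ × ℤ × ℤ × ℤ, expI ((y.1 : ℂ) * v1 + y.2.1 * v2 + y.2.2.1 * v3 + y.2.2.2 * v4
          - (Q.dual (toReal y) : ℝ) / τ)))) := by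
  obtain ⟨a1, a2, a3, a4, c1, c2, c3, ha1, ha2, ha3, ha4⟩ := Q
  have hτ0 : τ ≠ 0 := fun h ↦ by simp [h] at hτ
  -- summands in the first variable of the successive mixed sums
  set T1 : ℤ × ℤ × ℤ → ℝ := fun b ↦ v1 + c1 * ((b.1 : ℝ) + v2) with hT1
  set g34 : ℤ → ℂ := fun b ↦ expI (0 * (b : ℂ) + a4 * τ * ((b : ℂ) + v4) ^ 2) with hg34
  have hgU : Summable fun b : ℤ ↦ ‖g34 b‖ := by
    have := summable_step_left (β := Unit) (g := fun _ ↦ (1 : ℂ)) ha4 hτ (fun _ ↦ 0) (fun _ ↦ v4)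
      (Summable.of_finite)
    refine ((Equiv.prodPUnit ℤ).symm.summable_iff.mpr this).congr fun b ↦ ?_
    simp [hg34]
  set g234 : ℤ × ℤ → ℂ := fun b ↦
    expI ((0 : ℝ) * (b.1 : ℂ) + a3 * τ * ((b.1 : ℂ) + (v3 + c3 * ((b.2 : ℝ) + v4) : ℝ)) ^ 2) *
      g34 b.2 with hg234
  have hg2 : Summable fun b : ℤ × ℤ ↦ ‖g234 b‖ :=
    summable_step_left ha3 hτ (fun _ ↦ 0) (fun b : ℤ ↦ v3 + c3 * ((b : ℝ) + v4)) hgU
  set g1 : ℤ × ℤ × ℤ → ℂ := fun b ↦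
    expI ((0 : ℝ) * (b.1 : ℂ) + a2 * τ * ((b.1 : ℂ) + (v2 + c2 * ((b.2.1 : ℝ) + v3) : ℝ)) ^ 2) *
      g234 b.2 with hg1def
  have hg1 : Summable fun b : ℤ × ℤ × ℤ ↦ ‖g1 b‖ :=
    summable_step_left ha2 hτ (fun _ ↦ 0) (fun b : ℤ × ℤ ↦ v2 + c2 * ((b.1 : ℝ) + v3)) hg2
  have e0 : ∀ x : ℤ × ℤ × ℤ × ℤ,
      expI (τ * ((ChainForm.mk a1 a2 a3 a4 c1 c2 c3 ha1 ha2 ha3 ha4).eval
        (toReal x + (v1, v2, v3, v4)) : ℝ)) =
      expI (((0 : ℝ) : ℂ) * x.1 + a1 * τ * ((x.1 : ℂ) + (T1 x.2 : ℝ)) ^ 2) * g1 x.2 := by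
    intro x
    simp only [hg1def, hg234, hg34, hT1, ← expI_add, eval, toReal, Prod.fst_add, Prod.snd_add]
    congr 1
    push_cast
    ring
  rw [tsum_congr e0, gaussian_step ha1 hτ (fun _ ↦ 0) T1 hg1]
  congr 1
  -- second variable
  rw [← rot.symm.tsum_eq]
  set l2 : ℤ × ℤ × ℤ → ℝ := fun b ↦ c1 * b.2.2 with hl2
  set T2 : ℤ × ℤ × ℤ → ℝ := fun b ↦ v2 + c2 * ((b.1 : ℝ) + v3) with hT2
  set g2 : ℤ × ℤ × ℤ → ℂ := fun b ↦
    expI ((b.2.2 : ℂ) * ((v1 + c1 * v2 : ℝ) : ℂ) - (b.2.2 : ℂ) ^ 2 / (4 * a1 * τ)) *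
      g234 (b.1, b.2.1) with hg2def
  have hg2' : Summable fun b : ℤ × ℤ × ℤ ↦ ‖g2 b‖ := by
    have := summable_step_right ha1 hτ (β := ℤ × ℤ) (fun _ ↦ 0) (fun _ ↦ v1 + c1 * v2) hg2
    refine ((Equiv.prodAssoc ℤ ℤ ℤ).symm.trans (Equiv.prodComm _ _)).summable_iff.mpr this
      |>.congr fun b ↦ ?_
    simp [hg2def]
  have e1 : ∀ x : ℤ × ℤ × ℤ × ℤ,
      expI ((((rot.symm x).1 : ℂ) - ((0 : ℝ) : ℂ)) * (T1 (rot.symm x).2 : ℝ) -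
          (((rot.symm x).1 : ℂ) - ((0 : ℝ) : ℂ)) ^ 2 / (4 * a1 * τ)) * g1 (rot.symm x).2 =
      expI ((l2 x.2 : ℂ) * x.1 + a2 * τ * ((x.1 : ℂ) + (T2 x.2 : ℝ)) ^ 2) * g2 x.2 := by
    intro x
    simp only [rot, Equiv.coe_fn_symm_mk, hg1def, hg2def, hT1, hl2, hT2, ← mul_assoc, ← expI_add]
    congr 2
    push_cast
    ring
  rw [tsum_congr e1, gaussian_step ha2 hτ l2 T2 hg2']
  congr 1
  -- third variable
  rw [← rot.symm.tsum_eq]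
  set l3 : ℤ × ℤ × ℤ → ℝ := fun b ↦ c2 * ((b.2.2 : ℝ) - c1 * b.2.1) with hl3
  set T3 : ℤ × ℤ × ℤ → ℝ := fun b ↦ v3 + c3 * ((b.1 : ℝ) + v4) with hT3
  set g3 : ℤ × ℤ × ℤ → ℂ := fun b ↦
    expI ((((b.2.2 : ℝ) : ℂ) - ((c1 * b.2.1 : ℝ) : ℂ)) * ((v2 + c2 * v3 : ℝ) : ℂ)
      - (((b.2.2 : ℝ) : ℂ) - ((c1 * b.2.1 : ℝ) : ℂ)) ^ 2 / (4 * a2 * τ)) *
    (expI ((b.2.1 : ℂ) * ((v1 + c1 * v2 : ℝ) : ℂ) - (b.2.1 : ℂ) ^ 2 / (4 * a1 * τ)) * g34 b.1)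
      with hg3def
  have hg3' : Summable fun b : ℤ × ℤ × ℤ ↦ ‖g3 b‖ := by
    have h := summable_step_right ha2 hτ (β := ℤ × ℤ) (fun b ↦ c1 * b.1) (fun _ ↦ v2 + c2 * v3)
      (g := fun b : ℤ × ℤ ↦ expI ((b.1 : ℂ) * ((v1 + c1 * v2 : ℝ) : ℂ)
        - (b.1 : ℂ) ^ 2 / (4 * a1 * τ)) * g34 b.2)
      (by simpa using summable_step_right ha1 hτ (β := ℤ) (fun _ ↦ 0) (fun _ ↦ v1 + c1 * v2) hgU)
    refine ((Equiv.prodComm ℤ (ℤ × ℤ)).trans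
      ((Equiv.prodComm (ℤ × ℤ) ℤ).trans ?_)).summable_iff.mpr h |>.congr fun b ↦ ?_
    · exact ⟨fun b ↦ (b.2.2, b.2.1, b.1), fun b ↦ (b.2.2, b.2.1, b.1), fun _ ↦ rfl, fun _ ↦ rfl⟩
    · simp [hg3def]
  have e2 : ∀ x : ℤ × ℤ × ℤ × ℤ,
      expI ((((rot.symm x).1 : ℂ) - (l2 (rot.symm x).2 : ℂ)) * (T2 (rot.symm x).2 : ℝ) -
          (((rot.symm x).1 : ℂ) - (l2 (rot.symm x).2 : ℂ)) ^ 2 / (4 * a2 * τ)) *
          g2 (rot.symm x).2 =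
      expI ((l3 x.2 : ℂ) * x.1 + a3 * τ * ((x.1 : ℂ) + (T3 x.2 : ℝ)) ^ 2) * g3 x.2 := by
    intro x
    simp only [rot, Equiv.coe_fn_symm_mk, hg2def, hg3def, hg234, hl2, hl3, hT2, hT3, ← mul_assoc,
      ← expI_add]
    congr 2
    push_cast
    ring
  rw [tsum_congr e2, gaussian_step ha3 hτ l3 T3 hg3']
  congr 1
  -- fourth variable
  rw [← rot.symm.tsum_eq]
  set l4 : ℤ × ℤ × ℤ → ℝ :=
    fun b ↦ c3 * ((b.2.2 : ℝ) - c2 * ((b.2.1 : ℝ) - c1 * b.1)) with hl4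
  set g4 : ℤ × ℤ × ℤ → ℂ := fun b ↦
    expI (((b.2.2 : ℂ) - ((c2 * ((b.2.1 : ℝ) - c1 * b.1) : ℝ) : ℂ)) * ((v3 + c3 * v4 : ℝ) : ℂ)
      - ((b.2.2 : ℂ) - ((c2 * ((b.2.1 : ℝ) - c1 * b.1) : ℝ) : ℂ)) ^ 2 / (4 * a3 * τ)) *
    (expI (((b.2.1 : ℂ) - ((c1 * b.1 : ℝ) : ℂ)) * ((v2 + c2 * v3 : ℝ) : ℂ)
      - ((b.2.1 : ℂ) - ((c1 * b.1 : ℝ) : ℂ)) ^ 2 / (4 * a2 * τ)) *
    expI ((b.1 : ℂ) * ((v1 + c1 * v2 : ℝ) : ℂ) - (b.1 : ℂ) ^ 2 / (4 * a1 * τ))) with hg4def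
  have hg4' : Summable fun b : ℤ × ℤ × ℤ ↦ ‖g4 b‖ := by
    have hA : Summable fun b : ℤ ↦
        ‖expI ((b : ℂ) * ((v1 + c1 * v2 : ℝ) : ℂ) - (b : ℂ) ^ 2 / (4 * a1 * τ))‖ := by
      have := summable_step_right (β := Unit) (g := fun _ ↦ (1 : ℂ)) ha1 hτ (fun _ ↦ 0)
        (fun _ ↦ v1 + c1 * v2) (Summable.of_finite)
      refine ((Equiv.prodPUnit ℤ).symm.summable_iff.mpr this).congr fun b ↦ ?_
      simp
    have hB := summable_step_right ha2 hτ (β := ℤ) (fun b ↦ c1 * b) (fun _ ↦ v2 + c2 * v3) hA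
    have hC := summable_step_right ha3 hτ (β := ℤ × ℤ)
      (fun b ↦ c2 * ((b.1 : ℝ) - c1 * b.2)) (fun _ ↦ v3 + c3 * v4) hB
    let e : ℤ × ℤ × ℤ ≃ ℤ × ℤ × ℤ :=
      ⟨fun b ↦ (b.2.2, b.2.1, b.1), fun b ↦ (b.2.2, b.2.1, b.1), fun _ ↦ rfl, fun _ ↦ rfl⟩
    refine (e.summable_iff.mpr hC).congr fun b ↦ ?_
    simp [hg4def, e]
  have e3 : ∀ x : ℤ × ℤ × ℤ × ℤ,
      expI ((((rot.symm x).1 : ℂ) - (l3 (rot.symm x).2 : ℂ)) * (T3 (rot.symm x).2 : ℝ) -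
          (((rot.symm x).1 : ℂ) - (l3 (rot.symm x).2 : ℂ)) ^ 2 / (4 * a3 * τ)) *
          g3 (rot.symm x).2 =
      expI ((l4 x.2 : ℂ) * x.1 + a4 * τ * ((x.1 : ℂ) + v4) ^ 2) * g4 x.2 := by
    intro x
    simp only [rot, Equiv.coe_fn_symm_mk, hg3def, hg4def, hg34, hl3, hl4, hT3, ← expI_add]
    congr 1
    push_cast
    ring
  rw [tsum_congr e3, gaussian_step ha4 hτ l4 (fun _ ↦ v4) hg4']
  congr 1
  rw [← rot.symm.tsum_eq]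
  refine tsum_congr fun x ↦ ?_
  simp only [rot, Equiv.coe_fn_symm_mk, hg4def, hl4, ← expI_add, dual, toReal]
  congr 1
  push_cast
  ring

end ChainForm

theorem gaussFactor_eq {a : ℝ} (ha : 0 < a) {τ : ℂ} (hτ : τ ≠ 0) :
    gaussFactor a τ = (1 / (Real.sqrt (2 * a) : ℂ)) * (1 / (-I * τ) ^ (1 / 2 : ℂ)) := by
  have h2 : (0 : ℝ) < 2 * a := by positivity
  have hw : -I * τ ≠ 0 := by simp [hτ]
  rw [gaussFactor, show -I * (2 * (a : ℂ) * τ) = ((2 * a : ℝ) : ℂ) * (-I * τ) by push_cast; ring,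
    one_div_mul_one_div]
  congr 1
  rw [cpow_def_of_ne_zero (mul_ne_zero (by exact_mod_cast h2.ne') hw),
    cpow_def_of_ne_zero hw, log_ofReal_mul h2 hw, add_mul, Complex.exp_add]
  congr 1
  rw [Real.sqrt_eq_rpow, Real.rpow_def_of_pos h2, Complex.ofReal_exp]
  push_cast
  ring_nf

end FermatLib.Mazur.Gauss

end
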