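import Mathlib.RingTheory.Ideal.Norm.AbsNorm
import Mathlib.RingTheory.Ideal.Pointwise
import Mathlib.RingTheory.RootsOfUnity.Basic

/-!
# The tame character of an inertia group

For a group `G` acting on a Dedekind domain `B`, a prime `P ≠ ⊥` of residue characteristic `p` and a
uniformiser `π` (`π ∈ P`, `π ∉ P ^ 2`) we show: an element of inertia of order prime to `p` is
determined by the residue `σ π / π mod P`. Consequences: bounds on subgroups of inertia of order
prime to `p`.
-/

set_option autoImplicit false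

namespace FermatLib.Mazur

variable {B G : Type*} [CommRing B] [IsDedekindDomain B] [Group G] [MulSemiringAction G B]
  {P : Ideal B}

omit [IsDedekindDomain B] in
theorem smul_mem_of_mem_inertia {σ : G} (hσ : σ ∈ P.inertia G) {x : B} (hx : x ∈ P) :
    σ • x ∈ P := by
  simpa using add_mem (hσ x) hx

omit [IsDedekindDomain B] in
theorem smul_mem_pow_of_smul_mem {σ : G} (hσ : ∀ x ∈ P, σ • x ∈ P) (j : ℕ) :
    ∀ x ∈ P ^ j, σ • x ∈ P ^ j := by
  induction j with
  | zero => simp
  | succ j ih =>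
    intro x hx
    rw [pow_succ] at hx ⊢
    induction hx using Submodule.mul_induction_on' with
    | mem_mul_mem a ha b hb => rw [smul_mul']; exact Ideal.mul_mem_mul (ih a ha) (hσ b hb)
    | add a _ b _ ha hb => rw [smul_add]; exact add_mem ha hb

/-- `tameResidue P π σ u` says that `σ π ≡ u π mod P ^ 2`. -/
def IsTameResidue (P : Ideal B) (π : B) (σ : G) (u : B) : Prop := σ • π - π * u ∈ P ^ 2

section

variable [P.IsPrime] {π : B}

theorem exists_isTameResidue (hP : P ≠ ⊥) (hπ : π ∈ P) (hπ' : π ∉ P ^ 2) {σ : G}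
    (hσ : ∀ x ∈ P, σ • x ∈ P) : ∃ u, IsTameResidue P π σ u := by
  obtain ⟨d, e, he, h⟩ := Ideal.exists_mul_add_mem_pow_succ hP (i := 1) π (σ • π)
    (by simpa using hπ) (by simpa using hπ') (by simpa using hσ π hπ)
  refine ⟨d, ?_⟩
  show σ • π - π * d ∈ P ^ 2
  rw [← h, add_sub_cancel_left]
  exact he

theorem IsTameResidue.unique (hP : P ≠ ⊥) (hπ' : π ∉ P ^ 2) {σ : G} {u u' : B}
    (h : IsTameResidue P π σ u) (h' : IsTameResidue P π σ u') : u - u' ∈ P := by
  refine Ideal.mem_prime_of_mul_mem_pow hP (i := 1) (a := π) hπ' ?_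
  have := sub_mem h' h
  convert this using 1
  ring

omit [IsDedekindDomain B] [P.IsPrime] in
theorem isTameResidue_one : IsTameResidue P π (1 : G) 1 := by simp [IsTameResidue]

omit [IsDedekindDomain B] [P.IsPrime] in
/-- Multiplicativity; `σ` must fix `P` and act on `u` by `u'`. -/
theorem IsTameResidue.mul' (hπ : π ∈ P) {σ τ : G} (hσ : ∀ x ∈ P, σ • x ∈ P) {v u u' : B}
    (hv : IsTameResidue P π σ v) (hu : IsTameResidue P π τ u) (huu' : σ • u - u' ∈ P) :
    IsTameResidue P π (σ * τ) (v * u') := by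
  unfold IsTameResidue at *
  have h1 := smul_mem_pow_of_smul_mem hσ 2 _ hu
  have h2 : σ • u * (σ • π - π * v) ∈ P ^ 2 := Ideal.mul_mem_left _ _ hv
  have h3 : π * v * (σ • u - u') ∈ P ^ 2 := by
    rw [pow_two]; exact Ideal.mul_mem_mul (Ideal.mul_mem_right _ _ hπ) huu'
  convert add_mem (add_mem h1 h2) h3 using 1
  rw [smul_sub, smul_mul', mul_smul]
  ring

omit [IsDedekindDomain B] [P.IsPrime] in
theorem IsTameResidue.mul (hπ : π ∈ P) {σ τ : G} (hσ : σ ∈ P.inertia G) {v u : B}
    (hv : IsTameResidue P π σ v) (hu : IsTameResidue P π τ u) :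
    IsTameResidue P π (σ * τ) (v * u) :=
  hv.mul' hπ (fun _ hx => smul_mem_of_mem_inertia hσ hx) hu (hσ u)

/-- An inertia element whose tame residue is trivial moves every element of `P` into `P ^ 2`. -/
theorem smul_sub_mem_sq (hP : P ≠ ⊥) (hπ : π ∈ P) (hπ' : π ∉ P ^ 2) {σ : G}
    (hσ : σ ∈ P.inertia G) (h : σ • π - π ∈ P ^ 2) {b : B} (hb : b ∈ P) :
    σ • b - b ∈ P ^ 2 := by
  obtain ⟨c, e, he, rfl⟩ := Ideal.exists_mul_add_mem_pow_succ hP (i := 1) π b
    (by simpa using hπ) (by simpa using hπ') (by simpa using hb)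
  have h1 : π * (σ • c - c) ∈ P ^ 2 := by rw [pow_two]; exact Ideal.mul_mem_mul hπ (hσ c)
  have h2 : σ • c * (σ • π - π) ∈ P ^ 2 := Ideal.mul_mem_left _ _ h
  have h3 : σ • e - e ∈ P ^ 2 :=
    sub_mem (smul_mem_pow_of_smul_mem (fun _ hx => smul_mem_of_mem_inertia hσ hx) _ _ he) he
  convert add_mem (add_mem h1 h2) h3 using 1
  rw [smul_add, smul_mul']
  ring

theorem smul_sub_mem_pow_succ (hP : P ≠ ⊥) (hπ : π ∈ P) (hπ' : π ∉ P ^ 2) {σ : G}
    (hσ : σ ∈ P.inertia G) (h : σ • π - π ∈ P ^ 2) (j : ℕ) :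
    ∀ x ∈ P ^ j, σ • x - x ∈ P ^ (j + 1) := by
  induction j with
  | zero => intro x _; simpa using hσ x
  | succ j ih =>
    intro x hx
    rw [pow_succ] at hx
    induction hx using Submodule.mul_induction_on' with
    | mem_mul_mem a ha b hb =>
      have h1 : (σ • a - a) * σ • b ∈ P ^ (j + 1 + 1) := by
        rw [pow_succ _ (j + 1)]
        exact Ideal.mul_mem_mul (ih a ha) (smul_mem_of_mem_inertia hσ hb)
      have h2 : a * (σ • b - b) ∈ P ^ (j + 1 + 1) := by
        have e : P ^ (j + 1 + 1) = P ^ j * P ^ 2 := by rw [← pow_add]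
        rw [e]
        exact Ideal.mul_mem_mul ha (smul_sub_mem_sq hP hπ hπ' hσ h hb)
      convert add_mem h1 h2 using 1
      rw [smul_mul']; ring
    | add a _ b _ ha hb => rw [smul_add, add_sub_add_comm]; exact add_mem ha hb

/-- The kernel of the tame character has no element of order prime to the residue
characteristic. -/
theorem eq_one_of_tame [FaithfulSMul G B] (hP : P ≠ ⊥) (hπ : π ∈ P) (hπ' : π ∉ P ^ 2) {σ : G}
    (hσ : σ ∈ P.inertia G) (h : σ • π - π ∈ P ^ 2) {n : ℕ} (hn : (n : B) ∉ P) (hσn : σ ^ n = 1) :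
    σ = 1 := by
  refine FaithfulSMul.eq_of_smul_eq_smul (α := B) fun x => ?_
  rw [one_smul, ← sub_eq_zero, ← Ideal.mem_bot,
    ← Ideal.iInf_pow_eq_bot_of_isDomain P (Ideal.IsPrime.ne_top ‹_›), Submodule.mem_iInf]
  intro j
  induction j with
  | zero => simp
  | succ j ih =>
    have hk : ∀ k : ℕ, σ ^ k • x - x - (k : B) * (σ • x - x) ∈ P ^ (j + 1) := by
      intro k
      induction k with
      | zero => simp
      | succ k ihk =>
        have hstab := smul_mem_pow_of_smul_mem (fun _ hx => smul_mem_of_mem_inertia hσ hx)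
          (j + 1) _ ihk
        have h2 : (k : B) * (σ • (σ • x - x) - (σ • x - x)) ∈ P ^ (j + 1) :=
          Ideal.mul_mem_left _ _ (smul_sub_mem_pow_succ hP hπ hπ' hσ h j _ ih)
        have hk' : σ • (k : B) = (k : B) := map_natCast (MulSemiringAction.toRingHom G B σ) k
        convert add_mem hstab h2 using 1
        rw [pow_succ', mul_smul]
        simp only [smul_sub, smul_mul', hk', Nat.cast_succ]
        ring
    have h1 := hk n
    rw [hσn, one_smul, sub_self, zero_sub, neg_mem_iff] at h1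
    by_contra hnot
    exact hn (Ideal.mem_prime_of_mul_mem_pow hP hnot (by rwa [mul_comm] at h1))

end

section Count

variable [P.IsPrime] [FaithfulSMul G B] {π : B} {p : ℕ}

omit [IsDedekindDomain B] [FaithfulSMul G B] in
theorem natCast_notMem_of_coprime (hpP : (p : B) ∈ P) {n : ℕ} (hn : n.Coprime p) :
    (n : B) ∉ P := by
  intro hmem
  apply Ideal.IsPrime.ne_top ‹_›
  rw [Ideal.eq_top_iff_one]
  have hb : (1 : ℤ) = n * Nat.gcdA n p + p * Nat.gcdB n p := by
    rw [← Nat.gcd_eq_gcd_ab, hn]; rfl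
  have hb' : (1 : B) = (n : B) * (Nat.gcdA n p : B) + (p : B) * (Nat.gcdB n p : B) := by
    have := congrArg (fun z : ℤ => (z : B)) hb
    simpa using this
  rw [hb']
  exact add_mem (Ideal.mul_mem_right _ _ hmem) (Ideal.mul_mem_right _ _ hpP)

end Count

end FermatLib.Mazur
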