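import Fermat.Agent.Mazur.GunitCyclo
import Fermat.Agent.Mazur.GunitTame
import Mathlib.NumberTheory.NumberField.Basic
import Mathlib.FieldTheory.Galois.Infinite
import Mathlib.NumberTheory.RamificationInertia.Galois

/-!
# Primes of number fields inside `ℚ̄` cut out by valuation subrings
-/

set_option autoImplicit false
set_option linter.style.haveILetI false

open scoped NumberField Pointwise

namespace FermatLib.Mazur

local notation "Qbar" => AlgebraicClosure ℚ
local notation "Γℚ" => (AlgebraicClosure ℚ ≃ₐ[ℚ] AlgebraicClosure ℚ)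

variable (F : IntermediateField ℚ Qbar)

/-- An algebraic integer of `F` as an element of a valuation subring of `ℚ̄`. -/
noncomputable def levelToPlace (A : ValuationSubring Qbar) : 𝓞 F →+* A :=
  ((algebraMap F Qbar).comp (algebraMap (𝓞 F) F)).codRestrict A.toSubring fun a =>
    FermatLib.EC.integral_mem_valuationSubring A
      ((NumberField.RingOfIntegers.isIntegral_coe a).map ((algebraMap F Qbar).toIntAlgHom))

/-- The prime of `F` below a valuation subring of `ℚ̄`. -/
noncomputable def levelPrime (A : ValuationSubring Qbar) : Ideal (𝓞 F) :=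
  (IsLocalRing.maximalIdeal A).comap (levelToPlace F A)

instance levelPrime_isPrime (A : ValuationSubring Qbar) : (levelPrime F A).IsPrime :=
  Ideal.comap_isPrime _ _

variable {F}

theorem mem_levelPrime_iff {A : ValuationSubring Qbar} {a : 𝓞 F} :
    a ∈ levelPrime F A ↔ ((a : F) : Qbar) ∈ A.nonunits :=
  (A.coe_mem_nonunits_iff (a := levelToPlace F A a)).symm

theorem natCast_mem_levelPrime {A : ValuationSubring Qbar} {l : ℕ} (hA : A.LiesOverPrime l) :
    (l : 𝓞 F) ∈ levelPrime F A := by
  rw [mem_levelPrime_iff]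
  simpa [ValuationSubring.LiesOverPrime] using hA

theorem levelPrime_ne_bot [NumberField F] {A : ValuationSubring Qbar} {l : ℕ} (hl : l.Prime)
    (hA : A.LiesOverPrime l) : levelPrime F A ≠ ⊥ := by
  intro h
  have := natCast_mem_levelPrime (F := F) hA
  rw [h, Ideal.mem_bot, Nat.cast_eq_zero] at this
  exact hl.ne_zero this

theorem coe_restrictNormalHom_smul [IsGalois ℚ F] (σ : Γℚ) (a : 𝓞 F) :
    (((AlgEquiv.restrictNormalHom F σ • a : 𝓞 F) : F) : Qbar) = σ ((a : F) : Qbar) :=
  AlgEquiv.restrictNormal_commutes σ F (a : F)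

theorem restrictNormalHom_mem_inertia [IsGalois ℚ F] {A : ValuationSubring Qbar} {σ : Γℚ}
    (hσ : σ ∈ A.inertiaSubgroupIn ℚ) :
    AlgEquiv.restrictNormalHom F σ ∈ (levelPrime F A).inertia Gal(F/ℚ) := by
  intro a
  show AlgEquiv.restrictNormalHom F σ • a - a ∈ levelPrime F A
  rw [mem_levelPrime_iff]
  have h := FermatLib.EC.sub_mem_nonunits_of_mem_inertiaSubgroupIn A hσ (levelToPlace F A a).2
  have e : (((AlgEquiv.restrictNormalHom F σ • a - a : 𝓞 F) : F) : Qbar) =
      σ ((a : F) : Qbar) - ((a : F) : Qbar) := by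
    push_cast
    rw [← coe_restrictNormalHom_smul]
    rfl
  rw [e]
  exact h

theorem restrictNormalHom_smul_sub_pow_mem [IsGalois ℚ F] {A : ValuationSubring Qbar} {σ : Γℚ}
    {q : ℕ} (hσ : A.IsFrobeniusAt σ q) (a : 𝓞 F) :
    AlgEquiv.restrictNormalHom F σ • a - a ^ q ∈ levelPrime F A := by
  obtain ⟨hd, h⟩ := hσ
  rw [mem_levelPrime_iff]
  have h1 := h (IsLocalRing.residue A (levelToPlace F A a))
  rw [← IsLocalRing.ResidueField.residue_smul, ← map_pow, ← sub_eq_zero, ← map_sub,
    IsLocalRing.residue_eq_zero_iff] at h1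
  have h2 := (A.coe_mem_nonunits_iff).mpr h1
  have e : (((AlgEquiv.restrictNormalHom F σ • a - a ^ q : 𝓞 F) : F) : Qbar) =
      σ ((a : F) : Qbar) - ((a : F) : Qbar) ^ q := by
    push_cast
    rw [← coe_restrictNormalHom_smul]
    rfl
  rw [e]
  exact h2

/-- In an abelian group all primes over the same rational prime have the same inertia group. -/
theorem inertia_levelPrime_le_of_commute [NumberField F] [IsGalois ℚ F]
    (hc : ∀ g h : Gal(F/ℚ), Commute g h) {l : ℕ} (hl : l.Prime)
    {A A' : ValuationSubring Qbar} (hA : A.LiesOverPrime l) (hA' : A'.LiesOverPrime l) :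
    (levelPrime F A').inertia Gal(F/ℚ) ≤ (levelPrime F A).inertia Gal(F/ℚ) := by
  haveI hG : IsGaloisGroup Gal(F/ℚ) ℤ (𝓞 F) := IsGaloisGroup.of_isFractionRing Gal(F/ℚ) ℤ (𝓞 F) ℚ F
  have hmax : (Ideal.span {(l : ℤ)}).IsMaximal :=
    PrincipalIdealRing.isMaximal_of_irreducible (Nat.prime_iff_prime_int.mp hl).irreducible
  have hover : ∀ B : ValuationSubring Qbar, B.LiesOverPrime l →
      (levelPrime F B).LiesOver (Ideal.span {(l : ℤ)}) := fun B hB => ⟨by
    refine hmax.eq_of_le (Ideal.comap_ne_top _ (levelPrime_isPrime F B).ne_top) ?_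
    rw [Ideal.span_singleton_le_iff_mem, Ideal.mem_comap]
    simpa using natCast_mem_levelPrime (F := F) hB⟩
  haveI := hover A hA
  haveI := hover A' hA'
  obtain ⟨g, hg⟩ := Ideal.exists_smul_eq_of_isGaloisGroup (Ideal.span {(l : ℤ)}) (levelPrime F A')
    (levelPrime F A) Gal(F/ℚ)
  intro σ hσ x
  show σ • x - x ∈ levelPrime F A
  rw [← hg, Ideal.mem_pointwise_smul_iff_inv_smul_mem, smul_sub, smul_smul, (hc g⁻¹ σ).eq,
    mul_smul]
  exact hσ (g⁻¹ • x)

/-- The number field cut out by an open normal subgroup. -/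
theorem exists_level_of_isOpen (K : Subgroup Γℚ) [K.Normal] (hK : IsOpen (K : Set Γℚ)) :
    ∃ F : IntermediateField ℚ Qbar, FiniteDimensional ℚ F ∧ IsGalois ℚ F ∧
      F.fixingSubgroup = K := by
  haveI := isGalois_qbar
  have hclosed : IsClosed (K : Set Γℚ) := Subgroup.isClosed_of_isOpen K hK
  have hfix : (IntermediateField.fixedField K).fixingSubgroup = K :=
    InfiniteGalois.fixingSubgroup_fixedField ⟨K, hclosed⟩
  exact ⟨IntermediateField.fixedField K,
    (InfiniteGalois.isOpen_iff_finite _).mp (by rw [hfix]; exact hK),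
    (InfiniteGalois.normal_iff_isGalois _).mp (by rw [hfix]; infer_instance), hfix⟩

theorem restrictNormalHom_eq_one_iff [IsGalois ℚ F] (σ : Γℚ) :
    AlgEquiv.restrictNormalHom F σ = 1 ↔ σ ∈ F.fixingSubgroup := by
  rw [IntermediateField.mem_fixingSubgroup_iff, AlgEquiv.ext_iff]
  constructor
  · intro h x hx
    exact (AlgEquiv.restrictNormal_commutes σ F ⟨x, hx⟩).symm.trans
      (congrArg (fun y : F => (y : Qbar)) (h ⟨x, hx⟩))
  · intro h x
    exact Subtype.ext ((AlgEquiv.restrictNormal_commutes σ F x).trans (h x x.2))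

end FermatLib.Mazur
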