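import Fermat.Agent.Mazur.LegStep

/-!
# No rational point of order `p ≥ 11` on a curve with full rational `2`-torsion

Given Mazur's step three and the Ext-vanishing at `p`: iterating the splitting produces maps with
kernel of order `p ^ n` after which the image of `E[p ^ n]` is rational, so a Frobenius at one
good place fixes at least `p ^ n` torsion points for every `n`, which is absurd.
-/

set_option autoImplicit false
set_option linter.unusedSectionVars false

noncomputable section

namespace FermatLib.Mazur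

open WeierstrassCurve WeierstrassCurve.Affine.Point
open scoped WeierstrassCurve.Affine

local notation "Qbar" => AlgebraicClosure ℚ
local notation "Γℚ" => (AlgebraicClosure ℚ ≃ₐ[ℚ] AlgebraicClosure ℚ)

/-- The stages of the chain of isogenies starting at `(legCurve a b, Q)`. -/
def HasStage (p n : ℕ) {a b : ℤ} (Q : LegPts a b) : Prop :=
  ∃ (a' b' : ℤ) (φ : LegPts a b →+ LegPts a' b'), IsLegPoint p (φ Q) ∧
    (∀ (σ : Γℚ) (P : LegPts a b), φ (σ • P) = σ • φ P) ∧
    (φ.ker : Set (LegPts a b)).Finite ∧ Nat.card φ.ker ≤ p ^ n ∧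
    ∀ X : LegPts a b, (p ^ n) • X = 0 → ∀ σ : Γℚ, σ • φ X = φ X

lemma card_ker_comp_le {A B C : Type*} [AddCommGroup A] [AddCommGroup B] [AddCommGroup C]
    (f : A →+ B) (g : B →+ C) (hf : (f.ker : Set A).Finite) (hg : (g.ker : Set B).Finite) :
    ((g.comp f).ker : Set A).Finite ∧
      Nat.card (g.comp f).ker ≤ Nat.card g.ker * Nat.card f.ker := by
  haveI := hf.to_subtype
  haveI := hg.to_subtype
  let π : (g.comp f).ker → g.ker := fun x => ⟨f x, x.2⟩
  classical
  let s : g.ker → A := fun y => if h : ∃ x, f x = (y : B) then h.choose else 0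
  let F : (g.comp f).ker → g.ker × f.ker := fun x => ⟨π x, ⟨(x : A) - s (π x), by
    have hex : ∃ z, f z = ((π x : g.ker) : B) := ⟨x, rfl⟩
    rw [AddMonoidHom.mem_ker, map_sub, show s (π x) = hex.choose from dif_pos hex, hex.choose_spec]
    exact sub_self _⟩⟩
  have hF : Function.Injective F := fun x y h => by
    obtain ⟨h1, h2⟩ := Prod.mk.injEq .. ▸ h
    have : (x : A) - s (π x) = (y : A) - s (π y) := congrArg Subtype.val h2
    rw [h1] at this
    exact Subtype.ext (sub_left_injective this)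
  have : Finite (g.comp f).ker := Finite.of_injective F hF
  exact ⟨Set.toFinite _, (Nat.card_le_card_of_injective F hF).trans (Nat.card_prod _ _).le⟩

namespace IsLegPoint

variable {p : ℕ} [hp : Fact p.Prime] {a b : ℤ} {Q : LegPts a b} (hQ : IsLegPoint p Q)
include hQ

theorem hasStage (h15 : StepThree p) (h14 : ExtCitation.ExtVanishingCts p) (hp11 : 11 ≤ p) :
    ∀ n : ℕ, HasStage p n Q := by
  intro n
  induction n with
  | zero =>
    refine ⟨a, b, AddMonoidHom.id _, hQ, fun σ P => rfl, ?_, ?_, fun X hX σ => ?_⟩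
    · rw [show (AddMonoidHom.id (LegPts a b)).ker = ⊥ from
        AddMonoidHom.ker_eq_bot_iff _ |>.mpr Function.injective_id]
      exact Set.finite_singleton _
    · rw [show (AddMonoidHom.id (LegPts a b)).ker = ⊥ from
        AddMonoidHom.ker_eq_bot_iff _ |>.mpr Function.injective_id, AddSubgroup.card_bot, pow_zero]
    · rw [pow_zero, one_nsmul] at hX
      subst hX
      exact _root_.map_zero (DistribSMul.toAddMonoidHom (LegPts a b) σ)
  | succ n ih =>
    obtain ⟨a₁, b₁, φ, hφQ, hφ, hfin, hcard, hrat⟩ := ih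
    obtain ⟨a₂, b₂, ψ, hψQ, hψ, hψfin, hψcard, hψp, hψfix⟩ := hφQ.exists_step h15 h14 hp11
    obtain ⟨h1, h2⟩ := card_ker_comp_le φ ψ hfin hψfin
    refine ⟨a₂, b₂, ψ.comp φ, hψQ, fun σ P => ?_, h1, ?_, fun X hX σ => ?_⟩
    · show ψ (φ (σ • P)) = σ • ψ (φ P)
      rw [hφ, hψ]
    · rw [pow_succ, mul_comm]
      exact h2.trans (Nat.mul_le_mul hψcard hcard)
    · have hpX : (p ^ n) • (p • X) = 0 := by rw [← mul_nsmul', ← pow_succ]; exact hX
      have hpfix : ∀ τ : Γℚ, τ • (p • φ X) = p • φ X := fun τ => by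
        rw [← map_nsmul]; exact hrat _ hpX τ
      show σ • ψ (φ X) = ψ (φ X)
      refine hψQ.smul_eq_of_sub_mem h15 hp11 (m := n + 1) ?_ ?_ (fun τ => ?_) σ
      · rw [← map_nsmul, ← map_nsmul, hX, _root_.map_zero, _root_.map_zero]
      · intro h0
        rw [← map_nsmul] at h0
        exact hψp _ (hψfix _ hpfix h0)
      · rw [← hψ, ← map_sub]
        refine hψp _ ?_
        rw [nsmul_sub, ← hφQ.smul_nsmul, hpfix, sub_self]

/-- The final contradiction. -/
theorem false_of_stepThree (h15 : StepThree p) (h14 : ExtCitation.ExtVanishingCts p)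
    (hp11 : 11 ≤ p) : False := by
  classical
  have := hQ.pair.isElliptic_legCurve
  obtain ⟨l, hll, hl⟩ := Nat.exists_infinite_primes ((legModel a b).Δ.natAbs + p + 1)
  have hlp : l ≠ p := by omega
  have hgood : ¬(l : ℤ) ∣ (legModel a b).Δ := fun h => by
    have := Nat.le_of_dvd (Int.natAbs_pos.mpr hQ.pair.legModel_Δ_ne_zero) (Int.natCast_dvd.mp h)
    omega
  obtain ⟨A, hA⟩ := Basic.exists_liesOverPrime hl
  obtain ⟨s, hs, hsx⟩ := Basic.exists_isFrobeniusAt hl A hA
  obtain ⟨n, hn⟩ : ∃ n, l ^ 2 + 1 < p ^ n := ⟨l ^ 2 + 1, Nat.lt_pow_self hp.out.one_lt⟩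
  obtain ⟨a', b', φ, hφQ, hφ, hfin, hcard, hrat⟩ := hQ.hasStage h15 h14 hp11 n
  set T := Submodule.torsionBy ℤ (LegPts a b) ((p ^ n : ℕ) : ℤ)
  have hTmem : ∀ X : LegPts a b, X ∈ T ↔ (p ^ n) • X = 0 := fun X => by
    rw [Submodule.mem_torsionBy_iff, natCast_zsmul]
  have hTcard : Nat.card T = (p ^ n) ^ 2 :=
    EC.natCard_torsionBy_baseChange (K := Qbar) (legCurve a b)
      (Nat.cast_ne_zero.2 (pow_ne_zero n hp.out.ne_zero))
  have : Finite T := Nat.finite_of_card_ne_zero (by rw [hTcard]; positivity)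
  -- the endomorphism `Frobenius - 1` of `E[p ^ n]`, with values in `ker φ`
  let f : T →+ φ.ker :=
    { toFun := fun X => ⟨s • (X : LegPts a b) - (X : LegPts a b), by
        rw [AddMonoidHom.mem_ker, map_sub, hφ, hrat _ ((hTmem _).mp X.2) s, sub_self]⟩
      map_zero' := Subtype.ext (by
        show s • ((0 : T) : LegPts a b) - ((0 : T) : LegPts a b) = 0
        rw [show s • ((0 : T) : LegPts a b) = 0 from
          _root_.map_zero (DistribSMul.toAddMonoidHom (LegPts a b) s)]
        exact sub_zero _)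
      map_add' := fun X Y => Subtype.ext (by
        show s • ((X : LegPts a b) + Y) - ((X : LegPts a b) + Y) = _
        rw [show s • ((X : LegPts a b) + Y) = s • (X : LegPts a b) + s • (Y : LegPts a b) from
          map_add (DistribSMul.toAddMonoidHom (LegPts a b) s) _ _]
        exact add_sub_add_comm _ _ _ _) }
  have := hfin.to_subtype
  have hmul : Nat.card T = Nat.card f.ker * Nat.card f.range := by
    rw [← AddSubgroup.index_ker f, AddSubgroup.card_mul_index]
  have hrange : Nat.card f.range ≤ p ^ n :=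
    (Nat.card_le_card_of_injective _ Subtype.val_injective).trans hcard
  -- the fixed points inject in the points of the reduced curve over `ZMod l`
  have hV := EC.integralAt_intCurve (legModel a b) A
  set S : Set (LegPts a b) := {X | (p ^ n) • X = 0 ∧ s • X = X} with hS
  have hpl : EC.res A ((p ^ n : ℕ) : Qbar) ≠ 0 := EC.res_natCast_ne_zero A hl hA fun hd =>
    hlp ((Nat.prime_dvd_prime_iff_eq hl hp.out).mp (hl.dvd_of_dvd_pow hd))
  have hres : ∀ x ∈ A, s x = x → EC.res A x ^ l = EC.res A x := fun x hx he => by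
    have h := hsx (IsLocalRing.residue A ⟨x, hx⟩)
    have h2 : (⟨s, hs⟩ : A.decompositionSubgroup ℚ) • IsLocalRing.residue A ⟨x, hx⟩
        = IsLocalRing.residue A ((⟨s, hs⟩ : A.decompositionSubgroup ℚ) • (⟨x, hx⟩ : A)) := rfl
    rw [h2, show ((⟨s, hs⟩ : A.decompositionSubgroup ℚ) • (⟨x, hx⟩ : A)) = (⟨x, hx⟩ : A) from
      Subtype.ext he] at h
    rw [EC.res_of_mem hx]
    exact h.symm
  obtain ⟨hSfin, hSc⟩ := card_le_of_residues hV (q := l) hl hpl S
    (fun X _ => hV.inE0_of_res_Δ_ne_zero (by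
      rw [EC.res_Δ_intCurve]; exact (EC.res_intCast_ne_zero_iff A hl hA _).mpr hgood) X)
    (fun X hX => hX.1)
    (fun x y h hX hx => by
      obtain ⟨h', e⟩ := EC.algEquiv_smul_some (σ := s) h
      obtain ⟨ex, ey⟩ := Affine.Point.some.inj (e.symm.trans hX.2)
      exact ⟨hres x hx ex, hres y (hV.mem_y h.1 hx) ey⟩)
  have hSf : S.ncard = Nat.card f.ker := by
    rw [← Nat.card_coe_set_eq]
    exact Nat.card_congr
      { toFun := fun X => ⟨⟨X.1, (hTmem _).mpr X.2.1⟩, Subtype.ext (sub_eq_zero.mpr X.2.2)⟩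
        invFun := fun X => ⟨(X.1 : LegPts a b), (hTmem _).mp X.1.2,
          sub_eq_zero.mp (congrArg Subtype.val X.2)⟩
        left_inv := fun X => rfl
        right_inv := fun X => rfl }
  have : (p ^ n) ^ 2 ≤ (l ^ 2 + 1) * p ^ n := by
    rw [← hTcard, hmul]
    exact Nat.mul_le_mul (hSf ▸ hSc) hrange
  rw [pow_two (p ^ n)] at this
  have := Nat.le_of_mul_le_mul_right this (pow_pos hp.out.pos n)
  omega

end IsLegPoint

/-- No curve over `ℚ` with all `2`-torsion rational has a rational point of order `p ≥ 11`,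
granted Mazur's step three and the Ext-vanishing at `p`. -/
theorem no_twoTorsion_pTorsion {p : ℕ} [hp : Fact p.Prime] (hp11 : 11 ≤ p) (h15 : StepThree p)
    (h14 : ExtCitation.ExtVanishingCts p) (W : WeierstrassCurve ℚ) [W.IsElliptic]
    (h2 : EC.HasRationalTwoTorsion W) (T : W.toAffine.Point) (hT : addOrderOf T = p) : False := by
  obtain ⟨T', hfix, hT'⟩ := exists_fixed_of_rational W T hT
  obtain ⟨a, b, e, -, hQ⟩ := exists_legPoint_of_fixed W h2 hp.out (by omega) T' hfix hT'
  exact hQ.false_of_stepThree h15 h14 hp11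

/-- The Frey curve has no cofixed line for `p ≥ 11`, granted step three and Ext-vanishing. -/
theorem frey_no_cofixedLine (P : FreyPackage) (hp : 11 ≤ P.p) (h15 : StepThree P.p)
    (h14 : haveI : Fact P.p.Prime := ⟨P.pp⟩; ExtCitation.ExtVanishingCts P.p) :
    ¬HasGaloisStableCofixedLine (K := AlgebraicClosure ℚ) ℚ P.freyCurve P.p := fun h => by
  haveI : Fact P.p.Prime := ⟨P.pp⟩
  obtain ⟨W', hW', h2, -, T, hT⟩ := EC.frey_exists_quotient P h
  exact no_twoTorsion_pTorsion hp h15 h14 W' h2 T hT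

end FermatLib.Mazur
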