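import Fermat.Agent.EC.RedBridge
import Fermat.Agent.EC.AtP
import Fermat.Agent.Mazur.CurveIso

/-!
# Inertia and components at a place of multiplicative reduction

For a curve `y² + a₁xy = x³ + a₂x² + a₄x` with `a₄` in the maximal ideal and `b₂` a unit, two
points whose abscissae have the same valuation have sum or difference with nonsingular
reduction.  Hence `σ P - P` or `σ P + P` has nonsingular reduction for every inertia `σ`.
-/

set_option autoImplicit false
set_option linter.unusedSectionVars false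

noncomputable section

namespace FermatLib.Mazur

open WeierstrassCurve

variable {L : Type*} [Field L] {A : ValuationSubring L} {V : WeierstrassCurve L}

/-- A model with a node at the origin. -/
structure IsNodeModel (A : ValuationSubring L) (V : WeierstrassCurve L) : Prop where
  int : EC.IntegralAt A V
  ha₃ : V.a₃ = 0
  ha₆ : V.a₆ = 0
  ha₄ : A.valuation V.a₄ < 1
  hb₂ : A.valuation V.b₂ = 1

/-- Points off the node have nonsingular reduction. -/
lemma IsNodeModel.inE0_of_one_le (hV : IsNodeModel A V) {x y : L}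
    {h : V.toAffine.Nonsingular x y} (hx : 1 ≤ A.valuation x) :
    EC.InE0 A (Affine.Point.some x y h) := by
  by_cases hxA : x ∈ A
  swap
  · exact Or.inl hxA
  have hyA := hV.int.mem_y h.1 hxA
  refine Or.inr ⟨hxA, hyA, (hV.int.nonsingular_red_iff h.1 hxA).mpr ?_⟩
  have hx1 : A.valuation x = 1 := le_antisymm (EC.mem_iff_valuation.mp hxA) hx
  set P : L := V.a₁ * y - (3 * x ^ 2 + 2 * V.a₂ * x + V.a₄) with hP
  set Q : L := 2 * y + V.a₁ * x + V.a₃ with hQ
  by_contra hc
  rw [not_or] at hc
  have hlt : ∀ {z : L}, z ∈ A → A.valuation z ≠ 1 → A.valuation z < 1 := fun hz hne =>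
    lt_of_le_of_ne (EC.mem_iff_valuation.mp hz) hne
  have hP1 := hlt (hV.int.mem_polynomialX hxA hyA) hc.1
  have hQ1 := hlt (hV.int.mem_polynomialY hxA hyA) hc.2
  have mle : ∀ {a b : L}, A.valuation a ≤ 1 → A.valuation b < 1 → A.valuation (a * b) < 1 :=
    fun {a b} ha hb => by rw [map_mul]; exact mul_lt_one_of_nonneg_of_lt_one_right ha zero_le hb
  have ofn : ∀ (n : ℕ) [n.AtLeastTwo], A.valuation (OfNat.ofNat n : L) ≤ 1 := fun n _ =>
    EC.mem_iff_valuation.mp (EC.ofNat_mem_place n)
  have ha₁ := EC.mem_iff_valuation.mp hV.int.a₁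
  have h6 : A.valuation (6 * x + V.b₂) < 1 := by
    have e : x * (6 * x + V.b₂) = V.a₁ * Q - 2 * P - 2 * V.a₄ := by
      rw [hP, hQ, hV.ha₃, WeierstrassCurve.b₂]; ring
    have hh : A.valuation (x * (6 * x + V.b₂)) < 1 := by
      rw [e]
      exact A.valuation.map_sub_lt (A.valuation.map_sub_lt (mle ha₁ hQ1) (mle (ofn 2) hP1))
        (mle (ofn 2) hV.ha₄)
    rwa [map_mul, hx1, one_mul] at hh
  have h4 : A.valuation (4 * x + V.b₂) < 1 := by
    have e : x * x * (4 * x + V.b₂) = Q * Q - (4 * x) * V.a₄ := by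
      have heq := (Affine.equation_iff _ _).mp h.1
      rw [hQ, hV.ha₃, WeierstrassCurve.b₂]
      rw [hV.ha₃, hV.ha₆] at heq
      linear_combination (-4) * heq
    have hh : A.valuation (x * x * (4 * x + V.b₂)) < 1 := by
      rw [e]
      exact A.valuation.map_sub_lt (mle hQ1.le hQ1)
        (mle (EC.mem_iff_valuation.mp (mul_mem (EC.ofNat_mem_place 4) hxA)) hV.ha₄)
    rwa [map_mul, map_mul, hx1, one_mul, one_mul] at hh
  have h2 : A.valuation (2 * x) < 1 := by
    rw [show 2 * x = (6 * x + V.b₂) - (4 * x + V.b₂) by ring]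
    exact A.valuation.map_sub_lt h6 h4
  have hb : A.valuation V.b₂ < 1 := by
    rw [show V.b₂ = (4 * x + V.b₂) - 2 * (2 * x) by ring]
    exact A.valuation.map_sub_lt h4 (mle (ofn 2) h2)
  exact hb.ne hV.hb₂

variable [CharZero L] [DecidableEq L]

/-- Sum or difference of two points whose abscissae have equal valuation. -/
theorem IsNodeModel.add_or_sub_inE0 (hV : IsNodeModel A V) [V.IsElliptic] {x y x' y' : L}
    {h : V.toAffine.Nonsingular x y} {h' : V.toAffine.Nonsingular x' y'}
    (hv : A.valuation x' = A.valuation x) (hx : A.valuation x < 1) :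
    EC.InE0 A (Affine.Point.some x' y' h' - Affine.Point.some x y h) ∨
      EC.InE0 A (Affine.Point.some x' y' h' + Affine.Point.some x y h) := by
  by_cases hxx : x' = x
  · rcases Affine.Point.X_eq_iff (h₁ := h') (h₂ := h) |>.mp hxx with e | e
    · left; rw [e, sub_self]; exact trivial
    · right; rw [e, neg_add_cancel]; exact trivial
  have hD : x' - x ≠ 0 := sub_ne_zero.mpr hxx
  have hadd := Affine.Point.add_of_X_ne (h₁ := h') (h₂ := h) hxx
  have hh : V.toAffine.Nonsingular x (V.toAffine.negY x y) := (Affine.nonsingular_neg x y).mpr h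
  have hsub : Affine.Point.some x' y' h' - Affine.Point.some x y h
      = Affine.Point.some x' y' h' + Affine.Point.some x _ hh := by
    rw [sub_eq_add_neg, Affine.Point.neg_some]
  rw [hsub, Affine.Point.add_of_X_ne hxx, hadd]
  set x₃ := V.toAffine.addX x' x (V.toAffine.slope x' x y' (V.toAffine.negY x y)) with hx₃
  set x₄ := V.toAffine.addX x' x (V.toAffine.slope x' x y' y) with hx₄
  suffices hs : 1 ≤ A.valuation x₃ ∨ 1 ≤ A.valuation x₄ by
    exact hs.imp hV.inE0_of_one_le hV.inE0_of_one_le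
  rw [Affine.slope_of_X_ne hxx] at hx₃ hx₄
  simp only [Affine.addX, Affine.negY] at hx₃ hx₄
  have heq := (Affine.equation_iff _ _).mp h.1
  have heq' := (Affine.equation_iff _ _).mp h'.1
  rw [hV.ha₃, hV.ha₆] at heq heq'
  rw [hV.ha₃] at hx₃
  set N := x' * x * (x' + x) + V.b₂ * x' * x / 2 + V.a₄ * (x' + x) with hN
  set M := (2 * y' + V.a₁ * x') * (2 * y + V.a₁ * x) / 2 with hM
  have h3 : x₃ * (x' - x) ^ 2 = N + M := by
    rw [hx₃, hN, hM, WeierstrassCurve.b₂]
    field_simp
    linear_combination 2 * heq' + 2 * heq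
  have h4 : x₄ * (x' - x) ^ 2 = N - M := by
    rw [hx₄, hN, hM, WeierstrassCurve.b₂]
    field_simp
    linear_combination 2 * heq' + 2 * heq
  have hη : (2 * y + V.a₁ * x) ^ 2 = 4 * x ^ 3 + V.b₂ * x ^ 2 + 4 * V.a₄ * x := by
    rw [WeierstrassCurve.b₂]; linear_combination 4 * heq
  have hη' : (2 * y' + V.a₁ * x') ^ 2 = 4 * x' ^ 3 + V.b₂ * x' ^ 2 + 4 * V.a₄ * x' := by
    rw [WeierstrassCurve.b₂]; linear_combination 4 * heq'
  have hsum : x₃ + x₄ = (V.b₂ * x' * x + (2 * x' * x * (x' + x) + 2 * V.a₄ * (x' + x)))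
      / (x' - x) ^ 2 := by
    rw [eq_div_iff (pow_ne_zero 2 hD), add_mul, h3, h4, hN]; ring
  have hprod : x₃ * x₄ = ((x' * x - V.a₄) / (x' - x)) ^ 2 := by
    rw [div_pow, eq_div_iff (pow_ne_zero 2 hD)]
    have : x₃ * (x' - x) ^ 2 * (x₄ * (x' - x) ^ 2) = (x' * x - V.a₄) ^ 2 * (x' - x) ^ 2 := by
      rw [h3, h4, hN, hM]
      linear_combination -(2 * y + V.a₁ * x) ^ 2 / 4 * hη' -
        (4 * x' ^ 3 + V.b₂ * x' ^ 2 + 4 * V.a₄ * x') / 4 * hη
    refine mul_right_cancel₀ (pow_ne_zero 2 hD) ?_
    linear_combination this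
  by_contra hc
  rw [not_or, not_le, not_le] at hc
  have hx0 : x ≠ 0 := by
    rintro rfl
    rw [map_zero, map_eq_zero] at hv
    exact hxx hv
  have hvD : A.valuation (x' - x) ≤ A.valuation x := A.valuation.map_sub_le hv.le le_rfl
  have hDpos : 0 < A.valuation (x' - x) := A.valuation.pos_iff.mpr hD
  have hxpos : 0 < A.valuation x := A.valuation.pos_iff.mpr hx0
  rcases le_or_gt (A.valuation x) (A.valuation V.a₄) with hle | hgt
  · have hprod1 : A.valuation (x₃ * x₄) < 1 := by
      rw [map_mul]; exact mul_lt_one_of_nonneg_of_lt_one_left zero_le hc.1 hc.2.le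
    refine absurd hprod1 (not_lt.mpr ?_)
    have hxa : A.valuation (x' * x) < A.valuation V.a₄ := by
      rw [map_mul, hv]
      exact lt_of_lt_of_le (mul_lt_of_lt_one_left hxpos hx) hle
    rw [hprod, map_pow, map_div₀, A.valuation.map_sub_eq_of_lt_right hxa]
    exact one_le_pow₀ ((one_le_div₀ hDpos).mpr (hvD.trans hle))
  · have hsum1 : A.valuation (x₃ + x₄) < 1 := A.valuation.map_add_lt hc.1 hc.2
    refine absurd hsum1 (not_lt.mpr ?_)
    have hmain : A.valuation (V.b₂ * x' * x) = A.valuation x ^ 2 := by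
      rw [map_mul, map_mul, hV.hb₂, one_mul, hv, pow_two]
    have h2le : A.valuation (2 : L) ≤ 1 := EC.mem_iff_valuation.mp (EC.ofNat_mem_place 2)
    have hsle : A.valuation (x' + x) ≤ A.valuation x := A.valuation.map_add_le hv.le le_rfl
    have hsq : 0 < A.valuation x * A.valuation x := mul_pos hxpos hxpos
    have hrest : A.valuation (2 * x' * x * (x' + x) + 2 * V.a₄ * (x' + x))
        < A.valuation (V.b₂ * x' * x) := by
      rw [hmain, pow_two]
      refine A.valuation.map_add_lt ?_ ?_
      · calc A.valuation (2 * x' * x * (x' + x))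
            = A.valuation 2 * (A.valuation x * A.valuation x) * A.valuation (x' + x) := by
              rw [map_mul, map_mul, map_mul, hv, mul_assoc (A.valuation 2)]
          _ ≤ 1 * (A.valuation x * A.valuation x) * A.valuation x :=
              mul_le_mul' (mul_le_mul' h2le le_rfl) hsle
          _ < A.valuation x * A.valuation x := by
              rw [one_mul]; exact mul_lt_of_lt_one_right hsq hx
      · calc A.valuation (2 * V.a₄ * (x' + x))
            = A.valuation 2 * A.valuation V.a₄ * A.valuation (x' + x) := by rw [map_mul, map_mul]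
          _ ≤ 1 * A.valuation V.a₄ * A.valuation x := mul_le_mul' (mul_le_mul' h2le le_rfl) hsle
          _ < A.valuation x * A.valuation x := by
              rw [one_mul]; exact mul_lt_mul_of_pos_right hgt hxpos
    rw [hsum, map_div₀, A.valuation.map_add_eq_of_lt_left hrest, hmain, map_pow, ← div_pow]
    exact one_le_pow₀ ((one_le_div₀ hDpos).mpr hvD)

omit [CharZero L] in
/-- A change of coordinates with integral entries and `u = 1` preserves the points with
nonsingular reduction. -/
lemma inE0_vcEquiv_iff {C : VariableChange L} (hV : EC.IntegralAt A V)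
    (hCV : EC.IntegralAt A (C • V)) (hu : C.u = 1) (hr : C.r ∈ A) (hs : C.s = 0) (ht : C.t ∈ A)
    (P : (C • V).toAffine.Point) :
    EC.InE0 A (EC.vcEquiv V C P) ↔ EC.InE0 A P := by
  rcases P with _ | ⟨x, y, h⟩
  · exact Iff.rfl
  rw [EC.vcEquiv_some, EC.inE0_some, EC.inE0_some]
  have hX : EC.vcX C x ∈ A ↔ x ∈ A := by
    simp only [EC.vcX, hu, Units.val_one, one_pow, one_mul]
    exact ⟨fun h => by simpa using sub_mem h hr, fun h => add_mem h hr⟩
  refine or_congr (not_congr hX) ?_
  constructor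
  · rintro ⟨hx, -, hns⟩
    have hx' := hX.mp hx
    refine ⟨hx', hCV.mem_y h.1 hx', (hCV.nonsingular_red_iff h.1 hx').mpr ?_⟩
    have := (hV.nonsingular_red_iff ((EC.vc_equation_iff V C x y).mpr h.1) hx).mp hns
    have eX := EC.vc_polynomialX V C x y
    have eY := EC.vc_polynomialY V C x y
    rw [Affine.evalEval_polynomialX, Affine.evalEval_polynomialX, hs, zero_mul, zero_mul,
      sub_zero, hu, Units.val_one, one_pow, one_mul] at eX
    rw [Affine.evalEval_polynomialY, Affine.evalEval_polynomialY, hu, Units.val_one, one_pow,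
      one_mul] at eY
    rwa [eX, eY] at this
  · rintro ⟨hx', -, hns⟩
    have hx := hX.mpr hx'
    refine ⟨hx, hV.mem_y ((EC.vc_equation_iff V C x y).mpr h.1) hx,
      (hV.nonsingular_red_iff ((EC.vc_equation_iff V C x y).mpr h.1) hx).mpr ?_⟩
    have := (hCV.nonsingular_red_iff h.1 hx').mp hns
    have eX := EC.vc_polynomialX V C x y
    have eY := EC.vc_polynomialY V C x y
    rw [Affine.evalEval_polynomialX, Affine.evalEval_polynomialX, hs, zero_mul, zero_mul,
      sub_zero, hu, Units.val_one, one_pow, one_mul] at eX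
    rw [Affine.evalEval_polynomialY, Affine.evalEval_polynomialY, hu, Units.val_one, one_pow,
      one_mul] at eY
    rwa [eX, eY]

/-- An integral change of coordinates over `ℚ` with `u = 1` preserves reduction types. -/
theorem inE0_inE1_vcEquivOver_iff (W : WeierstrassCurve ℚ)
    {A : ValuationSubring (AlgebraicClosure ℚ)}
    (hV : EC.IntegralAt A (W.map (algebraMap ℚ (AlgebraicClosure ℚ))))
    (D : VariableChange ℚ) (hu : D.u = 1) (hs : D.s = 0)
    (hr : (D.r : AlgebraicClosure ℚ) ∈ A) (ht : (D.t : AlgebraicClosure ℚ) ∈ A)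
    (hD : EC.IntegralAt A ((D • W).map (algebraMap ℚ (AlgebraicClosure ℚ))))
    (R : ((D • W)⁄(AlgebraicClosure ℚ)).toAffine.Point) :
    (EC.InE0 A (vcEquivOver W D R) ↔ EC.InE0 A R) ∧
      (EC.InE1 A (vcEquivOver W D R) ↔ EC.InE1 A R) := by
  classical
  have hCV : EC.IntegralAt A (D.map (algebraMap ℚ (AlgebraicClosure ℚ))
      • W.map (algebraMap ℚ (AlgebraicClosure ℚ))) := by
    rw [← vc_map_smul]; exact hD
  constructor
  · refine (inE0_vcEquiv_iff (V := W.map (algebraMap ℚ (AlgebraicClosure ℚ))) hV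
      hCV (by simp [VariableChange.map, hu]) (by simpa [VariableChange.map] using hr)
      (by simp [VariableChange.map, hs]) (by simpa [VariableChange.map] using ht)
      (pointCast (vc_map_smul (L := AlgebraicClosure ℚ) W D) R)).trans ?_
    have hc : ∀ (V₁ V₂ : WeierstrassCurve (AlgebraicClosure ℚ)) (e : V₁ = V₂)
        (R : V₁.toAffine.Point), EC.InE0 A (pointCast e R) ↔ EC.InE0 A R := by
      rintro V₁ V₂ rfl R; exact Iff.rfl
    exact hc _ _ _ R
  · rcases R with _ | ⟨X, Y, h⟩
    · exact iff_of_true (by erw [map_zero]; exact trivial) trivial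
    · obtain ⟨h', e⟩ := vcEquivOver_some W D h
      rw [e, EC.inE1_some, EC.inE1_some]
      simp only [EC.vcX, VariableChange.map, hu, map_one, Units.map]
      simp only [Units.val_one, one_pow, one_mul, eq_ratCast]
      exact not_congr ⟨fun h => by simpa using sub_mem h hr, fun h => add_mem h hr⟩

/-- Inertia moves a point by a point with nonsingular reduction, up to sign. -/
theorem smul_sub_or_add_inE0 (W : WeierstrassCurve ℚ) [W.IsElliptic]
    {A : ValuationSubring (AlgebraicClosure ℚ)}
    (hV : EC.IntegralAt A (W.map (algebraMap ℚ (AlgebraicClosure ℚ))))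
    (D : VariableChange ℚ) (hu : D.u = 1) (hs : D.s = 0)
    (hr : (D.r : AlgebraicClosure ℚ) ∈ A) (ht : (D.t : AlgebraicClosure ℚ) ∈ A)
    (hnode : IsNodeModel A ((D • W).map (algebraMap ℚ (AlgebraicClosure ℚ))))
    {σ : AlgebraicClosure ℚ ≃ₐ[ℚ] AlgebraicClosure ℚ} (hσ : σ ∈ A.inertiaSubgroupIn ℚ)
    (P : (W⁄(AlgebraicClosure ℚ)).toAffine.Point) :
    EC.InE0 A (σ • P - P) ∨ EC.InE0 A (σ • P + P) := by
  classical
  have hfix : EC.FixesResidues A σ := EC.fixesResidues_of_mem_inertia hσ
  have hdec : σ ∈ A.decompositionSubgroup ℚ := by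
    obtain ⟨τ, -, rfl⟩ := hσ; exact τ.2
  set e := vcEquivOver (L := AlgebraicClosure ℚ) W D with he
  have key : ∀ R, EC.InE0 A (e R) ↔ EC.InE0 A R := fun R =>
    (inE0_inE1_vcEquivOver_iff W hV D hu hs hr ht hnode.int R).1
  obtain ⟨R, rfl⟩ := e.surjective P
  rw [← vcEquivOver_smul, ← map_sub, ← map_add, key, key]
  have hE := EC.E0 (V := (D • W).map (algebraMap ℚ (AlgebraicClosure ℚ))) hnode.int
  rcases R with _ | ⟨x, y, h⟩
  · left
    erw [smul_zero, sub_zero]
    exact trivial
  by_cases hx : 1 ≤ A.valuation x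
  · left
    have hR : EC.InE0 A (Affine.Point.some x y h) := hnode.inE0_of_one_le hx
    exact (EC.E0 hnode.int).sub_mem (EC.redPt_smul hnode.int hfix hR).1 hR
  obtain ⟨h', e'⟩ := EC.algEquiv_smul_some (σ := σ) h
  rw [e']
  exact hnode.add_or_sub_inE0 (h' := h')
    (AtP.valuation_apply_of_mem_decomposition hdec x) (not_le.mp hx)

end FermatLib.Mazur
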