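import Fermat.Agent.Mazur.FreyPairNormal
import Fermat.Agent.Mazur.MultLocal
import Fermat.Prelude.Def_FLTPrelim_Modularity

/-!
# The semistable Frey form model attached to a pair
-/

set_option autoImplicit false
set_option linter.unusedSectionVars false

noncomputable section

namespace FermatLib.Mazur

open WeierstrassCurve
open scoped WeierstrassCurve.Affine

local notation "Qbar" => AlgebraicClosure ℚ

/-- The curve over `ℚ` of a Frey pair. -/
abbrev legCurve (a b : ℤ) : WeierstrassCurve ℚ := (legModel a b).map (Int.castRingHom ℚ)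

/-- The points over `ℚ̄` of the curve of a Frey pair. -/
abbrev LegPts (a b : ℤ) : Type := ((legCurve a b)⁄(AlgebraicClosure ℚ)).Point

namespace IsFreyPair

variable {a b : ℤ} (hab : IsFreyPair a b)
include hab

lemma four_mul_a₂ : 4 * (legModel a b).a₂ = b - 1 - a := by
  have h4 : (4 : ℤ) ∣ b - 1 - a := by
    obtain ⟨k, hk⟩ := hab.hB
    have := hab.hA
    omega
  exact Int.mul_ediv_cancel' h4

lemma sixteen_mul_a₄ : 16 * (legModel a b).a₄ = -(a * b) := by
  show 16 * -(a * b / 16) = -(a * b)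
  rw [mul_neg, Int.mul_ediv_cancel' (dvd_mul_of_dvd_right hab.hB a)]

lemma legModel_b₂ : (legModel a b).b₂ = b - a := by
  have := hab.four_mul_a₂
  simp only [WeierstrassCurve.b₂, legModel] at this ⊢
  linarith

lemma legModel_c₄ : (legModel a b).c₄ = a ^ 2 + a * b + b ^ 2 := by
  have h := hab.sixteen_mul_a₄
  have hb := hab.legModel_b₂
  have hb4 : (legModel a b).b₄ = 2 * (legModel a b).a₄ := by
    simp [WeierstrassCurve.b₄, legModel]
  rw [WeierstrassCurve.c₄, hb, hb4]
  linear_combination (-3) * h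

lemma legModel_Δ : (legModel a b).Δ = (legModel a b).a₄ ^ 2 * (a + b) ^ 2 := by
  have h := hab.sixteen_mul_a₄
  have hb := hab.legModel_b₂
  have hb4 : (legModel a b).b₄ = 2 * (legModel a b).a₄ := by
    simp [WeierstrassCurve.b₄, legModel]
  have hb6 : (legModel a b).b₆ = 0 := by simp [WeierstrassCurve.b₆, legModel]
  have hb8 : (legModel a b).b₈ = -(legModel a b).a₄ ^ 2 := by
    simp [WeierstrassCurve.b₈, legModel]
  rw [WeierstrassCurve.Δ, hb, hb4, hb6, hb8]
  linear_combination (-4 * (legModel a b).a₄ ^ 2) * h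

lemma legModel_a₄_ne_zero : (legModel a b).a₄ ≠ 0 := by
  intro h
  have := hab.sixteen_mul_a₄
  rw [h, mul_zero] at this
  exact mul_ne_zero hab.hA0 hab.hB0 (neg_eq_zero.mp this.symm)

lemma legModel_Δ_ne_zero : (legModel a b).Δ ≠ 0 := by
  rw [hab.legModel_Δ]
  exact mul_ne_zero (pow_ne_zero 2 hab.legModel_a₄_ne_zero) (pow_ne_zero 2 hab.hAB)

lemma isElliptic_legCurve : (legCurve a b).IsElliptic := by
  refine ⟨?_⟩
  rw [map_Δ, isUnit_iff_ne_zero]
  exact (map_ne_zero_iff _ Int.cast_injective).mpr hab.legModel_Δ_ne_zero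

lemma isSemistableModel : (legModel a b).IsSemistableModel := by
  intro l hl hΔ hc
  rw [hab.legModel_Δ] at hΔ
  rw [hab.legModel_c₄] at hc
  have hpl : Prime (l : ℤ) := Nat.prime_iff_prime_int.mp hl
  have no : ∀ {n : ℤ}, (l : ℤ) ∣ n → (l : ℤ) ∣ a → (l : ℤ) ∣ b → False := fun _ ha hb =>
    hpl.not_isUnit (hab.hco.isUnit_of_dvd' ha hb)
  have hab2 : (l : ℤ) ∣ a → False := fun ha => by
    have h2 : (l : ℤ) ∣ b ^ 2 := by
      have := dvd_sub hc (dvd_mul_of_dvd_left ha (a + b))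
      rwa [show a ^ 2 + a * b + b ^ 2 - a * (a + b) = b ^ 2 by ring] at this
    exact no hc ha (hpl.dvd_of_dvd_pow h2)
  have hba2 : (l : ℤ) ∣ b → False := fun hb => by
    have h2 : (l : ℤ) ∣ a ^ 2 := by
      have := dvd_sub hc (dvd_mul_of_dvd_left hb (a + b))
      rwa [show a ^ 2 + a * b + b ^ 2 - b * (a + b) = a ^ 2 by ring] at this
    exact hab2 (hpl.dvd_of_dvd_pow h2)
  rcases hpl.dvd_mul.mp hΔ with h | h
  · have h' : (l : ℤ) ∣ a * b := by
      rw [← dvd_neg, ← hab.sixteen_mul_a₄]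
      exact dvd_mul_of_dvd_right (hpl.dvd_of_dvd_pow h) 16
    exact (hpl.dvd_mul.mp h').elim hab2 hba2
  · have h' := hpl.dvd_of_dvd_pow h
    have h2 : (l : ℤ) ∣ a * b := by
      have := dvd_sub (dvd_mul_of_dvd_left h' (a + b)) hc
      rwa [show (a + b) * (a + b) - (a ^ 2 + a * b + b ^ 2) = a * b by ring] at this
    exact (hpl.dvd_mul.mp h2).elim hab2 hba2

lemma valuation_c₄ {l : ℕ} (hl : l.Prime) {A : ValuationSubring Qbar} (hA : A.LiesOverPrime l)
    (hd : (l : ℤ) ∣ (legModel a b).Δ) :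
    A.valuation ((legModel a b).c₄ : Qbar) = 1 :=
  AtP.valuation_intCast_eq_one hl hA (hab.isSemistableModel l hl hd)

/-- At a bad prime a change of coordinates puts the node at the origin. -/
lemma exists_node {l : ℕ} (hl : l.Prime) {A : ValuationSubring Qbar} (hA : A.LiesOverPrime l)
    (hd : (l : ℤ) ∣ (legModel a b).Δ) :
    ∃ D : VariableChange ℚ, D.u = 1 ∧ D.s = 0 ∧ (D.r : Qbar) ∈ A ∧ (D.t : Qbar) ∈ A ∧
      IsNodeModel A ((D • legCurve a b).map (algebraMap ℚ Qbar)) := by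
  have hpl : Prime (l : ℤ) := Nat.prime_iff_prime_int.mp hl
  have hc := hab.valuation_c₄ hl hA hd
  have mk : ∀ D : VariableChange ℚ, D.u = 1 →
      EC.IntegralAt A ((D • legCurve a b).map (algebraMap ℚ Qbar)) →
      (D • legCurve a b).a₃ = 0 → (D • legCurve a b).a₆ = 0 →
      A.valuation ((D • legCurve a b).a₄ : Qbar) < 1 →
      IsNodeModel A ((D • legCurve a b).map (algebraMap ℚ Qbar)) := by
    intro D hu hint h3 h6 h4
    set V := (D • legCurve a b).map (algebraMap ℚ Qbar) with hV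
    have h3' : V.a₃ = 0 := by rw [hV, map_a₃, h3, map_zero]
    have h6' : V.a₆ = 0 := by rw [hV, map_a₆, h6, map_zero]
    have h4' : A.valuation V.a₄ < 1 := by
      rw [hV, map_a₄, eq_ratCast]; exact h4
    refine ⟨hint, h3', h6', h4', ?_⟩
    have hc' : A.valuation V.c₄ = 1 := by
      have : V.c₄ = ((legModel a b).c₄ : Qbar) := by
        rw [hV, map_c₄, variableChange_c₄, hu]
        simp
      rw [this, hc]
    have hb := EC.mem_iff_valuation.mp hint.b₂_mem
    refine le_antisymm hb (not_lt.mp fun hlt => ?_)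
    have : A.valuation V.c₄ < 1 := by
      rw [show V.c₄ = V.b₂ * V.b₂ - 48 * V.a₄ by
        rw [WeierstrassCurve.c₄, WeierstrassCurve.b₄, h3']; ring]
      refine A.valuation.map_sub_lt ?_ ?_
      · rw [map_mul]; exact mul_lt_one_of_nonneg_of_lt_one_left zero_le hlt hb
      · rw [map_mul]
        exact mul_lt_one_of_nonneg_of_lt_one_right
          (EC.mem_iff_valuation.mp (EC.ofNat_mem_place 48)) zero_le h4'
    exact this.ne hc'
  by_cases ha₄ : (l : ℤ) ∣ (legModel a b).a₄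
  · refine ⟨1, rfl, rfl, ?_, ?_, mk 1 rfl ?_ ?_ ?_ ?_⟩
    · simp [VariableChange.one_def]
    · simp [VariableChange.one_def]
    · rw [one_smul]
      refine EC.integralAt_of_int (a₁ := (legModel a b).a₁) (a₂ := (legModel a b).a₂)
        (a₃ := (legModel a b).a₃) (a₄ := (legModel a b).a₄) (a₆ := (legModel a b).a₆)
        ?_ ?_ ?_ ?_ ?_ <;> simp [legCurve]
    · rw [one_smul]; simp [legCurve, legModel]
    · rw [one_smul]; simp [legCurve, legModel]
    · rw [one_smul]
      have := AtP.valuation_intCast_lt_one hA ha₄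
      simpa [legCurve] using this
  · have hΔ' := hd
    rw [hab.legModel_Δ] at hΔ'
    have hsum : (l : ℤ) ∣ a + b := hpl.dvd_of_dvd_pow
      ((hpl.dvd_mul.mp hΔ').resolve_left fun h => ha₄ (hpl.dvd_of_dvd_pow h))
    have hodd : ¬(l : ℤ) ∣ ((2 : ℤ) ^ 4) := by
      intro h
      have h2 : (l : ℤ) ∣ 2 := hpl.dvd_of_dvd_pow h
      have hl2 : l = 2 := (Nat.prime_dvd_prime_iff_eq hl Nat.prime_two).mp (Int.natCast_dvd.mp h2)
      subst hl2
      obtain ⟨k, hk⟩ := hab.hB
      have := hab.hA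
      rw [Nat.cast_ofNat] at hsum
      omega
    have hdiv : ∀ n : ℤ, ((n : ℚ) / 16 : ℚ) = (n : ℚ) / (((2 : ℤ) ^ 4 : ℤ) : ℚ) := by
      intro n; norm_num
    have hmem : ∀ n : ℤ, (((n : ℚ) / 16 : ℚ) : Qbar) ∈ A := fun n => by
      rw [hdiv, Rat.cast_div, Rat.cast_intCast, Rat.cast_intCast]
      exact intCast_div_mem hl hA n _ hodd
    let D : VariableChange ℚ := ⟨1, ((4 * a : ℤ) : ℚ) / 16, 0, ((-2 * a : ℤ) : ℚ) / 16⟩
    have h2q : (((legModel a b).a₂ : ℤ) : ℚ) = ((b : ℚ) - 1 - a) / 4 := by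
      rw [eq_div_iff (by norm_num), mul_comm]; exact_mod_cast hab.four_mul_a₂
    have h4q : (((legModel a b).a₄ : ℤ) : ℚ) = -((a : ℚ) * b) / 16 := by
      rw [eq_div_iff (by norm_num), mul_comm]; exact_mod_cast hab.sixteen_mul_a₄
    have d₁ : (D • legCurve a b).a₁ = ((1 : ℤ) : ℚ) := by
      simp [D, variableChange_a₁, legCurve, legModel]
    have d₂ : (D • legCurve a b).a₂ = ((4 * (b - 1 + 2 * a) : ℤ) : ℚ) / 16 := by
      simp only [D, variableChange_a₂, legCurve, map_a₂, eq_intCast, h2q]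
      simp [legModel]; ring
    have d₃ : (D • legCurve a b).a₃ = 0 := by
      simp [D, variableChange_a₃, legCurve, legModel]; ring
    have d₄ : (D • legCurve a b).a₄ = ((a * (a + b) : ℤ) : ℚ) / 16 := by
      simp only [D, variableChange_a₄, legCurve, map_a₄, map_a₂, eq_intCast, h2q, h4q]
      simp [legModel]; ring
    have d₆ : (D • legCurve a b).a₆ = 0 := by
      simp only [D, variableChange_a₆, legCurve, map_a₄, map_a₂, eq_intCast, h2q, h4q]
      simp [legModel]; ring
    refine ⟨D, rfl, rfl, hmem _, hmem _, mk D rfl ⟨?_, ?_, ?_, ?_, ?_⟩ d₃ d₆ ?_⟩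
    · rw [map_a₁, d₁, eq_ratCast, Rat.cast_intCast]; exact EC.intCast_mem_place _
    · rw [map_a₂, d₂, eq_ratCast]; exact hmem _
    · rw [map_a₃, d₃, map_zero]; exact A.zero_mem
    · rw [map_a₄, d₄, eq_ratCast]; exact hmem _
    · rw [map_a₆, d₆, map_zero]; exact A.zero_mem
    · rw [d₄, hdiv, Rat.cast_div, Rat.cast_intCast, Rat.cast_intCast, map_div₀,
        AtP.valuation_intCast_eq_one hl hA hodd, div_one]
      exact AtP.valuation_intCast_lt_one hA (dvd_mul_of_dvd_right hsum a)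

lemma integralAt_legCurve (A : ValuationSubring Qbar) :
    EC.IntegralAt A ((legCurve a b)⁄Qbar) :=
  EC.integralAt_intCurve (legModel a b) A

/-- At a bad prime inertia moves points by points with nonsingular reduction, up to sign. -/
theorem smul_sub_or_add_inE0 {l : ℕ} (hl : l.Prime) {A : ValuationSubring Qbar}
    (hA : A.LiesOverPrime l) (hd : (l : ℤ) ∣ (legModel a b).Δ)
    {σ : Qbar ≃ₐ[ℚ] Qbar} (hσ : σ ∈ A.inertiaSubgroupIn ℚ) (P : LegPts a b) :
    EC.InE0 A (σ • P - P) ∨ EC.InE0 A (σ • P + P) := by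
  have := hab.isElliptic_legCurve
  obtain ⟨D, hu, hs, hr, ht, hnode⟩ := hab.exists_node hl hA hd
  exact Mazur.smul_sub_or_add_inE0 (legCurve a b) (hab.integralAt_legCurve A) D hu hs hr ht hnode
    hσ P

end IsFreyPair

end FermatLib.Mazur
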