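import Fermat.Agent.Mazur.LegModel
import Fermat.Agent.EC.RedTorsion
import Fermat.Agent.EC.RedSingular

/-!
# Torsion points of the Frey form model at the various places

Counting of residues, rational torsion and the kernel of reduction, and the absence of
`p`-torsion outside the kernel of reduction among the smooth points at a bad place over `p`.
-/

set_option autoImplicit false
set_option linter.unusedSectionVars false

noncomputable section

namespace FermatLib.Mazur

open WeierstrassCurve WeierstrassCurve.Affine.Point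
open scoped WeierstrassCurve.Affine

local notation "Qbar" => AlgebraicClosure ℚ

local instance isAlgebraicQbarLeg : Algebra.IsAlgebraic ℚ Qbar :=
  AlgebraicClosure.isAlgebraic ℚ

local instance isGaloisQbarLeg : IsGalois ℚ Qbar :=
  have : IsAlgClosure ℚ Qbar := ⟨inferInstance, inferInstance⟩
  have : Normal ℚ Qbar := IsAlgClosure.normal ℚ Qbar
  { }

/-- The residue field has characteristic `q`. -/
lemma res_intCast_pow {A : ValuationSubring Qbar} {q : ℕ} (hq : q.Prime) (hA : A.LiesOverPrime q)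
    (n : ℤ) : (EC.res A (n : Qbar)) ^ q = EC.res A (n : Qbar) := by
  have h0 : (q : IsLocalRing.ResidueField A) = 0 := by
    rw [← EC.res_natCast q]; exact (EC.mem_nonunits_iff_res.mp hA).2
  obtain ⟨m, hm⟩ : (q : ℤ) ∣ n ^ q - n := by
    have : Fact q.Prime := ⟨hq⟩
    rw [← ZMod.intCast_zmod_eq_zero_iff_dvd]
    push_cast
    rw [ZMod.pow_card, sub_self]
  rw [EC.res_intCast, ← sub_eq_zero, ← Int.cast_pow, ← Int.cast_sub, hm, Int.cast_mul,
    Int.cast_natCast, h0, zero_mul]

/-- A rational number integral at `A` has its residue fixed by the `q`-th power map. -/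
lemma res_ratCast_pow {A : ValuationSubring Qbar} {q : ℕ} (hq : q.Prime) (hA : A.LiesOverPrime q)
    (r : ℚ) (hr : (r : Qbar) ∈ A) : (EC.res A (r : Qbar)) ^ q = EC.res A (r : Qbar) := by
  by_cases hd : (q : ℤ) ∣ (r.den : ℤ)
  · exfalso
    have hn : ¬(q : ℤ) ∣ r.num := fun h => hq.not_dvd_one (r.reduced ▸
      Nat.dvd_gcd (Int.natCast_dvd.1 h) (Int.natCast_dvd_natCast.1 hd))
    have hden : EC.res A (((r.den : ℤ)) : Qbar) = 0 := by
      by_contra h
      exact (EC.res_intCast_ne_zero_iff A hq hA _).mp h hd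
    refine div_not_mem_of_res ((EC.res_intCast_ne_zero_iff A hq hA _).mpr hn)
      (EC.intCast_mem_place _) hden (Int.cast_ne_zero.mpr (by exact_mod_cast r.den_nz)) ?_
    rw [Rat.cast_def] at hr
    exact_mod_cast hr
  · have hden := (EC.res_intCast_ne_zero_iff A hq hA _).mpr hd
    rw [Rat.cast_def, show ((r.den : ℕ) : Qbar) = (((r.den : ℤ)) : Qbar) by norm_cast,
      EC.res_div (EC.intCast_mem_place _) hden, div_pow, res_intCast_pow hq hA,
      res_intCast_pow hq hA]

section Count

variable {V : WeierstrassCurve Qbar} {A : ValuationSubring Qbar}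

/-- Torsion prime to the residue characteristic with smooth reduction and residues fixed by the
`q`-th power map: there are at most `q ^ 2 + 1` such points. -/
theorem card_le_of_residues (hV : EC.IntegralAt A V) {q n : ℕ} (hq : q.Prime)
    (hn : EC.res A (n : Qbar) ≠ 0) (S : Set V.toAffine.Point)
    (h0 : ∀ P ∈ S, EC.InE0 A P) (hS : ∀ P ∈ S, n • P = 0)
    (hres : ∀ x y h, Affine.Point.some x y h ∈ S → x ∈ A →
      EC.res A x ^ q = EC.res A x ∧ EC.res A y ^ q = EC.res A y) :
    S.Finite ∧ S.ncard ≤ q ^ 2 + 1 := by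
  classical
  set k := IsLocalRing.ResidueField A
  set F : Finset k := (Polynomial.X ^ q - Polynomial.X : Polynomial k).roots.toFinset with hF
  have hne : (Polynomial.X ^ q - Polynomial.X : Polynomial k) ≠ 0 :=
    FiniteField.X_pow_card_sub_X_ne_zero k hq.one_lt
  have hFc : F.card ≤ q := by
    refine (Multiset.toFinset_card_le _).trans ((Polynomial.card_roots' _).trans ?_)
    rw [FiniteField.X_pow_card_sub_X_natDegree_eq k hq.one_lt]
  have hmem : ∀ z : k, z ^ q = z → z ∈ F := fun z hz => by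
    rw [hF, Multiset.mem_toFinset, Polynomial.mem_roots hne]
    simp [hz]
  let code : V.toAffine.Point → Option (k × k) := fun P => match P with
    | .zero => none
    | .some x y _ => if x ∈ A then some (EC.res A x, EC.res A y) else none
  set T : Finset (Option (k × k)) := Finset.insertNone (F ×ˢ F) with hT
  have hTc : T.card ≤ q ^ 2 + 1 := by
    rw [hT, Finset.card_insertNone, Finset.card_product, pow_two]
    exact Nat.add_le_add_right (Nat.mul_le_mul hFc hFc) 1
  have hmaps : Set.MapsTo code S (T : Set (Option (k × k))) := by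
    rintro (_ | ⟨x, y, h⟩) hP
    · exact Finset.mem_coe.mpr Finset.none_mem_insertNone
    · by_cases hx : x ∈ A
      · obtain ⟨a, b⟩ := hres x y h hP hx
        simp only [code, if_pos hx, hT, Finset.mem_coe, Finset.some_mem_insertNone,
          Finset.mem_product]
        exact ⟨hmem _ a, hmem _ b⟩
      · simp only [code, if_neg hx, hT, Finset.mem_coe]
        exact Finset.none_mem_insertNone
  have hinj : Set.InjOn code S := by
    intro P hP Q hQ hc
    refine EC.eq_of_redPt_eq hV hn (h0 P hP) (h0 Q hQ) (hS P hP) (hS Q hQ) ?_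
    have hcase : ∀ R ∈ S, (code R = none ∧ EC.redPt A R = 0) ∨ ∃ a b hns,
        code R = some (a, b) ∧ EC.redPt A R = Affine.Point.some a b hns := by
      rintro (_ | ⟨x, y, h⟩) hR
      · exact Or.inl ⟨rfl, rfl⟩
      · rcases h0 _ hR with hx | ⟨hx, hy, hns⟩
        · exact Or.inl ⟨if_neg hx, EC.redPt_of_inE1 (P := Affine.Point.some x y h) hx⟩
        · exact Or.inr ⟨_, _, hns, if_pos hx, EC.redPt_some hx hns⟩
    rcases hcase P hP with ⟨c₁, r₁⟩ | ⟨a, b, hns, c₁, r₁⟩ <;>
      rcases hcase Q hQ with ⟨c₂, r₂⟩ | ⟨a', b', hns', c₂, r₂⟩ <;>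
      rw [c₁, c₂] at hc <;> rw [r₁, r₂]
    · exact absurd hc (by simp)
    · exact absurd hc (by simp)
    · rw [Option.some.injEq, Prod.mk.injEq] at hc
      obtain ⟨rfl, rfl⟩ := hc
      rfl
  exact ⟨Set.Finite.of_finite_image (T.finite_toSet.subset hmaps.image_subset) hinj,
    (Set.ncard_le_ncard_of_injOn code hmaps hinj T.finite_toSet).trans
      ((Set.ncard_coe_finset T).trans_le hTc)⟩

end Count

section Rational

variable {W : WeierstrassCurve ℤ}

/-- Points fixed by the Galois group have rational coordinates. -/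
lemma exists_rat_coords {x y : Qbar}
    {h : ((W.map (Int.castRingHom ℚ))⁄Qbar).toAffine.Nonsingular x y}
    (hfix : ∀ σ : Qbar ≃ₐ[ℚ] Qbar,
      σ • (Affine.Point.some x y h : ((W.map (Int.castRingHom ℚ))⁄Qbar).Point)
        = Affine.Point.some x y h) :
    ∃ r s : ℚ, x = r ∧ y = s := by
  have key : ∀ σ : Qbar ≃ₐ[ℚ] Qbar, σ x = x ∧ σ y = y := fun σ => by
    obtain ⟨h', e⟩ := EC.algEquiv_smul_some (σ := σ) h
    exact Affine.Point.some.inj (e.symm.trans (hfix σ))
  obtain ⟨r, hr⟩ := (InfiniteGalois.mem_range_algebraMap_iff_fixed x).2 fun σ => (key σ).1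
  obtain ⟨s, hs⟩ := (InfiniteGalois.mem_range_algebraMap_iff_fixed y).2 fun σ => (key σ).2
  exact ⟨r, s, by rw [← hr, eq_ratCast], by rw [← hs, eq_ratCast]⟩

variable [(W.map (Int.castRingHom ℚ)).IsElliptic]

/-- A rational point of odd prime order does not reduce to infinity. -/
theorem rational_inE1_eq_zero {p : ℕ} (hp : p.Prime) (hp2 : p ≠ 2) {q : ℕ} (hq : q.Prime)
    {A : ValuationSubring Qbar} (hA : A.LiesOverPrime q)
    {P : ((W.map (Int.castRingHom ℚ))⁄Qbar).Point}
    (hfix : ∀ σ : Qbar ≃ₐ[ℚ] Qbar, σ • P = P) (hP : p • P = 0) (hP1 : EC.InE1 A P) : P = 0 := by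
  have hV := EC.integralAt_intCurve W A
  by_cases hqp : q = p
  swap
  · exact EC.inE1_eq_zero_of_nsmul_eq_zero hV (EC.res_natCast_ne_zero A hq hA fun hd =>
      hqp ((Nat.prime_dvd_prime_iff_eq hq hp).mp hd)) hP1 hP
  subst hqp
  rcases P with _ | ⟨x, y, h⟩
  · rfl
  exfalso
  obtain ⟨r, s, rfl, rfl⟩ := exists_rat_coords hfix
  have hx : (r : Qbar) ∉ A := hP1
  have hpx : (q : Qbar) * r ∈ A := natCast_mul_x_mem hV hp hp2 hP hx
  have hge := AtP.one_le_valuation_mul_ratCast hp hA (EC.not_mem_iff_valuation.mp hx)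
  have hpr : A.valuation ((q : Qbar) * r) = 1 :=
    le_antisymm (EC.mem_iff_valuation.mp hpx) hge
  have hq1 : A.valuation (q : Qbar) < 1 := (A.mem_nonunits_iff).1 hA
  -- clear denominators in `(2y + a₁x + a₃)² = 4x³ + b₂x² + 2b₄x + b₆`
  set w : ℚ := (q : ℚ) * (2 * s + W.a₁ * r + W.a₃) with hw
  have heq : (2 * (s : Qbar) + W.a₁ * r + W.a₃) ^ 2
      = 4 * (r : Qbar) ^ 3 + W.b₂ * (r : Qbar) ^ 2 + 2 * W.b₄ * r + W.b₆ := by
    have := (Affine.equation_iff _ _).mp h.1
    simp [Affine.baseChange, WeierstrassCurve.baseChange] at this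
    simp [WeierstrassCurve.b₂, WeierstrassCurve.b₄, WeierstrassCurve.b₆]
    linear_combination 4 * this
  set m : Qbar := (q : Qbar) * r with hm
  have hmain : (q : Qbar) * (w : Qbar) ^ 2
      = 4 * m ^ 3 + (q : Qbar) * ((W.b₂ : Qbar) * m ^ 2 + (q : Qbar) * (2 * W.b₄ * m)
        + (q : Qbar) ^ 2 * W.b₆) := by
    rw [hw, hm]
    push_cast
    linear_combination (q : Qbar) ^ 3 * heq
  have hin : (W.b₂ : Qbar) * m ^ 2 + (q : Qbar) * (2 * W.b₄ * m) + (q : Qbar) ^ 2 * W.b₆ ∈ A := by
    refine add_mem (add_mem (mul_mem (EC.intCast_mem_place _) (pow_mem hpx 2)) ?_) ?_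
    · exact mul_mem (EC.natCast_mem_place q) (mul_mem (mul_mem (EC.ofNat_mem_place 2)
        (EC.intCast_mem_place _)) hpx)
    · exact mul_mem (pow_mem (EC.natCast_mem_place q) 2) (EC.intCast_mem_place _)
  have h4 : A.valuation (4 * m ^ 3) = 1 := by
    have : A.valuation ((4 : ℤ) : Qbar) = 1 := AtP.valuation_intCast_eq_one hp hA (by
      intro hd
      have h22 : q ∣ 2 ^ 2 := by exact_mod_cast hd
      have := (Nat.prime_dvd_prime_iff_eq hp Nat.prime_two).mp (hp.dvd_of_dvd_pow h22)
      exact hp2 this)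
    rw [Int.cast_ofNat] at this
    rw [map_mul, map_pow, this, hpr, one_pow, one_mul]
  have hlhs : A.valuation ((q : Qbar) * (w : Qbar) ^ 2) = 1 := by
    rw [hmain, A.valuation.map_add_eq_of_lt_left]
    · exact h4
    · rw [h4, map_mul]
      exact mul_lt_one_of_nonneg_of_lt_one_left zero_le hq1 (EC.mem_iff_valuation.mp hin)
  rw [map_mul, map_pow] at hlhs
  rcases le_or_gt (A.valuation (w : Qbar)) 1 with hle | hgt
  · exact (mul_lt_one_of_nonneg_of_lt_one_left zero_le hq1 (pow_le_one' hle 2)).ne hlhs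
  · have h2 := AtP.one_le_valuation_mul_ratCast hp hA hgt
    rw [map_mul] at h2
    rw [pow_two, ← mul_assoc] at hlhs
    exact absurd hlhs (ne_of_gt (hgt.trans_le (le_mul_of_one_le_left' h2)))

/-- A rational point of prime order `p > q² + 1` has singular reduction at `q`. -/
theorem not_inE0_of_sq_lt {p : ℕ} (hp : p.Prime) {q : ℕ} (hq : q.Prime) (hqp : q ^ 2 + 1 < p)
    {A : ValuationSubring Qbar} (hA : A.LiesOverPrime q)
    {P : ((W.map (Int.castRingHom ℚ))⁄Qbar).Point}
    (hfix : ∀ σ : Qbar ≃ₐ[ℚ] Qbar, σ • P = P) (hord : addOrderOf P = p) : ¬EC.InE0 A P := by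
  intro hP
  have hV := EC.integralAt_intCurve W A
  have hne : EC.res A (p : Qbar) ≠ 0 := EC.res_natCast_ne_zero A hq hA fun hd => by
    have := (Nat.prime_dvd_prime_iff_eq hq hp).mp hd
    subst this
    nlinarith [hq.two_le]
  set S : Set ((W.map (Int.castRingHom ℚ))⁄Qbar).Point :=
    ↑(AddSubgroup.zmultiples P) with hS
  have hmem : ∀ Q ∈ S, ∃ k : ℤ, k • P = Q := fun Q hQ => AddSubgroup.mem_zmultiples_iff.mp hQ
  obtain ⟨-, hc⟩ := card_le_of_residues (q := q) (n := p) hV hq hne S
    (fun Q hQ => by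
      obtain ⟨k, rfl⟩ := hmem Q hQ
      exact (EC.E0 hV).zsmul_mem hP k)
    (fun Q hQ => by
      obtain ⟨k, rfl⟩ := hmem Q hQ
      rw [smul_comm, ← hord, addOrderOf_nsmul_eq_zero, smul_zero])
    (fun x y h hQ hx => by
      obtain ⟨k, hk⟩ := hmem _ hQ
      obtain ⟨r, s, rfl, rfl⟩ := exists_rat_coords (h := h) fun σ => by
        rw [← hk, algEquiv_smul_zsmul, hfix]
      exact ⟨res_ratCast_pow hq hA r hx, res_ratCast_pow hq hA s (hV.mem_y h.1 hx)⟩)
  have hcard : S.ncard = p := by
    rw [hS, ← Nat.card_coe_set_eq]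
    exact (Nat.card_zmultiples P).trans hord
  omega

end Rational

namespace IsFreyPair

variable {a b : ℤ} (hab : IsFreyPair a b)
include hab

/-- At a bad place over `p` the smooth `p`-torsion lies in the kernel of reduction. -/
theorem inE1_of_inE0 {p : ℕ} (hp : p.Prime) (hp2 : p ≠ 2) {A : ValuationSubring Qbar}
    (hA : A.LiesOverPrime p) (hd : (p : ℤ) ∣ (legModel a b).Δ) {P : LegPts a b} (hP : p • P = 0)
    (h0 : EC.InE0 A P) : EC.InE1 A P := by
  classical
  have := hab.isElliptic_legCurve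
  obtain ⟨D, hu, hs, hr, ht, hnode⟩ := hab.exists_node hp hA hd
  set V := (D • legCurve a b).map (algebraMap ℚ Qbar) with hVdef
  obtain ⟨R, rfl⟩ := (vcEquivOver (L := Qbar) (legCurve a b) D).surjective P
  have key := inE0_inE1_vcEquivOver_iff (legCurve a b) (hab.integralAt_legCurve A) D hu hs hr ht
    hnode.int R
  rw [key.1] at h0
  rw [key.2]
  have hR : p • R = 0 := by
    apply (vcEquivOver (L := Qbar) (legCurve a b) D).injective
    rw [map_nsmul, _root_.map_zero]; exact hP
  obtain ⟨α, hα⟩ := IsAlgClosed.exists_root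
    (Cubic.toPoly (⟨0, 1, V.a₁, -V.a₂⟩ : Cubic Qbar))
    (by rw [Cubic.degree_of_b_ne_zero rfl one_ne_zero]; decide)
  simp [Cubic.toPoly] at hα
  have hαA : α ∈ A := EC.mem_of_quadratic (b := V.a₁) (c := V.a₂) (by linear_combination hα)
    hnode.int.a₁ hnode.int.a₂
  set β := -V.a₁ - α with hβ
  have hβA : β ∈ A := sub_mem (neg_mem hnode.int.a₁) hαA
  have hT : EC.IsTangentModel (EC.redCurve A V) (EC.res A α) (EC.res A β) := by
    refine ⟨?_, ?_, ?_, ?_, ?_⟩ <;> simp only [EC.redCurve]
    · rw [← EC.res_add hαA hβA, hβ, ← EC.res_neg (add_mem hαA (sub_mem (neg_mem hnode.int.a₁) hαA))]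
      congr 1; ring
    · rw [← EC.res_mul hαA hβA, ← EC.res_neg (mul_mem hαA hβA), hβ]
      congr 1; linear_combination -hα
    · rw [hnode.ha₃]; simp
    · exact (EC.res_eq_zero_iff hnode.int.a₄).mpr hnode.ha₄
    · rw [hnode.ha₆]; simp
  have hne : EC.res A α ≠ EC.res A β := by
    intro h
    have h1 : A.valuation (α - β) < 1 := (EC.res_eq_res_iff hαA hβA).mp h
    have : A.valuation V.b₂ < 1 := by
      rw [show V.b₂ = (α - β) * (α - β) by
        rw [hβ, WeierstrassCurve.b₂]; linear_combination (-4 : Qbar) * hα, map_mul]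
      exact mul_lt_one_of_nonneg_of_lt_one_left zero_le h1 h1.le
    exact this.ne hnode.hb₂
  let R0 : EC.E0 hnode.int := ⟨R, h0⟩
  have hR0 : p • R0 = 0 := Subtype.ext hR
  have hz := congrArg (hT.nodeHom.comp (EC.redHom hnode.int)) hR0
  rw [map_nsmul, _root_.map_zero] at hz
  have hchar : CharP (IsLocalRing.ResidueField A) p := by
    refine (CharP.charP_iff_prime_eq_zero hp).mpr ?_
    rw [← EC.res_natCast p]; exact (EC.mem_nonunits_iff_res.mp hA).2
  haveI : Fact p.Prime := ⟨hp⟩
  have hone : ((Additive.toMul ((hT.nodeHom.comp (EC.redHom hnode.int)) R0) :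
      (IsLocalRing.ResidueField A)ˣ) : IsLocalRing.ResidueField A) = 1 := by
    refine frobenius_inj (IsLocalRing.ResidueField A) p ?_
    rw [frobenius_def, frobenius_def, one_pow, ← Units.val_pow_eq_pow_val]
    have := congrArg (fun z => ((Additive.toMul z : (IsLocalRing.ResidueField A)ˣ) :
      IsLocalRing.ResidueField A)) hz
    simpa using this
  have hzero : EC.redHom hnode.int R0 = 0 := by
    refine hT.nodeHom_injective hne ?_
    rw [_root_.map_zero]
    exact Additive.toMul.injective (Units.ext hone)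
  rw [EC.redHom_apply] at hzero
  exact (EC.redPt_eq_zero_iff h0).mp hzero

end IsFreyPair

end FermatLib.Mazur
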