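import Fermat.Agent.Mazur.LegPoints
import Fermat.Agent.EC.WeilPairing
import Fermat.Agent.Galois.PlaceConjugate
import Fermat.Prelude.Def_ExtCitation_AdmissibleExtension_v2

/-!
# A rational `p`-point of a Frey form model splits `E[p]`

Given Mazur's step three and the Ext-vanishing, the `p`-torsion of a Frey form model with a
rational point `Q` of order `p` is `⟨Q⟩` plus a Galois stable line.
-/

set_option autoImplicit false
set_option linter.unusedSectionVars false

noncomputable section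

namespace FermatLib.Mazur

open WeierstrassCurve WeierstrassCurve.Affine.Point
open scoped WeierstrassCurve.Affine

local notation "Qbar" => AlgebraicClosure ℚ
local notation "Γℚ" => (AlgebraicClosure ℚ ≃ₐ[ℚ] AlgebraicClosure ℚ)

/-- Mazur's step three at the prime `p` (the statement S15). -/
def StepThree (p : ℕ) : Prop :=
  ∀ (W : WeierstrassCurve ℤ), W.Δ ≠ 0 →
    ∀ (Q : ((W.map (Int.castRingHom ℚ))⁄(AlgebraicClosure ℚ)).Point),
    (∀ σ : AlgebraicClosure ℚ ≃ₐ[ℚ] AlgebraicClosure ℚ, σ • Q = Q) → addOrderOf Q = p →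
    (2 : ℤ) ∣ W.Δ → ¬(2 : ℤ) ∣ W.c₄ →
    (∀ A : ValuationSubring (AlgebraicClosure ℚ), A.LiesOverPrime 2 →
      ¬W.InZeroComponentAt A Q) →
    (3 : ℤ) ∣ W.Δ → ¬(3 : ℤ) ∣ W.c₄ →
    (∀ A : ValuationSubring (AlgebraicClosure ℚ), A.LiesOverPrime 3 →
      ¬W.InZeroComponentAt A Q) →
    ∀ {ℓ : ℕ}, ℓ.Prime → ℓ ≠ p → (ℓ : ℤ) ∣ W.Δ → ¬(ℓ : ℤ) ∣ W.c₄ →
    ∀ (A : ValuationSubring (AlgebraicClosure ℚ)), A.LiesOverPrime ℓ →
      ¬W.InZeroComponentAt A Q

/-- A Frey form model with a rational point of order `p`. -/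
structure IsLegPoint (p : ℕ) {a b : ℤ} (Q : LegPts a b) : Prop where
  pair : IsFreyPair a b
  fix : ∀ σ : Γℚ, σ • Q = Q
  ord : addOrderOf Q = p

namespace IsLegPoint

variable {p : ℕ} [hp : Fact p.Prime] {a b : ℤ} {Q : LegPts a b} (hQ : IsLegPoint p Q)
include hQ

lemma nsmul_eq_zero : p • Q = 0 := by rw [← hQ.ord]; exact addOrderOf_nsmul_eq_zero Q

lemma ne_zero : Q ≠ 0 := fun h => hp.out.ne_one (by rw [← hQ.ord, h, addOrderOf_zero])

lemma not_inE1 (hp2 : p ≠ 2) {q : ℕ} (hq : q.Prime) {A : ValuationSubring Qbar}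
    (hA : A.LiesOverPrime q) : ¬EC.InE1 A Q := fun h =>
  haveI := hQ.pair.isElliptic_legCurve
  hQ.ne_zero (rational_inE1_eq_zero hp.out hp2 hq hA hQ.fix hQ.nsmul_eq_zero h)

lemma not_inE0_small {q : ℕ} (hq : q.Prime) (hqp : q ^ 2 + 1 < p) {A : ValuationSubring Qbar}
    (hA : A.LiesOverPrime q) : ¬EC.InE0 A Q :=
  haveI := hQ.pair.isElliptic_legCurve
  not_inE0_of_sq_lt hp.out hq hqp hA hQ.fix hQ.ord

lemma dvd_Δ_small {q : ℕ} (hq : q.Prime) (hqp : q ^ 2 + 1 < p) :
    (q : ℤ) ∣ (legModel a b).Δ := by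
  by_contra h
  obtain ⟨A, hA⟩ := Basic.exists_liesOverPrime hq
  refine hQ.not_inE0_small hq hqp hA ((EC.integralAt_intCurve (legModel a b) A).inE0_of_res_Δ_ne_zero
    ?_ Q)
  rw [EC.res_Δ_intCurve]
  exact (EC.res_intCast_ne_zero_iff A hq hA _).mpr h

/-- At every bad place the point has singular reduction. -/
theorem not_inE0 (h15 : StepThree p) (hp11 : 11 ≤ p) {l : ℕ} (hl : l.Prime)
    (hd : (l : ℤ) ∣ (legModel a b).Δ) {A : ValuationSubring Qbar} (hA : A.LiesOverPrime l) :
    ¬EC.InE0 A Q := by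
  intro h0
  by_cases hlp : l = p
  · subst hlp
    exact hQ.not_inE1 (by omega) hl hA
      (hQ.pair.inE1_of_inE0 hl (by omega) hA hd hQ.nsmul_eq_zero h0)
  · have hss := hQ.pair.isSemistableModel
    have h2 := hQ.dvd_Δ_small Nat.prime_two (by omega)
    have h3 := hQ.dvd_Δ_small Nat.prime_three (by omega)
    have hin : ∀ {q : ℕ}, q.Prime → q ^ 2 + 1 < p → ∀ B : ValuationSubring Qbar,
        B.LiesOverPrime q → ¬(legModel a b).InZeroComponentAt B Q := fun hq hqp B hB h =>
      hQ.not_inE0_small hq hqp hB ((EC.inZeroComponentAt_iff _ _ _).mp h)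
    exact h15 (legModel a b) hQ.pair.legModel_Δ_ne_zero Q hQ.fix hQ.ord h2
      (hss 2 Nat.prime_two h2) (hin Nat.prime_two (by omega)) h3 (hss 3 Nat.prime_three h3)
      (hin Nat.prime_three (by omega)) hl hlp hd (hss l hl hd) A hA
      ((EC.inZeroComponentAt_iff _ _ _).mpr h0)

/-- The multiples of `Q` with nonsingular reduction at a bad place vanish. -/
theorem zsmul_eq_zero_of_inE0 (h15 : StepThree p) (hp11 : 11 ≤ p) {l : ℕ} (hl : l.Prime)
    (hd : (l : ℤ) ∣ (legModel a b).Δ) {A : ValuationSubring Qbar} (hA : A.LiesOverPrime l)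
    {k : ℤ} (h : EC.InE0 A (k • Q)) : k • Q = 0 := by
  by_contra hk
  refine hQ.not_inE0 h15 hp11 hl hd hA ?_
  have hndvd : ¬(p : ℤ) ∣ k := by
    rintro ⟨m, rfl⟩
    exact hk (by rw [mul_comm, mul_smul, natCast_zsmul, hQ.nsmul_eq_zero]; exact zsmul_zero m)
  obtain ⟨u, v, huv⟩ := (Nat.prime_iff_prime_int.1 hp.out).coprime_iff_not_dvd.2 hndvd
  have : v • k • Q = Q := by
    rw [smul_smul, show v * k = 1 - u * p by linear_combination huv, sub_smul, one_smul, mul_smul,
      natCast_zsmul, hQ.nsmul_eq_zero, show u • (0 : LegPts a b) = 0 from zsmul_zero u]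
    exact sub_zero Q
  rw [← this]
  exact (EC.E0 (EC.integralAt_intCurve (legModel a b) A)).zsmul_mem h v

/-- The point as an element of the `p`-torsion module. -/
def torsPt : Submodule.torsionBy ℤ (LegPts a b) p :=
  ⟨Q, (Submodule.mem_torsionBy_iff _ _).mpr (by rw [natCast_zsmul]; exact hQ.nsmul_eq_zero)⟩

lemma torsPt_ne_zero : hQ.torsPt ≠ 0 := fun h => hQ.ne_zero (congrArg Subtype.val h)

lemma smul_torsPt (σ : Γℚ) : σ • hQ.torsPt = hQ.torsPt := Subtype.ext (hQ.fix σ)

lemma coe_zmod_smul_torsPt (c : ZMod p) :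
    ((c • hQ.torsPt : Submodule.torsionBy ℤ (LegPts a b) p) : LegPts a b) = (c.val : ℤ) • Q := by
  conv_lhs => rw [← ZMod.natCast_zmod_val c, Nat.cast_smul_eq_nsmul]
  rw [natCast_zsmul]
  rfl

lemma finrank_tors : Module.finrank (ZMod p) (Submodule.torsionBy ℤ (LegPts a b) p) = 2 :=
  haveI := hQ.pair.isElliptic_legCurve
  EC.finrank_torsionBy_baseChange (K := Qbar) (legCurve a b) (Nat.cast_ne_zero.2 hp.out.ne_zero)

lemma natCard_tors : Nat.card (Submodule.torsionBy ℤ (LegPts a b) p) = p ^ 2 :=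
  haveI := hQ.pair.isElliptic_legCurve
  EC.natCard_torsionBy_baseChange (K := Qbar) (legCurve a b) (Nat.cast_ne_zero.2 hp.out.ne_zero)

/-- On the quotient by `⟨Q⟩` Galois acts by the cyclotomic character. -/
theorem smul_sub_cyclo_mem (σ : Γℚ) (x : Submodule.torsionBy ℤ (LegPts a b) p) :
    σ • x - ((ExtCitation.cycloChar p σ : (ZMod p)ˣ) : ZMod p) • x
      ∈ Submodule.span (ZMod p) {hQ.torsPt} := by
  have := hQ.pair.isElliptic_legCurve
  have hrank := hQ.finrank_tors
  have : FiniteDimensional (ZMod p) (Submodule.torsionBy ℤ (LegPts a b) p) :=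
    Module.finite_of_finrank_eq_succ hrank
  obtain ⟨y, hli⟩ := exists_linearIndependent_pair_of_one_lt_finrank (by omega :
    1 < Module.finrank (ZMod p) (Submodule.torsionBy ℤ (LegPts a b) p)) hQ.torsPt_ne_zero
  let B : Module.Basis (Fin 2) (ZMod p) (Submodule.torsionBy ℤ (LegPts a b) p) :=
    basisOfLinearIndependentOfCardEqFinrank hli (by rw [Fintype.card_fin, hrank])
  have hB : ⇑B = ![hQ.torsPt, y] := coe_basisOfLinearIndependentOfCardEqFinrank hli _
  have hspan : ∀ z, ∃ c d : ZMod p, z = c • hQ.torsPt + d • y := fun z => ⟨B.repr z 0, B.repr z 1, by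
    conv_lhs => rw [← B.sum_repr z, Fin.sum_univ_two, hB]
    rfl⟩
  obtain ⟨c, d, hcd⟩ := hspan (σ • y)
  have hb : ∀ z : Submodule.torsionBy ℤ (LegPts a b) p,
      σ • z - d • z ∈ Submodule.span (ZMod p) {hQ.torsPt} := fun z => by
    obtain ⟨e, f, rfl⟩ := hspan z
    refine Submodule.mem_span_singleton.mpr ⟨e - d * e + f * c, ?_⟩
    rw [smul_add, smul_comm σ e, smul_comm σ f, hQ.smul_torsPt, hcd]
    module
  have h1 := EC.mul_eq_cyclotomic_of_stable_line (K := Qbar) (S := ℚ) (legCurve a b) (p := p)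
    (Nat.cast_ne_zero.2 hp.out.ne_zero) (ExtCitation.card_rootsOfUnity_eq_self p) σ
    (z := hQ.torsPt) hQ.torsPt_ne_zero (a := 1) (b := d)
    (by rw [one_smul]; exact hQ.smul_torsPt σ) hb
  rw [one_mul] at h1
  have : ((ExtCitation.cycloChar p σ : (ZMod p)ˣ) : ZMod p) = d := h1.symm
  rw [this]
  exact hb x

/-- Inertia at `l ≠ p` fixes the `p`-torsion. -/
theorem smul_eq_self_of_inertia (h15 : StepThree p) (hp11 : 11 ≤ p) {l : ℕ} (hl : l.Prime)
    (hlp : l ≠ p) {A : ValuationSubring Qbar} (hA : A.LiesOverPrime l) {σ : Γℚ}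
    (hσ : σ ∈ A.inertiaSubgroupIn ℚ) (x : Submodule.torsionBy ℤ (LegPts a b) p) : σ • x = x := by
  have hV := EC.integralAt_intCurve (legModel a b) A
  have hfix := EC.fixesResidues_of_mem_inertia hσ
  have hpl : EC.res A (p : Qbar) ≠ 0 := EC.res_natCast_ne_zero A hl hA fun hd =>
    hlp ((Nat.prime_dvd_prime_iff_eq hl hp.out).mp hd)
  have htor : ∀ z : Submodule.torsionBy ℤ (LegPts a b) p, p • (z : LegPts a b) = 0 := fun z => by
    rw [← natCast_zsmul]; exact (Submodule.mem_torsionBy_iff _ _).1 z.2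
  refine Subtype.ext ?_
  by_cases hd : (l : ℤ) ∣ (legModel a b).Δ
  swap
  · exact EC.smul_eq_self_of_good hV (by
      rw [EC.res_Δ_intCurve]; exact (EC.res_intCast_ne_zero_iff A hl hA _).mpr hd) hfix hpl (htor x)
  have h1 := hQ.smul_sub_cyclo_mem σ x
  rw [cycloChar_eq_one_of_mem_inertia p hl hlp hA hσ, Units.val_one, one_smul,
    Submodule.mem_span_singleton] at h1
  obtain ⟨c, hc⟩ := h1
  have hc' : σ • (x : LegPts a b) - (x : LegPts a b) = (c.val : ℤ) • Q := by
    rw [← hQ.coe_zmod_smul_torsPt c, hc]; rfl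
  show σ • (x : LegPts a b) = x
  rcases hQ.pair.smul_sub_or_add_inE0 hl hA hd hσ (x : LegPts a b) with h | h
  · rw [hc'] at h
    rw [← sub_eq_zero, hc']
    exact hQ.zsmul_eq_zero_of_inE0 h15 hp11 hl hd hA h
  · have hfixed : σ • (σ • (x : LegPts a b) + x) = σ • (x : LegPts a b) + x :=
      EC.smul_eq_self_of_inE0 hV hfix hpl h (by
        rw [nsmul_add, show p • (σ • (x : LegPts a b)) = σ • (p • (x : LegPts a b)) from
          (map_nsmul (DistribSMul.toAddMonoidHom (LegPts a b) σ) p (x : LegPts a b)).symm,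
          htor x, show σ • (0 : LegPts a b) = 0 from map_zero (DistribSMul.toAddMonoidHom (LegPts a b) σ)]
        exact add_zero 0)
    have hsx : σ • (x : LegPts a b) = (x : LegPts a b) + (c.val : ℤ) • Q := by rw [← hc']; abel
    have hadd : ∀ X Y : LegPts a b, σ • (X + Y) = σ • X + σ • Y := fun X Y => smul_add σ X Y
    have hzQ : σ • ((c.val : ℤ) • Q) = (c.val : ℤ) • Q := by rw [algEquiv_smul_zsmul, hQ.fix]
    rw [hsx, hadd, hadd, hzQ, hsx] at hfixed
    have h2 : (c.val : ℤ) • Q + (c.val : ℤ) • Q = 0 := by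
      have := sub_eq_zero.mpr hfixed
      rw [← this]; abel
    have hc0 : (c.val : ℤ) • Q = 0 := by
      have hdvd := (addOrderOf_dvd_iff_zsmul_eq_zero (x := Q) (i := (c.val : ℤ) + c.val)).mpr
        (by rw [add_zsmul]; exact h2)
      rw [hQ.ord] at hdvd
      rw [← two_mul] at hdvd
      have h := ((Nat.prime_iff_prime_int.1 hp.out).dvd_mul.mp hdvd).resolve_left (fun h => by
        have h' : p ∣ 2 := by exact_mod_cast h
        have := Nat.le_of_dvd two_pos h'
        omega)
      rw [← addOrderOf_dvd_iff_zsmul_eq_zero, hQ.ord]; exact h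
    rw [hsx, hc0, add_zero]

/-- At a place over `p` the kernel of reduction gives a decomposition stable complement. -/
theorem exists_local_complement (hp11 : 11 ≤ p) {A : ValuationSubring Qbar}
    (hA : A.LiesOverPrime p) :
    ∃ C' : Submodule (ZMod p) (Submodule.torsionBy ℤ (LegPts a b) p),
      (∀ σ ∈ A.decompositionSubgroup ℚ, ∀ x ∈ C', σ • x ∈ C') ∧
        IsCompl (Submodule.span (ZMod p) {hQ.torsPt}) C' := by
  have hV := EC.integralAt_intCurve (legModel a b) A
  set T := Submodule.torsionBy ℤ (LegPts a b) (p : ℤ)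
  have hrank := hQ.finrank_tors
  have : FiniteDimensional (ZMod p) T := Module.finite_of_finrank_eq_succ hrank
  have h2ne : ((2 : ℕ) : ZMod p) ≠ 0 := by
    rw [Ne, ZMod.natCast_eq_zero_iff]
    intro h
    have := Nat.le_of_dvd two_pos h
    omega
  obtain ⟨σ, hσ, hw⟩ := Galois.cycloChar_surjective_on_inertia p hA (Units.mk0 _ h2ne)
  have hw' : ((ExtCitation.cycloChar p σ : (ZMod p)ˣ) : ZMod p) = 2 := by rw [hw]; simp
  have hfix := EC.fixesResidues_of_mem_inertia hσ
  -- the eigenvector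
  obtain ⟨y, hy⟩ : ∃ y : T, y ∉ Submodule.span (ZMod p) {hQ.torsPt} := by
    by_contra h
    push Not at h
    have htop : Submodule.span (ZMod p) {hQ.torsPt} = ⊤ := eq_top_iff.mpr fun z _ => h z
    have := finrank_span_singleton (K := ZMod p) hQ.torsPt_ne_zero
    rw [htop, finrank_top, hrank] at this
    omega
  obtain ⟨c, hc⟩ := Submodule.mem_span_singleton.mp (hQ.smul_sub_cyclo_mem σ y)
  rw [hw'] at hc
  set P : T := y + c • hQ.torsPt with hP
  have hPe : σ • P = (2 : ZMod p) • P := by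
    rw [hP, smul_add, smul_comm σ c, hQ.smul_torsPt,
      show σ • y = (2 : ZMod p) • y + c • hQ.torsPt by rw [hc]; abel]
    module
  have hPy : P ∉ Submodule.span (ZMod p) {hQ.torsPt} := fun h => hy (by
    have := Submodule.sub_mem _ h (Submodule.smul_mem _ c (Submodule.mem_span_singleton_self hQ.torsPt))
    rwa [hP, add_sub_cancel_right] at this)
  -- the kernel of reduction as a submodule
  let K1 : Submodule (ZMod p) T :=
    { carrier := {z | EC.InE1 A (z : LegPts a b)}
      add_mem' := fun hx hy => (EC.E1 hV).add_mem hx hy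
      zero_mem' := (EC.E1 hV).zero_mem
      smul_mem' := fun k z hz => by
        show EC.InE1 A ((k • z : T) : LegPts a b)
        rw [← ZMod.natCast_zmod_val k, Nat.cast_smul_eq_nsmul]
        exact (EC.E1 hV).nsmul_mem hz _ }
  have hE0 : ∀ z : T, EC.InE0 A (z : LegPts a b) → ∀ k : ZMod p,
      EC.InE0 A ((k • z : T) : LegPts a b) := fun z hz k => by
    rw [← ZMod.natCast_zmod_val k, Nat.cast_smul_eq_nsmul]
    exact (EC.E0 hV).nsmul_mem hz _
  have hP0 : EC.InE0 A (P : LegPts a b) := by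
    by_cases hd : (p : ℤ) ∣ (legModel a b).Δ
    swap
    · refine hV.inE0_of_res_Δ_ne_zero ?_ _
      rw [EC.res_Δ_intCurve]
      exact (EC.res_intCast_ne_zero_iff A hp.out hA _).mpr hd
    rcases hQ.pair.smul_sub_or_add_inE0 hp.out hA hd hσ (P : LegPts a b) with h | h
    · have e : (σ • P - P : T) = P := by rw [hPe]; module
      rw [← e]; exact h
    · have e : ((3 : ZMod p)⁻¹) • (σ • P + P : T) = P := by
        have h3 : (3 : ZMod p) ≠ 0 := by
          rw [show (3 : ZMod p) = ((3 : ℕ) : ZMod p) by norm_num, Ne, ZMod.natCast_eq_zero_iff]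
          intro h
          have := Nat.le_of_dvd (by norm_num) h
          omega
        rw [hPe, show (2 : ZMod p) • P + P = (3 : ZMod p) • P by module, smul_smul,
          inv_mul_cancel₀ h3, one_smul]
      rw [← e]; exact hE0 _ h _
  have hP1 : P ∈ K1 := by
    obtain ⟨hs0, hsred⟩ := EC.redPt_smul hV hfix hP0
    have hdiff : EC.InE0 A (σ • (P : LegPts a b) - (P : LegPts a b)) := (EC.E0 hV).sub_mem hs0 hP0
    have e : (σ • P - P : T) = P := by rw [hPe]; module
    show EC.InE1 A (P : LegPts a b)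
    rw [← e]
    show EC.InE1 A (σ • (P : LegPts a b) - (P : LegPts a b))
    classical
    rw [← EC.redPt_eq_zero_iff hdiff, sub_eq_add_neg,
      (EC.inE0_add_and_redPt_add hV hs0 (hV.inE0_neg hP0)).2, hV.redPt_neg hP0, hsred,
      add_neg_cancel]
  have hQ1 : hQ.torsPt ∉ K1 := hQ.not_inE1 (by omega) hp.out hA
  refine ⟨K1, ?_, ⟨?_, ?_⟩⟩
  · intro τ hτ z hz
    show EC.InE1 A (τ • (z : LegPts a b))
    change EC.InE1 A (z : LegPts a b) at hz
    rcases hzp : (z : LegPts a b) with _ | ⟨x, y, h⟩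
    · exact trivial
    · rw [hzp] at hz
      obtain ⟨h', e⟩ := EC.algEquiv_smul_some (σ := τ) h
      rw [e, EC.inE1_some, EC.not_mem_iff_valuation,
        AtP.valuation_apply_of_mem_decomposition hτ, ← EC.not_mem_iff_valuation]
      exact hz
  · rw [disjoint_iff_inf_le]
    rintro z ⟨hz1, hz2⟩
    obtain ⟨k, rfl⟩ := Submodule.mem_span_singleton.mp hz1
    by_cases hk : k = 0
    · simp [hk]
    · exfalso
      apply hQ1
      have := K1.smul_mem k⁻¹ hz2
      rwa [smul_smul, inv_mul_cancel₀ hk, one_smul] at this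
  · rw [codisjoint_iff]
    have hle : Submodule.span (ZMod p) {hQ.torsPt} < Submodule.span (ZMod p) {hQ.torsPt} ⊔ K1 :=
      lt_of_le_of_ne le_sup_left fun h => hPy (h ▸ Submodule.mem_sup_right hP1)
    have := Submodule.finrank_lt_finrank_of_lt hle
    rw [finrank_span_singleton hQ.torsPt_ne_zero] at this
    refine Submodule.eq_top_of_finrank_eq ?_
    have := Submodule.finrank_le (Submodule.span (ZMod p) {hQ.torsPt} ⊔ K1)
    omega

/-- The `p`-torsion is an admissible extension of `μ_p` by `ℤ/p`. -/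
theorem isAdmissibleExtensionCts (h15 : StepThree p) (hp11 : 11 ≤ p) :
    ExtCitation.IsAdmissibleExtensionCts p (Submodule.torsionBy ℤ (LegPts a b) p)
      (Submodule.span (ZMod p) {hQ.torsPt}) := by
  have := hQ.pair.isElliptic_legCurve
  have hfixed : ∀ σ : Γℚ, ∀ x ∈ Submodule.span (ZMod p) {hQ.torsPt}, σ • x = x := fun σ x hx => by
    obtain ⟨k, rfl⟩ := Submodule.mem_span_singleton.mp hx
    rw [smul_comm σ k, hQ.smul_torsPt]
  refine { stable := fun σ x hx => by rwa [hfixed σ x hx]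
           fixed_sub := hfixed
           cyclo_quot := fun σ x => by
             rw [← ExtCitation.coe_cycloChar]; exact hQ.smul_sub_cyclo_mem σ x
           card_sub := ?_
           card_total := hQ.natCard_tors
           unramified_outside := fun l hl hlp A hA σ hσ x =>
             hQ.smul_eq_self_of_inertia h15 hp11 hl hlp hA hσ x
           locally_split := fun A hA => hQ.exists_local_complement hp11 hA
           open_kernel := ?_ }
  · rw [Module.natCard_eq_pow_finrank (K := ZMod p), finrank_span_singleton hQ.torsPt_ne_zero,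
      pow_one, Nat.card_zmod]
  · obtain ⟨L, hL, hfix⟩ := EC.exists_finiteDimensional_smul_eq (legCurve a b) (n := p)
      hp.out.ne_zero
    let S : Subgroup Γℚ :=
      { carrier := {σ | ∀ v : Submodule.torsionBy ℤ (LegPts a b) p, σ • v = v}
        one_mem' := fun v => one_smul _ v
        mul_mem' := fun {σ τ} hσ hτ v => by rw [mul_smul, hτ, hσ]
        inv_mem' := fun {σ} hσ v => by
          conv_lhs => rw [← hσ v]
          rw [inv_smul_smul] }
    refine Subgroup.isOpen_mono (H₂ := S) (fun σ hσ v => Subtype.ext ?_)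
      (IntermediateField.fixingSubgroup_isOpen L)
    exact hfix σ ((IntermediateField.mem_fixingSubgroup_iff _ σ).mp hσ) (v : LegPts a b)
      ((Submodule.mem_torsionBy_iff _ _).1 v.2)

/-- The splitting of `E[p]`. -/
theorem exists_complement (h15 : StepThree p) (h14 : ExtCitation.ExtVanishingCts p)
    (hp11 : 11 ≤ p) :
    ∃ C' : Submodule (ZMod p) (Submodule.torsionBy ℤ (LegPts a b) p),
      (∀ σ : Γℚ, ∀ x ∈ C', σ • x ∈ C') ∧ IsCompl (Submodule.span (ZMod p) {hQ.torsPt}) C' :=
  h14 _ _ (hQ.isAdmissibleExtensionCts h15 hp11)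

end IsLegPoint

end FermatLib.Mazur
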