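import Fermat.Agent.Mazur.LegTransport

/-!
# One step of the chain of isogenies, and rationality along the chain
-/

set_option autoImplicit false
set_option linter.unusedSectionVars false

noncomputable section

namespace FermatLib.Mazur

open WeierstrassCurve WeierstrassCurve.Affine.Point
open scoped WeierstrassCurve.Affine

local notation "Qbar" => AlgebraicClosure ℚ
local notation "Γℚ" => (AlgebraicClosure ℚ ≃ₐ[ℚ] AlgebraicClosure ℚ)

local instance isAlgebraicQbarStep : Algebra.IsAlgebraic ℚ Qbar :=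
  AlgebraicClosure.isAlgebraic ℚ

local instance isGaloisQbarStep : IsGalois ℚ Qbar :=
  have : IsAlgClosure ℚ Qbar := ⟨inferInstance, inferInstance⟩
  have : Normal ℚ Qbar := IsAlgClosure.normal ℚ Qbar
  { }

namespace IsLegPoint

variable {p : ℕ} [hp : Fact p.Prime] {a b : ℤ} {Q : LegPts a b} (hQ : IsLegPoint p Q)
include hQ

lemma smul_nsmul (σ : Γℚ) (n : ℕ) (X : LegPts a b) : σ • (n • X) = n • (σ • X) :=
  map_nsmul (DistribSMul.toAddMonoidHom (LegPts a b) σ) n X

/-- A fixed point killed by `p` is a multiple of `Q`. -/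
lemma mem_zmultiples_of_fixed (hp3 : 3 ≤ p) {Z : LegPts a b} (hfix : ∀ σ : Γℚ, σ • Z = Z)
    (hZ : p • Z = 0) : Z ∈ AddSubgroup.zmultiples Q := by
  let z : Submodule.torsionBy ℤ (LegPts a b) p :=
    ⟨Z, (Submodule.mem_torsionBy_iff _ _).mpr (by rw [natCast_zsmul]; exact hZ)⟩
  have h2 : ((2 : ℕ) : ZMod p) ≠ 0 := by
    rw [Ne, ZMod.natCast_eq_zero_iff]
    intro h; have := Nat.le_of_dvd two_pos h; omega
  obtain ⟨σ, hσ⟩ := cycloChar_surjective p (Units.mk0 _ h2)
  have h := hQ.smul_sub_cyclo_mem σ z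
  have hz : σ • z = z := Subtype.ext (hfix σ)
  rw [hz, hσ, Units.val_mk0] at h
  have e : -(z - ((2 : ℕ) : ZMod p) • z) = z := by
    push_cast
    module
  have hmem := Submodule.neg_mem _ h
  rw [e, Submodule.mem_span_singleton] at hmem
  obtain ⟨c, hc⟩ := hmem
  exact AddSubgroup.mem_zmultiples_iff.mpr ⟨(c.val : ℤ), by
    rw [← hQ.coe_zmod_smul_torsPt, hc]⟩

/-- A fixed `p`-power torsion point with nonsingular reduction at a bad place vanishes. -/
lemma fixed_eq_zero_of_inE0 (h15 : StepThree p) (hp11 : 11 ≤ p) {l : ℕ} (hl : l.Prime)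
    (hd : (l : ℤ) ∣ (legModel a b).Δ) {A : ValuationSubring Qbar} (hA : A.LiesOverPrime l) :
    ∀ (m : ℕ) (Z : LegPts a b), (∀ σ : Γℚ, σ • Z = Z) → (p ^ m) • Z = 0 → EC.InE0 A Z →
      Z = 0 := by
  intro m
  induction m with
  | zero => intro Z _ h _; rwa [pow_zero, one_nsmul] at h
  | succ m ih =>
    intro Z hfix h h0
    have hp0 : p • Z = 0 := by
      refine ih _ (fun σ => by rw [hQ.smul_nsmul, hfix]) ?_
        ((EC.E0 (EC.integralAt_intCurve (legModel a b) A)).nsmul_mem h0 p)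
      rw [← mul_nsmul', ← pow_succ]; exact h
    obtain ⟨k, rfl⟩ := AddSubgroup.mem_zmultiples_iff.mp
      (hQ.mem_zmultiples_of_fixed (by omega) hfix hp0)
    exact hQ.zsmul_eq_zero_of_inE0 h15 hp11 hl hd hA h0

/-- The multiples of `Q` reducing to infinity vanish. -/
lemma zsmul_eq_zero_of_inE1 (hp2 : p ≠ 2) {l : ℕ} (hl : l.Prime) {A : ValuationSubring Qbar}
    (hA : A.LiesOverPrime l) {k : ℤ} (h : EC.InE1 A (k • Q)) : k • Q = 0 := by
  have := hQ.pair.isElliptic_legCurve
  refine rational_inE1_eq_zero hp.out hp2 hl hA (fun σ => ?_) ?_ h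
  · rw [algEquiv_smul_zsmul, hQ.fix]
  · rw [smul_comm, hQ.nsmul_eq_zero]; exact zsmul_zero k

/-- A `p`-power torsion point moved only by multiples of `Q` is rational, unless it is killed by
`p`. -/
theorem smul_eq_of_sub_mem (h15 : StepThree p) (hp11 : 11 ≤ p) {m : ℕ} {R : LegPts a b}
    (hR : (p ^ m) • R = 0) (hp0 : p • R = 0 → R ∈ AddSubgroup.zmultiples Q)
    (hd : ∀ σ : Γℚ, σ • R - R ∈ AddSubgroup.zmultiples Q) (σ : Γℚ) : σ • R = R := by
  have := hQ.pair.isElliptic_legCurve
  by_cases hpR : p • R = 0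
  · obtain ⟨k, rfl⟩ := AddSubgroup.mem_zmultiples_iff.mp (hp0 hpR)
    rw [algEquiv_smul_zsmul, hQ.fix]
  obtain ⟨F, hF, hFfix⟩ := EC.exists_finiteDimensional_smul_eq (legCurve a b) (n := p ^ m)
    (pow_ne_zero m hp.out.ne_zero)
  have htop : MulAction.stabilizer Γℚ R = ⊤ := by
    refine EC.eq_top_of_forall_inertia_le _ F (fun τ hτ => ?_) fun q hq A hA τ hτ => ?_
    · exact hFfix τ ((IntermediateField.mem_fixingSubgroup_iff _ τ).mp hτ) R
        (by rw [natCast_zsmul]; exact hR)
    · rw [MulAction.mem_stabilizer_iff]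
      obtain ⟨k, hk⟩ := AddSubgroup.mem_zmultiples_iff.mp (hd τ)
      have hV := EC.integralAt_intCurve (legModel a b) A
      have hfix := EC.fixesResidues_of_mem_inertia hτ
      by_cases hbad : (q : ℤ) ∣ (legModel a b).Δ
      · rcases hQ.pair.smul_sub_or_add_inE0 hq hA hbad hτ R with h | h
        · rw [← hk] at h
          rw [← sub_eq_zero, ← hk]
          exact hQ.zsmul_eq_zero_of_inE0 h15 hp11 hq hbad hA h
        · exfalso
          have h2 : EC.InE0 A (p • (τ • R + R)) := (EC.E0 hV).nsmul_mem h p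
          have hrw : p • (τ • R + R) = 2 • (p • R) := by
            rw [show τ • R = k • Q + R by rw [hk]; abel, nsmul_add, nsmul_add,
              smul_comm, hQ.nsmul_eq_zero, show k • (0 : LegPts a b) = 0 from zsmul_zero k,
              zero_add, two_nsmul]
          rw [hrw] at h2
          have hpfix : ∀ τ' : Γℚ, τ' • (p • R) = p • R := fun τ' => by
            obtain ⟨j, hj⟩ := AddSubgroup.mem_zmultiples_iff.mp (hd τ')
            rw [hQ.smul_nsmul, show τ' • R = j • Q + R by rw [hj]; abel, nsmul_add, smul_comm,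
              hQ.nsmul_eq_zero, show j • (0 : LegPts a b) = 0 from zsmul_zero j, zero_add]
          have hz := hQ.fixed_eq_zero_of_inE0 h15 hp11 hq hbad hA m (2 • (p • R))
            (fun τ' => by rw [hQ.smul_nsmul, hpfix])
            (by
              rw [smul_comm (p ^ m) 2, smul_comm (p ^ m) p, hR,
                show p • (0 : LegPts a b) = 0 from nsmul_zero p]
              exact nsmul_zero 2) h2
          refine hpR ?_
          have hdvd : addOrderOf (p • R) ∣ Nat.gcd 2 (p ^ m) :=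
            Nat.dvd_gcd (addOrderOf_dvd_of_nsmul_eq_zero hz)
              (addOrderOf_dvd_of_nsmul_eq_zero (by rw [smul_comm, hR]; exact nsmul_zero p))
          rw [(Nat.coprime_primes Nat.prime_two hp.out).mpr (by omega) |>.pow_right m,
            Nat.dvd_one, AddMonoid.addOrderOf_eq_one_iff] at hdvd
          exact hdvd
      · have hR0 : EC.InE0 A R := hV.inE0_of_res_Δ_ne_zero (by
          rw [EC.res_Δ_intCurve]; exact (EC.res_intCast_ne_zero_iff A hq hA _).mpr hbad) R
        obtain ⟨hs0, hsred⟩ := EC.redPt_smul hV hfix hR0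
        have hdiff : EC.InE0 A (τ • R - R) := (EC.E0 hV).sub_mem hs0 hR0
        have h1 : EC.InE1 A (τ • R - R) := by
          classical
          rw [← EC.redPt_eq_zero_iff hdiff, sub_eq_add_neg,
            (EC.inE0_add_and_redPt_add hV hs0 (hV.inE0_neg hR0)).2, hV.redPt_neg hR0, hsred,
            add_neg_cancel]
        rw [← hk] at h1
        rw [← sub_eq_zero, ← hk]
        exact hQ.zsmul_eq_zero_of_inE1 (by omega) hq hA h1
  exact MulAction.mem_stabilizer_iff.mp (htop ▸ Subgroup.mem_top σ)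

/-- One step: the quotient by the stable line is again a Frey form model with a rational point. -/
theorem exists_step (h15 : StepThree p) (h14 : ExtCitation.ExtVanishingCts p) (hp11 : 11 ≤ p) :
    ∃ (a' b' : ℤ) (ψ : LegPts a b →+ LegPts a' b'), IsLegPoint p (ψ Q) ∧
      (∀ (σ : Γℚ) (P : LegPts a b), ψ (σ • P) = σ • ψ P) ∧
      (ψ.ker : Set (LegPts a b)).Finite ∧ Nat.card ψ.ker ≤ p ∧
      (∀ T : LegPts a b, p • T = 0 → ψ T ∈ AddSubgroup.zmultiples (ψ Q)) ∧
      (∀ Z : LegPts a b, (∀ σ : Γℚ, σ • Z = Z) → ψ Z = 0 → Z = 0) := by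
  have := hQ.pair.isElliptic_legCurve
  obtain ⟨C', hstab, hcompl⟩ := hQ.exists_complement h15 h14 hp11
  set T := Submodule.torsionBy ℤ (LegPts a b) (p : ℤ)
  let G : AddSubgroup (LegPts a b) := C'.toAddSubgroup.map T.toAddSubgroup.subtype
  have memG : ∀ P, P ∈ G ↔ ∃ y ∈ C', (y : LegPts a b) = P := fun P => Iff.rfl
  have hrank := hQ.finrank_tors
  have : FiniteDimensional (ZMod p) T := Module.finite_of_finrank_eq_succ hrank
  have hC1 : Module.finrank (ZMod p) C' = 1 := by
    have := Submodule.finrank_add_eq_of_isCompl hcompl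
    rw [finrank_span_singleton hQ.torsPt_ne_zero, hrank] at this
    omega
  have : Finite C' := Module.finite_of_finite (ZMod p)
  have hGeq : (G : Set (LegPts a b)) = Subtype.val '' (C' : Set T) := by
    ext P; exact memG P
  have hGfin : (G : Set (LegPts a b)).Finite :=
    hGeq ▸ (Set.toFinite (C' : Set T)).image _
  have : Finite G := hGfin.to_subtype
  have hGcard : Nat.card G = p := by
    rw [← SetLike.coe_sort_coe, Nat.card_coe_set_eq, hGeq,
      Set.ncard_image_of_injective _ Subtype.val_injective, ← Nat.card_coe_set_eq]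
    show Nat.card C' = p
    rw [Module.natCard_eq_pow_finrank (K := ZMod p), hC1, pow_one, Nat.card_zmod]
  have hodd : ∀ P ∈ G, (2 : ℕ) • P = 0 → P = 0 := fun P hP h2 => by
    obtain ⟨y, -, rfl⟩ := (memG P).mp hP
    have hy : p • (y : LegPts a b) = 0 := by
      rw [← natCast_zsmul]; exact (Submodule.mem_torsionBy_iff _ _).1 y.2
    have hdvd := Nat.dvd_gcd (addOrderOf_dvd_of_nsmul_eq_zero h2)
      (addOrderOf_dvd_of_nsmul_eq_zero hy)
    rwa [(Nat.coprime_primes Nat.prime_two hp.out).mpr (by omega), Nat.dvd_one,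
      AddMonoid.addOrderOf_eq_one_iff] at hdvd
  have hGstab : ∀ σ : Γℚ, ∀ P ∈ G, σ • P ∈ G := fun σ P hP => by
    obtain ⟨y, hy, rfl⟩ := (memG P).mp hP
    exact (memG _).mpr ⟨σ • y, hstab σ y hy, rfl⟩
  obtain ⟨W', hW', h2', -, φ, -, hker, hequiv⟩ :=
    EC.exists_quotientIsogeny (K := ℚ) (L := Qbar) (legCurve a b) G hodd hGstab
  have hQG : Q ∉ G := fun h => by
    obtain ⟨y, hy, e⟩ := (memG Q).mp h
    have e' : y = hQ.torsPt := Subtype.ext e
    subst e'
    exact hQ.torsPt_ne_zero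
      ((Submodule.disjoint_def.mp hcompl.disjoint) _ (Submodule.mem_span_singleton_self _) hy)
  have hφQ : φ Q ≠ 0 := fun h => hQG (hker ▸ h)
  have hord : addOrderOf (φ Q) = p :=
    addOrderOf_eq_prime (by rw [← map_nsmul, hQ.nsmul_eq_zero]; exact _root_.map_zero φ) hφQ
  obtain ⟨a', b', e, he, hQ'⟩ := exists_legPoint_of_fixed W'
    (h2' (hasRationalTwoTorsion_legCurve hQ.pair)) hp.out (by omega) (φ Q)
    (fun σ => by rw [← hequiv, hQ.fix]) hord
  refine ⟨a', b', e.toAddMonoidHom.comp φ, hQ', fun σ P => ?_, ?_, ?_, ?_, ?_⟩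
  · show e (φ (σ • P)) = σ • e (φ P)
    rw [hequiv, he]
  all_goals
    have hker' : (e.toAddMonoidHom.comp φ).ker = G := by
      rw [← hker]; ext P
      simp only [AddMonoidHom.mem_ker, AddMonoidHom.comp_apply]
      exact e.map_eq_zero_iff
  · rw [hker']; exact hGfin
  · rw [hker', hGcard]
  · intro X hX
    let x : T := ⟨X, (Submodule.mem_torsionBy_iff _ _).mpr (by rw [natCast_zsmul]; exact hX)⟩
    have hx : x ∈ Submodule.span (ZMod p) {hQ.torsPt} ⊔ C' := by
      rw [hcompl.sup_eq_top]; trivial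
    obtain ⟨s, hs, c, hc, hsc⟩ := Submodule.mem_sup.mp hx
    obtain ⟨k, rfl⟩ := Submodule.mem_span_singleton.mp hs
    have hX' : X = (k.val : ℤ) • Q + (c : LegPts a b) := by
      rw [← hQ.coe_zmod_smul_torsPt]
      exact congrArg Subtype.val hsc.symm
    have hc0 : e (φ (c : LegPts a b)) = 0 := by
      have : (c : LegPts a b) ∈ (e.toAddMonoidHom.comp φ).ker := hker' ▸ (memG _).mpr ⟨c, hc, rfl⟩
      exact this
    refine AddSubgroup.mem_zmultiples_iff.mpr ⟨(k.val : ℤ), ?_⟩
    rw [hX', map_add, map_zsmul]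
    show _ = _ + e (φ (c : LegPts a b))
    rw [hc0, add_zero]
  · intro Z hfix hZ
    have hZG : Z ∈ G := hker' ▸ hZ
    obtain ⟨z, hz, rfl⟩ := (memG Z).mp hZG
    obtain ⟨k, hk⟩ := AddSubgroup.mem_zmultiples_iff.mp (hQ.mem_zmultiples_of_fixed (by omega) hfix
      (by rw [← natCast_zsmul]; exact (Submodule.mem_torsionBy_iff _ _).1 z.2))
    have hmem : z ∈ Submodule.span (ZMod p) {hQ.torsPt} := by
      refine Submodule.mem_span_singleton.mpr ⟨(k : ZMod p), Subtype.ext ?_⟩
      rw [← hk, Int.cast_smul_eq_zsmul]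
      rfl
    exact congrArg Subtype.val (Submodule.disjoint_def.mp hcompl.disjoint _ hmem hz)

end IsLegPoint

end FermatLib.Mazur
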