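import Fermat.Agent.Mazur.LegSplit
import Fermat.Agent.EC.QuotientIsogeny

/-!
# Moving a rational `p`-point to a Frey form model
-/

set_option autoImplicit false
set_option linter.unusedSectionVars false

noncomputable section

namespace FermatLib.Mazur

open WeierstrassCurve WeierstrassCurve.Affine.Point
open scoped WeierstrassCurve.Affine

local notation "Qbar" => AlgebraicClosure ℚ
local notation "Γℚ" => (AlgebraicClosure ℚ ≃ₐ[ℚ] AlgebraicClosure ℚ)

local instance isAlgebraicQbarTransport : Algebra.IsAlgebraic ℚ Qbar :=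
  AlgebraicClosure.isAlgebraic ℚ

local instance isGaloisQbarTransport : IsGalois ℚ Qbar :=
  have : IsAlgClosure ℚ Qbar := ⟨inferInstance, inferInstance⟩
  have : Normal ℚ Qbar := IsAlgClosure.normal ℚ Qbar
  { }

/-- Equal curves over `ℚ` have the same points over `ℚ̄`. -/
def curveCastQ {W₁ W₂ : WeierstrassCurve ℚ} (e : W₁ = W₂) :
    (W₁⁄Qbar).Point ≃+ (W₂⁄Qbar).Point := by
  subst e; exact AddEquiv.refl _

lemma curveCastQ_smul {W₁ W₂ : WeierstrassCurve ℚ} (e : W₁ = W₂) (σ : Γℚ)
    (P : (W₁⁄Qbar).Point) : curveCastQ e (σ • P) = σ • curveCastQ e P := by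
  subst e; rfl

/-- A fixed point of prime order gives a rational point of the same order. -/
lemma exists_rational_of_fixed (W : WeierstrassCurve ℚ) [W.IsElliptic]
    {p : ℕ} (hp1 : p ≠ 1) (T : (W⁄Qbar).Point) (hfix : ∀ σ : Γℚ, σ • T = T)
    (hT : addOrderOf T = p) : ∃ T₀ : W.toAffine.Point, addOrderOf T₀ = p := by
  rcases T with _ | ⟨x, y, h⟩
  · exact absurd (hT.symm.trans addOrderOf_zero) hp1
  have key : ∀ σ : Γℚ, σ x = x ∧ σ y = y := fun σ => by
    obtain ⟨h', e⟩ := EC.algEquiv_smul_some (σ := σ) h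
    exact Affine.Point.some.inj (e.symm.trans (hfix σ))
  obtain ⟨r, rfl⟩ := (InfiniteGalois.mem_range_algebraMap_iff_fixed x).2 fun σ => (key σ).1
  obtain ⟨s, rfl⟩ := (InfiniteGalois.mem_range_algebraMap_iff_fixed y).2 fun σ => (key σ).2
  have hns : W.toAffine.Nonsingular r s :=
    (W.toAffine.map_nonsingular (algebraMap ℚ Qbar).injective _ _).mp h
  refine ⟨.some r s hns, ?_⟩
  let φ := Affine.Point.map (W' := W.toAffine) (Algebra.ofId ℚ Qbar)
  have hinj : Function.Injective φ := Affine.Point.map_injective _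
  rw [← hT]
  exact (addOrderOf_injective φ hinj (Affine.Point.some r s hns : (W.toAffine⁄ℚ).Point)).symm

/-- A curve with full rational `2`-torsion and a fixed `p`-point is a Frey form model with such a
point. -/
theorem exists_legPoint_of_fixed (W : WeierstrassCurve ℚ) [W.IsElliptic]
    (h2 : EC.HasRationalTwoTorsion W) {p : ℕ} (hp : p.Prime) (hp5 : 5 ≤ p) (T : (W⁄Qbar).Point)
    (hfix : ∀ σ : Γℚ, σ • T = T) (hT : addOrderOf T = p) :
    ∃ (a b : ℤ) (e : (W⁄Qbar).Point ≃+ LegPts a b),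
      (∀ (σ : Γℚ) (P : (W⁄Qbar).Point), e (σ • P) = σ • e P) ∧ IsLegPoint p (e T) := by
  obtain ⟨T₀, hT₀⟩ := exists_rational_of_fixed W hp.ne_one T hfix hT
  obtain ⟨a, b, hab, C, hC⟩ := exists_freyPair W h2 hp hp5 T₀ hT₀
  let e : (W⁄Qbar).Point ≃+ LegPts a b :=
    (vcEquivOver (L := Qbar) W C).symm.trans (curveCastQ hC)
  have he : ∀ (σ : Γℚ) (P : (W⁄Qbar).Point), e (σ • P) = σ • e P := fun σ P => by
    show curveCastQ hC ((vcEquivOver W C).symm (σ • P)) = σ • curveCastQ hC _
    rw [vcEquivOver_symm_smul, curveCastQ_smul]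
    rfl
  exact ⟨a, b, e, he, hab, fun σ => by rw [← he, hfix], by
    rw [← hT]; exact addOrderOf_injective e.toAddMonoidHom e.injective T⟩

/-- A rational point of prime order gives a fixed point. -/
lemma exists_fixed_of_rational (W : WeierstrassCurve ℚ) [W.IsElliptic] {p : ℕ}
    (T₀ : W.toAffine.Point) (hT₀ : addOrderOf T₀ = p) :
    ∃ T : (W⁄Qbar).Point, (∀ σ : Γℚ, σ • T = T) ∧ addOrderOf T = p := by
  refine ⟨Affine.Point.map (W' := W.toAffine) (Algebra.ofId ℚ Qbar)
    (show (W.toAffine⁄ℚ).Point from T₀), fun σ => ?_, ?_⟩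
  · rcases T₀ with _ | ⟨r, s, h⟩
    · exact _root_.map_zero (DistribSMul.toAddMonoidHom (W⁄Qbar).Point σ)
    · show Affine.Point.map σ.toAlgHom _ = _
      erw [Affine.Point.map_some, Affine.Point.map_some]
      congr 1 <;> exact σ.commutes _
  · rw [← hT₀]
    exact addOrderOf_injective (Affine.Point.map (W' := W.toAffine) (Algebra.ofId ℚ Qbar))
      (Affine.Point.map_injective _) (show (W.toAffine⁄ℚ).Point from T₀)

lemma hasRationalTwoTorsion_legCurve {a b : ℤ} (hab : IsFreyPair a b) :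
    EC.HasRationalTwoTorsion (legCurve a b) := by
  have hb₂ : (legCurve a b).b₂ = (b : ℚ) - a := by
    rw [map_b₂, eq_intCast, hab.legModel_b₂]; push_cast; ring
  have hb₄ : (legCurve a b).b₄ = -((a : ℚ) * b) / 8 := by
    have h : ((16 : ℤ) : ℚ) * ((legModel a b).a₄ : ℚ) = ((-(a * b) : ℤ) : ℚ) := by
      rw [← Int.cast_mul, hab.sixteen_mul_a₄]
    have hb : (legModel a b).b₄ = 2 * (legModel a b).a₄ := by
      simp [WeierstrassCurve.b₄, legModel]
    push_cast at h
    rw [map_b₄, eq_intCast, hb]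
    push_cast
    linear_combination (1 / 8 : ℚ) * h
  have hb₆ : (legCurve a b).b₆ = 0 := by
    simp [WeierstrassCurve.b₆, legModel]
  have ha : (a : ℚ) ≠ 0 := Int.cast_ne_zero.mpr hab.hA0
  have hb : (b : ℚ) ≠ 0 := Int.cast_ne_zero.mpr hab.hB0
  have hs : (a : ℚ) + b ≠ 0 := by exact_mod_cast hab.hAB
  refine ⟨![0, (a : ℚ) / 4, -(b : ℚ) / 4], ?_, fun i => ?_⟩
  · intro i j hij
    fin_cases i <;> fin_cases j <;> first
      | rfl
      | (exfalso; simp at hij; first
          | exact ha hij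
          | exact hb hij
          | exact hab.hA0 hij
          | exact hab.hB0 hij
          | exact hs (by linarith)
          | exact ha (by linarith)
          | exact hb (by linarith))
  · rw [hb₂, hb₄, hb₆]
    fin_cases i <;> simp <;> ring

end FermatLib.Mazur
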