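import Fermat.Agent.Mazur.LevelPThetaDatum
import Mathlib.Analysis.Normed.Group.Tannery
import Mathlib.NumberTheory.ModularForms.Identities
import Mathlib.NumberTheory.ModularForms.QExpansion
import Mathlib.NumberTheory.ModularForms.CongruenceSubgroups
import Mathlib.LinearAlgebra.Matrix.FixedDetMatrices

/-!
The theta series of the quaternary form of level `p`: transformation under `S` and `T`,
invariance under `Γ₀(p)`, behaviour at the cusps and the q-expansion.
-/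

set_option autoImplicit false
set_option linter.unusedSectionVars false

noncomputable section

open Complex ModularGroup Filter Topology
open UpperHalfPlane hiding I
open scoped MatrixGroups ModularForm Manifold

namespace FermatLib.Mazur.ThetaDatum

open Gauss ZMod

variable {p : ℕ} [Fact p.Prime] (D : ThetaDatum p)

theorem expI_intCast_div (m : ℤ) : expI (((m : ℝ) / p : ℝ) : ℂ) = stdAddChar (m : ZMod p) := by
  rw [stdAddChar_coe, expI]
  congr 1
  push_cast
  ring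

/-- The value of the form on the coset vector. -/
def val4 (v : ZMod p × ZMod p) (x : ℤ × ℤ × ℤ × ℤ) : ℝ :=
  D.form.eval (ChainForm.toReal x + D.shift v)

theorem val4_nonneg (v : ZMod p × ZMod p) (x : ℤ × ℤ × ℤ × ℤ) : 0 ≤ D.val4 v x :=
  D.form.eval_nonneg _

theorem shift_zero : D.shift 0 = 0 := by
  simp [shift]

theorem eq_zero_of_val4 (v : ZMod p × ZMod p) (x : ℤ × ℤ × ℤ × ℤ) (h : D.val4 v x ≤ 0) :
    v = 0 ∧ x = 0 := by
  have hd : D.form.dual (ChainForm.toReal (D.dualVec v x)) = 0 :=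
    (D.dual_dualVec v x).trans (le_antisymm h (D.val4_nonneg v x))
  have hy : D.dualVec v x = 0 := by
    generalize D.dualVec v x = y at hd ⊢
    obtain ⟨y1, y2, y3, y4⟩ := y
    simp only [ChainForm.dual, ChainForm.toReal] at hd
    have ha : ∀ {z a : ℝ}, 0 < a → 0 ≤ z ^ 2 / (4 * a) := fun ha ↦ by positivity
    have h1 := ha (z := (y1 : ℝ)) D.form.ha1
    have h2 := ha (z := (y2 : ℝ) - D.form.c1 * y1) D.form.ha2
    have h3 := ha (z := (y3 : ℝ) - D.form.c2 * ((y2 : ℝ) - D.form.c1 * y1)) D.form.ha3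
    have h4 := ha (z := (y4 : ℝ) - D.form.c3 * ((y3 : ℝ) -
      D.form.c2 * ((y2 : ℝ) - D.form.c1 * y1))) D.form.ha4
    have hz : ∀ {z a : ℝ}, 0 < a → z ^ 2 / (4 * a) ≤ 0 → z = 0 := fun {z a} ha hle ↦ by
      rw [div_nonpos_iff] at hle
      rcases hle with ⟨-, hh⟩ | ⟨hh, -⟩
      · linarith
      · exact pow_eq_zero_iff two_ne_zero |>.mp (le_antisymm hh (sq_nonneg z))
    have e1 : y1 = 0 := by exact_mod_cast hz D.form.ha1 (z := (y1 : ℝ)) (by linarith)
    subst e1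
    have e2 := hz D.form.ha2 (z := (y2 : ℝ) - D.form.c1 * (0 : ℤ)) (by linarith)
    simp only [Int.cast_zero, mul_zero, sub_zero] at e2
    have e2' : y2 = 0 := by exact_mod_cast e2
    subst e2'
    simp only [Int.cast_zero, mul_zero, sub_zero] at h1 h2 h3 h4 hd
    have e3 := hz D.form.ha3 (z := (y3 : ℝ)) (by linarith)
    have e3' : y3 = 0 := by exact_mod_cast e3
    subst e3'
    simp only [Int.cast_zero, mul_zero, sub_zero] at h1 h2 h3 h4 hd
    have e4 := hz D.form.ha4 (z := (y4 : ℝ)) (by linarith)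
    have e4' : y4 = 0 := by exact_mod_cast e4
    subst e4'
    rfl
  have h0 : D.dualVec 0 0 = 0 := by simp [dualVec, gram]
  have := D.dualVec_bijective.injective (a₁ := (v, x)) (a₂ := (0, 0)) (hy.trans h0.symm)
  simpa using this

/-- The theta series attached to a class of the discriminant group. -/
def theta (v : ZMod p × ZMod p) (τ : ℍ) : ℂ :=
  ∑' x : ℤ × ℤ × ℤ × ℤ, expI ((τ : ℂ) * (D.val4 v x : ℂ))

theorem norm_term (v : ZMod p × ZMod p) (x : ℤ × ℤ × ℤ × ℤ) (τ : ℂ) :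
    ‖expI (τ * (D.val4 v x : ℂ))‖ = Real.exp (-(2 * Real.pi * τ.im * D.val4 v x)) := by
  rw [norm_expI]
  congr 1
  simp [mul_im]
  ring

theorem norm_term_le {v : ZMod p × ZMod p} {x : ℤ × ℤ × ℤ × ℤ} {τ : ℂ} {c : ℝ} (hτ : c ≤ τ.im) :
    ‖expI (τ * (D.val4 v x : ℂ))‖ ≤ Real.exp (-(2 * Real.pi * c * D.val4 v x)) := by
  rw [D.norm_term]
  exact Real.exp_le_exp.mpr (neg_le_neg (mul_le_mul_of_nonneg_right
    (mul_le_mul_of_nonneg_left hτ (by positivity)) (D.val4_nonneg v x)))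

theorem summable_bound {c : ℝ} (hc : 0 < c) (v : ZMod p × ZMod p) :
    Summable fun x ↦ Real.exp (-(2 * Real.pi * c * D.val4 v x)) :=
  D.form.summable_exp_neg_eval (by positivity) _

theorem summable_term (v : ZMod p × ZMod p) (τ : ℍ) :
    Summable fun x : ℤ × ℤ × ℤ × ℤ ↦ expI ((τ : ℂ) * (D.val4 v x : ℂ)) :=
  (D.summable_bound τ.im_pos v).of_norm_bounded fun _ ↦ D.norm_term_le le_rfl

theorem mdifferentiable_theta (v : ZMod p × ZMod p) : MDiff (D.theta v) := by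
  rw [UpperHalfPlane.mdifferentiable_iff]
  intro z hz
  have hz' : 0 < z.im / 2 := half_pos hz
  have hopen : IsOpen {w : ℂ | z.im / 2 < w.im} := isOpen_lt continuous_const Complex.continuous_im
  have hd : DifferentiableOn ℂ
      (fun w : ℂ ↦ ∑' x : ℤ × ℤ × ℤ × ℤ, expI (w * (D.val4 v x : ℂ))) {w | z.im / 2 < w.im} :=
    differentiableOn_tsum_of_summable_norm (D.summable_bound hz' v)
      (fun x ↦ ((differentiable_id.mul_const _).const_mul _).cexp.differentiableOn)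
      hopen fun x w hw ↦ D.norm_term_le (le_of_lt hw)
  refine ((hd.differentiableAt (hopen.mem_nhds (by
    simp only [Set.mem_ofPred_eq]; linarith [show 0 < z.im from hz]))).congr_of_eventuallyEq
    ?_).differentiableWithinAt
  filter_upwards [isOpen_upperHalfPlaneSet.mem_nhds hz] with w hw
  simp [theta, ofComplex_apply_of_im_pos hw]

theorem tendsto_theta (v : ZMod p × ZMod p) :
    Tendsto (D.theta v) atImInfty (𝓝 (if v = 0 then 1 else 0)) := by
  have hsum : (if v = 0 then (1 : ℂ) else 0) =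
      ∑' x : ℤ × ℤ × ℤ × ℤ, if v = 0 ∧ x = 0 then (1 : ℂ) else 0 := by
    split_ifs with hv
    · simp [hv]
    · simp [hv]
  rw [hsum]
  refine tendsto_tsum_of_dominated_convergence (D.summable_bound one_pos v) (fun x ↦ ?_) ?_
  · split_ifs with h
    · obtain ⟨rfl, rfl⟩ := h
      have : D.val4 0 0 = 0 := by
        simp [val4, D.shift_zero, ChainForm.eval, ChainForm.toReal]
      simp [this]
    · have hpos : 0 < D.val4 v x := lt_of_not_ge fun h' ↦ h (D.eq_zero_of_val4 v x h')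
      rw [tendsto_zero_iff_norm_tendsto_zero]
      simp only [D.norm_term]
      refine Real.tendsto_exp_atBot.comp (tendsto_neg_atTop_atBot.comp ?_)
      exact (tendsto_comap.const_mul_atTop (by positivity : (0 : ℝ) < 2 * Real.pi)).atTop_mul_const
        hpos
  · have hmem : ∀ᶠ τ : ℍ in atImInfty, 1 ≤ τ.im := tendsto_comap.eventually (eventually_ge_atTop 1)
    filter_upwards [hmem] with τ hτ x
    exact D.norm_term_le hτ

theorem theta_T_apply (v : ZMod p × ZMod p) (τ : ℍ) :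
    (D.theta v ∣[(2 : ℤ)] T) τ = stdAddChar (D.disc v) * D.theta v τ := by
  rw [ModularForm.SL_slash_apply, modular_T_smul]
  have hd : denom (T : SL(2, ℤ)) τ = 1 := by simp [ModularGroup.denom_apply, coe_T]
  rw [hd, one_zpow, mul_one, theta, theta, ← tsum_mul_left]
  refine tsum_congr fun x ↦ ?_
  have hv : (D.val4 v x : ℂ) =
      ((D.quad x + x.2.2.1 * v.2.val + x.2.2.2 * v.1.val : ℤ) : ℂ) +
        ((((v.1.val : ℤ) ^ 2 - D.q * v.1.val * v.2.val + D.u * D.q * (v.2.val : ℤ) ^ 2 : ℤ) : ℝ)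
          / p : ℝ) := by
    rw [val4, D.eval_shift]
    push_cast
    ring
  rw [coe_vadd, add_mul, expI_add, ofReal_one, one_mul]
  congr 1
  rw [hv, expI_add, expI_intCast, one_mul, expI_intCast_div]
  congr 1
  simp [disc]

theorem gaussFactor_prod {τ : ℂ} (hτ : τ ≠ 0) :
    gaussFactor D.form.a1 τ * (gaussFactor D.form.a2 τ * (gaussFactor D.form.a3 τ *
      gaussFactor D.form.a4 τ)) = -1 / ((p : ℂ) * τ ^ 2) := by
  have hp : (0 : ℝ) < p := Nat.cast_pos.mpr (Fact.out : p.Prime).pos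
  have hq : (0 : ℝ) < D.q := Int.cast_pos.mpr D.q_pos
  rw [gaussFactor_eq D.form.ha1 hτ, gaussFactor_eq D.form.ha2 hτ, gaussFactor_eq D.form.ha3 hτ,
    gaussFactor_eq D.form.ha4 hτ]
  have hs : Real.sqrt (2 * D.form.a1) * (Real.sqrt (2 * D.form.a2) * (Real.sqrt (2 * D.form.a3) *
      Real.sqrt (2 * D.form.a4))) = p := by
    have h2 := D.form.ha2
    have h3 := D.form.ha3
    have h1 := D.form.ha1
    rw [← Real.sqrt_mul (by positivity), ← Real.sqrt_mul (by positivity),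
      ← Real.sqrt_mul (by positivity)]
    rw [show 2 * D.form.a1 * (2 * D.form.a2 * (2 * D.form.a3 * (2 * D.form.a4))) = (p : ℝ) ^ 2 by
      simp only [form]; field_simp; ring, Real.sqrt_sq hp.le]
  have hK : ((-I * τ) ^ (1 / 2 : ℂ)) ^ 2 = -I * τ := by
    rw [one_div]
    exact_mod_cast cpow_nat_inv_pow (-I * τ) two_ne_zero
  generalize (-I * τ) ^ (1 / 2 : ℂ) = K at hK ⊢
  calc _ = 1 / (((Real.sqrt (2 * D.form.a1) * (Real.sqrt (2 * D.form.a2) *
        (Real.sqrt (2 * D.form.a3) * Real.sqrt (2 * D.form.a4))) : ℝ) : ℂ) * (K ^ 2) ^ 2) := by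
        push_cast; simp only [one_div, mul_inv]; ring
    _ = _ := by
      rw [hs, hK, mul_pow, neg_pow, I_sq]
      push_cast
      ring

theorem theta_S_apply (v : ZMod p × ZMod p) (τ : ℍ) :
    (D.theta v ∣[(2 : ℤ)] S) τ =
      -(1 / (p : ℂ)) * ∑ w : ZMod p × ZMod p, stdAddChar (D.bil v w) * D.theta w τ := by
  have hτ := τ.ne_zero
  rw [SlashInvariantForm.slash_S_apply, theta]
  have him : 0 < ((-(τ : ℂ))⁻¹).im := τ.im_inv_neg_coe_pos
  have hne : (-(τ : ℂ))⁻¹ ≠ 0 := inv_ne_zero (neg_ne_zero.mpr hτ)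
  have hpo := D.form.poisson him (D.shift v).1 (D.shift v).2.1 (D.shift v).2.2.1 (D.shift v).2.2.2
  simp only [Prod.mk.eta] at hpo
  simp only [val4] at hpo ⊢
  rw [hpo, ← mul_assoc, ← mul_assoc, ← mul_assoc, mul_assoc (gaussFactor _ _ * _),
    mul_assoc (gaussFactor _ _), D.gaussFactor_prod hne, ← D.dualEquiv.tsum_eq]
  have hterm : ∀ a : (ZMod p × ZMod p) × (ℤ × ℤ × ℤ × ℤ),
      expI (((D.dualEquiv a).1 : ℂ) * ((D.shift v).1 : ℝ) +
        ((D.dualEquiv a).2.1 : ℂ) * ((D.shift v).2.1 : ℝ) +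
        ((D.dualEquiv a).2.2.1 : ℂ) * ((D.shift v).2.2.1 : ℝ) +
        ((D.dualEquiv a).2.2.2 : ℂ) * ((D.shift v).2.2.2 : ℝ) -
        (D.form.dual (ChainForm.toReal (D.dualEquiv a)) : ℝ) / (-(τ : ℂ))⁻¹) =
      stdAddChar (D.bil v a.1) * expI ((τ : ℂ) * (D.val4 a.1 a.2 : ℂ)) := by
    intro a
    have he : D.dualEquiv a = D.dualVec a.1 a.2 := rfl
    have hpair := congrArg (fun r : ℝ ↦ (r : ℂ)) (D.pairing_dualVec v a.1 a.2)
    simp only [ofReal_add, ofReal_mul, ofReal_intCast] at hpair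
    rw [he, div_inv_eq_mul, mul_neg, sub_neg_eq_add, expI_add, hpair, D.dual_dualVec]
    congr 1
    · rw [expI_add, expI_intCast, one_mul, expI_intCast_div]
      congr 1
      simp [bil]
    · rw [mul_comm]; rfl
  rw [tsum_congr hterm]
  have hs : Summable fun a : (ZMod p × ZMod p) × (ℤ × ℤ × ℤ × ℤ) ↦
      stdAddChar (D.bil v a.1) * expI ((τ : ℂ) * (D.val4 a.1 a.2 : ℂ)) := by
    have hrow : ∀ w : ZMod p × ZMod p, Summable fun x : ℤ × ℤ × ℤ × ℤ ↦
        ‖stdAddChar (D.bil v w) * expI ((τ : ℂ) * (D.val4 w x : ℂ))‖ :=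
      fun w ↦ ((D.summable_term w τ).mul_left (stdAddChar (D.bil v w))).norm
    have hcol : Summable fun w : ZMod p × ZMod p ↦ ∑' x : ℤ × ℤ × ℤ × ℤ,
        ‖stdAddChar (D.bil v w) * expI ((τ : ℂ) * (D.val4 w x : ℂ))‖ := Summable.of_finite
    refine Summable.of_norm ?_
    rw [summable_prod_of_nonneg]
    · exact ⟨hrow, hcol⟩
    · exact fun _ ↦ norm_nonneg _
  rw [hs.tsum_prod, tsum_fintype]
  simp only [tsum_mul_left]
  rw [show ((2 : ℤ)) = ((2 : ℕ) : ℤ) from rfl, zpow_neg, zpow_natCast]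
  simp only [theta, val4]
  field_simp

/-- The Weil-representation combination `θ ∣ S T^k`. -/
def phi (k : ZMod p) (τ : ℍ) : ℂ :=
  -(1 / (p : ℂ)) * ∑ v : ZMod p × ZMod p, stdAddChar (k * D.disc v) * D.theta v τ

theorem slash_two_neg_one (f : ℍ → ℂ) : f ∣[(2 : ℤ)] (-1 : SL(2, ℤ)) = f := by
  ext τ
  rw [ModularForm.SL_slash_apply, SL_neg_smul, one_smul]
  simp [denom]

theorem theta_zero_T : D.theta 0 ∣[(2 : ℤ)] T = D.theta 0 := by
  ext τ; rw [D.theta_T_apply]; simp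

theorem theta_zero_S : D.theta 0 ∣[(2 : ℤ)] S = D.phi 0 := by
  ext τ; rw [D.theta_S_apply, phi]; simp [bil]

theorem phi_zero_S : D.phi 0 ∣[(2 : ℤ)] S = D.theta 0 := by
  have h : (S * S : SL(2, ℤ)) = -1 := by
    ext i j
    fin_cases i <;> fin_cases j <;>
      simp [Matrix.SpecialLinearGroup.coe_mul, coe_S, Matrix.mul_apply, Fin.sum_univ_two]
  rw [← D.theta_zero_S, ← SlashAction.slash_mul, h, slash_two_neg_one]

theorem slash_phi (k : ZMod p) (g : SL(2, ℤ)) (τ : ℍ) :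
    (D.phi k ∣[(2 : ℤ)] g) τ =
      -(1 / (p : ℂ)) * ∑ v, stdAddChar (k * D.disc v) * (D.theta v ∣[(2 : ℤ)] g) τ := by
  simp only [ModularForm.SL_slash_apply, phi, Finset.mul_sum, Finset.sum_mul, mul_assoc]

theorem phi_T (k : ZMod p) : D.phi k ∣[(2 : ℤ)] T = D.phi (k + 1) := by
  ext τ
  rw [D.slash_phi, phi]
  congr 1
  refine Finset.sum_congr rfl fun v _ ↦ ?_
  rw [D.theta_T_apply, ← mul_assoc, ← AddChar.map_add_eq_mul, add_mul, one_mul]

theorem phi_S {k : ZMod p} (hk : k ≠ 0) : D.phi k ∣[(2 : ℤ)] S = D.phi (-k⁻¹) := by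
  ext τ
  rw [D.slash_phi, phi]
  congr 1
  simp only [D.theta_S_apply, Finset.mul_sum]
  rw [Finset.sum_comm]
  refine Finset.sum_congr rfl fun w _ ↦ ?_
  have key : ∀ v : ZMod p × ZMod p,
      k * D.disc (v + (-(k⁻¹ * w.1), -(k⁻¹ * w.2))) + D.bil (v + (-(k⁻¹ * w.1), -(k⁻¹ * w.2))) w =
        k * D.disc v + -k⁻¹ * D.disc w := by
    intro v
    simp only [disc, bil, Prod.fst_add, Prod.snd_add]
    field_simp
    ring
  have hsum : ∑ v, stdAddChar (k * D.disc v) * stdAddChar (D.bil v w) =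
      -(p : ℂ) * stdAddChar (-k⁻¹ * D.disc w) := by
    rw [← Equiv.sum_comp (Equiv.addRight ((-(k⁻¹ * w.1), -(k⁻¹ * w.2)) : ZMod p × ZMod p))]
    simp only [Equiv.coe_addRight, ← AddChar.map_add_eq_mul, key]
    simp only [AddChar.map_add_eq_mul, ← Finset.sum_mul, D.sum_disc hk]
  have hp : (p : ℂ) ≠ 0 := Nat.cast_ne_zero.mpr (Fact.out : p.Prime).ne_zero
  have hstep : ∑ v, stdAddChar (k * D.disc v) *
      (-(1 / (p : ℂ)) * (stdAddChar (D.bil v w) * D.theta w τ)) =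
      -(1 / (p : ℂ)) * D.theta w τ * ∑ v, stdAddChar (k * D.disc v) * stdAddChar (D.bil v w) := by
    rw [Finset.mul_sum]
    exact Finset.sum_congr rfl fun v _ ↦ by ring
  rw [hstep, hsum]
  field_simp

/-- The image of `θ` under `γ`, as a function of the bottom row of `γ` modulo `p`. -/
def rowFun (c d : ZMod p) : ℍ → ℂ := if c = 0 then D.theta 0 else D.phi (d / c)

theorem rowFun_T (c d : ZMod p) : D.rowFun c d ∣[(2 : ℤ)] T = D.rowFun c (c + d) := by
  unfold rowFun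
  split_ifs with hc
  · exact D.theta_zero_T
  · rw [D.phi_T, add_div, div_self hc, add_comm]

theorem rowFun_S {c d : ZMod p} (h : c ≠ 0 ∨ d ≠ 0) :
    D.rowFun c d ∣[(2 : ℤ)] S = D.rowFun d (-c) := by
  unfold rowFun
  by_cases hc : c = 0
  · rw [if_pos hc, if_neg (h.resolve_left (not_not.mpr hc)), hc, neg_zero, zero_div,
      D.theta_zero_S]
  rw [if_neg hc]
  by_cases hd : d = 0
  · rw [if_pos hd, hd, zero_div, D.phi_zero_S]
  · rw [if_neg hd, D.phi_S (div_ne_zero hd hc), inv_div, neg_div]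

theorem bottom_ne_zero (γ : SL(2, ℤ)) :
    ((γ 1 0 : ℤ) : ZMod p) ≠ 0 ∨ ((γ 1 1 : ℤ) : ZMod p) ≠ 0 := by
  by_contra h
  push Not at h
  have hdet := congrArg (Int.cast : ℤ → ZMod p) γ.det_coe
  rw [Matrix.det_fin_two] at hdet
  simp [h.1, h.2] at hdet

theorem theta_zero_slash (γ : SL(2, ℤ)) :
    D.theta 0 ∣[(2 : ℤ)] γ = D.rowFun (γ 1 0 : ℤ) (γ 1 1 : ℤ) := by
  let P : SL(2, ℤ) → Prop := fun g ↦ ∀ γ : SL(2, ℤ),
    D.rowFun (γ 1 0 : ℤ) (γ 1 1 : ℤ) ∣[(2 : ℤ)] g =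
      D.rowFun ((γ * g) 1 0 : ℤ) ((γ * g) 1 1 : ℤ)
  suffices h : P γ by
    have := h 1
    simpa [rowFun] using this
  have hmem : γ ∈ Subgroup.closure {S, T} := by simp [SpecialLinearGroup.SL2Z_generators]
  induction hmem using Subgroup.closure_induction with
  | one => intro γ; simp
  | mem g hg =>
    intro γ
    rcases hg with rfl | rfl
    · rw [D.rowFun_S (bottom_ne_zero γ)]
      congr 1 <;> simp [Matrix.SpecialLinearGroup.coe_mul, Matrix.mul_apply, Fin.sum_univ_two, coe_S]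
    · rw [D.rowFun_T]
      congr 1 <;> simp [Matrix.SpecialLinearGroup.coe_mul, Matrix.mul_apply, Fin.sum_univ_two, coe_T]
  | mul g h _ _ ig ih =>
    intro γ
    rw [SlashAction.slash_mul, ig, ih, mul_assoc]
  | inv g _ ig =>
    intro γ
    have := ig (γ * g⁻¹)
    rw [inv_mul_cancel_right] at this
    rw [← this, ← SlashAction.slash_mul, mul_inv_cancel, SlashAction.slash_one]

theorem theta_zero_slash_of_mem {γ : SL(2, ℤ)} (hγ : γ ∈ CongruenceSubgroup.Gamma0 p) :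
    D.theta 0 ∣[(2 : ℤ)] γ = D.theta 0 := by
  rw [D.theta_zero_slash, rowFun, if_pos (CongruenceSubgroup.Gamma0_mem.mp hγ)]

theorem tendsto_theta_zero_S :
    Tendsto (D.theta 0 ∣[(2 : ℤ)] S) atImInfty (𝓝 (-(1 / (p : ℂ)))) := by
  have hphi : D.phi 0 = fun τ ↦ -(1 / (p : ℂ)) * ∑ v, D.theta v τ := by
    funext τ; simp [phi]
  have h1 : -(1 / (p : ℂ)) = -(1 / (p : ℂ)) * ∑ v : ZMod p × ZMod p, if v = 0 then 1 else 0 := by
    simp
  rw [D.theta_zero_S, hphi, h1]
  simp only [← h1]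
  conv => arg 3; rw [h1]
  exact (tendsto_finsetSum Finset.univ fun v _ ↦ D.tendsto_theta v).const_mul _

/-- The number of representations of `m` by the quaternary form. -/
def repCount (m : ℕ) : ℕ := Nat.card {x : ℤ × ℤ × ℤ × ℤ // D.quad x = m}

theorem val4_zero (x : ℤ × ℤ × ℤ × ℤ) : D.val4 0 x = D.quad x := by
  rw [val4, D.eval_shift]
  simp

theorem quad_nonneg (x : ℤ × ℤ × ℤ × ℤ) : 0 ≤ D.quad x := by
  have := D.val4_nonneg 0 x
  rw [D.val4_zero] at this
  exact_mod_cast this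

theorem finite_fiber (m : ℕ) : Finite {x : ℤ × ℤ × ℤ × ℤ // D.quad x = m} := by
  by_contra h
  rw [not_finite_iff_infinite] at h
  have hs := (D.summable_bound one_pos 0).subtype {x | D.quad x = m}
  have hc : (fun x : {x : ℤ × ℤ × ℤ × ℤ | D.quad x = m} ↦
      Real.exp (-(2 * Real.pi * 1 * D.val4 0 x))) =
      fun _ ↦ Real.exp (-(2 * Real.pi * 1 * m)) := by
    funext ⟨x, hx⟩
    rw [D.val4_zero, show D.quad x = m from hx, Int.cast_natCast]
  have h' : Summable fun _ : {x : ℤ × ℤ × ℤ × ℤ | D.quad x = m} ↦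
      Real.exp (-(2 * Real.pi * 1 * m)) := hc ▸ hs
  have : Infinite {x : ℤ × ℤ × ℤ × ℤ | D.quad x = m} := h
  exact (Real.exp_pos (-(2 * Real.pi * 1 * m))).ne'
    (tendsto_nhds_unique tendsto_const_nhds h'.tendsto_cofinite_zero)

theorem repCount_zero : D.repCount 0 = 1 := by
  rw [repCount, Nat.card_eq_one_iff_unique]
  refine ⟨⟨fun a b ↦ ?_⟩, ⟨⟨0, by simp [quad]⟩⟩⟩
  have h : ∀ a : {x : ℤ × ℤ × ℤ × ℤ // D.quad x = ((0 : ℕ) : ℤ)}, a.1 = 0 := fun a ↦
    (D.eq_zero_of_val4 0 a.1 (by rw [D.val4_zero, a.2]; simp)).2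
  exact Subtype.ext ((h a).trans (h b).symm)

theorem two_dvd_repCount {m : ℕ} (hm : m ≠ 0) : 2 ∣ D.repCount m := by
  have := D.finite_fiber m
  have := Fintype.ofFinite {x : ℤ × ℤ × ℤ × ℤ // D.quad x = m}
  rw [repCount, Nat.card_eq_fintype_card, ← ZMod.natCast_eq_zero_iff, ← Finset.card_univ,
    Finset.card_eq_sum_ones, Nat.cast_sum]
  refine Finset.sum_involution (fun x _ ↦ ⟨-x.1, by
    refine Eq.trans ?_ x.2; simp only [quad, Prod.fst_neg, Prod.snd_neg]; ring⟩)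
    (fun x _ ↦ by decide) ?_
    (fun _ _ ↦ Finset.mem_univ _) (fun x _ ↦ Subtype.ext (neg_neg _))
  intro x _ _ hx
  have h := congrArg Subtype.val hx
  have : x.1 = 0 := by
    obtain ⟨⟨a, b, e, c⟩, _⟩ := x
    simp only [Prod.neg_mk, Prod.mk.injEq, neg_eq_self] at h
    simp [h]
  have h0 := x.2
  rw [this] at h0
  simp [quad] at h0
  exact hm (by exact_mod_cast h0.symm)

theorem hasSum_theta_zero (τ : ℍ) :
    HasSum (fun m : ℕ ↦ (D.repCount m : ℂ) • Function.Periodic.qParam (1 : ℝ) (τ : ℂ) ^ m)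
      (D.theta 0 τ) := by
  have h := (D.summable_term 0 τ).hasSum
  let f : ℤ × ℤ × ℤ × ℤ → ℕ := fun x ↦ (D.quad x).toNat
  have hf : ∀ x m, f x = m ↔ D.quad x = m := fun x m ↦ by
    have := D.quad_nonneg x
    simp only [f]
    omega
  let e := Equiv.sigmaFiberEquiv f
  refine HasSum.sigma (e.hasSum_iff.mpr h) fun m ↦ ?_
  have : Finite {x : ℤ × ℤ × ℤ × ℤ // f x = m} := by
    have := D.finite_fiber m
    exact Finite.of_equiv _ (Equiv.subtypeEquivRight fun x ↦ (hf x m).symm)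
  have := Fintype.ofFinite {x : ℤ × ℤ × ℤ × ℤ // f x = m}
  have hval : ∀ c : {x : ℤ × ℤ × ℤ × ℤ // f x = m},
      expI ((τ : ℂ) * (D.val4 0 c.1 : ℂ)) = Function.Periodic.qParam (1 : ℝ) (τ : ℂ) ^ m := by
    intro c
    rw [D.val4_zero, (hf c.1 m).mp c.2, expI, Function.Periodic.qParam, ← Complex.exp_nat_mul]
    congr 1
    push_cast
    ring
  convert hasSum_fintype (fun c : {x : ℤ × ℤ × ℤ × ℤ // f x = m} ↦
    expI ((τ : ℂ) * (D.val4 0 c.1 : ℂ))) using 1
  · rfl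
  · rw [Finset.sum_congr rfl fun c _ ↦ hval c, Finset.sum_const, Finset.card_univ, nsmul_eq_mul,
      smul_eq_mul, ← Nat.card_eq_fintype_card, repCount,
      Nat.card_congr (Equiv.subtypeEquivRight fun x ↦ (hf x m))]

end FermatLib.Mazur.ThetaDatum

end
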