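import Fermat.Agent.Mazur.GaussianLatticeSum
import Mathlib.Analysis.SpecialFunctions.Complex.CircleAddChar
import Mathlib.NumberTheory.LegendreSymbol.AddCharacter
import Mathlib.NumberTheory.LegendreSymbol.QuadraticReciprocity
import Mathlib.NumberTheory.LSeries.PrimesInAP
import Mathlib.FieldTheory.Finite.Basic

/-!
The quaternary quadratic form of determinant `p²` and level `p`
(the norm form of a maximal order in the quaternion algebra ramified at `p` and infinity)
together with the discriminant form on `(ZMod p)²` and its Gauss sums.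
-/

set_option autoImplicit false
set_option linter.unusedSectionVars false

noncomputable section

namespace FermatLib.Mazur

open Gauss ZMod

/-- Integers defining a quaternary form of level `p`. -/
structure ThetaDatum (p : ℕ) where
  q : ℤ
  u : ℤ
  r : ℤ
  s : ℤ
  hq : q = 4 * u - 1
  hs : q * s = r ^ 2 + p
  hu : 0 < u
  hns : ¬ IsSquare (-(q : ZMod p))

theorem exists_thetaDatum (p : ℕ) [Fact p.Prime] (hp : p ≠ 2) : Nonempty (ThetaDatum p) := by
  have hpp : p.Prime := Fact.out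
  obtain ⟨ν, hν⟩ := FiniteField.exists_nonsquare (F := ZMod p) (by rwa [ZMod.ringChar_zmod_n])
  have hν0 : ν ≠ 0 := fun h ↦ hν (h ▸ IsSquare.zero)
  have hco : Nat.Coprime 4 p := by
    rw [show (4 : ℕ) = 2 ^ 2 by norm_num]
    exact Nat.Coprime.pow_left 2 ((Nat.coprime_primes Nat.prime_two hpp).mpr (Ne.symm hp))
  obtain ⟨a, ha4, hap⟩ := Nat.chineseRemainder hco 3 (-ν).val
  have ha' : ((a : ℕ) : ZMod p) = -ν := by
    rw [(ZMod.natCast_eq_natCast_iff _ _ _).mpr hap, ZMod.natCast_rightInverse]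
  have hacop : Nat.Coprime a (4 * p) := by
    refine Nat.Coprime.mul_right ?_ ?_
    · rw [Nat.coprime_comm, Nat.Coprime, Nat.gcd_rec, ha4]
      decide
    · rw [Nat.coprime_comm, hpp.coprime_iff_not_dvd, ← ZMod.natCast_eq_zero_iff, ha']
      exact neg_ne_zero.mpr hν0
  obtain ⟨q, hqp, hq, hqa⟩ :=
    Nat.forall_exists_prime_gt_and_modEq p (by simp [hpp.ne_zero]) hacop
  have hq4 : q % 4 = 3 := by
    have := (hqa.of_mul_right p).trans ha4
    simpa [Nat.ModEq] using this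
  have hqν : ((q : ℕ) : ZMod p) = -ν := by
    rw [(ZMod.natCast_eq_natCast_iff _ _ _).mpr (hqa.of_mul_left 4), ha']
  have : Fact q.Prime := ⟨hq⟩
  have hns : ¬ IsSquare (-((q : ℤ) : ZMod p)) := by
    rw [Int.cast_natCast, hqν, neg_neg]
    exact hν
  have h1 : legendreSym p (-(q : ℤ)) = -1 := by
    rw [legendreSym.eq_neg_one_iff, Int.cast_neg]
    exact hns
  rw [legendreSym.at_neg hp] at h1
  have h2 : legendreSym q (-(p : ℤ)) = 1 := by
    rw [legendreSym.at_neg (by omega), χ₄_nat_three_mod_four hq4,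
      legendreSym.quadratic_reciprocity' hp (by omega)]
    have hodd : Odd (q / 2) := by rw [Nat.odd_iff]; omega
    rw [mul_comm (p / 2) (q / 2), pow_mul, hodd.neg_one_pow,
      ← χ₄_eq_neg_one_pow (hpp.eq_two_or_odd.resolve_left hp)]
    linarith
  have hpq0 : ((-(p : ℤ) : ℤ) : ZMod q) ≠ 0 := by
    rw [Int.cast_neg, Int.cast_natCast, neg_ne_zero, Ne, ZMod.natCast_eq_zero_iff]
    intro h
    have := Nat.le_of_dvd hpp.pos h
    omega
  obtain ⟨y, hy⟩ := (legendreSym.eq_one_iff q hpq0).mp h2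
  have hdvd : (q : ℤ) ∣ (y.val : ℤ) ^ 2 + p := by
    rw [← ZMod.intCast_zmod_eq_zero_iff_dvd]
    push_cast
    rw [ZMod.natCast_zmod_val]
    rw [Int.cast_neg, Int.cast_natCast] at hy
    rw [pow_two, ← hy, neg_add_cancel]
  obtain ⟨s, hs⟩ := hdvd
  refine ⟨⟨q, (q + 1) / 4, y.val, s, by omega, hs.symm, by omega, hns⟩⟩

namespace ThetaDatum

variable {p : ℕ} [Fact p.Prime] (D : ThetaDatum p)

theorem ne_two (D : ThetaDatum p) : p ≠ 2 := by
  rintro rfl
  exact D.hns (FiniteField.isSquare_of_char_two (ringChar.eq (ZMod 2) 2) _)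

theorem q_pos : 0 < D.q := by linarith [D.hq, D.hu]

theorem q_ne_zero : (D.q : ZMod p) ≠ 0 := fun h ↦ D.hns (by simp [h])

theorem two_ne_zero' (D : ThetaDatum p) : (2 : ZMod p) ≠ 0 := by
  intro h
  have : ((2 : ℕ) : ZMod p) = 0 := by exact_mod_cast h
  rw [ZMod.natCast_eq_zero_iff] at this
  exact D.ne_two ((Nat.prime_dvd_prime_iff_eq Fact.out Nat.prime_two).mp this)

/-- The quaternary form, diagonalised. -/
def form : ChainForm where
  a1 := 1
  a2 := D.q / 4
  a3 := p / D.q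
  a4 := p / 4
  c1 := 1 / 2
  c2 := 2 * D.r / D.q
  c3 := D.q / 2
  ha1 := one_pos
  ha2 := div_pos (Int.cast_pos.mpr D.q_pos) four_pos
  ha3 := div_pos (Nat.cast_pos.mpr (Fact.out : p.Prime).pos) (Int.cast_pos.mpr D.q_pos)
  ha4 := div_pos (Nat.cast_pos.mpr (Fact.out : p.Prime).pos) four_pos

/-- The integral quadratic form. -/
def quad (x : ℤ × ℤ × ℤ × ℤ) : ℤ :=
  x.1 ^ 2 + x.1 * x.2.1 + D.u * x.2.1 ^ 2 + D.r * x.2.1 * x.2.2.1 + D.s * x.2.2.1 ^ 2 +
    p * x.2.2.1 * x.2.2.2 + p * D.u * x.2.2.2 ^ 2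

/-- The Gram matrix applied to a vector. -/
def gram (x : ℤ × ℤ × ℤ × ℤ) : ℤ × ℤ × ℤ × ℤ :=
  (2 * x.1 + x.2.1, x.1 + 2 * D.u * x.2.1 + D.r * x.2.2.1,
    D.r * x.2.1 + 2 * D.s * x.2.2.1 + p * x.2.2.2, p * x.2.2.1 + 2 * p * D.u * x.2.2.2)

/-- The representative in the dual lattice of a class in the discriminant group. -/
def shift (v : ZMod p × ZMod p) : ℝ × ℝ × ℝ × ℝ :=
  ((v.1.val * (-D.r) + v.2.val * (2 * D.u * D.r)) / p,
    (v.1.val * (2 * D.r) + v.2.val * (-(4 * D.u * D.r))) / p,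
    (v.1.val * (-D.q) + v.2.val * (2 * D.u * D.q)) / p,
    (v.1.val * 2 + v.2.val * (-D.q)) / p)

/-- A vector of the dual lattice, in the class `v`. -/
def dualVec (v : ZMod p × ZMod p) (x : ℤ × ℤ × ℤ × ℤ) : ℤ × ℤ × ℤ × ℤ :=
  ((D.gram x).1, (D.gram x).2.1, (D.gram x).2.2.1 + v.2.val, (D.gram x).2.2.2 + v.1.val)

/-- The discriminant form. -/
def disc (v : ZMod p × ZMod p) : ZMod p :=
  v.1 ^ 2 - D.q * v.1 * v.2 + D.u * D.q * v.2 ^ 2

/-- The bilinear form on the discriminant group. -/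
def bil (v w : ZMod p × ZMod p) : ZMod p :=
  2 * v.1 * w.1 - D.q * (v.1 * w.2 + v.2 * w.1) + 2 * D.u * D.q * v.2 * w.2

theorem hq_real : (D.u : ℝ) = ((D.q : ℝ) + 1) / 4 := by
  rw [D.hq]; push_cast; ring

theorem hs_real : (D.s : ℝ) = ((D.r : ℝ) ^ 2 + p) / D.q := by
  rw [eq_div_iff (Int.cast_ne_zero.mpr D.q_pos.ne'), mul_comm]
  exact_mod_cast D.hs

theorem eval_shift (v : ZMod p × ZMod p) (x : ℤ × ℤ × ℤ × ℤ) :
    D.form.eval (ChainForm.toReal x + D.shift v) =
      ((D.quad x + x.2.2.1 * v.2.val + x.2.2.2 * v.1.val : ℤ) : ℝ) +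
        (((v.1.val : ℤ) ^ 2 - D.q * v.1.val * v.2.val + D.u * D.q * (v.2.val : ℤ) ^ 2 : ℤ) : ℝ)
          / p := by
  have hp : (p : ℝ) ≠ 0 := Nat.cast_ne_zero.mpr (Fact.out : p.Prime).ne_zero
  have hq : (D.q : ℝ) ≠ 0 := Int.cast_ne_zero.mpr D.q_pos.ne'
  simp only [ChainForm.eval, form, shift, quad, ChainForm.toReal, Prod.fst_add, Prod.snd_add]
  push_cast
  rw [D.hq_real, D.hs_real]
  field_simp
  ring

theorem dual_dualVec (v : ZMod p × ZMod p) (x : ℤ × ℤ × ℤ × ℤ) :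
    D.form.dual (ChainForm.toReal (D.dualVec v x)) =
      D.form.eval (ChainForm.toReal x + D.shift v) := by
  have hp : (p : ℝ) ≠ 0 := Nat.cast_ne_zero.mpr (Fact.out : p.Prime).ne_zero
  have hq : (D.q : ℝ) ≠ 0 := Int.cast_ne_zero.mpr D.q_pos.ne'
  simp only [ChainForm.eval, ChainForm.dual, form, shift, dualVec, gram, ChainForm.toReal,
    Prod.fst_add, Prod.snd_add]
  push_cast
  rw [D.hq_real, D.hs_real]
  field_simp
  ring

theorem pairing_dualVec (v w : ZMod p × ZMod p) (x : ℤ × ℤ × ℤ × ℤ) :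
    ((D.dualVec w x).1 : ℝ) * (D.shift v).1 + (D.dualVec w x).2.1 * (D.shift v).2.1 +
      (D.dualVec w x).2.2.1 * (D.shift v).2.2.1 + (D.dualVec w x).2.2.2 * (D.shift v).2.2.2 =
    ((x.2.2.1 * v.2.val + x.2.2.2 * v.1.val : ℤ) : ℝ) +
      ((2 * v.1.val * w.1.val - D.q * (v.1.val * w.2.val + v.2.val * w.1.val)
        + 2 * D.u * D.q * v.2.val * w.2.val : ℤ) : ℝ) / p := by
  have hp : (p : ℝ) ≠ 0 := Nat.cast_ne_zero.mpr (Fact.out : p.Prime).ne_zero
  have hq : (D.q : ℝ) ≠ 0 := Int.cast_ne_zero.mpr D.q_pos.ne'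
  simp only [shift, dualVec, gram]
  push_cast
  rw [D.hq_real, D.hs_real]
  field_simp
  ring

/-- The matrix `p` times the inverse Gram matrix, applied to a vector. -/
def coGram (y : ℤ × ℤ × ℤ × ℤ) : ℤ × ℤ × ℤ × ℤ :=
  (2 * D.u * D.s * y.1 + (p - 4 * D.s * D.u) * y.2.1 + 2 * D.u * D.r * y.2.2.1 - D.r * y.2.2.2,
    (p - 4 * D.s * D.u) * y.1 + (-2 * p + 8 * D.s * D.u) * y.2.1 - 4 * D.u * D.r * y.2.2.1
      + 2 * D.r * y.2.2.2,
    2 * D.u * D.r * y.1 - 4 * D.u * D.r * y.2.1 + 2 * D.u * D.q * y.2.2.1 - D.q * y.2.2.2,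
    -D.r * y.1 + 2 * D.r * y.2.1 - D.q * y.2.2.1 + 2 * y.2.2.2)

theorem coGram_gram (x : ℤ × ℤ × ℤ × ℤ) :
    D.coGram (D.gram x) = (p * x.1, p * x.2.1, p * x.2.2.1, p * x.2.2.2) := by
  obtain ⟨a, b, e, c⟩ := x
  have h1 := D.hq
  have h2 := D.hs
  simp only [coGram, gram, Prod.mk.injEq]
  exact ⟨by grind, by grind, by grind, by grind⟩

theorem gram_coGram (y : ℤ × ℤ × ℤ × ℤ) :
    D.gram (D.coGram y) = (p * y.1, p * y.2.1, p * y.2.2.1, p * y.2.2.2) := by
  obtain ⟨a, b, e, c⟩ := y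
  have h1 := D.hq
  have h2 := D.hs
  simp only [coGram, gram, Prod.mk.injEq]
  exact ⟨by grind, by grind, by grind, by grind⟩

/-- The class in the discriminant group of a vector of the dual lattice. -/
def classOf (y : ℤ × ℤ × ℤ × ℤ) : ZMod p × ZMod p :=
  ((y.2.2.2 : ZMod p), (y.2.2.1 : ZMod p) + D.r * (D.q : ZMod p)⁻¹ * ((y.1 : ZMod p) - 2 * y.2.1))

theorem hq_zmod : (D.q : ZMod p) = 4 * D.u - 1 := by exact_mod_cast congrArg (Int.cast) D.hq

theorem hs_zmod : (D.q : ZMod p) * D.s = (D.r : ZMod p) ^ 2 := by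
  have := congrArg (Int.cast : ℤ → ZMod p) D.hs
  push_cast at this
  simpa using this

theorem classOf_dualVec (v : ZMod p × ZMod p) (x : ℤ × ℤ × ℤ × ℤ) :
    D.classOf (D.dualVec v x) = v := by
  obtain ⟨i, j⟩ := v
  have hq := D.q_ne_zero
  simp only [classOf, dualVec, gram]
  push_cast
  simp only [ZMod.natCast_self, zero_mul, zero_add, add_zero, ZMod.natCast_zmod_val, mul_zero,
    Prod.mk.injEq, true_and]
  field_simp
  linear_combination (x.2.1 : ZMod p) * D.r * D.hq_zmod + 2 * (x.2.2.1 : ZMod p) * D.hs_zmod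

theorem dualVec_bijective :
    Function.Bijective (fun a : (ZMod p × ZMod p) × (ℤ × ℤ × ℤ × ℤ) ↦ D.dualVec a.1 a.2) := by
  have hp : (p : ℤ) ≠ 0 := by exact_mod_cast (Fact.out : p.Prime).ne_zero
  constructor
  · rintro ⟨v, x⟩ ⟨w, y⟩ h
    simp only at h
    have hvw : v = w := by rw [← D.classOf_dualVec v x, h, D.classOf_dualVec]
    subst hvw
    have hg : D.gram x = D.gram y := by
      simp only [dualVec, Prod.mk.injEq, add_left_inj] at h
      ext
      exacts [h.1, h.2.1, h.2.2.1, h.2.2.2]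
    have := congrArg D.coGram hg
    rw [D.coGram_gram, D.coGram_gram] at this
    simp only [Prod.mk.injEq, mul_eq_mul_left_iff, or_iff_left hp] at this
    obtain ⟨h1, h2, h3, h4⟩ := this
    simp only [Prod.mk.injEq, true_and]
    exact Prod.ext h1 (Prod.ext h2 (Prod.ext h3 h4))
  · intro y
    set v := D.classOf y with hv
    set y' : ℤ × ℤ × ℤ × ℤ :=
      (y.1, y.2.1, y.2.2.1 - v.2.val, y.2.2.2 - v.1.val) with hy'
    have hq := D.q_ne_zero
    have h4 : ((y'.2.2.2 : ℤ) : ZMod p) = 0 := by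
      simp [hy', hv, classOf]
    have h3 : ((y'.2.2.1 : ℤ) : ZMod p) =
        -(D.r * (D.q : ZMod p)⁻¹ * ((y.1 : ZMod p) - 2 * y.2.1)) := by
      simp [hy', hv, classOf]
    have e1 := D.hq_zmod
    have e2 := D.hs_zmod
    have key : ((D.coGram y').1 : ZMod p) = 0 ∧ ((D.coGram y').2.1 : ZMod p) = 0 ∧
        ((D.coGram y').2.2.1 : ZMod p) = 0 ∧ ((D.coGram y').2.2.2 : ZMod p) = 0 := by
      simp only [coGram]
      push_cast
      simp only [ZMod.natCast_self, mul_zero, zero_sub, hy']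
      refine ⟨?_, ?_, ?_, ?_⟩ <;> field_simp <;> grind
    simp only [ZMod.intCast_zmod_eq_zero_iff_dvd] at key
    obtain ⟨⟨x1, hx1⟩, ⟨x2, hx2⟩, ⟨x3, hx3⟩, ⟨x4, hx4⟩⟩ := key
    refine ⟨(v, (x1, x2, x3, x4)), ?_⟩
    have hg : D.gram (x1, x2, x3, x4) = y' := by
      have h := D.gram_coGram y'
      rw [show D.coGram y' = (p * x1, p * x2, p * x3, p * x4) from
        Prod.ext hx1 (Prod.ext hx2 (Prod.ext hx3 hx4))] at h
      simp only [gram, Prod.mk.injEq] at h ⊢
      obtain ⟨g1, g2, g3, g4⟩ := h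
      ext <;> refine mul_left_cancel₀ hp ?_
      exacts [by linear_combination g1, by linear_combination g2, by linear_combination g3,
        by linear_combination g4]
    simp only [dualVec, hg, hy', sub_add_cancel]

/-- The bijection between (class, lattice vector) and the dual lattice. -/
def dualEquiv : (ZMod p × ZMod p) × (ℤ × ℤ × ℤ × ℤ) ≃ ℤ × ℤ × ℤ × ℤ :=
  Equiv.ofBijective _ D.dualVec_bijective

@[simp] theorem disc_zero : D.disc 0 = 0 := by simp [disc]

theorem exists_sq_add_mul_sq (t : ZMod p) : ∃ x y : ZMod p, x ^ 2 + D.q * y ^ 2 = t := by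
  obtain ⟨a, b, hab⟩ := FiniteField.exists_root_sum_quadratic
    (f := Polynomial.X ^ 2 - Polynomial.C t) (g := Polynomial.C (D.q : ZMod p) * Polynomial.X ^ 2)
    (Polynomial.degree_X_pow_sub_C two_pos t)
    (by rw [Polynomial.degree_C_mul_X_pow 2 D.q_ne_zero]; rfl)
    (by rw [ZMod.card]; exact Nat.odd_iff.mp ((Fact.out : p.Prime).odd_of_ne_two D.ne_two))
  refine ⟨a, b, ?_⟩
  simp only [Polynomial.eval_sub, Polynomial.eval_pow, Polynomial.eval_X, Polynomial.eval_C,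
    Polynomial.eval_mul] at hab
  linear_combination hab

theorem sq_add_mul_sq_eq_zero_iff (z : ZMod p × ZMod p) :
    z.1 ^ 2 + D.q * z.2 ^ 2 = 0 ↔ z = 0 := by
  refine ⟨fun h ↦ ?_, fun h ↦ by simp [h]⟩
  by_cases h2 : z.2 = 0
  · exact Prod.ext (by simpa [h2] using h) h2
  · refine absurd ⟨z.1 / z.2, ?_⟩ D.hns
    field_simp
    linear_combination -h

/-- The Gauss sum of the discriminant form. -/
theorem sum_disc {k : ZMod p} (hk : k ≠ 0) :
    ∑ v : ZMod p × ZMod p, stdAddChar (k * D.disc v) = -(p : ℂ) := by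
  classical
  set N : ZMod p × ZMod p → ZMod p := fun z ↦ z.1 ^ 2 + D.q * z.2 ^ 2 with hN
  set S : ZMod p → ℂ := fun k ↦ ∑ z, stdAddChar (k * N z) with hS
  have hmul : ∀ t k : ZMod p, t ≠ 0 → S (k * t) = S k := by
    intro t k ht
    obtain ⟨x0, y0, h0⟩ := D.exists_sq_add_mul_sq t
    let m : ZMod p × ZMod p → ZMod p × ZMod p := fun z ↦
      (z.1 * x0 - D.q * z.2 * y0, z.1 * y0 + z.2 * x0)
    have hm : ∀ z, N (m z) = t * N z := fun z ↦ by
      simp only [hN, m, ← h0]; ring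
    have hinj : Function.Injective m := by
      intro a b hab
      have h1 := congrArg Prod.fst hab
      have h2 := congrArg Prod.snd hab
      simp only [m] at h1 h2
      refine Prod.ext (mul_left_cancel₀ ht ?_) (mul_left_cancel₀ ht ?_) <;> rw [← h0]
      · linear_combination x0 * h1 + D.q * y0 * h2
      · linear_combination -y0 * h1 + x0 * h2
    refine Fintype.sum_equiv (Equiv.ofBijective m (Finite.injective_iff_bijective.mp hinj))
      _ _ fun z ↦ ?_
    change stdAddChar (k * t * N z) = stdAddChar (k * N (m z))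
    rw [hm, mul_assoc]
  have hS0 : S 0 = (p : ℂ) ^ 2 := by
    simp [hS, pow_two]
  have hall : ∑ k : ZMod p, S k = p := by
    simp only [hS]
    rw [Finset.sum_comm]
    simp only [AddChar.sum_mulShift _ (isPrimitive_stdAddChar p), ZMod.card]
    rw [Finset.sum_eq_single 0]
    · simp [hN]
    · exact fun z _ hz ↦ by rw [if_neg (by simpa [hN, D.sq_add_mul_sq_eq_zero_iff] using hz)]; simp
    · simp
  have hS1 : S 1 = -(p : ℂ) := by
    rw [← Finset.add_sum_erase _ _ (Finset.mem_univ (0 : ZMod p)),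
      Finset.sum_congr rfl (g := fun _ ↦ S 1) (fun k hk ↦ by
        rw [← one_mul k, hmul k 1 (Finset.ne_of_mem_erase hk)]),
      Finset.sum_const, Finset.card_erase_of_mem (Finset.mem_univ _), Finset.card_univ, ZMod.card,
      hS0, nsmul_eq_mul, Nat.cast_sub (Fact.out : p.Prime).one_le, Nat.cast_one] at hall
    have hp1 : (p : ℂ) - 1 ≠ 0 := by
      rw [sub_ne_zero]; exact_mod_cast (Fact.out : p.Prime).ne_one
    exact mul_left_cancel₀ hp1 (by linear_combination hall)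
  have h2 := D.two_ne_zero'
  have hc : Function.Injective fun v : ZMod p × ZMod p ↦ (2 * v.1 - D.q * v.2, v.2) := by
    intro a b h
    simp only [Prod.mk.injEq] at h
    refine Prod.ext (mul_left_cancel₀ h2 ?_) h.2
    linear_combination h.1 + (D.q : ZMod p) * h.2
  have h4 : (4 : ZMod p) ≠ 0 := by
    rw [show (4 : ZMod p) = 2 * 2 by norm_num]; exact mul_ne_zero h2 h2
  calc ∑ v, stdAddChar (k * D.disc v) = S (k / 4) := by
        refine Fintype.sum_equiv
          (Equiv.ofBijective _ (Finite.injective_iff_bijective.mp hc)) _ _ fun v ↦ ?_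
        rw [Equiv.ofBijective_apply]
        simp only [hN, disc]
        congr 1
        field_simp
        linear_combination (-(D.q : ZMod p) * v.2 ^ 2) * D.hq_zmod
    _ = -(p : ℂ) := by
        rw [← one_mul (k / 4), hmul _ _ (div_ne_zero hk h4), hS1]

end ThetaDatum

end FermatLib.Mazur

end
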