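import Fermat.Agent.Mazur.Defs
import Fermat.Agent.Mazur.GunitKummerRam

/-!
# Units at places of `ℚ̄` and the inertia field

An element fixed by inertia at a place over `q` is a power of `q` times a unit.
-/

set_option autoImplicit false
set_option linter.style.haveILetI false

noncomputable section

open scoped NumberField Pointwise

namespace FermatLib.Mazur

local notation "Qbar" => AlgebraicClosure ℚ
local notation "Γℚ" => (AlgebraicClosure ℚ ≃ₐ[ℚ] AlgebraicClosure ℚ)

section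

variable {A : ValuationSubring Qbar}

theorem isUnitAt_iff_valuation {x : Qbar} : IsUnitAt A x ↔ A.valuation x = 1 := by
  constructor
  · rintro ⟨hx, h1, h2⟩
    rw [← A.valuation_le_one_iff] at h1 h2
    rw [map_inv₀, inv_le_one₀ (zero_lt_iff.mpr (A.valuation.ne_zero_iff.mpr hx))] at h2
    exact le_antisymm h1 h2
  · intro h
    refine ⟨fun hx => by simp [hx] at h, ?_, ?_⟩
    · exact (A.valuation_le_one_iff _).mp h.le
    · exact (A.valuation_le_one_iff _).mp (by rw [map_inv₀, h, inv_one])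

theorem IsUnitAt.mul {x y : Qbar} (hx : IsUnitAt A x) (hy : IsUnitAt A y) :
    IsUnitAt A (x * y) := by
  rw [isUnitAt_iff_valuation] at *
  rw [map_mul, hx, hy, one_mul]

theorem IsUnitAt.inv {x : Qbar} (hx : IsUnitAt A x) : IsUnitAt A x⁻¹ := by
  rw [isUnitAt_iff_valuation] at *
  rw [map_inv₀, hx, inv_one]

theorem IsUnitAt.div {x y : Qbar} (hx : IsUnitAt A x) (hy : IsUnitAt A y) :
    IsUnitAt A (x / y) := by
  rw [div_eq_mul_inv]
  exact hx.mul hy.inv

theorem IsUnitAt.pow {x : Qbar} (hx : IsUnitAt A x) (n : ℕ) : IsUnitAt A (x ^ n) := by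
  rw [isUnitAt_iff_valuation] at *
  rw [map_pow, hx, one_pow]

theorem IsUnitAt.one : IsUnitAt A (1 : Qbar) := isUnitAt_iff_valuation.mpr (map_one _)

theorem IsUnitAt.of_pow {x : Qbar} {n : ℕ} (hn : n ≠ 0) (h : IsUnitAt A (x ^ n)) :
    IsUnitAt A x := by
  rw [isUnitAt_iff_valuation, map_pow] at *
  exact (pow_eq_one_iff.mp h).resolve_right hn

theorem isUnitAt_of_notMem_nonunits {x : Qbar} (hx : x ∈ A) (h : x ∉ A.nonunits) :
    IsUnitAt A x := by
  rw [isUnitAt_iff_valuation]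
  rw [ValuationSubring.mem_nonunits_iff, not_lt] at h
  exact le_antisymm ((A.valuation_le_one_iff _).mpr hx) h

/-- Powers of the residue characteristic are units only in exponent zero. -/
theorem eq_zero_of_isUnitAt_zpow {q : ℕ} (hA : A.LiesOverPrime q) {m : ℤ}
    (h : IsUnitAt A ((q : Qbar) ^ m)) : m = 0 := by
  rw [isUnitAt_iff_valuation, map_zpow₀] at h
  have hlt : A.valuation (q : Qbar) < 1 := A.mem_nonunits_iff.mp hA
  by_contra hm
  rcases lt_or_gt_of_ne hm with hm | hm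
  · obtain ⟨k, rfl⟩ : ∃ k : ℕ, m = -(k : ℤ) := ⟨m.natAbs, by omega⟩
    rw [zpow_neg, zpow_natCast, inv_eq_one] at h
    exact ne_of_lt (pow_lt_one₀ zero_le hlt (by omega)) h
  · obtain ⟨k, rfl⟩ : ∃ k : ℕ, m = (k : ℤ) := ⟨m.natAbs, by omega⟩
    rw [zpow_natCast] at h
    exact ne_of_lt (pow_lt_one₀ zero_le hlt (by omega)) h

theorem isUnitAt_intCast {q : ℕ} (hq : q.Prime) (hA : A.LiesOverPrime q) {N : ℤ}
    (hN : ¬ (q : ℤ) ∣ N) : IsUnitAt A (N : Qbar) :=
  isUnitAt_of_notMem_nonunits (intCast_mem A.toSubring N) (intCast_notMem_nonunits hq hA hN)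

/-- If a rational number is a power of `q` times a unit, the exponent is its valuation. -/
theorem padicValRat_eq_of_isUnitAt {q : ℕ} (hq : q.Prime) (hA : A.LiesOverPrime q) {a : ℚ}
    (ha : a ≠ 0) {m : ℤ} (h : IsUnitAt A (algebraMap ℚ Qbar a * (q : Qbar) ^ (-m))) :
    padicValRat q a = m := by
  obtain ⟨u, v, hu, hv, huv⟩ := exists_rat_unit_decomp hq ha
  set e := padicValRat q a
  have hq0 : (q : Qbar) ≠ 0 := Nat.cast_ne_zero.mpr hq.ne_zero
  have h1 := congrArg (algebraMap ℚ Qbar) huv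
  simp only [map_mul, map_zpow₀, map_natCast, map_intCast] at h1
  have hU := (isUnitAt_intCast hq hA hu).div (isUnitAt_intCast hq hA hv)
  have hv0 : (v : Qbar) ≠ 0 := (isUnitAt_intCast hq hA hv).1
  have h2 : (q : Qbar) ^ (e - m) =
      algebraMap ℚ Qbar a * (q : Qbar) ^ (-m) / ((u : Qbar) / (v : Qbar)) := by
    have hu0 : (u : Qbar) ≠ 0 := (isUnitAt_intCast hq hA hu).1
    rw [sub_eq_add_neg, zpow_add₀ hq0, eq_div_iff (div_ne_zero hu0 hv0), ← mul_div_assoc,
      div_eq_iff hv0]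
    linear_combination -((q : Qbar) ^ (-m)) * h1
  have := eq_zero_of_isUnitAt_zpow hA (h2 ▸ h.div hU)
  omega

/-- Decomposition elements do not change valuations. -/
theorem valuation_apply_lt_one {g : Γℚ} (hg : g ∈ A.decompositionSubgroup ℚ) {x : Qbar}
    (hx : x ∈ A.nonunits) : g x ∈ A.nonunits := by
  have hxA : x ∈ A := A.nonunits_subset hx
  have h1 := (A.coe_mem_nonunits_iff (a := ⟨x, hxA⟩)).mp hx
  refine (A.coe_mem_nonunits_iff (a := (⟨g, hg⟩ : A.decompositionSubgroup ℚ) • ⟨x, hxA⟩)).mpr ?_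
  rw [IsLocalRing.mem_maximalIdeal, mem_nonunits_iff] at h1 ⊢
  intro hu
  refine h1 ?_
  have := hu.map (MulSemiringAction.toRingHom _ A (⟨g, hg⟩ : A.decompositionSubgroup ℚ)⁻¹)
  simpa using this

end

set_option linter.unusedVariables false in
/-- Frobenius-type elements preserve valuations. -/
theorem isUnitAt_apply_div {q : ℕ} (hq : q.Prime) {A : ValuationSubring Qbar}
    (hA : A.LiesOverPrime q) {g : Γℚ} (hg : g ∈ A.decompositionSubgroup ℚ) {x : Qbar}
    (hx : x ≠ 0) : IsUnitAt A (g x / x) := by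
  haveI := isGalois_qbar
  haveI := normal_qbar
  haveI : Algebra.IsAlgebraic ℚ Qbar := AlgebraicClosure.isAlgebraic ℚ
  obtain ⟨F, _, _, hF⟩ := exists_galois_level_le (MulAction.stabilizer Γℚ x)
    (stabilizer_isOpen_of_isIntegral x)
  obtain ⟨N, hN, hgN⟩ : ∃ N, 0 < N ∧ (g ^ N) x = x := by
    refine ⟨_, orderOf_pos (AlgEquiv.restrictNormalHom F g), ?_⟩
    show (g ^ orderOf (AlgEquiv.restrictNormalHom F g)) • x = x
    apply MulAction.mem_stabilizer_iff.mp
    apply hF
    rw [← restrictNormalHom_eq_one_iff, map_pow, pow_orderOf_eq_one]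
  have key : ∀ y : Qbar, y ≠ 0 → (g ^ N) y = y → g y / y ∉ A.nonunits := by
    intro y hy hyN hmem
    have hstep : ∀ k : ℕ, 0 < k → (g ^ k) y / y ∈ A.nonunits := by
      intro k hk
      induction k with
      | zero => omega
      | succ k ih =>
        rcases Nat.eq_zero_or_pos k with rfl | hk'
        · simpa using hmem
        have h1 := valuation_apply_lt_one hg (ih hk')
        have e : (g ^ (k + 1)) y / y = g ((g ^ k) y / y) * (g y / y) := by
          have hgy : g y ≠ 0 := (map_ne_zero g).mpr hy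
          rw [map_div₀, pow_succ', AlgEquiv.mul_apply]
          field_simp
        rw [e, ValuationSubring.mem_nonunits_iff, map_mul]
        exact lt_of_le_of_lt (mul_le_of_le_one_right zero_le
          (A.mem_nonunits_iff.mp hmem).le) (A.mem_nonunits_iff.mp h1)
    have := hstep N hN
    rw [hyN, div_self hy] at this
    exact one_notMem_nonunits A this
  have h1 := key x hx hgN
  have h2 := key x⁻¹ (inv_ne_zero hx) (by rw [map_inv₀, hgN])
  have hne : g x / x ≠ 0 := div_ne_zero ((map_ne_zero g).mpr hx) hx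
  refine isUnitAt_of_notMem_nonunits ?_ h1
  by_contra hA'
  apply h2
  have e : g x⁻¹ / x⁻¹ = (g x / x)⁻¹ := by rw [map_inv₀, inv_div_inv, inv_div]
  rw [e, ValuationSubring.inv_mem_nonunits_iff]
  exact Or.inr hA'

section InertiaField

variable {F : IntermediateField ℚ Qbar} [NumberField F] [IsGalois ℚ F]

/-- In the inertia field `q` is a uniformiser at the prime below. -/
theorem natCast_notMem_sq_under {q : ℕ} (hq : q.Prime) (P : Ideal (𝓞 F)) [P.IsPrime]
    (hqP : (q : 𝓞 F) ∈ P) :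
    (q : 𝓞 (FixedPoints.intermediateField (P.inertia Gal(F/ℚ)) : IntermediateField ℚ F)) ∉
      (P.under (𝓞 (FixedPoints.intermediateField (P.inertia Gal(F/ℚ)) :
        IntermediateField ℚ F))) ^ 2 := by
  let J := P.inertia Gal(F/ℚ)
  let E : IntermediateField ℚ F := FixedPoints.intermediateField J
  haveI : NumberField E := ⟨⟩
  haveI hGal : IsGaloisGroup J E F := IsGaloisGroup.subgroup Gal(F/ℚ) ℚ F J
  haveI : IsGaloisGroup J (𝓞 E) (𝓞 F) := IsGaloisGroup.of_isFractionRing J (𝓞 E) (𝓞 F) E F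
  haveI : IsGaloisGroup Gal(F/ℚ) ℤ (𝓞 F) :=
    IsGaloisGroup.of_isFractionRing Gal(F/ℚ) ℤ (𝓞 F) ℚ F
  let L : Ideal ℤ := Ideal.span {(q : ℤ)}
  have hLmax : L.IsMaximal :=
    PrincipalIdealRing.isMaximal_of_irreducible (Nat.prime_iff_prime_int.mp hq).irreducible
  have hL0 : L ≠ ⊥ := by simp [L, hq.ne_zero]
  haveI hPL : P.LiesOver L := ⟨hLmax.eq_of_le (Ideal.comap_ne_top _ (Ideal.IsPrime.ne_top ‹_›))
    (by rw [Ideal.span_singleton_le_iff_mem, Ideal.mem_comap]; simpa using hqP)⟩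
  let 𝔭 : Ideal (𝓞 E) := P.under (𝓞 E)
  haveI : 𝔭.IsPrime := Ideal.IsPrime.under (𝓞 E) P
  haveI : 𝔭.LiesOver L := Ideal.LiesOver.tower_bot P 𝔭 L
  have h𝔭0 : 𝔭 ≠ ⊥ := Ideal.ne_bot_of_liesOver_of_ne_bot hL0 𝔭
  haveI : 𝔭.IsMaximal := Ideal.IsPrime.isMaximal inferInstance h𝔭0
  haveI : Finite (ℤ ⧸ L) := Ideal.finiteQuotientOfFreeOfNeBot _ hL0
  haveI : Finite (𝓞 E ⧸ 𝔭) := Ideal.finiteQuotientOfFreeOfNeBot _ h𝔭0
  have htopJ : P.inertia J = ⊤ := by
    rw [eq_top_iff]
    intro σ _ x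
    exact σ.2 x
  have hcard1 := Ideal.card_inertia_eq_ramificationIdxIn (G := J) 𝔭 P
  rw [htopJ, Subgroup.card_top, Ideal.ramificationIdxIn_eq_ramificationIdx 𝔭 P J] at hcard1
  have hcard2 := Ideal.card_inertia_eq_ramificationIdxIn (G := Gal(F/ℚ)) L P
  rw [Ideal.ramificationIdxIn_eq_ramificationIdx L P Gal(F/ℚ)] at hcard2
  have htower := Ideal.ramificationIdx_tower (R := ℤ) 𝔭 P
  rw [← hcard1, ← hcard2] at htower
  have he : 𝔭.ramificationIdx ℤ = 1 := by
    have hpos : 0 < Nat.card J := Nat.card_pos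
    exact (mul_eq_right₀ hpos.ne').mp htower.symm
  rw [← Ideal.ramificationIdx'_eq_ramificationIdx L 𝔭 hL0] at he
  have hmap : L.map (algebraMap ℤ (𝓞 E)) = Ideal.span {(q : 𝓞 E)} := by
    simp [L, Ideal.map_span]
  intro h
  refine (Ideal.ramificationIdx'_ne_one_iff (p := L) (P := 𝔭) ?_).mpr ?_ he
  · exact Ideal.map_le_of_le_comap (Ideal.over_def 𝔭 L).le
  · rw [hmap, Ideal.span_singleton_le_iff_mem]; exact h

end InertiaField

/-- A Dedekind domain element is, up to a factor prime to `𝔭`, a power of a local uniformiser. -/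
theorem exists_mul_eq_pow_mul {B : Type*} [CommRing B] [IsDedekindDomain B] {P : Ideal B}
    [P.IsPrime] {π : B} (hπ : π ∈ P) (hπ' : π ∉ P ^ 2) {a : B} (ha : a ≠ 0) :
    ∃ (m : ℕ) (t s : B), t ∉ P ∧ s ∉ P ∧ a * t = π ^ m * s := by
  have hP : P ≠ ⊥ := by rintro rfl; exact hπ' (by simp_all)
  obtain ⟨n, hn⟩ : ∃ n, a ∉ P ^ n := by
    by_contra! h
    refine ha ?_
    rw [← Ideal.mem_bot, ← Ideal.iInf_pow_eq_bot_of_isDomain P (Ideal.IsPrime.ne_top ‹_›),
      Submodule.mem_iInf]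
    exact h
  induction n generalizing a with
  | zero => simp at hn
  | succ n ih =>
    by_cases haP : a ∈ P
    · obtain ⟨I, hI⟩ := Ideal.dvd_iff_le.mpr ((Ideal.span_singleton_le_iff_mem P).mpr hπ)
      have hIP : ¬ I ≤ P := fun h => hπ' (by
        have : Ideal.span {π} ≤ P ^ 2 := by
          rw [hI, pow_two]; exact Ideal.mul_mono_right h
        exact this (Ideal.mem_span_singleton_self π))
      obtain ⟨t, htI, htP⟩ := Set.not_subset.mp hIP
      have hat : a * t ∈ Ideal.span {π} := by rw [hI]; exact Ideal.mul_mem_mul haP htI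
      obtain ⟨a', ha'⟩ := Ideal.mem_span_singleton'.mp hat
      have ha'0 : a' ≠ 0 := by
        rintro rfl
        rw [zero_mul] at ha'
        rcases mul_eq_zero.mp ha'.symm with h | h
        · exact ha h
        · exact htP (h ▸ P.zero_mem)
      have ha'n : a' ∉ P ^ n := fun h => htP (by
        refine Ideal.mem_prime_of_mul_mem_pow (a := a) (b := t) hP hn ?_
        rw [← ha', pow_succ]; exact Ideal.mul_mem_mul h hπ)
      obtain ⟨m, t', s, ht', hs, he⟩ := ih ha'0 ha'n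
      refine ⟨m + 1, t * t', s, fun h => ?_, hs, ?_⟩
      · exact ((Ideal.IsPrime.mem_or_mem ‹_› h).elim htP ht').elim
      · linear_combination π * he - t' * ha'
    · exact ⟨0, 1, a, fun h => Ideal.IsPrime.ne_top ‹_› ((Ideal.eq_top_iff_one _).mpr h), haP,
        by simp⟩

/-- An element fixed by inertia at a place over `q` is a power of `q` times a unit. -/
theorem exists_zpow_mul_unit_of_inertia_fixed {q : ℕ} (hq : q.Prime)
    {A : ValuationSubring Qbar} (hA : A.LiesOverPrime q) {x : Qbar} (hx : x ≠ 0)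
    (hfix : ∀ σ ∈ A.inertiaSubgroupIn ℚ, σ x = x) :
    ∃ m : ℤ, IsUnitAt A (x * (q : Qbar) ^ (-m)) := by
  haveI := isGalois_qbar
  haveI := normal_qbar
  haveI : Algebra.IsAlgebraic ℚ Qbar := AlgebraicClosure.isAlgebraic ℚ
  obtain ⟨F, _, _, hF⟩ := exists_galois_level_le (MulAction.stabilizer Γℚ x)
    (stabilizer_isOpen_of_isIntegral x)
  haveI : NumberField F := ⟨⟩
  have hxF : x ∈ F := by
    rw [← InfiniteGalois.fixedField_fixingSubgroup F, IntermediateField.mem_fixedField_iff]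
    exact fun h hh => MulAction.mem_stabilizer_iff.mp (hF hh)
  let P := levelPrime F A
  have hqP : (q : 𝓞 F) ∈ P := natCast_mem_levelPrime hA
  let E : IntermediateField ℚ F := FixedPoints.intermediateField (P.inertia Gal(F/ℚ))
  have hxE : (⟨x, hxF⟩ : F) ∈ E := by
    intro τ
    obtain ⟨σ, hσ, hστ⟩ := FermatLib.EC.exists_inertia_lift_at F hq A hA P
      (fun a ha => mem_levelPrime_iff.mp ha) (τ : Gal(F/ℚ)) (fun c c' hcc' => by
        have : c' = (τ : Gal(F/ℚ)) • c := NumberField.RingOfIntegers.ext hcc'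
        rw [this]; exact τ.2 c)
    apply Subtype.ext
    exact (hστ ⟨x, hxF⟩).symm.trans (hfix σ hσ)
  haveI : NumberField E := ⟨⟩
  let 𝔭 : Ideal (𝓞 E) := P.under (𝓞 E)
  haveI : 𝔭.IsPrime := Ideal.IsPrime.under (𝓞 E) P
  obtain ⟨a, b, hb, hab⟩ := IsFractionRing.div_surjective (A := 𝓞 E) (⟨⟨x, hxF⟩, hxE⟩ : E)
  let ι : 𝓞 E →+* Qbar :=
    ((algebraMap F Qbar).comp (algebraMap E F)).comp (algebraMap (𝓞 E) E)
  have hι : Function.Injective ι :=
    ((algebraMap F Qbar).injective.comp (algebraMap E F).injective).comp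
      (IsFractionRing.injective (𝓞 E) E)
  have hx_eq : ι a / ι b = x := by
    have := congrArg ((algebraMap F Qbar).comp (algebraMap E F)) hab
    rw [map_div₀] at this
    exact this
  have hb0 : b ≠ 0 := nonZeroDivisors.ne_zero hb
  have ha0 : a ≠ 0 := by rintro rfl; rw [map_zero, zero_div] at hx_eq; exact hx hx_eq.symm
  have hmem : ∀ c : 𝓞 E, c ∉ 𝔭 → IsUnitAt A (ι c) := fun c hc => by
    have hint : IsIntegral ℤ (ι c) := c.2.map
      ((algebraMap F Qbar).comp (algebraMap E F)).toIntAlgHom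
    refine isUnitAt_of_notMem_nonunits (FermatLib.EC.integral_mem_valuationSubring A hint) ?_
    intro h
    exact hc (Ideal.mem_comap.mpr (mem_levelPrime_iff.mpr h))
  have hpow : ∀ c : 𝓞 E, c ≠ 0 → ∃ m : ℕ, IsUnitAt A (ι c / (q : Qbar) ^ m) := fun c hc => by
    obtain ⟨m, t, s, ht, hs, he⟩ := exists_mul_eq_pow_mul (P := 𝔭) (π := (q : 𝓞 E))
      (Ideal.mem_comap.mpr (by simpa using hqP)) (natCast_notMem_sq_under hq P hqP) hc
    have he' := congrArg ι he
    rw [map_mul, map_mul, map_pow, map_natCast] at he'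
    refine ⟨m, ?_⟩
    have e : ι c / (q : Qbar) ^ m = ι s / ι t := by
      rw [div_eq_div_iff (pow_ne_zero _ (Nat.cast_ne_zero.mpr hq.ne_zero)) (hmem t ht).1, he']
      ring
    rw [e]
    exact (hmem s hs).div (hmem t ht)
  obtain ⟨i, hi⟩ := hpow a ha0
  obtain ⟨j, hj⟩ := hpow b hb0
  refine ⟨(i : ℤ) - j, ?_⟩
  have hq0 : (q : Qbar) ≠ 0 := Nat.cast_ne_zero.mpr hq.ne_zero
  have hιb : ι b ≠ 0 := (map_ne_zero_iff ι hι).mpr hb0
  have e : x * (q : Qbar) ^ (-((i : ℤ) - j)) = (ι a / (q : Qbar) ^ i) / (ι b / (q : Qbar) ^ j) := by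
    rw [← hx_eq, neg_sub, zpow_sub₀ hq0, zpow_natCast, zpow_natCast]
    field_simp
  rw [e]
  exact hi.div hj

/-- A root of a rational number fixed up to a unit by inertia: the valuation is divisible. -/
theorem dvd_padicValRat_of_inertia_at {q n : ℕ} (hq : q.Prime) {A : ValuationSubring Qbar}
    (hA : A.LiesOverPrime q) {a : ℚ} (ha : a ≠ 0) {α β : Qbar}
    (hα : α ^ n = algebraMap ℚ Qbar a) (hn : n ≠ 0) (hβ : IsUnitAt A β)
    (h : ∀ σ ∈ A.inertiaSubgroupIn ℚ, σ α / α = σ β / β) :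
    (n : ℤ) ∣ padicValRat q a := by
  have hα0 : α ≠ 0 := by
    rintro rfl
    rw [zero_pow hn, eq_comm, map_eq_zero] at hα
    exact ha hα
  obtain ⟨m, hm⟩ := exists_zpow_mul_unit_of_inertia_fixed hq hA (div_ne_zero hα0 hβ.1)
    (fun σ hσ => by
      have := h σ hσ
      rw [div_eq_div_iff hα0 hβ.1] at this
      rw [map_div₀, div_eq_div_iff ((map_ne_zero σ).mpr hβ.1) hβ.1]
      linear_combination this)
  refine ⟨m, padicValRat_eq_of_isUnitAt hq hA ha ?_⟩
  have e : algebraMap ℚ Qbar a * (q : Qbar) ^ (-((n : ℤ) * m)) =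
      (α / β * (q : Qbar) ^ (-m)) ^ n * β ^ n := by
    rw [mul_pow, div_pow, hα, ← zpow_natCast ((q : Qbar) ^ (-m)), ← zpow_mul,
      show -((n : ℤ) * m) = -m * (n : ℤ) by ring]
    field_simp [pow_ne_zero n hβ.1]
  rw [e]
  exact (hm.pow n).mul (hβ.pow n)

end FermatLib.Mazur
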