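import Fermat.Prelude.Def_EllipticCurve_ZeroComponentAt
import Fermat.Prelude.Def_FLTPrelim_Ramification
import Fermat.Prelude.Def_ModularCurve_ReductionModL
import Fermat.Prelude.Def_ModularCurve_HeckeModule
import Fermat.Agent.Mazur.Classes.CuspClass
import Fermat.Agent.Mazur.Classes.LocalPsi
import Fermat.Agent.Mazur.Classes.ModuliPlace
import Fermat.Agent.Mazur.Classes.ReducedClasses

/-!
# The cuspidal class and the class of a rational point of `X₀(p)`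
-/

set_option autoImplicit false

noncomputable section

namespace FermatLib.Mazur

open ModularCurve
open scoped WeierstrassCurve.Affine

local notation "Qbar" => AlgebraicClosure ℚ
local notation "Γℚ" => (AlgebraicClosure ℚ ≃ₐ[ℚ] AlgebraicClosure ℚ)

/-- The classes `C = (c') - (c)` and `y = (x) - (c)` on `J₀(p)` attached to a curve with a rational
point of order `p`: `c` is the cusp to which `x` reduces where the point misses the identity
component. -/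
structure IsMazurClasses (p : ℕ) [NeZero p] (W : WeierstrassCurve ℤ)
    (Q : ((W.map (Int.castRingHom ℚ))⁄Qbar).Point) (C y : JZero p) : Prop where
  ne_zero : C ≠ 0
  nsmul_eq_zero : (p - 1) • C = 0
  fixed : ∀ σ : Γℚ, σ • C = C
  eigen : ∀ ℓ : Nat.Primes,
    (letI := heckeModuleBar p; heckeGen ℓ • C) = eisensteinSystem p ℓ • C
  fixed_point : ∀ σ : Γℚ, σ • y = y
  red_of_not_inZero : ∀ ℓ : ℕ, ℓ.Prime → ℓ ≠ p → (ℓ : ℤ) ∣ W.Δ → ¬ (ℓ : ℤ) ∣ W.c₄ →
    ∀ A : ValuationSubring Qbar, A.LiesOverPrime ℓ → ¬ W.InZeroComponentAt A Q →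
      reductionModL A p y = 0
  red_of_inZero : ∀ ℓ : ℕ, ℓ.Prime → ℓ ≠ p → (ℓ : ℤ) ∣ W.Δ → ¬ (ℓ : ℤ) ∣ W.c₄ →
    ∀ A : ValuationSubring Qbar, A.LiesOverPrime ℓ → W.InZeroComponentAt A Q →
      reductionModL A p y = reductionModL A p C

theorem exists_isMazurClasses {p : ℕ} [NeZero p] (hp : p.Prime)
    (hp' : p ∉ ({2, 3, 5, 7, 13} : Finset ℕ)) (W : WeierstrassCurve ℤ) (hΔ : W.Δ ≠ 0)
    (Q : ((W.map (Int.castRingHom ℚ))⁄Qbar).Point) (hQfix : ∀ σ : Γℚ, σ • Q = Q)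
    (hQord : addOrderOf Q = p) (h2Δ : (2 : ℤ) ∣ W.Δ) (h2c₄ : ¬ (2 : ℤ) ∣ W.c₄)
    {ℓ : ℕ} (hℓ : ℓ.Prime) (hℓp : ℓ ≠ p) (hℓΔ : (ℓ : ℤ) ∣ W.Δ) (hℓc₄ : ¬ (ℓ : ℤ) ∣ W.c₄)
    (A : ValuationSubring Qbar) (hA : A.LiesOverPrime ℓ) (hℓ0 : W.InZeroComponentAt A Q) :
    ∃ C y : JZero p, IsMazurClasses p W Q C y := by
  obtain ⟨ι⟩ := Classes.exists_embedding_Qbar
  have hp2 : p ≠ 2 := fun h => hp' (by simp [h])
  have hc₄ : W.c₄ ≠ 0 := fun h => hℓc₄ (h ▸ dvd_zero _)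
  obtain ⟨x, hxj, hxu, hxu'⟩ := Classes.exists_moduli_place hp hp2 W hΔ hc₄ Q hQord
  have hj₀ : ∀ q : ℕ, q.Prime → (q : ℤ) ∣ W.Δ → ¬ (q : ℤ) ∣ W.c₄ →
      ∀ B : ValuationSubring Qbar, B.LiesOverPrime q → (W.c₄ : Qbar) ^ 3 / (W.Δ : Qbar) ∉ B :=
    fun q hq h1 h2 B hB => Classes.jValue_notMem hq h1 h2 hΔ hB
  by_cases hfix : ∀ σ : Γℚ, arithmeticGalois (modularFunctionFieldFull p) σ • x = x
  · refine ⟨Classes.cuspClass ι p, Classes.pointClass p ι x, Classes.cuspClass_ne_zero ι hp hp',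
      Classes.nsmul_cuspClass ι hp, Classes.galois_smul_cuspClass ι hp,
      Classes.hecke_cuspClass ι hp,
      fun σ => Classes.galois_smul_pointClass ι hp σ x (hfix σ), ?_, ?_⟩
    · intro q hq hqp hqΔ hqc B hB hB0
      exact Classes.red_eq_zero ι hp (hj₀ q hq hqΔ hqc B hB) hxj
        (Classes.betaValue_mul_mem_nonunits hp hq hqc hΔ hB hQord hB0) hxu'
    · intro q hq hqp hqΔ hqc B hB hB0
      exact Classes.red_eq_cuspClass ι hp (hj₀ q hq hqΔ hqc B hB) hxj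
        (Classes.betaValue_notMem hp hp2 hq hqp hqΔ hΔ hB hQord hB0) hxu
  · push Not at hfix
    obtain ⟨σ, hσ⟩ := hfix
    refine ⟨Classes.cuspClass ι p, 0, Classes.cuspClass_ne_zero ι hp hp',
      Classes.nsmul_cuspClass ι hp, Classes.galois_smul_cuspClass ι hp,
      Classes.hecke_cuspClass ι hp, fun τ => smul_zero (A := JZero p) τ, fun _ _ _ _ _ _ _ _ => map_zero _, ?_⟩
    intro q hq hqp hqΔ hqc B hB hB0
    have hno := Classes.not_reductionInputs_of_moved hp (hj₀ q hq hqΔ hqc B hB) hxj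
      (Classes.betaValue_notMem hp hp2 hq hqp hqΔ hΔ hB hQord hB0) hxu σ
      (by simp) (Classes.betaValue_fixed σ (hQfix σ)) hσ
    rw [reductionModL_of_not hno]
    rfl

end FermatLib.Mazur
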