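import Fermat.Agent.Modular.CorrFacts
import Fermat.Agent.Igusa.ReductionHecke
import Fermat.Prelude.Def_ModularCurve_ReductionModL
import Fermat.Prelude.Def_FLTPrelim_Ramification

/-!
# Hecke operators preserve the kernel of reduction of `J₀(p)`
-/

set_option autoImplicit false
set_option linter.style.haveILetI false

noncomputable section

namespace FermatLib.Mazur

open ModularCurve

/-- Hecke operators preserve the kernel of reduction. -/
theorem reductionModL_hecke_smul_eq_zero {p ℓ : ℕ} [NeZero p] (hp : p.Prime) (hℓ : ℓ.Prime)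
    (hℓp : ℓ ≠ p) {A : ValuationSubring (AlgebraicClosure ℚ)} (hA : A.LiesOverPrime ℓ)
    (t : HeckeAlg) (x : JZero p) (hx : reductionModL A p x = 0) :
    reductionModL A p (letI := heckeModuleBar p; t • x) = 0 :=
  haveI : Fact ℓ.Prime := ⟨hℓ⟩
  Igusa.reductionModL_smul_eq_zero
    (fun h => hℓp ((Nat.prime_dvd_prime_iff_eq hℓ hp).mp h)) hA hx t

end FermatLib.Mazur
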