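import Fermat.Agent.Mazur.Descent
import Fermat.Agent.Mazur.DescentProducer
import Fermat.Agent.Mazur.ModularClasses
import Fermat.Agent.Mazur.RedHecke
import Fermat.Agent.Igusa.ReductionInputs
import Fermat.Agent.Igusa.TorsionInjective

/-!
# Mazur's third step: the assembly
-/

set_option autoImplicit false
set_option linter.style.haveILetI false

noncomputable section

namespace FermatLib.Mazur

open ModularCurve
open scoped WeierstrassCurve.Affine

local notation "Qbar" => AlgebraicClosure ℚ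
local notation "Γℚ" => (AlgebraicClosure ℚ ≃ₐ[ℚ] AlgebraicClosure ℚ)

/-- Reduction at `ℓ ≠ p` is injective on torsion of `J₀(p)` of order prime to `ℓ`. -/
theorem eq_zero_of_reductionModL_eq_zero {p ℓ : ℕ} [NeZero p] (hp : p.Prime) (hℓ : ℓ.Prime)
    (hℓp : ℓ ≠ p) {A : ValuationSubring Qbar} (hA : A.LiesOverPrime ℓ) {m : ℕ} (hm : ¬ ℓ ∣ m)
    (z : JZero p) (hmz : m • z = 0) (hz : reductionModL A p z = 0) : z = 0 := by
  have : Fact ℓ.Prime := ⟨hℓ⟩
  have hℓN : ¬ ℓ ∣ p := fun hd => hℓp ((Nat.prime_dvd_prime_iff_eq hℓ hp).mp hd)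
  obtain ⟨Pinf, Qinf, n₀, hS⟩ := Igusa.exists_smoothLattice p hℓN A hA
  exact Igusa.eq_zero_of_reductionModL_eq_zero_of_smoothLattice hℓ hA
    (Igusa.reductionInputsModL p hℓN A hA) hS hm z hmz hz

/-- The value of a Hecke operator at the Eisenstein system. -/
def eisensteinValue (p : ℕ) (t : HeckeAlg) : ℤ :=
  MvPolynomial.aeval (eisensteinSystem p) t

theorem hecke_smul_eq_eisensteinValue_zsmul {p : ℕ} [NeZero p] {C : JZero p}
    (h : ∀ ℓ : Nat.Primes,
      (letI := heckeModuleBar p; heckeGen ℓ • C) = eisensteinSystem p ℓ • C) (t : HeckeAlg) :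
    (letI := heckeModuleBar p; t • C) = eisensteinValue p t • C := by
  letI := heckeModuleBar p
  unfold eisensteinValue
  induction t using MvPolynomial.induction_on with
  | C a =>
    rw [MvPolynomial.aeval_C]
    exact heckeModuleBar_C_smul a C
  | add a b ha hb => rw [add_smul, map_add, ha, hb]; exact (add_zsmul C _ _).symm
  | mul_X a ℓ ha =>
    rw [mul_smul, map_mul, MvPolynomial.aeval_X, mul_comm, mul_smul, ← ha]
    show a • heckeGen ℓ • C = eisensteinSystem p ℓ • a • C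
    rw [h ℓ, smul_comm]

theorem mem_eisensteinMax_iff_dvd (p r : ℕ) (t : HeckeAlg) :
    t ∈ eisensteinMax p r ↔ (r : ℤ) ∣ eisensteinValue p t := by
  rw [eisensteinMax, mem_eigenIdeal_iff, ← ZMod.intCast_zmod_eq_zero_iff_dvd, eisensteinValue]
  have e : (MvPolynomial.aeval fun ℓ => (eisensteinSystem p ℓ : ZMod r)) =
      (Algebra.ofId ℤ (ZMod r)).comp (MvPolynomial.aeval (eisensteinSystem p)) :=
    MvPolynomial.algHom_ext fun ℓ => by simp
  rw [e]
  rfl

private theorem nsmul_eq_zero_of_not_dvd {B : Type*} [AddCommGroup B] {z : B} {r o : ℕ} {e : ℤ}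
    (hr : r.Prime) (he : ¬ (r : ℤ) ∣ e) (hez : e • z = 0) (hrz : r • o • z = 0) : o • z = 0 := by
  obtain ⟨u, v, huv⟩ := (Nat.prime_iff_prime_int.mp hr).coprime_iff_not_dvd.mpr he
  have h1 : e • (o • z) = 0 := by rw [← natCast_zsmul z o, smul_comm, hez, smul_zero]
  have h2 : (r : ℤ) • (o • z) = 0 := by rwa [natCast_zsmul]
  rw [← one_zsmul (o • z), ← huv, add_zsmul, mul_zsmul, mul_zsmul, h1, h2, zsmul_zero, zsmul_zero,
    add_zero]

private theorem nsmul_zsmul_eq_zero_of_dvd {B : Type*} [AddCommGroup B] {z : B} {r o : ℕ} {e : ℤ}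
    (hrz : r • o • z = 0) (he : (r : ℤ) ∣ e) : o • e • z = 0 := by
  obtain ⟨q, rfl⟩ := he
  rw [smul_comm, mul_comm, mul_zsmul, natCast_zsmul, hrz, zsmul_zero]

/-- **Mazur's step three**. -/
theorem not_inZeroComponentAt_of_three_steps
    {p : ℕ} (hp : p.Prime) (hp' : p ∉ ({2, 3, 5, 7, 13} : Finset ℕ))
    (W : WeierstrassCurve ℤ) (hΔ : W.Δ ≠ 0)
    (Q : ((W.map (Int.castRingHom ℚ))⁄Qbar).Point)
    (hQfix : ∀ σ : Γℚ, σ • Q = Q) (hQord : addOrderOf Q = p)
    (h2Δ : (2 : ℤ) ∣ W.Δ) (h2c₄ : ¬ (2 : ℤ) ∣ W.c₄)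
    (h2 : ∀ A : ValuationSubring Qbar, A.LiesOverPrime 2 → ¬ W.InZeroComponentAt A Q)
    (h3Δ : (3 : ℤ) ∣ W.Δ) (h3c₄ : ¬ (3 : ℤ) ∣ W.c₄)
    (h3 : ∀ A : ValuationSubring Qbar, A.LiesOverPrime 3 → ¬ W.InZeroComponentAt A Q)
    {ℓ : ℕ} (hℓ : ℓ.Prime) (hℓp : ℓ ≠ p) (hℓΔ : (ℓ : ℤ) ∣ W.Δ) (hℓc₄ : ¬ (ℓ : ℤ) ∣ W.c₄)
    (A : ValuationSubring Qbar) (hA : A.LiesOverPrime ℓ) :
    ¬ W.InZeroComponentAt A Q := by
  intro hℓ0
  have hℓ2 : ℓ ≠ 2 := fun e => h2 A (e ▸ hA) hℓ0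
  simp only [Finset.mem_insert, Finset.mem_singleton, not_or] at hp'
  have hp5 : 5 ≤ p := by
    have := hp.two_le
    rcases lt_or_ge p 5 with h | h
    · interval_cases p <;> simp_all (config := { decide := true })
    · exact h
  have hp'' : p ∉ ({2, 3, 5, 7, 13} : Finset ℕ) := by
    simpa [Finset.mem_insert, Finset.mem_singleton, not_or] using hp'
  haveI : NeZero p := ⟨hp.ne_zero⟩
  letI := heckeModuleBar p
  haveI := FermatLib.Modular.smulCommClass_heckeModuleBar p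
  obtain ⟨C, y, hC⟩ := exists_isMazurClasses hp hp'' W hΔ Q hQfix hQord h2Δ h2c₄ hℓ hℓp hℓΔ hℓc₄
    A hA hℓ0
  -- a prime dividing the order of `C`
  obtain ⟨r, hr, hro⟩ := Nat.exists_prime_and_dvd
    (fun e => hC.ne_zero (AddMonoid.addOrderOf_eq_one_iff.mp e) : addOrderOf C ≠ 1)
  obtain ⟨o, ho⟩ := hro
  have hodvd : r * o ∣ p - 1 := ho ▸ addOrderOf_dvd_iff_nsmul_eq_zero.mpr hC.nsmul_eq_zero
  have hrp : r ≠ p := fun e => by
    have := Nat.le_of_dvd (by omega) (dvd_trans (dvd_mul_right r o) hodvd)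
    omega
  set C' := o • C with hC'def
  have hC'r : r • C' = 0 := by rw [hC'def, ← mul_smul, ← ho, addOrderOf_nsmul_eq_zero]
  have hC'0 : C' ≠ 0 := fun e => by
    have hd := addOrderOf_dvd_iff_nsmul_eq_zero.mpr e
    rw [ho] at hd
    have ho0 : o ≠ 0 := fun h0 => by
      rw [h0, mul_zero] at hodvd
      exact absurd (Nat.eq_zero_of_zero_dvd hodvd) (by omega)
    exact absurd (Nat.le_of_dvd (Nat.pos_of_ne_zero ho0) hd)
      (by nlinarith [hr.two_le, Nat.pos_of_ne_zero ho0])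
  obtain ⟨Ap, hAp⟩ := FermatLib.Basic.exists_liesOverPrime hp
  obtain ⟨Ar, hAr, hArA⟩ :
      ∃ Ar : ValuationSubring Qbar, Ar.LiesOverPrime r ∧ (r = ℓ → Ar = A) := by
    by_cases hrl : r = ℓ
    · exact ⟨A, hrl ▸ hA, fun _ => rfl⟩
    · obtain ⟨Ar, hAr⟩ := FermatLib.Basic.exists_liesOverPrime hr
      exact ⟨Ar, hAr, fun e => absurd e hrl⟩
  have hD : IsDescentDatum p r hr Ar Ap (JZero p) (reductionModL Ar p) :=
    isDescentDatum_jZero hp hp5 hr hrp hAr hAp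
  obtain ⟨t, htP, htor⟩ := hD.exists_torsion_killer
  -- `t • y` vanishes
  obtain ⟨m, hm, hmy⟩ := htor y hC.fixed_point
  have hred : ∀ q : ℕ, q.Prime → q ≠ p → (q : ℤ) ∣ W.Δ → ¬ (q : ℤ) ∣ W.c₄ →
      (∀ B : ValuationSubring Qbar, B.LiesOverPrime q → ¬ W.InZeroComponentAt B Q) →
      ∀ s : HeckeAlg, ∃ B : ValuationSubring Qbar, B.LiesOverPrime q ∧
        reductionModL B p (s • y) = 0 := by
    intro q hq hqp hqΔ hqc hnot s
    obtain ⟨B, hB⟩ := FermatLib.Basic.exists_liesOverPrime hq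
    exact ⟨B, hB, reductionModL_hecke_smul_eq_zero hp hq hqp hB s y
      (hC.red_of_not_inZero q hq hqp hqΔ hqc B hB (hnot B hB))⟩
  obtain ⟨a, m', hm', hmm⟩ := Nat.exists_eq_pow_mul_and_not_dvd hm 2 (by norm_num)
  have hty : t • y = 0 := by
    obtain ⟨B₂, hB₂, hr2⟩ := hred 2 Nat.prime_two (Ne.symm hp'.1) h2Δ h2c₄ h2 t
    obtain ⟨B₃, hB₃, hr3⟩ := hred 3 Nat.prime_three (Ne.symm hp'.2.1) h3Δ h3c₄ h3 t
    have e2 : 2 ^ a • t • y = 0 := by
      refine eq_zero_of_reductionModL_eq_zero hp Nat.prime_two (Ne.symm hp'.1) hB₂ hm' _ ?_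
        (by rw [AddMonoidHom.map_nsmul, hr2, smul_zero])
      rw [← mul_smul, mul_comm, ← hmm, hmy]
    exact eq_zero_of_reductionModL_eq_zero hp Nat.prime_three (Ne.symm hp'.2.1) hB₃
      (fun hd => absurd ((Nat.prime_dvd_prime_iff_eq Nat.prime_three Nat.prime_two).mp
        (Nat.prime_three.dvd_of_dvd_pow hd)) (by norm_num)) _ e2 hr3
  -- hence `C'` reduces to zero at `ℓ`
  have hε : ¬ (r : ℤ) ∣ eisensteinValue p t := fun hd =>
    htP ((mem_eisensteinMax_iff_dvd p r t).mpr hd)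
  have hredC : reductionModL A p C' = 0 := by
    have h0 : reductionModL A p (y - C) = 0 := by
      rw [AddMonoidHom.map_sub, hC.red_of_inZero ℓ hℓ hℓp hℓΔ hℓc₄ A hA hℓ0, sub_self]
    have h1 := reductionModL_hecke_smul_eq_zero hp hℓ hℓp hA t _ h0
    rw [smul_sub, hty, zero_sub, AddMonoidHom.map_neg, neg_eq_zero,
      hecke_smul_eq_eisensteinValue_zsmul hC.eigen t, map_zsmul] at h1
    rw [hC'def, AddMonoidHom.map_nsmul]
    refine nsmul_eq_zero_of_not_dvd hr hε h1 ?_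
    rw [← AddMonoidHom.map_nsmul, ← AddMonoidHom.map_nsmul, ← hC'def, hC'r, map_zero]
  by_cases hrl : r = ℓ
  swap
  · exact hC'0 (eq_zero_of_reductionModL_eq_zero hp hℓ hℓp hA
      (fun hd => hrl ((Nat.prime_dvd_prime_iff_eq hℓ hr).mp hd).symm) C' hC'r hredC)
  -- the case `r = ℓ`: connected points are not fixed by inertia
  obtain rfl := hArA hrl
  have := hD.finite_torsion 1
  obtain ⟨E, hE1, hE⟩ := exists_isEisPrimary p r (JZero p) 1
  have hfix : ∀ σ : Γℚ, σ • C' = C' := fun σ => by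
    rw [hC'def]
    exact ((DistribSMul.toAddMonoidHom (JZero p) σ).map_nsmul o C).trans
      (congrArg (o • ·) (hC.fixed σ))
  have hC'1 : r ^ 1 • C' = 0 := by rw [pow_one]; exact hC'r
  have hEC : E • C' = C' := by
    obtain ⟨q, hq⟩ := (mem_eisensteinMax_iff_dvd p r (E - 1)).mp hE1
    have e : (E - 1) • C' = 0 := by
      rw [hC'def, smul_comm, hecke_smul_eq_eisensteinValue_zsmul hC.eigen]
      exact nsmul_zsmul_eq_zero_of_dvd hC'r ⟨q, hq⟩
    rwa [sub_smul, one_smul, sub_eq_zero] at e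
  let c : imageTorsion (JZero p) E (r ^ 1) := ⟨C', mem_imageTorsion.mpr ⟨C', hC'1, hEC⟩⟩
  obtain ⟨H, hH, hconn⟩ := hD.model 1
  have hH' := hH.pull (imageToTorsion E (r ^ 1)) (imageToTorsion_injective E _)
    (fun g x => imageToTorsion_smul E (r ^ 1) g x)
  have hadm := hD.isAdmissible hE
  have := hadm.finite
  have hc := hH'.eq_zero_of_connected_of_fixed hr (hrl ▸ hℓ2) hAr hadm.exponent
    (fun g _ u hu => hadm.constituents g u hu) (x := c)
    ((hconn (imageToTorsion E _ c) hredC).pull (imageToTorsion E _))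
    (Subtype.ext hC'r) (fun σ _ => Subtype.ext (hfix σ))
  exact hC'0 (congrArg Subtype.val hc)

end FermatLib.Mazur
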