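import Fermat.Agent.Mazur.AdmissibleIneq

/-!
# Cocycles on tame inertia

On a finite `r`-group module with `(σ - 1)(τ - 1) = 0` on inertia at `p ≠ r`, inertia acts through
one generator `τ`, a Frobenius conjugates it to its `p`-th power, and a cocycle is a coboundary on
inertia as soon as it is one at `τ`.
-/

set_option autoImplicit false

noncomputable section

namespace FermatLib.Mazur

local notation "Qbar" => AlgebraicClosure ℚ
local notation "Γℚ" => (AlgebraicClosure ℚ ≃ₐ[ℚ] AlgebraicClosure ℚ)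

variable {r p : ℕ} {A : ValuationSubring Qbar} {V : Type*} [AddCommGroup V]
  [DistribMulAction Γℚ V] [Finite V]

/-- The affine map attached to a cocycle value. -/
def affineMap (c : Γℚ → V) (σ : Γℚ) : Equiv.Perm V :=
  (DistribMulAction.toAddEquiv V σ).toEquiv.trans (Equiv.addRight (c σ))

theorem affineMap_apply (c : Γℚ → V) (σ : Γℚ) (x : V) : affineMap c σ x = σ • x + c σ := rfl

/-- Tame inertia data of a cocycle on a unipotent module. -/
theorem exists_tame_cocycle_data (hr : r.Prime) (hp : p.Prime) (hrp : r ≠ p)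
    (hA : A.LiesOverPrime p) (hexp : ∃ k : ℕ, ∀ x : V, r ^ k • x = 0)
    (hopen : ∀ x : V, IsOpen ((MulAction.stabilizer Γℚ x : Subgroup Γℚ) : Set Γℚ))
    (hU : ∀ σ ∈ A.inertiaSubgroupIn ℚ, ∀ τ ∈ A.inertiaSubgroupIn ℚ, ∀ x : V,
      σ • (τ • x - x) = τ • x - x)
    (c : Γℚ → V) (hc : ∀ g h : Γℚ, c (g * h) = c g + g • c h)
    (hlc : ∃ H : Subgroup Γℚ, IsOpen (H : Set Γℚ) ∧ ∀ h ∈ H, c h = 0) :
    ∃ τ ∈ A.inertiaSubgroupIn ℚ,
      (∀ σ ∈ A.inertiaSubgroupIn ℚ,
        (∀ (m : ℕ) (v : V), m • c τ = τ • v - v → m • c σ = σ • v - v) ∧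
        ∀ x : V, ∃ n : ℤ, σ • x - x = n • (τ • x - x)) ∧
      ∀ F : Γℚ, A.IsFrobeniusAt F p →
        F * τ * F⁻¹ ∈ A.inertiaSubgroupIn ℚ ∧
        (∀ x : V, (F * τ * F⁻¹) • x - x = p • (τ • x - x)) ∧
        ∃ y : V, c (F * τ * F⁻¹) = p • c τ + (τ • y - y) := by
  classical
  obtain ⟨k, hk⟩ := hexp
  obtain ⟨H₀, hH₀, hcH⟩ := hlc
  let I := A.inertiaSubgroupIn ℚ
  have hmulψ : ∀ g h : Γℚ, affineMap c (g * h) = affineMap c g * affineMap c h := by
    intro g h
    refine Equiv.ext fun x => ?_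
    rw [Equiv.Perm.mul_apply, affineMap_apply, affineMap_apply, affineMap_apply, mul_smul,
      smul_add, hc]
    abel
  let Ψ : Γℚ →* Equiv.Perm V := MonoidHom.mk' (affineMap c) hmulψ
  have hU' : ∀ σ ∈ I, ∀ (n : ℕ) (x : V), σ ^ n • x = x + n • (σ • x - x) := by
    intro σ hσ n
    induction n with
    | zero => intro x; rw [pow_zero, one_smul, zero_smul, add_zero]
    | succ n ih =>
      intro x
      rw [pow_succ', mul_smul, ih, smul_add, smul_comm σ n, hU σ hσ σ hσ, succ_nsmul]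
      abel
  have hord : ∀ σ ∈ I, ∃ m : ℕ, Ψ σ ^ r ^ m = 1 := by
    intro σ hσ
    refine ⟨k + k, Equiv.ext fun x => ?_⟩
    rw [← map_pow, pow_add r, pow_mul]
    have hlin : ∀ z : V, σ ^ r ^ k • z = z := fun z => by rw [hU' σ hσ, hk, add_zero]
    have hpow : ∀ (m : ℕ) (z : V),
        affineMap c ((σ ^ r ^ k) ^ m) z = z + m • c (σ ^ r ^ k) := by
      intro m
      induction m with
      | zero =>
        intro z
        have h1 : c 1 = 0 := hcH 1 H₀.one_mem
        rw [pow_zero, affineMap_apply, one_smul, h1, zero_smul]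
      | succ m ih =>
        intro z
        rw [pow_succ, hmulψ, Equiv.Perm.mul_apply, ih, affineMap_apply, hlin, succ_nsmul']
        abel
    exact (hpow (r ^ k) x).trans (by rw [hk, add_zero]; rfl)
  let H : Subgroup Γℚ := H₀ ⊓ ⨅ x : V, MulAction.stabilizer Γℚ x
  have hH : IsOpen (H : Set Γℚ) := by
    rw [Subgroup.coe_inf, Subgroup.coe_iInf]
    exact hH₀.inter (isOpen_iInter_of_finite hopen)
  have hΨH : ∀ σ ∈ H, Ψ σ = 1 := fun σ hσ => Equiv.ext fun x => by
    show σ • x + c σ = x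
    rw [hcH σ hσ.1, add_zero]
    exact Subgroup.mem_iInf.mp hσ.2 x
  obtain ⟨⟨τ, hτ⟩, hgen, hF⟩ := exists_tame_generator hr hp hrp hA (Ψ.comp I.subtype)
    (fun σ => hord σ σ.2) H hH fun σ hσ => hΨH σ hσ
  have hlin_of : ∀ {σ σ' : Γℚ}, Ψ σ = Ψ σ' → ∀ x : V, σ • x = σ' • x := by
    intro σ σ' e x
    have e0 : σ • (0 : V) + c σ = σ' • (0 : V) + c σ' := Equiv.congr_fun e 0
    have ex : σ • x + c σ = σ' • x + c σ' := Equiv.congr_fun e x
    simp only [smul_zero, zero_add] at e0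
    rwa [e0, add_left_inj] at ex
  have hzpow : ∀ (n : ℤ) (x : V), τ ^ n • x = x + n • (τ • x - x) := by
    intro n x
    induction n using Int.induction_on with
    | zero => rw [zpow_zero, one_smul, zero_smul, add_zero]
    | succ i ih =>
      rw [zpow_add_one, show τ ^ (i : ℤ) * τ = τ * τ ^ (i : ℤ) from
        (Commute.self_zpow τ _).eq.symm, mul_smul, ih, smul_add, smul_comm τ (i : ℤ),
        hU τ hτ τ hτ, add_smul, one_smul]
      abel
    | pred i ih =>
      have hinv : τ⁻¹ • x = x - (τ • x - x) := by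
        rw [inv_smul_eq_iff, smul_sub, hU τ hτ τ hτ]
        abel
      rw [show (-(i : ℤ) - 1) = (-1 : ℤ) + -(i : ℤ) by ring, zpow_add, zpow_neg_one, mul_smul, ih,
        smul_add, smul_comm τ⁻¹ (-(i : ℤ)), hinv, hU τ⁻¹ (inv_mem hτ) τ hτ, add_smul,
        neg_one_zsmul]
      abel
  refine ⟨τ, hτ, fun σ hσ => ⟨fun m v hv => ?_, fun x => ?_⟩, fun F hFF => ?_⟩
  · have hc1 : ∀ g h : Γℚ, affineMap (fun g => m • c g) (g * h) =
        affineMap (fun g => m • c g) g * affineMap (fun g => m • c g) h := by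
      intro g h
      refine Equiv.ext fun x => ?_
      rw [Equiv.Perm.mul_apply, affineMap_apply, affineMap_apply, affineMap_apply, mul_smul,
        smul_add, hc, smul_add, smul_comm g m]
      abel
    let Ψ' : Γℚ →* Equiv.Perm V := MonoidHom.mk' (affineMap fun g => m • c g) hc1
    obtain ⟨n, hn⟩ := hgen ⟨σ, hσ⟩
    have e : Ψ σ = Ψ (τ ^ n) := by rw [map_zpow]; exact hn.symm
    have ec : c σ = c (τ ^ n) := by
      have e0 : σ • (0 : V) + c σ = τ ^ n • (0 : V) + c (τ ^ n) := Equiv.congr_fun e 0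
      simpa only [smul_zero, zero_add] using e0
    have hfix : Ψ' τ (-v) = -v := by
      show τ • (-v) + m • c τ = -v
      rw [smul_neg, hv]
      abel
    have hσv : Ψ' (τ ^ n) (-v) = -v := by
      rw [map_zpow]
      exact Equiv.Perm.zpow_apply_eq_self_of_apply_eq_self hfix n
    have e2 : σ • (-v) + m • c σ = -v := by
      rw [hlin_of e, ec]
      exact hσv
    rw [smul_neg] at e2
    calc m • c σ = -(σ • v) + m • c σ + σ • v := by abel
      _ = σ • v - v := by rw [e2]; abel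
  · obtain ⟨n, hn⟩ := hgen ⟨σ, hσ⟩
    refine ⟨n, ?_⟩
    have e : Ψ σ = Ψ (τ ^ n) := by rw [map_zpow]; exact hn.symm
    rw [hlin_of e, hzpow, add_sub_cancel_left]
  · obtain ⟨hmem, he⟩ := hF F hFF
    have e : Ψ (F * τ * F⁻¹) = Ψ (τ ^ p) := by rw [map_pow]; exact he
    refine ⟨hmem, fun x => ?_, ?_⟩
    · rw [hlin_of e, hU' τ hτ, add_sub_cancel_left]
    · have hc' : c (F * τ * F⁻¹) = c (τ ^ p) := by
        have e0 : (F * τ * F⁻¹) • (0 : V) + c (F * τ * F⁻¹) = τ ^ p • (0 : V) + c (τ ^ p) :=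
          Equiv.congr_fun e 0
        simpa only [smul_zero, zero_add] using e0
      rw [hc']
      clear he e hc'
      suffices h : ∀ n : ℕ, ∃ y : V, c (τ ^ n) = n • c τ + (τ • y - y) from h p
      intro n
      induction n with
      | zero =>
        exact ⟨0, by rw [pow_zero, hcH 1 H₀.one_mem, zero_smul, smul_zero, sub_zero, add_zero]⟩
      | succ n ih =>
        obtain ⟨y, hy⟩ := ih
        refine ⟨y + n • c τ, ?_⟩
        rw [pow_succ', hc, hy, smul_add τ, smul_add, hU τ hτ τ hτ, succ_nsmul]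
        abel

end FermatLib.Mazur
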