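import Fermat.Agent.Mazur.TorsionModule
import Fermat.Agent.Mazur.AdmissibleOps
import Fermat.Agent.Galois.FrobeniusDensity
import Mathlib.FieldTheory.Galois.Infinite
import Mathlib.RingTheory.RootsOfUnity.AlgebraicallyClosed

/-!
# Quadratic relations for all Galois elements on torsion points
-/

set_option autoImplicit false

noncomputable section

namespace FermatLib.Mazur

open ModularCurve

local notation "Qbar" => AlgebraicClosure ℚ
local notation "Γℚ" => (AlgebraicClosure ℚ ≃ₐ[ℚ] AlgebraicClosure ℚ)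

/-- An open subgroup contains the fixing subgroup of a number field. -/
theorem exists_fixingSubgroup_le {H : Subgroup Γℚ} (hH : IsOpen (H : Set Γℚ)) :
    ∃ L : IntermediateField ℚ Qbar, FiniteDimensional ℚ L ∧ L.fixingSubgroup ≤ H := by
  obtain ⟨L, hL, hle⟩ := (krullTopology_mem_nhds_one_iff ℚ Qbar (H : Set Γℚ)).mp
    (hH.mem_nhds H.one_mem)
  exact ⟨L, hL, hle⟩

theorem heckeGen_sub_mem_eisensteinMax {p r ℓ : ℕ} (hℓ : ℓ.Prime) (hlp : ℓ ≠ p) (hp : p.Prime) :
    heckeGen ⟨ℓ, hℓ⟩ - (1 + (ℓ : HeckeAlg)) ∈ eisensteinMax p r := by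
  have hnd : ¬ ℓ ∣ p := fun h => hlp ((Nat.prime_dvd_prime_iff_eq hℓ hp).mp h)
  rw [eisensteinMax, mem_eigenIdeal_iff, map_sub, aeval_heckeGen, map_add, map_one, map_natCast,
    eisensteinSystem_of_not_dvd (ℓ := ⟨ℓ, hℓ⟩) hnd]
  push_cast
  ring

namespace IsDescentDatum

variable {p r : ℕ} {hr : r.Prime} {Ar Ap : ValuationSubring Qbar} {J : Type*}
  [AddCommGroup J] [DistribMulAction Γℚ J] [Module HeckeAlg J] [SMulCommClass Γℚ HeckeAlg J]
  {J' : Type*} [AddCommGroup J'] {red : J →+ J'}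

/-- Every Galois element satisfies an Eisenstein quadratic relation on the `r ^ k`-torsion. -/
theorem exists_quadratic (h : IsDescentDatum p r hr Ar Ap J red) (k : ℕ) (g : Γℚ) :
    ∃ (t : HeckeAlg) (U : ℕ), IsCycloValue (r ^ k) g U ∧
      t - (1 + (U : HeckeAlg)) ∈ eisensteinMax p r ∧
      ∀ x : J, r ^ k • x = 0 → g • g • x - t • g • x + U • x = 0 := by
  classical
  have := h.finite_torsion k
  let n := r ^ k
  have hn : n ≠ 0 := pow_ne_zero k hr.ne_zero
  have : NeZero ((n : ℕ) : Qbar) := ⟨Nat.cast_ne_zero.mpr hn⟩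
  have : NeZero n := ⟨hn⟩
  obtain ⟨ζ, hζ⟩ := HasEnoughRootsOfUnity.exists_primitiveRoot Qbar n
  let H : Subgroup Γℚ :=
    MulAction.stabilizer Γℚ ζ ⊓ ⨅ x : torsionPts J n, MulAction.stabilizer Γℚ (x : J)
  have hH : IsOpen (H : Set Γℚ) := by
    rw [Subgroup.coe_inf, Subgroup.coe_iInf]
    refine IsOpen.inter ?_ (isOpen_iInter_of_finite fun x => h.isOpen_stabilizer _)
    exact isOpen_stabilizer_qbar ζ
  obtain ⟨L, hL, hLH⟩ := exists_fixingSubgroup_le hH
  let P : Γℚ → Prop := fun σ => ∀ b : ℕ, ∃ (s : HeckeAlg) (U : ℕ), IsCycloValue n (σ ^ b) U ∧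
    s - (1 + (U : HeckeAlg)) ∈ eisensteinMax p r ∧
    ∀ x : J, n • x = 0 → σ ^ b • σ ^ b • x - s • σ ^ b • x + U • x = 0
  suffices hP : P g by
    obtain ⟨s, U, h1, h2, h3⟩ := hP 1
    rw [pow_one] at h1 h3
    exact ⟨s, U, h1, h2, h3⟩
  have := hL
  refine FermatLib.Galois.forall_of_forall_isFrobeniusAt (P := P) {r, p} L ?_ ?_ ?_ g
  · intro g g' hagree hg b
    obtain ⟨s, U, h1, h2, h3⟩ := hg b
    have hmem : g⁻¹ * g' ∈ H := hLH fun x => by
      show g⁻¹ (g' x) = x
      rw [← hagree x x.2]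
      exact g.symm_apply_apply x
    have hz : g' ζ = g ζ := by
      have hfix : (g⁻¹ * g') • ζ = ζ := hmem.1
      rwa [mul_smul, inv_smul_eq_iff] at hfix
    have hpt : ∀ x : J, n • x = 0 → g' • x = g • x := fun x hx => by
      have hfix := Subgroup.mem_iInf.mp hmem.2 ⟨x, hx⟩
      have hfix' : (g⁻¹ * g') • x = x := hfix
      rwa [mul_smul, inv_smul_eq_iff] at hfix'
    have htor : ∀ (σ : Γℚ) (x : J), n • x = 0 → n • σ • x = 0 := fun σ x hx => by
      rw [smul_comm n σ, hx, smul_zero]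
    have hptb : ∀ (c : ℕ) (x : J), n • x = 0 → g' ^ c • x = g ^ c • x := by
      intro c
      induction c with
      | zero => intro x _; rw [pow_zero, pow_zero]
      | succ c ih =>
        intro x hx
        rw [pow_succ, pow_succ, mul_smul, mul_smul, hpt x hx, ih _ (htor g x hx)]
    have hroots : ∀ y : Qbar, y ^ n = 1 → g' y = g y := fun y hy => by
      obtain ⟨j, -, rfl⟩ := hζ.eq_pow_of_pow_eq_one hy
      rw [map_pow, map_pow, hz]
    have hrootsb : ∀ (c : ℕ) (y : Qbar), y ^ n = 1 → (g' ^ c) y = (g ^ c) y := by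
      intro c
      induction c with
      | zero => intro y _; rw [pow_zero, pow_zero]
      | succ c ih =>
        intro y hy
        rw [pow_succ, pow_succ, AlgEquiv.mul_apply, AlgEquiv.mul_apply, hroots y hy,
          ih _ (by rw [← map_pow, hy, map_one])]
    refine ⟨s, U, fun y hy => (hrootsb b y hy).trans (h1 y hy), h2, fun x hx => ?_⟩
    rw [hptb b x hx, hptb b _ (htor (g ^ b) x hx)]
    exact h3 x hx
  · intro σ b hσ c
    obtain ⟨s, U, h1, h2, h3⟩ := hσ (b * c)
    rw [pow_mul] at h1 h3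
    exact ⟨s, U, h1, h2, h3⟩
  · intro ℓ hℓ hS A hA σ hσ
    simp only [Finset.mem_insert, Finset.mem_singleton, not_or] at hS
    obtain ⟨hlr, hlp⟩ := hS
    let T : AddMonoid.End (torsionPts J n) :=
      Module.toAddMonoidEnd HeckeAlg (torsionPts J n) (heckeGen ⟨ℓ, hℓ⟩)
    let F : AddMonoid.End (torsionPts J n) := DistribMulAction.toAddMonoidEnd Γℚ _ σ
    let G : AddMonoid.End (torsionPts J n) := T - F
    have hTF : Commute T F := AddMonoidHom.ext fun x => (smul_comm σ (heckeGen ⟨ℓ, hℓ⟩) x).symm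
    have hFG : Commute F G := hTF.symm.sub_right (Commute.refl F)
    have hprod : F * G = (ℓ : AddMonoid.End (torsionPts J n)) := by
      refine AddMonoidHom.ext fun x => Subtype.ext ?_
      have e := h.frobenius ℓ hℓ hlr hlp A hA σ hσ k (x : J) x.2
      show σ • (heckeGen ⟨ℓ, hℓ⟩ • (x : J) - σ • (x : J)) = ((ℓ • x : torsionPts J n) : J)
      rw [smul_sub, smul_comm σ (heckeGen ⟨ℓ, hℓ⟩), AddSubgroup.coe_nsmul, ← sub_eq_zero,
        ← neg_eq_zero]
      refine Eq.trans ?_ e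
      abel
    let φ := Module.toAddMonoidEnd HeckeAlg (torsionPts J n)
    have hmax := heckeGen_sub_mem_eisensteinMax (r := r) hℓ hlp h.p_prime
    have key : ∀ b : ℕ, ∃ s s' : HeckeAlg,
        φ s = F ^ b + G ^ b ∧ φ s' = F ^ (b + 1) + G ^ (b + 1) ∧
        s - (1 + (ℓ : HeckeAlg) ^ b) ∈ eisensteinMax p r ∧
        s' - (1 + (ℓ : HeckeAlg) ^ (b + 1)) ∈ eisensteinMax p r := by
      intro b
      induction b with
      | zero =>
        refine ⟨2, heckeGen ⟨ℓ, hℓ⟩, ?_, ?_, ?_, ?_⟩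
        · rw [map_ofNat, pow_zero, pow_zero, one_add_one_eq_two]
        · show T = _
          rw [zero_add, pow_one, pow_one]
          show T = F + (T - F)
          rw [add_sub_cancel]
        · rw [pow_zero, one_add_one_eq_two, sub_self]
          exact Ideal.zero_mem _
        · rw [zero_add, pow_one]
          exact hmax
      | succ b ih =>
        obtain ⟨s, s', hs, hs', hm, hm'⟩ := ih
        refine ⟨s', heckeGen ⟨ℓ, hℓ⟩ * s' - (ℓ : HeckeAlg) * s, hs', ?_, hm', ?_⟩
        · rw [map_sub, map_mul, map_mul, map_natCast, hs, hs', ← hprod]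
          show T * _ - _ = _
          have hT : T = F + G := (add_sub_cancel F T).symm
          have e : ∀ j : ℕ, G * F ^ j = F ^ j * G := fun j => (hFG.symm.pow_right j).eq
          rw [hT, pow_succ' F (b + 1), pow_succ' G (b + 1), pow_succ' F b, pow_succ' G b]
          simp only [mul_add, add_mul, mul_assoc]
          rw [← mul_assoc G F, hFG.symm.eq, mul_assoc]
          abel
        · have e : heckeGen ⟨ℓ, hℓ⟩ * s' - (ℓ : HeckeAlg) * s -
              (1 + (ℓ : HeckeAlg) ^ (b + 1 + 1)) =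
              (heckeGen ⟨ℓ, hℓ⟩ - (1 + (ℓ : HeckeAlg))) * s' +
              ((1 + (ℓ : HeckeAlg)) * (s' - (1 + (ℓ : HeckeAlg) ^ (b + 1))) -
              (ℓ : HeckeAlg) * (s - (1 + (ℓ : HeckeAlg) ^ b))) := by ring
          rw [e]
          exact Ideal.add_mem _ (Ideal.mul_mem_right _ _ hmax)
            (Ideal.sub_mem _ (Ideal.mul_mem_left _ _ hm') (Ideal.mul_mem_left _ _ hm))
    intro b
    obtain ⟨s, -, hs, -, hm, -⟩ := key b
    have hcyc : IsCycloValue n σ ℓ :=
      isCycloValue_of_isFrobeniusAt hℓ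
        (fun hd => hlr ((Nat.prime_dvd_prime_iff_eq hℓ hr).mp (hℓ.dvd_of_dvd_pow hd))) hA hσ
    have hcycb : ∀ c : ℕ, IsCycloValue n (σ ^ c) (ℓ ^ c) := by
      intro c
      induction c with
      | zero => intro y _; rw [pow_zero, pow_zero, pow_one]; rfl
      | succ c ih =>
        intro y hy
        rw [pow_succ, AlgEquiv.mul_apply, hcyc y hy, map_pow, ih y hy, ← pow_mul, ← pow_succ]
    refine ⟨s, ℓ ^ b, hcycb b, by rwa [Nat.cast_pow], fun x hx => ?_⟩
    have hb : F ^ b * F ^ b - φ s * F ^ b + ((ℓ ^ b : ℕ) : AddMonoid.End (torsionPts J n)) = 0 := by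
      rw [hs, add_mul, Nat.cast_pow, ← hprod, hFG.mul_pow, ← (hFG.pow_pow b b).eq]
      abel
    have hx' := congrArg Subtype.val (DFunLike.congr_fun hb ⟨x, hx⟩)
    have hFb : F ^ b = DistribMulAction.toAddMonoidEnd Γℚ (torsionPts J n) (σ ^ b) :=
      (map_pow _ σ b).symm
    rw [hFb] at hx'
    exact hx'

end IsDescentDatum

end FermatLib.Mazur
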