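import Fermat.Agent.Mazur.DescentDatum

/-!
# Hecke submodules of torsion points
-/

set_option autoImplicit false

noncomputable section

namespace FermatLib.Mazur

open ModularCurve

section Module

variable {R J : Type*} [CommRing R] [AddCommGroup J] [Module R J] {n : ℕ}

instance instTorsionPtsSMul : SMul R (torsionPts J n) where
  smul t x := ⟨t • (x : J), by
    show n • (t • (x : J)) = 0
    rw [smul_comm n t, (mem_torsionPts.mp x.2 : n • (x : J) = 0), smul_zero]⟩

instance instTorsionPtsModule : Module R (torsionPts J n) where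
  one_smul x := Subtype.ext (one_smul R (x : J))
  mul_smul s t x := Subtype.ext (mul_smul s t (x : J))
  smul_zero t := Subtype.ext (smul_zero t)
  smul_add t x y := Subtype.ext (smul_add t (x : J) (y : J))
  add_smul s t x := Subtype.ext (add_smul s t (x : J))
  zero_smul x := Subtype.ext (zero_smul R (x : J))

instance instTorsionPtsSMulComm {G : Type*} [Monoid G] [DistribMulAction G J]
    [SMulCommClass G R J] : SMulCommClass G R (torsionPts J n) where
  smul_comm g t x := Subtype.ext (smul_comm g t (x : J))

end Module

section Image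

variable {J : Type*} [AddCommGroup J] [Module HeckeAlg J] {G : Type*} [Monoid G]
  [DistribMulAction G J] [SMulCommClass G HeckeAlg J]

/-- The image of the `n`-torsion points under a Hecke operator. -/
def imageTorsion (J : Type*) [AddCommGroup J] [Module HeckeAlg J] (t : HeckeAlg) (n : ℕ) :
    AddSubgroup J :=
  (torsionPts J n).map (DistribSMul.toAddMonoidHom J t)

theorem mem_imageTorsion {t : HeckeAlg} {n : ℕ} {x : J} :
    x ∈ imageTorsion J t n ↔ ∃ z : J, n • z = 0 ∧ t • z = x := Iff.rfl

theorem imageTorsion_le (t : HeckeAlg) (n : ℕ) : imageTorsion J t n ≤ torsionPts J n := by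
  rintro _ ⟨z, hz, rfl⟩
  show n • t • z = 0
  rw [smul_comm n t, mem_torsionPts.mp hz, smul_zero]

theorem smul_mem_imageTorsion (t : HeckeAlg) {n : ℕ} {x : J} (hx : x ∈ imageTorsion J t n)
    (g : G) : g • x ∈ imageTorsion J t n := by
  obtain ⟨z, hz, rfl⟩ := hx
  refine ⟨g • z, ?_, (smul_comm g t z).symm⟩
  show n • g • z = 0
  rw [smul_comm n g, mem_torsionPts.mp hz, smul_zero]

theorem hecke_smul_mem_imageTorsion (s t : HeckeAlg) {n : ℕ} {x : J}
    (hx : x ∈ imageTorsion J t n) : s • x ∈ imageTorsion J t n := by
  obtain ⟨z, hz, rfl⟩ := hx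
  refine ⟨s • z, ?_, smul_comm t s z⟩
  show n • s • z = 0
  rw [smul_comm n s, mem_torsionPts.mp hz, smul_zero]

instance instImageTorsionAction (t : HeckeAlg) (n : ℕ) :
    DistribMulAction G (imageTorsion J t n) where
  smul g x := ⟨g • (x : J), smul_mem_imageTorsion t x.2 g⟩
  one_smul x := Subtype.ext (one_smul G (x : J))
  mul_smul g h x := Subtype.ext (mul_smul g h (x : J))
  smul_zero g := Subtype.ext (smul_zero g)
  smul_add g x y := Subtype.ext (smul_add g (x : J) (y : J))

instance instImageTorsionHecke (t : HeckeAlg) (n : ℕ) : Module HeckeAlg (imageTorsion J t n) where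
  smul s x := ⟨s • (x : J), hecke_smul_mem_imageTorsion s t x.2⟩
  one_smul x := Subtype.ext (one_smul HeckeAlg (x : J))
  mul_smul s s' x := Subtype.ext (mul_smul s s' (x : J))
  smul_zero s := Subtype.ext (smul_zero s)
  smul_add s x y := Subtype.ext (smul_add s (x : J) (y : J))
  add_smul s s' x := Subtype.ext (add_smul s s' (x : J))
  zero_smul x := Subtype.ext (zero_smul HeckeAlg (x : J))

instance instImageTorsionSMulComm (t : HeckeAlg) (n : ℕ) :
    SMulCommClass G HeckeAlg (imageTorsion J t n) where
  smul_comm g s x := Subtype.ext (smul_comm g s (x : J))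

/-- The inclusion into the torsion points. -/
def imageToTorsion (t : HeckeAlg) (n : ℕ) : imageTorsion J t n →+ torsionPts J n :=
  AddSubgroup.inclusion (imageTorsion_le t n)

theorem imageToTorsion_injective (t : HeckeAlg) (n : ℕ) :
    Function.Injective (imageToTorsion (J := J) t n) :=
  AddSubgroup.inclusion_injective _

theorem imageToTorsion_smul (t : HeckeAlg) (n : ℕ) (g : G) (x : imageTorsion J t n) :
    imageToTorsion t n (g • x) = g • imageToTorsion t n x := rfl

/-- The points of an image of torsion killed by `red`. -/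
def redKer {J' : Type*} [AddCommGroup J'] (red : J →+ J') (t : HeckeAlg) (n : ℕ) :
    AddSubgroup (imageTorsion J t n) :=
  (red.comp (imageTorsion J t n).subtype).ker

theorem mem_redKer {J' : Type*} [AddCommGroup J'] {red : J →+ J'} {t : HeckeAlg} {n : ℕ}
    {x : imageTorsion J t n} : x ∈ redKer red t n ↔ red (x : J) = 0 := Iff.rfl

end Image

end FermatLib.Mazur
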